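import Mathlib.NumberTheory.ModularForms.LevelOne.GradedRing
import Mathlib.NumberTheory.ModularForms.Discriminant

/-!
P8 / AN1: the analytic `j`-function on the upper half plane and the two elliptic points.
Definitions only (shared by all AN1 / ANN files).
-/

set_option autoImplicit false

namespace Fermat.Agent.S24

open UpperHalfPlane ModularForm EisensteinSeries
open scoped MatrixGroups

/-- The analytic `j`-function `E₄³ / Δ` on the upper half plane (`= q⁻¹ + 744 + ⋯`). -/
noncomputable def Jfun : ℍ → ℂ := fun τ => E₄ τ ^ 3 / ModularForm.discriminant τ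

theorem Jfun_apply (τ : ℍ) : Jfun τ = E₄ τ ^ 3 / ModularForm.discriminant τ := rfl

/-- an elliptic point of order 2 (the point `i`) -/
noncomputable def ptI : ℍ := UpperHalfPlane.I

/-- an elliptic point of order 3 (the point `ρ = (-1 + √3 i)/2`, fixed by `S * T`) -/
noncomputable def ptRho : ℍ :=
  ⟨(-1 / 2 : ℂ) + (Real.sqrt 3 / 2 : ℝ) * Complex.I, by
    simp only [Complex.add_im, Complex.mul_im, Complex.ofReal_re, Complex.I_im, mul_one,
      Complex.ofReal_im, Complex.I_re, mul_zero, add_zero]
    have h : (-1 / 2 : ℂ).im = 0 := by norm_num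
    rw [h, zero_add]
    positivity⟩

theorem coe_ptI : (ptI : ℂ) = Complex.I := rfl

theorem coe_ptRho : (ptRho : ℂ) = (-1 / 2 : ℂ) + (Real.sqrt 3 / 2 : ℝ) * Complex.I := rfl

end Fermat.Agent.S24
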