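import Mathlib.NumberTheory.ModularForms.LevelOne.GradedRing
import Mathlib.NumberTheory.ModularForms.LevelOne.Basic
import Mathlib.Tactic
import Fermat.Agent.S24.JDefs

/-!
P8 / AN1: basic facts on the analytic `j`-function `Jfun = E₄³ / Δ`:
holomorphy, `SL(2, ℤ)`-invariance, the values at the elliptic points `i` and `ρ`,
and surjectivity.
-/

set_option autoImplicit false

namespace Fermat.Agent.S24

open UpperHalfPlane ModularForm EisensteinSeries MatrixGroups Filter Topology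
open ModularFormClass SlashInvariantFormClass
open scoped Manifold CongruenceSubgroup

local notation "𝕢" => Function.Periodic.qParam

/-! ### Holomorphy and invariance -/

theorem mdifferentiable_Jfun : MDiff Jfun := by
  have h : MDiff (fun τ : ℍ ↦ E₄ τ ^ 3 / ModularForm.discriminant τ) :=
    ((E₄.holo'.pow 3)).div CuspForm.discriminant.holo' discriminant_ne_zero
  exact h

theorem levelOne_smul_apply {k : ℤ} (f : ModularForm 𝒮ℒ k) (γ : SL(2, ℤ)) (τ : ℍ) :
    f (γ • τ) = denom γ τ ^ k * f τ := by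
  have : SlashInvariantFormClass (ModularForm 𝒮ℒ k) Γ(1) k :=
    CongruenceSubgroup.Gamma_one_coe_eq_SL ▸ (inferInstance : SlashInvariantFormClass (ModularForm 𝒮ℒ k) 𝒮ℒ k)
  exact SlashInvariantForm.slash_action_eqn_SL'' f (CongruenceSubgroup.mem_Gamma_one γ) τ

theorem discriminant_smul_apply (γ : SL(2, ℤ)) (τ : ℍ) :
    ModularForm.discriminant (γ • τ) = denom γ τ ^ (12 : ℤ) * ModularForm.discriminant τ :=
  levelOne_smul_apply (CuspForm.discriminant : ModularForm 𝒮ℒ 12) γ τ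

theorem Jfun_smul (γ : SL(2, ℤ)) (τ : ℍ) : Jfun (γ • τ) = Jfun τ := by
  have hd : denom γ τ ≠ 0 := denom_ne_zero γ τ
  have hΔ : ModularForm.discriminant τ ≠ 0 := discriminant_ne_zero τ
  rw [Jfun_apply, Jfun_apply, levelOne_smul_apply E₄ γ τ, discriminant_smul_apply γ τ]
  have h4 : (denom γ τ ^ (4 : ℤ)) ^ 3 = denom γ τ ^ (12 : ℤ) := by
    rw [← zpow_natCast, ← zpow_mul]; norm_num
  rw [mul_pow, h4]
  field_simp

/-! ### Values -/

theorem Jfun_sub_1728 (τ : ℍ) : Jfun τ - 1728 = E₆ τ ^ 2 / ModularForm.discriminant τ := by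
  have hΔ : ModularForm.discriminant τ ≠ 0 := discriminant_ne_zero τ
  have h := discriminant_eq_E₄_cube_sub_E₆_sq τ
  rw [Jfun_apply, div_sub' hΔ, div_left_inj' hΔ]
  rw [h]; ring

theorem Jfun_eq_zero_iff (τ : ℍ) : Jfun τ = 0 ↔ E₄ τ = 0 := by
  have hΔ : ModularForm.discriminant τ ≠ 0 := discriminant_ne_zero τ
  rw [Jfun_apply, div_eq_zero_iff]
  constructor
  · rintro (h | h)
    · exact pow_eq_zero_iff (by norm_num) |>.mp h
    · exact absurd h hΔ
  · intro h; left; rw [h]; ring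

theorem Jfun_eq_1728_iff (τ : ℍ) : Jfun τ = 1728 ↔ E₆ τ = 0 := by
  have hΔ : ModularForm.discriminant τ ≠ 0 := discriminant_ne_zero τ
  rw [← sub_eq_zero, Jfun_sub_1728, div_eq_zero_iff]
  constructor
  · rintro (h | h)
    · exact pow_eq_zero_iff (by norm_num) |>.mp h
    · exact absurd h hΔ
  · intro h; left; rw [h]; ring

theorem S_smul_ptI : ModularGroup.S • ptI = ptI := by
  rw [UpperHalfPlane.ext_iff, modular_S_smul, UpperHalfPlane.coe_mk, coe_ptI]
  rw [inv_neg, Complex.inv_I, neg_neg]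

theorem ptRho_sq_add : (ptRho : ℂ) ^ 2 + (ptRho : ℂ) + 1 = 0 := by
  have h3 : ((Real.sqrt 3 : ℝ) : ℂ) ^ 2 = 3 := by
    rw [← Complex.ofReal_pow, Real.sq_sqrt (by norm_num)]; norm_num
  rw [coe_ptRho]
  push_cast
  linear_combination (1 / 4 : ℂ) * Complex.I ^ 2 * h3 + (3 / 4 : ℂ) * Complex.I_sq

theorem ST_smul_ptRho : (ModularGroup.S * ModularGroup.T) • ptRho = ptRho := by
  have h := ptRho_sq_add
  rw [mul_smul, UpperHalfPlane.ext_iff, modular_S_smul, UpperHalfPlane.coe_mk, modular_T_smul,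
    coe_vadd]
  have hne : (ptRho : ℂ) ≠ 0 := ne_zero ptRho
  rw [inv_eq_iff_eq_inv]
  refine eq_inv_of_mul_eq_one_left ?_
  push_cast
  linear_combination -h

theorem E₆_ptI : E₆ ptI = 0 := by
  have h := levelOne_smul_apply E₆ ModularGroup.S ptI
  rw [S_smul_ptI, ModularGroup.denom_S, coe_ptI] at h
  have h6 : (Complex.I : ℂ) ^ (6 : ℤ) = -1 := by
    have : (Complex.I : ℂ) ^ (6 : ℕ) = -1 := by
      calc (Complex.I : ℂ) ^ 6 = (Complex.I ^ 2) ^ 3 := by ring
        _ = -1 := by rw [Complex.I_sq]; norm_num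
    exact_mod_cast this
  rw [h6] at h
  have h2 : (2 : ℂ) * E₆ ptI = 0 := by linear_combination h
  exact (mul_eq_zero.mp h2).resolve_left two_ne_zero

theorem E₄_ptRho : E₄ ptRho = 0 := by
  have hT := levelOne_smul_apply E₄ ModularGroup.T ptRho
  have hS := levelOne_smul_apply E₄ ModularGroup.S (ModularGroup.T • ptRho)
  rw [← mul_smul, ST_smul_ptRho] at hS
  rw [hT] at hS
  have hdT : denom ModularGroup.T ptRho = 1 := by
    simp [denom, ModularGroup.T]
  have hdS : denom ModularGroup.S ((ModularGroup.T • ptRho : ℍ) : ℂ) = (ptRho : ℂ) + 1 := by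
    rw [ModularGroup.denom_S, modular_T_smul, coe_vadd]; push_cast; ring
  rw [hdT, hdS, one_zpow, one_mul] at hS
  have h := ptRho_sq_add
  have h4 : ((ptRho : ℂ) + 1) ^ (4 : ℤ) = -(ptRho : ℂ) - 1 := by
    have : ((ptRho : ℂ) + 1) ^ (4 : ℕ) = -(ptRho : ℂ) - 1 := by
      linear_combination ((ptRho : ℂ) + 1) * ((ptRho : ℂ) + 2) * h
    exact_mod_cast this
  rw [h4] at hS
  have hne1 : (ptRho : ℂ) + 2 ≠ 0 := by
    intro h1
    have h1' : (ptRho : ℂ) = -2 := by linear_combination h1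
    rw [h1'] at h
    norm_num at h
  have h2 : ((ptRho : ℂ) + 2) * E₄ ptRho = 0 := by linear_combination hS
  exact (mul_eq_zero.mp h2).resolve_left hne1

theorem Jfun_ptI : Jfun ptI = 1728 := (Jfun_eq_1728_iff ptI).mpr E₆_ptI

theorem Jfun_ptRho : Jfun ptRho = 0 := (Jfun_eq_zero_iff ptRho).mpr E₄_ptRho

/-! ### Behaviour at `i∞` and surjectivity -/

/-- A level-one modular form tends to its zeroth `q`-coefficient at `i∞`. -/
theorem tendsto_atImInfty_levelOne {k : ℤ} (f : ModularForm 𝒮ℒ k) :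
    Tendsto f atImInfty (𝓝 ((qExpansion 1 f).coeff 0)) := by
  have han : AnalyticAt ℂ (cuspFunction 1 f) 0 :=
    ModularFormClass.analyticAt_cuspFunction_zero f one_pos one_mem_strictPeriods_SL
  have hcomp : (cuspFunction 1 f ∘ fun τ : ℍ ↦ 𝕢 1 τ : ℍ → ℂ) = f := by
    funext τ
    exact SlashInvariantFormClass.eq_cuspFunction f τ one_mem_strictPeriods_SL one_ne_zero
  have h0 : (qExpansion 1 f).coeff 0 = cuspFunction 1 f 0 := by
    simp [qExpansion_coeff]
  rw [h0]
  have := han.continuousAt.tendsto.comp (qParam_tendsto_atImInfty (h := 1) one_pos)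
  rwa [hcomp] at this

theorem tendsto_E₄_atImInfty : Tendsto E₄ atImInfty (𝓝 1) := by
  have := tendsto_atImInfty_levelOne E₄
  rwa [E_qExpansion_coeff_zero _ ⟨2, rfl⟩] at this

theorem tendsto_E₆_atImInfty : Tendsto E₆ atImInfty (𝓝 1) := by
  have := tendsto_atImInfty_levelOne E₆
  rwa [E_qExpansion_coeff_zero _ ⟨3, rfl⟩] at this

/-- A weight-12 level-one form with nonzero value at `i∞` has a zero on `ℍ`. -/
theorem exists_zero_of_weight_twelve (g : ModularForm 𝒮ℒ 12) {c : ℂ} (hc : c ≠ 0)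
    (hg : Tendsto g atImInfty (𝓝 c)) : ∃ z : ℍ, g z = 0 := by
  by_contra hcon
  push Not at hcon
  have hslash : ∀ γ : SL(2, ℤ), (fun z ↦ (1 : ℍ → ℂ) z / g z) ∣[(0 : ℤ) - 12] γ =
      fun z ↦ (1 : ℍ → ℂ) z / g z := by
    intro γ
    have hγ : (γ : GL (Fin 2) ℝ) ∈ 𝒮ℒ := ⟨γ, rfl⟩
    change ((1 : ℍ → ℂ) / ⇑g) ∣[(0 : ℤ) - 12] γ = (1 : ℍ → ℂ) / ⇑g
    rw [div_slash_SL2, SL_slash, SL_slash, SlashInvariantForm.slash_action_eqn g _ hγ]
    congr 1
    exact ModularForm.is_invariant_one _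
  let h : ModularForm 𝒮ℒ ((0 : ℤ) - 12) :=
    { toFun := fun z ↦ (1 : ℍ → ℂ) z / g z
      slash_action_eq' := fun _ ⟨γ, hγ⟩ ↦ hγ ▸ hslash γ
      holo' := (mdifferentiable_const (c := (1 : ℂ))).div g.holo' hcon
      bdd_at_cusps' := by
        intro c' hc'
        rw [Subgroup.IsArithmetic.isCusp_iff_isCusp_SL2Z] at hc'
        rw [OnePoint.isBoundedAt_iff_forall_SL2Z hc']
        intro γ _
        rw [hslash γ, IsBoundedAtImInfty, BoundedAtFilter]
        have : Tendsto (fun z ↦ (1 : ℍ → ℂ) z / g z) atImInfty (𝓝 (1 / c)) :=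
          (tendsto_const_nhds (x := (1 : ℂ))).div hg hc
        exact this.isBigO_one ℝ }
  have hz : (h : ℍ → ℂ) = 0 := levelOne_neg_weight_eq_zero (by norm_num) h
  have h1 : h UpperHalfPlane.I = 0 := by rw [hz]; rfl
  have h2 : h UpperHalfPlane.I = 1 / g UpperHalfPlane.I := rfl
  rw [h2] at h1
  exact one_ne_zero ((div_eq_zero_iff.mp h1).resolve_right (hcon _))

/-- The weight-12 form `E₄³ - a Δ`. -/
noncomputable def jAux (a : ℂ) : ModularForm 𝒮ℒ 12 :=
  ModularForm.mcast (by decide) (E₄.pow 3) - a • (CuspForm.discriminant : ModularForm 𝒮ℒ 12)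

theorem jAux_apply (a : ℂ) (z : ℍ) :
    jAux a z = E₄ z ^ 3 - a * ModularForm.discriminant z := by
  simp [jAux, coe_mcast, sub_apply]
  rfl

theorem tendsto_jAux (a : ℂ) : Tendsto (jAux a) atImInfty (𝓝 1) := by
  have h1 : Tendsto (fun z : ℍ ↦ E₄ z ^ 3 - a * ModularForm.discriminant z) atImInfty
      (𝓝 (1 ^ 3 - a * 0)) :=
    (tendsto_E₄_atImInfty.pow 3).sub (ModularForm.discriminant_isZeroAtImInfty.const_mul a)
  have h2 : (jAux a : ℍ → ℂ) = fun z : ℍ ↦ E₄ z ^ 3 - a * ModularForm.discriminant z :=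
    funext (jAux_apply a)
  rw [h2]
  simpa using h1

/-- Klein's `j`-function is surjective. -/
theorem Jfun_surjective : Function.Surjective Jfun := by
  intro a
  obtain ⟨z, hz⟩ := exists_zero_of_weight_twelve (jAux a) one_ne_zero (tendsto_jAux a)
  refine ⟨z, ?_⟩
  rw [jAux_apply] at hz
  rw [Jfun_apply, div_eq_iff (ModularForm.discriminant_ne_zero z)]
  linear_combination hz

end Fermat.Agent.S24
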