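import Mathlib.NumberTheory.ModularForms.LevelOne.GradedRing
import Mathlib.NumberTheory.ModularForms.LevelOne.Basic
import Mathlib.Tactic
import Fermat.Agent.S24.JBasic

/-!
P8 / AN1 (J5): a level-one modular form of weight `12 m` whose `q`-expansion has coefficients in
a subfield `k ⊆ ℂ` equals `P(j) · Δ^m` for a polynomial `P ∈ k[X]` of degree `≤ m`.
-/

set_option autoImplicit false

namespace Fermat.Agent.S24

open UpperHalfPlane ModularForm EisensteinSeries MatrixGroups Filter Topology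
open ModularFormClass SlashInvariantFormClass
open scoped Manifold

namespace JPoly

/-- All coefficients of the power series lie in the subfield `K`. -/
def CoeffsIn (K : Subfield ℂ) (p : PowerSeries ℂ) : Prop :=
  ∀ n : ℕ, PowerSeries.coeff n p ∈ K

variable {K : Subfield ℂ}

theorem CoeffsIn.one : CoeffsIn K 1 := by
  intro n
  rw [PowerSeries.coeff_one]
  split_ifs
  · exact one_mem K
  · exact zero_mem K

theorem CoeffsIn.add {p q : PowerSeries ℂ} (hp : CoeffsIn K p) (hq : CoeffsIn K q) :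
    CoeffsIn K (p + q) := fun n ↦ by
  rw [map_add]; exact add_mem (hp n) (hq n)

theorem CoeffsIn.sub {p q : PowerSeries ℂ} (hp : CoeffsIn K p) (hq : CoeffsIn K q) :
    CoeffsIn K (p - q) := fun n ↦ by
  rw [map_sub]; exact sub_mem (hp n) (hq n)

theorem CoeffsIn.smul {p : PowerSeries ℂ} {c : ℂ} (hc : c ∈ K) (hp : CoeffsIn K p) :
    CoeffsIn K (c • p) := fun n ↦ by
  rw [PowerSeries.coeff_smul]; exact mul_mem hc (hp n)

theorem CoeffsIn.mul {p q : PowerSeries ℂ} (hp : CoeffsIn K p) (hq : CoeffsIn K q) :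
    CoeffsIn K (p * q) := fun n ↦ by
  rw [PowerSeries.coeff_mul]
  exact sum_mem fun x _ ↦ mul_mem (hp _) (hq _)

theorem CoeffsIn.pow {p : PowerSeries ℂ} (hp : CoeffsIn K p) (n : ℕ) : CoeffsIn K (p ^ n) := by
  induction n with
  | zero => rw [pow_zero]; exact CoeffsIn.one
  | succ n ih => rw [pow_succ]; exact ih.mul hp

/-- Division by a power series `d = q + ⋯` preserves the coefficient field. -/
theorem CoeffsIn.of_mul {d r : PowerSeries ℂ} (hd0 : PowerSeries.coeff 0 d = 0)
    (hd1 : PowerSeries.coeff 1 d = 1) (hd : CoeffsIn K d) (hdr : CoeffsIn K (d * r)) :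
    CoeffsIn K r := by
  intro n
  induction n using Nat.strong_induction_on with
  | _ n ih =>
    have h1 := hdr (n + 1)
    rw [PowerSeries.coeff_mul] at h1
    have hmem : ((1, n) : ℕ × ℕ) ∈ Finset.antidiagonal (n + 1) := by
      rw [Finset.mem_antidiagonal]; omega
    rw [← Finset.add_sum_erase _ _ hmem] at h1
    have h2 : ∑ x ∈ (Finset.antidiagonal (n + 1)).erase (1, n),
        PowerSeries.coeff x.1 d * PowerSeries.coeff x.2 r ∈ K := by
      refine sum_mem fun x hx ↦ ?_
      rw [Finset.mem_erase, Finset.mem_antidiagonal] at hx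
      obtain ⟨hne, hsum⟩ := hx
      rcases Nat.eq_zero_or_pos x.1 with h0 | hpos
      · rw [h0, hd0, zero_mul]; exact zero_mem K
      · have hx2 : x.2 < n := by
          by_contra hcon
          have h1' : x.1 = 1 := by omega
          have h2' : x.2 = n := by omega
          exact hne (Prod.ext h1' h2')
        exact mul_mem (hd _) (ih _ hx2)
    have h3 := sub_mem h1 h2
    rw [add_sub_cancel_right, hd1, one_mul] at h3
    exact h3

theorem coeffsIn_E₄ : CoeffsIn K (qExpansion 1 E₄) := by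
  intro n
  rw [E_qExpansion_coeff _ ⟨2, rfl⟩]
  split_ifs
  · exact one_mem K
  · refine mul_mem (neg_mem (div_mem (mul_mem ?_ (natCast_mem K _)) ?_)) (natCast_mem K _)
    · exact ofNat_mem K 2
    · exact SubfieldClass.ratCast_mem K _

theorem coeffsIn_E₆ : CoeffsIn K (qExpansion 1 E₆) := by
  intro n
  rw [E_qExpansion_coeff _ ⟨3, rfl⟩]
  split_ifs
  · exact one_mem K
  · refine mul_mem (neg_mem (div_mem (mul_mem ?_ (natCast_mem K _)) ?_)) (natCast_mem K _)
    · exact ofNat_mem K 2
    · exact SubfieldClass.ratCast_mem K _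

/-- `E₄³ - E₆²` as a weight 12 form. -/
noncomputable def F12 : ModularForm 𝒮ℒ 12 :=
  ModularForm.mcast (by decide) (E₄.pow 3) - ModularForm.mcast (by decide) (E₆.pow 2)

theorem qExpansion_F12 :
    qExpansion 1 F12 = qExpansion 1 E₄ ^ 3 - qExpansion 1 E₆ ^ 2 := by
  simp only [F12, FunLike.coe_sub, coe_mcast,
    ModularForm.qExpansion_sub one_pos one_mem_strictPeriods_SL,
    ModularForm.qExpansion_pow one_pos one_mem_strictPeriods_SL]

theorem discriminant_eq_smul_F12 :
    (ModularForm.discriminant : ℍ → ℂ) = ⇑((1 / 1728 : ℂ) • F12) := by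
  funext z
  rw [discriminant_eq_E₄_cube_sub_E₆_sq z]
  have h4 : (E₄.pow 3) z = E₄ z ^ 3 := by rw [coe_pow]; rfl
  have h6 : (E₆.pow 2) z = E₆ z ^ 2 := by rw [coe_pow]; rfl
  simp [F12, coe_mcast, sub_apply, h4, h6]
  ring

theorem coeffsIn_discriminant : CoeffsIn K (qExpansion 1 ModularForm.discriminant) := by
  rw [discriminant_eq_smul_F12]
  have h := ModularForm.qExpansion_smul one_pos one_mem_strictPeriods_SL (1 / 1728 : ℂ) F12
  have h' : qExpansion 1 ⇑((1 / 1728 : ℂ) • F12) = (1 / 1728 : ℂ) • qExpansion 1 F12 := h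
  rw [h', qExpansion_F12]
  refine CoeffsIn.smul ?_ ((coeffsIn_E₄.pow 3).sub (coeffsIn_E₆.pow 2))
  exact div_mem (one_mem K) (ofNat_mem K 1728)

theorem coeff_zero_discriminant : PowerSeries.coeff 0 (qExpansion 1 ModularForm.discriminant) = 0 :=
  CuspFormClass.qExpansion_coeff_zero CuspForm.discriminant one_pos one_mem_strictPeriods_SL

theorem coeff_one_discriminant : PowerSeries.coeff 1 (qExpansion 1 ModularForm.discriminant) = 1 :=
  discriminant_qExpansion_coeff_one

/-- `E₄^(3n)` as a form of weight `w = 12 n`. -/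
noncomputable def E4pow (n : ℕ) (w : ℤ) (hw : w = 12 * (n : ℤ)) : ModularForm 𝒮ℒ w :=
  ModularForm.mcast (by rw [hw]; push_cast; ring) (E₄.pow (3 * n))

theorem E4pow_apply (n : ℕ) (w : ℤ) (hw : w = 12 * (n : ℤ)) (z : ℍ) :
    E4pow n w hw z = E₄ z ^ (3 * n) := by
  have h4 : (E₄.pow (3 * n)) z = E₄ z ^ (3 * n) := by rw [coe_pow]; rfl
  rw [← h4]; rfl

theorem qExpansion_E4pow (n : ℕ) (w : ℤ) (hw : w = 12 * (n : ℤ)) :
    qExpansion 1 (E4pow n w hw) = qExpansion 1 E₄ ^ (3 * n) := by
  simp only [E4pow, coe_mcast, ModularForm.qExpansion_pow one_pos one_mem_strictPeriods_SL]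

theorem exists_polynomial_aux (K : Subfield ℂ) :
    ∀ (m : ℕ) (w : ℤ) (_ : w = 12 * (m : ℤ)) (G : ModularForm 𝒮ℒ w),
      CoeffsIn K (qExpansion 1 G) →
      ∃ P : Polynomial K, P.natDegree ≤ m ∧
        ∀ τ : ℍ, G τ = (P.map K.subtype).eval (Jfun τ) * ModularForm.discriminant τ ^ m := by
  intro m
  induction m with
  | zero =>
    intro w hw G hG
    have hw0 : w = 0 := by simpa using hw
    subst hw0
    obtain ⟨c, hc⟩ := levelOne_weight_zero_const G
    have hlim := tendsto_atImInfty_levelOne G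
    have hlim' : Tendsto (fun _ : ℍ ↦ c) atImInfty (𝓝 ((qExpansion 1 G).coeff 0)) :=
      Filter.Tendsto.congr (fun τ ↦ congrFun hc τ) hlim
    have hc0 : c = (qExpansion 1 G).coeff 0 :=
      tendsto_nhds_unique (tendsto_const_nhds (x := c)) hlim'
    have hcK : c ∈ K := hc0 ▸ hG 0
    refine ⟨Polynomial.C ⟨c, hcK⟩, by simp, fun τ ↦ ?_⟩
    rw [hc]
    simp
  | succ m ih =>
    intro w hw G hG
    set c : ℂ := (qExpansion 1 G).coeff 0 with hcdef
    have hcK : c ∈ K := hG 0
    set G₁ : ModularForm 𝒮ℒ w := G - c • E4pow (m + 1) w hw with hG₁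
    have hq₁ : qExpansion 1 G₁ = qExpansion 1 G - c • qExpansion 1 E₄ ^ (3 * (m + 1)) := by
      rw [hG₁, FunLike.coe_sub, ModularForm.qExpansion_sub one_pos one_mem_strictPeriods_SL,
        FunLike.coe_smul, ModularForm.qExpansion_smul one_pos one_mem_strictPeriods_SL,
        qExpansion_E4pow]
    have hG₁K : CoeffsIn K (qExpansion 1 G₁) := by
      rw [hq₁]; exact hG.sub (CoeffsIn.smul hcK (coeffsIn_E₄.pow _))
    have h0 : (qExpansion 1 G₁).coeff 0 = 0 := by
      rw [hq₁, map_sub, PowerSeries.coeff_smul, ← hcdef]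
      have : (qExpansion 1 E₄ ^ (3 * (m + 1))).coeff 0 = 1 := by
        rw [PowerSeries.coeff_zero_eq_constantCoeff, map_pow,
          ← PowerSeries.coeff_zero_eq_constantCoeff, E_qExpansion_coeff_zero _ ⟨2, rfl⟩, one_pow]
      rw [this, smul_eq_mul, mul_one, sub_self]
    set G' : ModularForm 𝒮ℒ (w - 12) := CuspForm.discriminantEquiv (toCuspForm G₁ h0) with hG'
    have hfac := qExpansion_eq_qExpansion_discriminant_mul G₁ h0
    have hG'K : CoeffsIn K (qExpansion 1 G') :=
      CoeffsIn.of_mul coeff_zero_discriminant coeff_one_discriminant coeffsIn_discriminant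
        (hfac ▸ hG₁K)
    obtain ⟨P', hdeg, hP'⟩ := ih (w - 12) (by rw [hw]; push_cast; ring) G' hG'K
    refine ⟨P' + Polynomial.C ⟨c, hcK⟩ * Polynomial.X ^ (m + 1), ?_, fun τ ↦ ?_⟩
    · refine (Polynomial.natDegree_add_le _ _).trans (max_le (hdeg.trans (Nat.le_succ m)) ?_)
      exact Polynomial.natDegree_C_mul_X_pow_le _ _
    · have hΔ : ModularForm.discriminant τ ≠ 0 := discriminant_ne_zero τ
      have hG'τ : G' τ = G₁ τ / ModularForm.discriminant τ := rfl
      have hG₁τ : G₁ τ = G τ - c * E₄ τ ^ (3 * (m + 1)) := by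
        rw [hG₁]
        change G τ - c * E4pow (m + 1) w hw τ = _
        rw [E4pow_apply]
      have hJ : E₄ τ ^ 3 = Jfun τ * ModularForm.discriminant τ := by
        rw [Jfun_apply, div_mul_cancel₀ _ hΔ]
      have hE : E₄ τ ^ (3 * (m + 1)) = (Jfun τ * ModularForm.discriminant τ) ^ (m + 1) := by
        rw [pow_mul, hJ]
      have key := hP' τ
      rw [hG'τ, div_eq_iff hΔ, hG₁τ, hE] at key
      simp only [Polynomial.map_add, Polynomial.map_mul, Polynomial.map_C, Polynomial.map_pow,
        Polynomial.map_X, Polynomial.eval_add, Polynomial.eval_mul, Polynomial.eval_C,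
        Polynomial.eval_pow, Polynomial.eval_X, Subfield.coe_subtype]
      linear_combination key

end JPoly

/-- (J5) A level-one modular form of weight `12 m` with `q`-coefficients in a subfield `k` is
`P(j) Δ^m` for a polynomial `P ∈ k[X]` of degree at most `m`. -/
theorem exists_polynomial_Jfun (k : Subfield ℂ) (m : ℕ) (G : ModularForm 𝒮ℒ (12 * (m : ℤ)))
    (hG : ∀ n : ℕ, PowerSeries.coeff n (qExpansion 1 G) ∈ k) :
    ∃ P : Polynomial k, P.natDegree ≤ m ∧
      ∀ τ : ℍ, G τ = (P.map k.subtype).eval (Jfun τ) * ModularForm.discriminant τ ^ m :=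
  JPoly.exists_polynomial_aux k m (12 * (m : ℤ)) rfl G hG

end Fermat.Agent.S24
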