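import Mathlib.NumberTheory.ModularForms.Derivative
import Mathlib.NumberTheory.ModularForms.LevelOne.DimensionFormula
import Mathlib.NumberTheory.ModularForms.LevelOne.GradedRing
import Mathlib.NumberTheory.ModularForms.Discriminant
import Mathlib.NumberTheory.ModularForms.EisensteinSeries.E2.Summable
import Mathlib.NumberTheory.ModularForms.QExpansion

/-!
P8 / AN1: Ramanujan's differential identities for the level one Eisenstein series,
`D E₄ = (E₂ E₄ - E₆)/3`, `D E₆ = (E₂ E₆ - E₄²)/2`, `D Δ = E₂ Δ`, where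
`D = (2πi)⁻¹ d/dτ`.  Route: the Serre derivative of a level one modular form of weight `k`
is a level one modular form of weight `k + 2` (`serreDerivForm`), and the spaces of weight
`6`, `8` are one-dimensional while there are no cusp forms of weight `14`.

Everything lives in the namespace `Fermat.Agent.S24.Ramanujan`.
-/

set_option autoImplicit false

namespace Fermat.Agent.S24.Ramanujan

open UpperHalfPlane ModularForm EisensteinSeries Derivative Filter Function
open scoped Manifold MatrixGroups ModularForm Topology Real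

local notation "𝕢" => Periodic.qParam

/-- `D F z = q · φ'(q)` where `φ` is the cusp function of `F` and `q = e^{2πiz}`. -/
theorem normalizedDeriv_eq_qParam_mul {F : ℍ → ℂ} (hper : Periodic (F ∘ ofComplex) 1)
    (hhol : MDiff F) (hbdd : IsBoundedAtImInfty F) (z : ℍ) :
    D F z = 𝕢 1 z * deriv (cuspFunction 1 F) (𝕢 1 z) := by
  have hq : ‖𝕢 1 (z : ℂ)‖ < 1 := Periodic.norm_qParam_lt_one one_pos z.im_pos
  have hφ : HasDerivAt (cuspFunction 1 F) (deriv (cuspFunction 1 F) (𝕢 1 z)) (𝕢 1 z) :=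
    (differentiableAt_cuspFunction one_pos hper hhol hbdd hq).hasDerivAt
  have hqd : HasDerivAt (𝕢 1) (𝕢 1 (z : ℂ) * (2 * π * Complex.I)) (z : ℂ) := by
    have h1 : HasDerivAt (fun w : ℂ => 2 * π * Complex.I * w / (1 : ℝ)) (2 * π * Complex.I) (z : ℂ) := by
      have := ((hasDerivAt_id (z : ℂ)).const_mul (2 * π * Complex.I)).div_const ((1 : ℝ) : ℂ)
      simpa using this
    have h2 := h1.cexp
    have h3 : (fun w : ℂ => Complex.exp (2 * π * Complex.I * w / (1 : ℝ))) = 𝕢 1 := by
      funext w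
      simp [Periodic.qParam]
    rw [h3] at h2
    simpa [Periodic.qParam] using h2
  have hcomp := hφ.comp (z : ℂ) hqd
  have heq : (F ∘ ofComplex) =ᶠ[𝓝 (z : ℂ)] (cuspFunction 1 F ∘ 𝕢 1) := by
    filter_upwards [isOpen_upperHalfPlaneSet.mem_nhds z.im_pos] with w hw
    have := eq_cuspFunction (f := F) ⟨w, hw⟩ one_ne_zero hper
    simp only [Function.comp_apply, ofComplex_apply_of_im_pos hw]
    exact this.symm
  have hd : deriv (F ∘ ofComplex) (z : ℂ) =
      deriv (cuspFunction 1 F) (𝕢 1 z) * (𝕢 1 (z : ℂ) * (2 * π * Complex.I)) :=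
    (hcomp.congr_of_eventuallyEq heq).deriv
  have hpi : (2 * π * Complex.I : ℂ) ≠ 0 := Complex.two_pi_I_ne_zero
  rw [normalizedDerivOfComplex, hd]
  field_simp

/-- For a periodic holomorphic function bounded at `i∞`, `D F → 0` at `i∞`. -/
theorem tendsto_normalizedDeriv_atImInfty {F : ℍ → ℂ} (hper : Periodic (F ∘ ofComplex) 1)
    (hhol : MDiff F) (hbdd : IsBoundedAtImInfty F) :
    Tendsto (D F) atImInfty (𝓝 0) := by
  have han : AnalyticAt ℂ (cuspFunction 1 F) 0 :=
    analyticAt_cuspFunction_zero one_pos hper hhol hbdd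
  have hcont : ContinuousAt (deriv (cuspFunction 1 F)) 0 := han.deriv.continuousAt
  have hq : Tendsto (fun τ : ℍ => 𝕢 1 (τ : ℂ)) atImInfty (𝓝 0) := qParam_tendsto_atImInfty one_pos
  have h2 : Tendsto (fun τ : ℍ => 𝕢 1 (τ : ℂ) * deriv (cuspFunction 1 F) (𝕢 1 τ)) atImInfty
      (𝓝 (0 * deriv (cuspFunction 1 F) 0)) := hq.mul (hcont.tendsto.comp hq)
  rw [zero_mul] at h2
  refine h2.congr fun τ => ?_
  exact (normalizedDeriv_eq_qParam_mul hper hhol hbdd τ).symm

/-- A periodic holomorphic function bounded at `i∞` tends to the value of its cusp function. -/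
theorem tendsto_atImInfty_cuspFunction {F : ℍ → ℂ} (hper : Periodic (F ∘ ofComplex) 1)
    (hhol : MDiff F) (hbdd : IsBoundedAtImInfty F) :
    Tendsto F atImInfty (𝓝 ((qExpansion 1 F).coeff 0)) := by
  have han : AnalyticAt ℂ (cuspFunction 1 F) 0 :=
    analyticAt_cuspFunction_zero one_pos hper hhol hbdd
  have hq : Tendsto (fun τ : ℍ => 𝕢 1 (τ : ℂ)) atImInfty (𝓝 0) := qParam_tendsto_atImInfty one_pos
  have h2 := han.continuousAt.tendsto.comp hq
  have h0 : (qExpansion 1 F).coeff 0 = cuspFunction 1 F 0 := by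
    simp [qExpansion_coeff]
  rw [h0]
  refine h2.congr fun τ => ?_
  exact eq_cuspFunction τ one_ne_zero hper

/-- The value at `0` of the cusp function of a function given by a convergent `q`-series. -/
theorem cuspFunction_zero_of_hasSum {F : ℍ → ℂ} {c : ℕ → ℂ}
    (hper : Periodic (F ∘ ofComplex) 1) (hhol : MDiff F)
    (hF : ∀ τ : ℍ, HasSum (fun m : ℕ => c m • 𝕢 1 τ ^ m) (F τ)) :
    cuspFunction 1 F 0 = c 0 := by
  have hbdd : IsBoundedAtImInfty F := isBoundedAtImInfty_of_hasSum_qExpansion one_pos hF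
  have han : AnalyticAt ℂ (cuspFunction 1 F) 0 :=
    analyticAt_cuspFunction_zero one_pos hper hhol hbdd
  have h := (hasFPowerSeriesOnBall_cuspFunction one_pos han hF).coeff_zero (fun _ => 0)
  simpa using h.symm

theorem tendsto_atImInfty_of_hasSum {F : ℍ → ℂ} {c : ℕ → ℂ}
    (hper : Periodic (F ∘ ofComplex) 1) (hhol : MDiff F)
    (hF : ∀ τ : ℍ, HasSum (fun m : ℕ => c m • 𝕢 1 τ ^ m) (F τ)) :
    Tendsto F atImInfty (𝓝 (c 0)) := by
  have hbdd : IsBoundedAtImInfty F := isBoundedAtImInfty_of_hasSum_qExpansion one_pos hF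
  have h := tendsto_atImInfty_cuspFunction hper hhol hbdd
  have h0 : (qExpansion 1 F).coeff 0 = cuspFunction 1 F 0 := by
    simp [qExpansion_coeff]
  rw [h0, cuspFunction_zero_of_hasSum hper hhol hF] at h
  exact h

/-- `E₂` is `1`-periodic. -/
theorem E2_periodic : Periodic (E2 ∘ ofComplex) 1 := by
  intro w
  by_cases hw : 0 < w.im
  · have hw' : 0 < (w + 1).im := by simpa using hw
    simp only [Function.comp_apply, ofComplex_apply_of_im_pos hw, ofComplex_apply_of_im_pos hw']
    rw [E2_eq_tsum_cexp, E2_eq_tsum_cexp]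
    have : Complex.exp (2 * π * Complex.I * ((⟨w + 1, hw'⟩ : ℍ) : ℂ)) =
        Complex.exp (2 * π * Complex.I * ((⟨w, hw⟩ : ℍ) : ℂ)) := by
      show Complex.exp (2 * π * Complex.I * (w + 1)) = Complex.exp (2 * π * Complex.I * w)
      rw [mul_add, mul_one, Complex.exp_add, Complex.exp_two_pi_mul_I, mul_one]
    rw [this]
  · have hw' : ¬ 0 < (w + 1).im := by simpa using hw
    simp [Function.comp_apply, ofComplex_apply_of_im_nonpos (not_lt.mp hw),
      ofComplex_apply_of_im_nonpos (not_lt.mp hw')]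

theorem hasSum_E2 (τ : ℍ) :
    HasSum (fun m : ℕ => (if m = 0 then 1 else -24 * (ArithmeticFunction.sigma 1 m : ℂ)) •
      𝕢 1 τ ^ m) (E2 τ) := by
  have h := hasSum_qExpansion_E2 (z := τ)
  convert h using 3
  simp [Function.Periodic.qParam]

theorem tendsto_E2_atImInfty : Tendsto E2 atImInfty (𝓝 1) := by
  have h := tendsto_atImInfty_of_hasSum E2_periodic E2_mdifferentiable hasSum_E2
  simpa using h

theorem periodic_of_levelOne {k : ℤ} (F : ModularForm 𝒮ℒ k) : Periodic (F ∘ ofComplex) 1 :=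
  SlashInvariantFormClass.periodic_comp_ofComplex F one_mem_strictPeriods_SL

theorem bdd_of_levelOne {k : ℤ} (F : ModularForm 𝒮ℒ k) : IsBoundedAtImInfty F :=
  ModularFormClass.bdd_at_infty F

theorem tendsto_levelOne {k : ℤ} (F : ModularForm 𝒮ℒ k) :
    Tendsto F atImInfty (𝓝 ((qExpansion 1 F).coeff 0)) :=
  tendsto_atImInfty_cuspFunction (periodic_of_levelOne F) (ModularFormClass.holo F)
    (bdd_of_levelOne F)

/-- The Serre derivative of a level one modular form tends to `-(k/12) a₀(F)` at `i∞`. -/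
theorem tendsto_serreDerivative_levelOne {k : ℤ} (F : ModularForm 𝒮ℒ k) :
    Tendsto (serreDerivative k F) atImInfty
      (𝓝 (-((k : ℂ) * 12⁻¹ * (qExpansion 1 F).coeff 0))) := by
  have h1 := tendsto_normalizedDeriv_atImInfty (periodic_of_levelOne F) (ModularFormClass.holo F)
    (bdd_of_levelOne F)
  have h2 := (tendsto_E2_atImInfty.const_mul ((k : ℂ) * 12⁻¹)).mul (tendsto_levelOne F)
  have h3 := h1.sub h2
  simp only [mul_one, zero_sub] at h3
  refine h3.congr fun τ => ?_
  simp [serreDerivative_apply]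

/-- The Serre derivative of a level one modular form, as a modular form of weight `k + 2`. -/
noncomputable def serreDerivForm {k : ℤ} (F : ModularForm 𝒮ℒ k) : ModularForm 𝒮ℒ (k + 2) where
  toFun := serreDerivative k F
  slash_action_eq' A hA := by
    obtain ⟨A, rfl⟩ := hA
    have hF : (F : ℍ → ℂ) ∣[k] A = F :=
      SlashInvariantFormClass.slash_action_eq F (A : GL (Fin 2) ℝ) ⟨A, rfl⟩
    exact serreDerivative_slash_invariant (ModularFormClass.holo F) hF
  holo' := serreDerivative_mdifferentiable k (ModularFormClass.holo F)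
  bdd_at_cusps' hc := by
    rw [Subgroup.IsArithmetic.isCusp_iff_isCusp_SL2Z] at hc
    rw [OnePoint.isBoundedAt_iff_forall_SL2Z hc]
    intro γ _
    have hF : (F : ℍ → ℂ) ∣[k] γ = F :=
      SlashInvariantFormClass.slash_action_eq F (γ : GL (Fin 2) ℝ) ⟨γ, rfl⟩
    show IsBoundedAtImInfty ((serreDerivative (k : ℂ) (F : ℍ → ℂ)) ∣[k + 2] γ)
    rw [serreDerivative_slash_invariant (ModularFormClass.holo F) hF]
    exact (tendsto_serreDerivative_levelOne F).isBigO_one ℝ

@[simp]
theorem coe_serreDerivForm {k : ℤ} (F : ModularForm 𝒮ℒ k) :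
    ⇑(serreDerivForm F) = serreDerivative k F := rfl

theorem coeff_zero_serreDerivForm {k : ℤ} (F : ModularForm 𝒮ℒ k) :
    (qExpansion 1 (serreDerivForm F)).coeff 0 = -((k : ℂ) * 12⁻¹ * (qExpansion 1 F).coeff 0) :=
  tendsto_nhds_unique (tendsto_levelOne (serreDerivForm F)) (tendsto_serreDerivative_levelOne F)

/-- In a one-dimensional space of level one forms, every form is its constant term times the
form with constant term `1`. -/
theorem eq_coeff_zero_smul_of_rank_one {k : ℤ} (hk : Module.rank ℂ (ModularForm 𝒮ℒ k) = 1)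
    (G H : ModularForm 𝒮ℒ k) (hH : (qExpansion 1 H).coeff 0 = 1) :
    G = (qExpansion 1 G).coeff 0 • H := by
  have hH0 : H ≠ 0 := by
    rintro rfl
    have h0 : qExpansion 1 ((0 : ModularForm 𝒮ℒ k) : ℍ → ℂ) = 0 := by
      simpa using qExpansion_zero (1 : ℝ)
    rw [h0] at hH
    simp at hH
  have hfin : Module.finrank ℂ (ModularForm 𝒮ℒ k) = 1 := Module.finrank_eq_of_rank_eq hk
  obtain ⟨c, hc⟩ := (finrank_eq_one_iff_of_nonzero' H hH0).mp hfin G
  have h1 : (qExpansion 1 G).coeff 0 = c := by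
    rw [← hc]
    have := ModularForm.qExpansion_smul one_pos one_mem_strictPeriods_SL c H
    rw [show ((c • H : ModularForm 𝒮ℒ k) : ℍ → ℂ) = c • (H : ℍ → ℂ) from rfl, this]
    simp [hH]
  rw [h1, hc]

theorem coeff_zero_E₄ : (qExpansion 1 E₄).coeff 0 = 1 :=
  E_qExpansion_coeff_zero (by norm_num) ⟨2, rfl⟩

theorem coeff_zero_E₆ : (qExpansion 1 E₆).coeff 0 = 1 :=
  E_qExpansion_coeff_zero (by norm_num) ⟨3, rfl⟩

/-- Ramanujan's identity `∂₄ E₄ = -E₆/3`. -/
theorem serreDerivative_E₄ :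
    serreDerivative 4 (E₄ : ℍ → ℂ) = (-(1 / 3) : ℂ) • (E₆ : ℍ → ℂ) := by
  let G : ModularForm 𝒮ℒ 6 := ModularForm.mcast (by norm_num) (serreDerivForm E₄)
  have hG : G = (qExpansion 1 G).coeff 0 • E₆ :=
    eq_coeff_zero_smul_of_rank_one levelOne_weight_six_rank_one G E₆ coeff_zero_E₆
  have h0 : (qExpansion 1 G).coeff 0 = -(1 / 3) := by
    have := coeff_zero_serreDerivForm E₄
    rw [coeff_zero_E₄] at this
    show (qExpansion 1 (serreDerivForm E₄)).coeff 0 = _
    rw [this]
    norm_num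
  rw [h0] at hG
  have h3 : (serreDerivForm E₄ : ℍ → ℂ) = (-(1 / 3) : ℂ) • (E₆ : ℍ → ℂ) :=
    congrArg (fun f : ModularForm 𝒮ℒ 6 => (f : ℍ → ℂ)) hG
  rw [coe_serreDerivForm] at h3
  simpa only [Int.cast_ofNat] using h3

theorem rank_weight_eight : Module.rank ℂ (ModularForm 𝒮ℒ 8) = 1 := by
  have := dimension_level_one 8 (by decide)
  simpa [Nat.ModEq] using this

/-- Ramanujan's identity `∂₆ E₆ = -E₄²/2`. -/
theorem serreDerivative_E₆ :
    serreDerivative 6 (E₆ : ℍ → ℂ) = (-(1 / 2) : ℂ) • ((E₄ : ℍ → ℂ) ^ 2) := by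
  let G : ModularForm 𝒮ℒ 8 := ModularForm.mcast (by norm_num) (serreDerivForm E₆)
  let H : ModularForm 𝒮ℒ 8 := ModularForm.mcast (by norm_num) (E₄.mul E₄)
  have hHcoe : (H : ℍ → ℂ) = (E₄ : ℍ → ℂ) ^ 2 := by
    ext z
    simp only [H, coe_mcast, pow_two, Pi.mul_apply]
    rfl
  have hH0 : (qExpansion 1 H).coeff 0 = 1 := by
    rw [hHcoe, pow_two]
    have := UpperHalfPlane.qExpansion_mul
      (ModularFormClass.analyticAt_cuspFunction_zero E₄ one_pos one_mem_strictPeriods_SL)
      (ModularFormClass.analyticAt_cuspFunction_zero E₄ one_pos one_mem_strictPeriods_SL)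
    rw [this, PowerSeries.coeff_mul]
    simp [coeff_zero_E₄, -PowerSeries.coeff_zero_eq_constantCoeff]
  have hG : G = (qExpansion 1 G).coeff 0 • H :=
    eq_coeff_zero_smul_of_rank_one rank_weight_eight G H hH0
  have h0 : (qExpansion 1 G).coeff 0 = -(1 / 2) := by
    have := coeff_zero_serreDerivForm E₆
    rw [coeff_zero_E₆] at this
    show (qExpansion 1 (serreDerivForm E₆)).coeff 0 = _
    rw [this]
    norm_num
  rw [h0] at hG
  have h3 : (serreDerivForm E₆ : ℍ → ℂ) = (-(1 / 2) : ℂ) • (H : ℍ → ℂ) :=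
    congrArg (fun f : ModularForm 𝒮ℒ 8 => (f : ℍ → ℂ)) hG
  rw [coe_serreDerivForm, hHcoe] at h3
  simpa only [Int.cast_ofNat] using h3

/-- A level one cusp form of weight `14` vanishes. -/
theorem cuspForm_weight_fourteen_eq_zero (g : CuspForm 𝒮ℒ 14) : g = 0 := by
  have h2 : CuspForm.discriminantEquiv g = 0 :=
    rank_zero_iff_forall_zero.mp levelOne_weight_two_rank_zero (CuspForm.discriminantEquiv g)
  exact CuspForm.discriminantEquiv.map_eq_zero_iff.mp h2

/-- `∂₁₂ Δ = 0`, i.e. `D Δ = E₂ Δ`. -/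
theorem serreDerivative_discriminant :
    serreDerivative 12 ModularForm.discriminant = 0 := by
  let Δm : ModularForm 𝒮ℒ 12 := ModularFormClass.modularForm CuspForm.discriminant
  let G : ModularForm 𝒮ℒ 14 := ModularForm.mcast (by norm_num) (serreDerivForm Δm)
  have hΔ0 : (qExpansion 1 Δm).coeff 0 = 0 :=
    CuspFormClass.qExpansion_coeff_zero CuspForm.discriminant one_pos one_mem_strictPeriods_SL
  have h0 : (qExpansion 1 G).coeff 0 = 0 := by
    have := coeff_zero_serreDerivForm Δm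
    rw [hΔ0] at this
    show (qExpansion 1 (serreDerivForm Δm)).coeff 0 = _
    rw [this]
    simp
  have hg : ModularForm.toCuspForm G h0 = 0 := cuspForm_weight_fourteen_eq_zero _
  ext z
  have := DFunLike.congr_fun hg z
  rw [ModularForm.toCuspForm_apply] at this
  have h3 : (serreDerivForm Δm : ℍ → ℂ) z = 0 := this
  rw [coe_serreDerivForm] at h3
  have h4 : (Δm : ℍ → ℂ) = ModularForm.discriminant := rfl
  rw [h4] at h3
  simpa only [Int.cast_ofNat, Pi.zero_apply] using h3

/-- `D E₄ = (E₂ E₄ - E₆) / 3`. -/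
theorem D_E₄ (z : ℍ) : D (E₄ : ℍ → ℂ) z = (E2 z * E₄ z - E₆ z) / 3 := by
  have h := congrFun serreDerivative_E₄ z
  simp only [serreDerivative_apply, Pi.smul_apply, smul_eq_mul] at h
  linear_combination h

/-- `D E₆ = (E₂ E₆ - E₄²) / 2`. -/
theorem D_E₆ (z : ℍ) : D (E₆ : ℍ → ℂ) z = (E2 z * E₆ z - E₄ z ^ 2) / 2 := by
  have h := congrFun serreDerivative_E₆ z
  simp only [serreDerivative_apply, Pi.smul_apply, Pi.pow_apply, smul_eq_mul] at h
  linear_combination h

/-- `D Δ = E₂ Δ`. -/
theorem D_discriminant (z : ℍ) :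
    D ModularForm.discriminant z = E2 z * ModularForm.discriminant z := by
  have h := congrFun serreDerivative_discriminant z
  simp only [serreDerivative_apply, Pi.zero_apply] at h
  linear_combination h

end Fermat.Agent.S24.Ramanujan
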