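import Fermat.Agent.S24.JBasic
import Fermat.Agent.S24.Ramanujan

/-!
P8 / AN1 (J3 + J4): ramification of the analytic `j`-function.

* all zeros of `E₄` and of `E₆` are simple (`deriv_E₄_ne_zero`, `deriv_E₆_ne_zero`);
* `J' = -2πi E₄² E₆ / Δ` (`deriv_Jfun`), hence `J' ≠ 0` away from `J ∈ {0, 1728}`;
* `ord_τ (J - J τ) = 1` for `J τ ∉ {0, 1728}`, `ord (J - 1728) = 2` at every zero of `E₆`
  (in particular at `i`), `ord J = 3` at every zero of `E₄` (in particular at `ρ`).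
-/

set_option autoImplicit false

namespace Fermat.Agent.S24

open UpperHalfPlane ModularForm EisensteinSeries Derivative
open scoped MatrixGroups Manifold Topology Real

namespace JOrderAux

theorem analyticAt_comp_ofComplex {F : ℍ → ℂ} (hF : MDiff F) (τ : ℍ) :
    AnalyticAt ℂ (F ∘ ofComplex) (τ : ℂ) :=
  (UpperHalfPlane.mdifferentiable_iff.mp hF).analyticAt
    (isOpen_upperHalfPlaneSet.mem_nhds τ.im_pos)

theorem deriv_comp_ofComplex (F : ℍ → ℂ) (τ : ℍ) :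
    deriv (F ∘ ofComplex) (τ : ℂ) = 2 * π * Complex.I * D F τ := by
  have hpi : (2 * π * Complex.I : ℂ) ≠ 0 := Complex.two_pi_I_ne_zero
  rw [normalizedDerivOfComplex]
  field_simp

theorem hasDerivAt_comp_ofComplex {F : ℍ → ℂ} (hF : MDiff F) (τ : ℍ) :
    HasDerivAt (F ∘ ofComplex) (2 * π * Complex.I * D F τ) (τ : ℂ) := by
  rw [← deriv_comp_ofComplex]
  exact (analyticAt_comp_ofComplex hF τ).differentiableAt.hasDerivAt

theorem mdiff_discriminant : MDiff (ModularForm.discriminant : ℍ → ℂ) :=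
  ModularFormClass.holo CuspForm.discriminant

theorem E₆_ne_zero_of_E₄ (τ : ℍ) (h : E₄ τ = 0) : E₆ τ ≠ 0 := by
  intro h6
  have := ModularForm.discriminant_eq_E₄_cube_sub_E₆_sq τ
  rw [h, h6] at this
  exact ModularForm.discriminant_ne_zero τ (by rw [this]; norm_num)

theorem E₄_ne_zero_of_E₆ (τ : ℍ) (h : E₆ τ = 0) : E₄ τ ≠ 0 := fun h4 =>
  E₆_ne_zero_of_E₄ τ h4 h

theorem E₄_ne_zero_of_Jfun (τ : ℍ) (h0 : Jfun τ ≠ 0) : E₄ τ ≠ 0 := fun h =>
  h0 ((Jfun_eq_zero_iff τ).mpr h)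

theorem E₆_ne_zero_of_Jfun (τ : ℍ) (h1 : Jfun τ ≠ 1728) : E₆ τ ≠ 0 := fun h =>
  h1 ((Jfun_eq_1728_iff τ).mpr h)

theorem analyticAt_E₄ (τ : ℍ) : AnalyticAt ℂ (⇑E₄ ∘ ofComplex) (τ : ℂ) :=
  analyticAt_comp_ofComplex (ModularFormClass.holo E₄) τ

theorem analyticAt_E₆ (τ : ℍ) : AnalyticAt ℂ (⇑E₆ ∘ ofComplex) (τ : ℂ) :=
  analyticAt_comp_ofComplex (ModularFormClass.holo E₆) τ

theorem analyticAt_discriminant (τ : ℍ) :
    AnalyticAt ℂ (ModularForm.discriminant ∘ ofComplex) (τ : ℂ) :=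
  analyticAt_comp_ofComplex mdiff_discriminant τ

theorem analyticAt_discriminant_inv (τ : ℍ) :
    AnalyticAt ℂ (ModularForm.discriminant ∘ ofComplex)⁻¹ (τ : ℂ) :=
  (analyticAt_discriminant τ).inv (by
    simpa [Function.comp_apply, ofComplex_apply] using ModularForm.discriminant_ne_zero τ)

theorem analyticOrderAt_discriminant_inv (τ : ℍ) :
    analyticOrderAt (ModularForm.discriminant ∘ ofComplex)⁻¹ (τ : ℂ) = 0 :=
  (analyticAt_discriminant_inv τ).analyticOrderAt_eq_zero.mpr (by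
    simpa [Function.comp_apply, ofComplex_apply] using ModularForm.discriminant_ne_zero τ)

theorem analyticAt_Jfun (τ : ℍ) : AnalyticAt ℂ (Jfun ∘ ofComplex) (τ : ℂ) := by
  have hfun : ((⇑E₄ ∘ ofComplex) ^ 3 * (ModularForm.discriminant ∘ ofComplex)⁻¹) =
      Jfun ∘ ofComplex := by
    funext z
    simp [Jfun_apply, div_eq_mul_inv]
  rw [← hfun]
  exact ((analyticAt_E₄ τ).pow 3).mul (analyticAt_discriminant_inv τ)

end JOrderAux

open JOrderAux

/-- All zeros of `E₄` are simple. -/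
theorem deriv_E₄_ne_zero (τ : ℍ) (h : E₄ τ = 0) : deriv (⇑E₄ ∘ ofComplex) (τ : ℂ) ≠ 0 := by
  rw [deriv_comp_ofComplex, Ramanujan.D_E₄, h]
  have h6 := E₆_ne_zero_of_E₄ τ h
  have hpi : (2 * π * Complex.I : ℂ) ≠ 0 := Complex.two_pi_I_ne_zero
  simp only [mul_zero, zero_sub]
  exact mul_ne_zero hpi (div_ne_zero (neg_ne_zero.mpr h6) (by norm_num))

/-- All zeros of `E₆` are simple. -/
theorem deriv_E₆_ne_zero (τ : ℍ) (h : E₆ τ = 0) : deriv (⇑E₆ ∘ ofComplex) (τ : ℂ) ≠ 0 := by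
  rw [deriv_comp_ofComplex, Ramanujan.D_E₆, h]
  have h4 := E₄_ne_zero_of_E₆ τ h
  have hpi : (2 * π * Complex.I : ℂ) ≠ 0 := Complex.two_pi_I_ne_zero
  simp only [mul_zero, zero_sub]
  exact mul_ne_zero hpi (div_ne_zero (neg_ne_zero.mpr (pow_ne_zero 2 h4)) (by norm_num))

/-- The derivative of the `j`-function: `J' = -2πi E₄² E₆ / Δ`. -/
theorem deriv_Jfun (τ : ℍ) : deriv (Jfun ∘ ofComplex) (τ : ℂ) =
    -(2 * π * Complex.I) * E₄ τ ^ 2 * E₆ τ / ModularForm.discriminant τ := by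
  have hΔ := ModularForm.discriminant_ne_zero τ
  have h4 := hasDerivAt_comp_ofComplex (ModularFormClass.holo E₄) τ
  have hd := hasDerivAt_comp_ofComplex mdiff_discriminant τ
  have hΔ' : (ModularForm.discriminant ∘ ofComplex) (τ : ℂ) ≠ 0 := by
    simpa [Function.comp_apply, ofComplex_apply] using hΔ
  have hJ := (h4.pow 3).div hd hΔ'
  have hfun : ((⇑E₄ ∘ ofComplex) ^ 3 / (ModularForm.discriminant ∘ ofComplex)) =
      Jfun ∘ ofComplex := by
    funext z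
    simp [Jfun_apply]
  rw [hfun] at hJ
  rw [hJ.deriv, Ramanujan.D_E₄, Ramanujan.D_discriminant]
  simp only [Pi.pow_apply, Function.comp_apply, ofComplex_apply]
  field_simp
  ring

theorem deriv_Jfun_ne_zero (τ : ℍ) (h0 : Jfun τ ≠ 0) (h1 : Jfun τ ≠ 1728) :
    deriv (Jfun ∘ ofComplex) (τ : ℂ) ≠ 0 := by
  rw [deriv_Jfun]
  have hpi : (2 * π * Complex.I : ℂ) ≠ 0 := Complex.two_pi_I_ne_zero
  exact div_ne_zero (mul_ne_zero (mul_ne_zero (neg_ne_zero.mpr hpi)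
    (pow_ne_zero 2 (E₄_ne_zero_of_Jfun τ h0))) (E₆_ne_zero_of_Jfun τ h1))
    (ModularForm.discriminant_ne_zero τ)

/-- The `j`-function is unramified away from `J ∈ {0, 1728}`. -/
theorem analyticOrderAt_Jfun_sub_of_ne (τ : ℍ) (h0 : Jfun τ ≠ 0) (h1 : Jfun τ ≠ 1728) :
    analyticOrderAt (fun z : ℂ => Jfun (ofComplex z) - Jfun τ) (τ : ℂ) = 1 := by
  have h := (analyticAt_Jfun τ).analyticOrderAt_sub_eq_one_of_deriv_ne_zero
    (deriv_Jfun_ne_zero τ h0 h1)
  simpa only [Function.comp_apply, ofComplex_apply] using h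

/-- At every zero of `E₆`, the function `J - 1728` vanishes to order exactly `2`. -/
theorem analyticOrderAt_Jfun_sub_of_E₆ (τ : ℍ) (h : E₆ τ = 0) :
    analyticOrderAt (fun z : ℂ => Jfun (ofComplex z) - 1728) (τ : ℂ) = 2 := by
  have h6 := analyticAt_E₆ τ
  have hfun : (fun z : ℂ => Jfun (ofComplex z) - 1728) =
      (⇑E₆ ∘ ofComplex) ^ 2 * (ModularForm.discriminant ∘ ofComplex)⁻¹ := by
    funext z
    simp [Jfun_sub_1728, div_eq_mul_inv]
  have h1 : analyticOrderAt (⇑E₆ ∘ ofComplex) (τ : ℂ) = 1 :=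
    h6.analyticOrderAt_eq_one_of_zero_deriv_ne_zero
      (by simpa [Function.comp_apply, ofComplex_apply] using h) (deriv_E₆_ne_zero τ h)
  rw [hfun, analyticOrderAt_mul (h6.pow 2) (analyticAt_discriminant_inv τ),
    analyticOrderAt_pow h6, h1, analyticOrderAt_discriminant_inv]
  rfl

/-- At every zero of `E₄`, the function `J` vanishes to order exactly `3`. -/
theorem analyticOrderAt_Jfun_of_E₄ (τ : ℍ) (h : E₄ τ = 0) :
    analyticOrderAt (fun z : ℂ => Jfun (ofComplex z)) (τ : ℂ) = 3 := by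
  have h4 := analyticAt_E₄ τ
  have hfun : (fun z : ℂ => Jfun (ofComplex z)) =
      (⇑E₄ ∘ ofComplex) ^ 3 * (ModularForm.discriminant ∘ ofComplex)⁻¹ := by
    funext z
    simp [Jfun_apply, div_eq_mul_inv]
  have h1 : analyticOrderAt (⇑E₄ ∘ ofComplex) (τ : ℂ) = 1 :=
    h4.analyticOrderAt_eq_one_of_zero_deriv_ne_zero
      (by simpa [Function.comp_apply, ofComplex_apply] using h) (deriv_E₄_ne_zero τ h)
  rw [hfun, analyticOrderAt_mul (h4.pow 3) (analyticAt_discriminant_inv τ),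
    analyticOrderAt_pow h4, h1, analyticOrderAt_discriminant_inv]
  rfl

/-- `J - 1728` vanishes to order exactly `2` at the elliptic point `i`. -/
theorem analyticOrderAt_Jfun_sub_ptI :
    analyticOrderAt (fun z : ℂ => Jfun (ofComplex z) - 1728) (ptI : ℂ) = 2 :=
  analyticOrderAt_Jfun_sub_of_E₆ ptI E₆_ptI

/-- `J` vanishes to order exactly `3` at the elliptic point `ρ`. -/
theorem analyticOrderAt_Jfun_ptRho :
    analyticOrderAt (fun z : ℂ => Jfun (ofComplex z)) (ptRho : ℂ) = 3 :=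
  analyticOrderAt_Jfun_of_E₄ ptRho E₄_ptRho

end Fermat.Agent.S24
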