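import Fermat.Agent.S24.CombBasic

/-!
# P8-COMB, C4: the orbits of `T` on `SL(2,ℤ) ⧸ Γ₀(N)` (the cusps of `X₀(N)`)

For a coset `γ Γ₀(N)` with first column `(a, c)` put `d = gcd(c, N)`, `g = gcd(d, N / d)` and
`u = a * (c / d)⁻¹ ∈ (ℤ / g)ˣ`.  The pair `(d, u)` is a complete invariant of the `⟨T⟩`-orbit of
the coset, and every pair `(d, u)` with `d ∣ N` and `u ∈ (ℤ / g)ˣ` occurs.  Hence the number of
orbits is `∑_{d ∣ N} φ(gcd(d, N / d)) = cuspCount N`.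
-/

set_option autoImplicit false

namespace Fermat.Agent.S24

open scoped MatrixGroups

/-- The unit-class invariant of a primitive column `(a, c)`, with `d = gcd(c, N)` passed as an
explicit parameter: the class of `a * (c / d)⁻¹` modulo `gcd(d, N / d)`. -/
noncomputable def cuspU (N d : ℕ) (a c : ℤ) : ZMod (Nat.gcd d (N / d)) :=
  (a : ZMod (Nat.gcd d (N / d))) * ((c / (d : ℤ) : ℤ) : ZMod (Nat.gcd d (N / d)))⁻¹

/-- The cusp invariant of a primitive column `(a, c)` at level `N`. -/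
noncomputable def cuspInv (N : ℕ) (a c : ℤ) : (Σ _ : ℕ, ℕ) :=
  ⟨Int.gcd c N, (cuspU N (Int.gcd c N) a c).val⟩

theorem cusp_g_dvd_d (N d : ℕ) : ((Nat.gcd d (N / d) : ℕ) : ℤ) ∣ (d : ℤ) :=
  Int.natCast_dvd_natCast.2 (Nat.gcd_dvd_left _ _)

theorem cusp_g_dvd_Nd (N d : ℕ) : ((Nat.gcd d (N / d) : ℕ) : ℤ) ∣ ((N / d : ℕ) : ℤ) :=
  Int.natCast_dvd_natCast.2 (Nat.gcd_dvd_right _ _)

theorem cusp_d_dvd_c {N d : ℕ} {c : ℤ} (hd : Int.gcd c N = d) : (d : ℤ) ∣ c := by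
  rw [← hd]; exact Int.gcd_dvd_left _ _

theorem cusp_d_dvd_N {N d : ℕ} {c : ℤ} (hd : Int.gcd c N = d) : d ∣ N := by
  rw [← hd]; exact Int.natCast_dvd_natCast.1 (Int.gcd_dvd_right _ _)

theorem cusp_d_pos {N d : ℕ} (hN : 0 < N) {c : ℤ} (hd : Int.gcd c N = d) : 0 < d := by
  rw [← hd]
  exact Int.gcd_pos_of_ne_zero_right _ (by exact_mod_cast hN.ne')

/-- `c / d` is coprime to `N / d`. -/
theorem cusp_isCoprime_div {N d : ℕ} (hN : 0 < N) {c : ℤ} (hd : Int.gcd c N = d) :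
    IsCoprime (c / (d : ℤ)) ((N / d : ℕ) : ℤ) := by
  have hdpos := cusp_d_pos hN hd
  have h1 : Int.gcd (c / (d : ℤ)) ((N : ℤ) / (d : ℤ)) = 1 := by
    have := Int.gcd_div_gcd_div_gcd (i := c) (j := (N : ℤ)) (by rw [hd]; exact hdpos)
    rw [hd] at this
    exact this
  rw [Int.isCoprime_iff_gcd_eq_one]
  rw [Int.natCast_div]
  exact h1

theorem cusp_isUnit_e {N d : ℕ} (hN : 0 < N) {c : ℤ} (hd : Int.gcd c N = d) :
    IsUnit ((c / (d : ℤ) : ℤ) : ZMod (Nat.gcd d (N / d))) := by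
  rw [ZMod.coe_int_isUnit_iff_isCoprime]
  have h := cusp_isCoprime_div hN hd
  exact (h.of_isCoprime_of_dvd_right (cusp_g_dvd_Nd N d)).symm

theorem cusp_isUnit_a {N d : ℕ} {a c : ℤ} (hd : Int.gcd c N = d) (hac : IsCoprime a c) :
    IsUnit ((a : ℤ) : ZMod (Nat.gcd d (N / d))) := by
  rw [ZMod.coe_int_isUnit_iff_isCoprime]
  have hgc : ((Nat.gcd d (N / d) : ℕ) : ℤ) ∣ c := (cusp_g_dvd_d N d).trans (cusp_d_dvd_c hd)
  exact (hac.of_isCoprime_of_dvd_right hgc).symm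

theorem cuspU_mul {N d : ℕ} (hN : 0 < N) {a c : ℤ} (hd : Int.gcd c N = d) :
    cuspU N d a c * ((c / (d : ℤ) : ℤ) : ZMod (Nat.gcd d (N / d))) = (a : ZMod _) := by
  unfold cuspU
  rw [mul_assoc, ZMod.inv_mul_of_unit _ (cusp_isUnit_e hN hd), mul_one]

theorem eq_cuspU_of_mul {N d : ℕ} (hN : 0 < N) {a c : ℤ} (hd : Int.gcd c N = d)
    (x : ZMod (Nat.gcd d (N / d)))
    (hx : x * ((c / (d : ℤ) : ℤ) : ZMod (Nat.gcd d (N / d))) = (a : ZMod _)) :
    x = cuspU N d a c := by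
  have hu := cusp_isUnit_e hN hd
  have h2 := cuspU_mul (a := a) hN hd
  exact hu.mul_left_injective (hx.trans h2.symm)

theorem cusp_isUnit_cuspU {N d : ℕ} (hN : 0 < N) {a c : ℤ} (hd : Int.gcd c N = d)
    (hac : IsCoprime a c) : IsUnit (cuspU N d a c) := by
  have h2 := cuspU_mul (a := a) hN hd
  have ha := cusp_isUnit_a (N := N) hd hac
  rw [← h2] at ha
  exact isUnit_of_mul_isUnit_left ha

/-- Invariance under `a ↦ a + k * c`. -/
theorem cuspU_add_mul (N d : ℕ) {a c : ℤ} (k : ℤ) (hd : Int.gcd c N = d) :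
    cuspU N d (a + k * c) c = cuspU N d a c := by
  unfold cuspU
  have hgc : ((Nat.gcd d (N / d) : ℕ) : ℤ) ∣ c := (cusp_g_dvd_d N d).trans (cusp_d_dvd_c hd)
  have hc0 : ((c : ℤ) : ZMod (Nat.gcd d (N / d))) = 0 :=
    (ZMod.intCast_zmod_eq_zero_iff_dvd _ _).2 hgc
  rw [Int.cast_add, Int.cast_mul, hc0, mul_zero, add_zero]

theorem cuspInv_add_mul (N : ℕ) (a c k : ℤ) :
    cuspInv N (a + k * c) c = cuspInv N a c := by
  unfold cuspInv
  rw [cuspU_add_mul N _ k rfl]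

/-- Invariance under multiplication of the column by a unit modulo `N`. -/
theorem cusp_gcd_congr {N : ℕ} {c c' p : ℤ} (hp : IsCoprime p (N : ℤ))
    (hc : (N : ℤ) ∣ c' - c * p) : Int.gcd c' N = Int.gcd c N := by
  obtain ⟨t, ht⟩ := hc
  have hc' : c' = c * p + N * t := by linarith
  apply Nat.dvd_antisymm
  · -- gcd(c', N) ∣ c * p and coprime to p, so divides c
    apply Int.dvd_gcd
    · have h1 : ((Int.gcd c' N : ℕ) : ℤ) ∣ c * p := by
        have h2 : ((Int.gcd c' N : ℕ) : ℤ) ∣ c' := Int.gcd_dvd_left _ _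
        have h3 : ((Int.gcd c' N : ℕ) : ℤ) ∣ (N : ℤ) := Int.gcd_dvd_right _ _
        have : c * p = c' - N * t := by linarith
        rw [this]
        exact dvd_sub h2 (h3.mul_right t)
      have hcop : IsCoprime ((Int.gcd c' N : ℕ) : ℤ) p :=
        (hp.of_isCoprime_of_dvd_right (Int.gcd_dvd_right _ _)).symm
      exact hcop.dvd_of_dvd_mul_right h1
    · exact Int.gcd_dvd_right _ _
  · apply Int.dvd_gcd
    · rw [hc']
      exact dvd_add ((Int.gcd_dvd_left _ _).mul_right p) ((Int.gcd_dvd_right _ _).mul_right t)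
    · exact Int.gcd_dvd_right _ _

theorem cuspU_congr {N d : ℕ} (hN : 0 < N) {a c a' c' p : ℤ}
    (ha : (N : ℤ) ∣ a' - a * p) (hc : (N : ℤ) ∣ c' - c * p)
    (hd : Int.gcd c N = d) (hd' : Int.gcd c' N = d) :
    cuspU N d a' c' = cuspU N d a c := by
  symm
  apply eq_cuspU_of_mul hN hd'
  have hdN : d ∣ N := cusp_d_dvd_N hd
  have hdpos := cusp_d_pos hN hd
  have hgN : ((Nat.gcd d (N / d) : ℕ) : ℤ) ∣ (N : ℤ) :=
    (cusp_g_dvd_d N d).trans (Int.natCast_dvd_natCast.2 hdN)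
  -- a' = a * p in ZMod g
  have ha' : ((a' : ℤ) : ZMod (Nat.gcd d (N / d))) = (a : ZMod _) * (p : ZMod _) := by
    rw [← Int.cast_mul, eq_comm, ZMod.intCast_eq_intCast_iff_dvd_sub]
    exact hgN.trans ha
  -- c' / d = (c / d) * p in ZMod g
  have he' : ((c' / (d : ℤ) : ℤ) : ZMod (Nat.gcd d (N / d)))
      = ((c / (d : ℤ) : ℤ) : ZMod _) * (p : ZMod _) := by
    obtain ⟨t, ht⟩ := hc
    obtain ⟨e, he⟩ := cusp_d_dvd_c hd
    obtain ⟨m, hm⟩ := hdN
    have hd0 : (d : ℤ) ≠ 0 := by exact_mod_cast hdpos.ne'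
    have hNd : N / d = m := by rw [hm]; exact Nat.mul_div_cancel_left m hdpos
    have hc' : c' = (d : ℤ) * (e * p + m * t) := by
      have : c' = c * p + N * t := by linarith
      rw [this, he, hm]; push_cast; ring
    rw [hc', he, Int.mul_ediv_cancel_left _ hd0, Int.mul_ediv_cancel_left _ hd0]
    have hm0 : ((m : ℤ) : ZMod (Nat.gcd d (N / d))) = 0 := by
      rw [ZMod.intCast_zmod_eq_zero_iff_dvd]
      have := cusp_g_dvd_Nd N d
      rw [show ((N / d : ℕ) : ℤ) = (m : ℤ) by rw [hNd]] at this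
      exact this
    rw [Int.cast_add, Int.cast_mul, Int.cast_mul, hm0, zero_mul, add_zero]
  rw [ha', he', ← mul_assoc, cuspU_mul hN hd]

theorem cuspInv_congr {N : ℕ} (hN : 0 < N) {a c a' c' p : ℤ} (hp : IsCoprime p (N : ℤ))
    (ha : (N : ℤ) ∣ a' - a * p) (hc : (N : ℤ) ∣ c' - c * p) :
    cuspInv N a' c' = cuspInv N a c := by
  have hd := cusp_gcd_congr hp hc
  unfold cuspInv
  rw [hd, cuspU_congr hN ha hc rfl hd]

theorem cusp_inj_aux {N d : ℕ} (hN : 0 < N) {a₁ c₁ a₂ c₂ : ℤ}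
    (hd1 : Int.gcd c₁ N = d) (hd2 : Int.gcd c₂ N = d)
    (h : cuspU N d a₁ c₁ = cuspU N d a₂ c₂) :
    ∃ k : ℤ, (N : ℤ) ∣ a₂ * c₁ - a₁ * c₂ - k * c₁ * c₂ := by
  have hdpos := cusp_d_pos hN hd1
  have hd0 : (d : ℤ) ≠ 0 := by exact_mod_cast hdpos.ne'
  obtain ⟨e₁, he₁⟩ := cusp_d_dvd_c hd1
  obtain ⟨e₂, he₂⟩ := cusp_d_dvd_c hd2
  obtain ⟨M, hM⟩ := cusp_d_dvd_N hd1
  have hNd : N / d = M := by rw [hM]; exact Nat.mul_div_cancel_left M hdpos
  have hu1 := cuspU_mul (a := a₁) hN hd1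
  have hu2 := cuspU_mul (a := a₂) hN hd2
  have hcop1 := cusp_isCoprime_div hN hd1
  have hcop2 := cusp_isCoprime_div hN hd2
  have hdiv1 : c₁ / (d : ℤ) = e₁ := by rw [he₁, Int.mul_ediv_cancel_left _ hd0]
  have hdiv2 : c₂ / (d : ℤ) = e₂ := by rw [he₂, Int.mul_ediv_cancel_left _ hd0]
  rw [hdiv1] at hu1 hcop1
  rw [hdiv2] at hu2 hcop2
  -- congruence modulo g
  have hg : ((Nat.gcd d (N / d) : ℕ) : ℤ) ∣ a₂ * e₁ - a₁ * e₂ := by
    rw [← ZMod.intCast_zmod_eq_zero_iff_dvd]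
    push_cast
    rw [← hu1, ← hu2, h]
    ring
  obtain ⟨m, hm⟩ := hg
  -- Bezout for g
  have hbez : ((Nat.gcd d (N / d) : ℕ) : ℤ)
      = d * Nat.gcdA d (N / d) + (N / d : ℕ) * Nat.gcdB d (N / d) :=
    Nat.gcd_eq_gcd_ab d (N / d)
  -- inverse of e₁ e₂ modulo N / d
  obtain ⟨f, f', hf⟩ := (hcop1.mul_left hcop2 : IsCoprime (e₁ * e₂) ((N / d : ℕ) : ℤ))
  rw [hNd] at hbez hf hm
  refine ⟨m * Nat.gcdA d M * f, m * (Nat.gcdB d M + Nat.gcdA d M * d * f'), ?_⟩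
  rw [he₁, he₂, hM]
  push_cast
  linear_combination (d : ℤ) * hm + (d : ℤ) * m * hbez
    - (d : ℤ) ^ 2 * m * Nat.gcdA d M * hf

theorem cusp_inj {N : ℕ} (hN : 0 < N) {a₁ c₁ a₂ c₂ : ℤ}
    (h : cuspInv N a₁ c₁ = cuspInv N a₂ c₂) :
    ∃ k : ℤ, (N : ℤ) ∣ a₂ * c₁ - a₁ * c₂ - k * c₁ * c₂ := by
  unfold cuspInv at h
  have hd : Int.gcd c₁ N = Int.gcd c₂ N := congrArg Sigma.fst h
  rw [hd] at h
  have hval : (cuspU N (Int.gcd c₂ N) a₁ c₁).val = (cuspU N (Int.gcd c₂ N) a₂ c₂).val :=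
    eq_of_heq (Sigma.mk.inj_iff.1 h).2
  have hdpos := cusp_d_pos hN (c := c₂) rfl
  have : NeZero (Nat.gcd (Int.gcd c₂ N) (N / Int.gcd c₂ N)) :=
    ⟨(Nat.gcd_pos_of_pos_left _ hdpos).ne'⟩
  exact cusp_inj_aux hN hd rfl (ZMod.val_injective _ hval)

theorem cusp_surj {N : ℕ} (hN : 0 < N) {d n : ℕ} (hd : d ∣ N) (hn : n < Nat.gcd d (N / d))
    (hcop : (Nat.gcd d (N / d)).Coprime n) :
    ∃ a c : ℤ, IsCoprime a c ∧ cuspInv N a c = ⟨d, n⟩ := by
  have hdpos : 0 < d := Nat.pos_of_dvd_of_pos hd hN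
  have : NeZero d := ⟨hdpos.ne'⟩
  obtain ⟨v, hv⟩ := ZMod.unitsMap_surjective (Nat.gcd_dvd_left d (N / d))
    (ZMod.unitOfCoprime n hcop.symm)
  refine ⟨((v : ZMod d).val : ℤ), (d : ℤ), ?_, ?_⟩
  · exact Nat.isCoprime_iff_coprime.2 (ZMod.val_coe_unit_coprime v)
  · have hgcd : Int.gcd (d : ℤ) (N : ℤ) = d := by
      rw [Int.gcd_natCast_natCast]; exact Nat.gcd_eq_left hd
    unfold cuspInv
    rw [hgcd]
    have hd0 : (d : ℤ) ≠ 0 := by exact_mod_cast hdpos.ne'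
    have key : ((n : ℕ) : ZMod (Nat.gcd d (N / d))) = cuspU N d ((v : ZMod d).val : ℤ) (d : ℤ) := by
      apply eq_cuspU_of_mul hN hgcd
      rw [Int.ediv_self hd0, Int.cast_one, mul_one, Int.cast_natCast, ZMod.natCast_val]
      have h1 := congrArg (fun u : (ZMod (Nat.gcd d (N / d)))ˣ => (u : ZMod (Nat.gcd d (N / d)))) hv
      simp only [ZMod.unitsMap_def, Units.coe_map, MonoidHom.coe_coe, ZMod.castHom_apply,
        ZMod.coe_unitOfCoprime] at h1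
      exact h1.symm
    rw [← key, ZMod.val_natCast_of_lt hn]

theorem cusp_mem {N : ℕ} (hN : 0 < N) {a c : ℤ} (hac : IsCoprime a c) :
    cuspInv N a c ∈ N.divisors.sigma (fun d =>
      (Finset.range (Nat.gcd d (N / d))).filter (fun n => (Nat.gcd d (N / d)).Coprime n)) := by
  have hdpos := cusp_d_pos hN (c := c) rfl
  have : NeZero (Nat.gcd (Int.gcd c N) (N / Int.gcd c N)) :=
    ⟨(Nat.gcd_pos_of_pos_left _ hdpos).ne'⟩
  unfold cuspInv
  rw [Finset.mem_sigma]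
  refine ⟨?_, ?_⟩
  · rw [Nat.mem_divisors]
    exact ⟨cusp_d_dvd_N rfl, hN.ne'⟩
  · rw [Finset.mem_filter, Finset.mem_range]
    refine ⟨ZMod.val_lt _, ?_⟩
    have hu := cusp_isUnit_cuspU hN (a := a) (c := c) rfl hac
    rw [← ZMod.natCast_zmod_val (cuspU N (Int.gcd c N) a c), ZMod.isUnit_iff_coprime] at hu
    exact hu.symm


theorem cusp_mul_col (γ δ : SL(2, ℤ)) :
    (γ * δ) 0 0 = γ 0 0 * δ 0 0 + γ 0 1 * δ 1 0 ∧
      (γ * δ) 1 0 = γ 1 0 * δ 0 0 + γ 1 1 * δ 1 0 := by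
  constructor
  · simp [Matrix.mul_apply, Fin.sum_univ_two]
  · simp [Matrix.mul_apply, Fin.sum_univ_two]

theorem cusp_det (γ : SL(2, ℤ)) : γ 0 0 * γ 1 1 - γ 0 1 * γ 1 0 = 1 := by
  have := γ.det_coe
  rw [Matrix.det_fin_two] at this
  exact this

theorem cusp_mem_Gamma0_iff (N : ℕ) (δ : SL(2, ℤ)) :
    δ ∈ CongruenceSubgroup.Gamma0 N ↔ (N : ℤ) ∣ δ 1 0 := by
  rw [CongruenceSubgroup.Gamma0_mem, ZMod.intCast_zmod_eq_zero_iff_dvd]

/-- The cusp invariant of a matrix (through its first column). -/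
noncomputable def cuspInvG (N : ℕ) (γ : SL(2, ℤ)) : (Σ _ : ℕ, ℕ) := cuspInv N (γ 0 0) (γ 1 0)

theorem cuspInvG_T_zpow_mul (N : ℕ) (k : ℤ) (γ : SL(2, ℤ)) :
    cuspInvG N (ModularGroup.T ^ k * γ) = cuspInvG N γ := by
  unfold cuspInvG
  rw [T_zpow_mul_apply_zero_zero, T_zpow_mul_apply_one_zero, cuspInv_add_mul]

theorem cuspInvG_mul_Gamma0 {N : ℕ} (hN : 0 < N) (γ : SL(2, ℤ)) {δ : SL(2, ℤ)}
    (hδ : δ ∈ CongruenceSubgroup.Gamma0 N) : cuspInvG N (γ * δ) = cuspInvG N γ := by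
  unfold cuspInvG
  rw [cusp_mem_Gamma0_iff] at hδ
  obtain ⟨t, ht⟩ := hδ
  have hp : IsCoprime (δ 0 0) (N : ℤ) :=
    ⟨δ 1 1, -δ 0 1 * t, by linear_combination cusp_det δ + δ 0 1 * ht⟩
  apply cuspInv_congr hN hp
  · rw [(cusp_mul_col γ δ).1]
    exact ⟨γ 0 1 * t, by rw [ht]; ring⟩
  · rw [(cusp_mul_col γ δ).2]
    exact ⟨γ 1 1 * t, by rw [ht]; ring⟩

theorem cuspInvG_inj {N : ℕ} (hN : 0 < N) {γ₁ γ₂ : SL(2, ℤ)}
    (h : cuspInvG N γ₁ = cuspInvG N γ₂) :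
    ∃ k : ℤ, (ModularGroup.T ^ k * γ₁)⁻¹ * γ₂ ∈ CongruenceSubgroup.Gamma0 N := by
  obtain ⟨k, hk⟩ := cusp_inj hN h
  refine ⟨k, ?_⟩
  rw [cusp_mem_Gamma0_iff, inv_mul_apply_one_zero, T_zpow_mul_apply_zero_zero,
    T_zpow_mul_apply_one_zero]
  have : (γ₁ 0 0 + k * γ₁ 1 0) * γ₂ 1 0 - γ₂ 0 0 * γ₁ 1 0
      = -(γ₂ 0 0 * γ₁ 1 0 - γ₁ 0 0 * γ₂ 1 0 - k * γ₁ 1 0 * γ₂ 1 0) := by ring
  rw [this]
  exact (dvd_neg).2 hk


/-- The finite set of cusp invariants at level `N`. -/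
def cuspTarget (N : ℕ) : Finset (Σ _ : ℕ, ℕ) :=
  N.divisors.sigma (fun d =>
    (Finset.range (Nat.gcd d (N / d))).filter (fun n => (Nat.gcd d (N / d)).Coprime n))

theorem card_cuspTarget (N : ℕ) : (cuspTarget N).card = ModularCurve.cuspCount N := by
  unfold cuspTarget ModularCurve.cuspCount
  rw [Finset.card_sigma]
  apply Finset.sum_congr rfl
  intro d _
  rw [Nat.totient_eq_card_coprime]

/-- The cusp invariant on the coset space. -/
noncomputable def cuspInvX (N : ℕ) [NeZero N] : XX N → (Σ _ : ℕ, ℕ) :=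
  Quotient.lift (fun γ : SL(2, ℤ) => cuspInvG N γ) (by
    intro γ₁ γ₂ h
    have h' : γ₁⁻¹ * γ₂ ∈ CongruenceSubgroup.Gamma0 N := QuotientGroup.leftRel_apply.1 h
    have := cuspInvG_mul_Gamma0 (NeZero.pos N) γ₁ h'
    rw [mul_inv_cancel_left] at this
    exact this.symm)

theorem cuspInvX_mk (N : ℕ) [NeZero N] (γ : SL(2, ℤ)) :
    cuspInvX N (γ : XX N) = cuspInvG N γ := rfl

theorem cuspInvX_smul (N : ℕ) [NeZero N] (k : ℤ) (x : XX N) :
    cuspInvX N ((ModularGroup.T ^ k) • x) = cuspInvX N x := by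
  induction x using QuotientGroup.induction_on with
  | H γ =>
    rw [MulAction.Quotient.smul_mk, smul_eq_mul, cuspInvX_mk, cuspInvX_mk, cuspInvG_T_zpow_mul]

theorem cuspInvX_inj (N : ℕ) [NeZero N] {x y : XX N} (h : cuspInvX N x = cuspInvX N y) :
    ∃ k : ℤ, (ModularGroup.T ^ k) • x = y := by
  induction x using QuotientGroup.induction_on with
  | H γ₁ =>
    induction y using QuotientGroup.induction_on with
    | H γ₂ =>
      rw [cuspInvX_mk, cuspInvX_mk] at h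
      obtain ⟨k, hk⟩ := cuspInvG_inj (NeZero.pos N) h
      refine ⟨k, ?_⟩
      rw [MulAction.Quotient.smul_mk, smul_eq_mul]
      exact QuotientGroup.eq.2 hk

theorem cuspInvX_mem (N : ℕ) [NeZero N] (x : XX N) : cuspInvX N x ∈ cuspTarget N := by
  induction x using QuotientGroup.induction_on with
  | H γ =>
    rw [cuspInvX_mk]
    exact cusp_mem (NeZero.pos N) (isCoprime_col γ)

theorem cuspInvX_surj (N : ℕ) [NeZero N] {s : Σ _ : ℕ, ℕ} (hs : s ∈ cuspTarget N) :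
    ∃ x : XX N, cuspInvX N x = s := by
  obtain ⟨d, n⟩ := s
  unfold cuspTarget at hs
  rw [Finset.mem_sigma, Finset.mem_filter, Finset.mem_range] at hs
  obtain ⟨hd, hn, hcop⟩ := hs
  obtain ⟨a, c, hac, hinv⟩ := cusp_surj (NeZero.pos N) (Nat.dvd_of_mem_divisors hd) hn hcop
  obtain ⟨γ, ha, hc⟩ := exists_col hac
  refine ⟨(γ : XX N), ?_⟩
  rw [cuspInvX_mk]
  unfold cuspInvG
  rw [ha, hc, hinv]

/-- General form: any equivalence relation on `XX N` whose classes are the `⟨T⟩`-orbits has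
`cuspCount N` classes. -/
theorem cusp_card_quotient (N : ℕ) [NeZero N] (r : Setoid (XX N))
    (hr : ∀ x y : XX N, r x y ↔ ∃ k : ℤ, (ModularGroup.T ^ k) • x = y) :
    Nat.card (Quotient r) = ModularCurve.cuspCount N := by
  let f : Quotient r → cuspTarget N :=
    Quotient.lift (fun x : XX N => (⟨cuspInvX N x, cuspInvX_mem N x⟩ : cuspTarget N)) (by
      intro x y hxy
      obtain ⟨k, rfl⟩ := (hr x y).1 hxy
      exact Subtype.ext (cuspInvX_smul N k x).symm)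
  have hf : Function.Bijective f := by
    constructor
    · intro q₁ q₂
      induction q₁ using Quotient.inductionOn with
      | h x =>
        induction q₂ using Quotient.inductionOn with
        | h y =>
          intro h
          have h' : cuspInvX N x = cuspInvX N y := congrArg Subtype.val h
          exact Quotient.sound ((hr x y).2 (cuspInvX_inj N h'))
    · rintro ⟨s, hs⟩
      obtain ⟨x, hx⟩ := cuspInvX_surj N hs
      exact ⟨Quotient.mk r x, Subtype.ext hx⟩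
  rw [Nat.card_congr (Equiv.ofBijective f hf), Nat.card_eq_fintype_card, Fintype.card_coe,
    card_cuspTarget]

/-- **C4**: the number of `⟨T⟩`-orbits on `SL(2, ℤ) ⧸ Γ₀(N)` is `cuspCount N`. -/
theorem card_orbits_T (N : ℕ) [NeZero N] :
    Nat.card (MulAction.orbitRel.Quotient (Subgroup.zpowers ModularGroup.T)
      (SL(2, ℤ) ⧸ CongruenceSubgroup.Gamma0 N)) = ModularCurve.cuspCount N := by
  apply cusp_card_quotient N
  intro x y
  rw [MulAction.orbitRel_apply, MulAction.mem_orbit_iff]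
  constructor
  · rintro ⟨⟨t, ht⟩, hty⟩
    obtain ⟨k, rfl⟩ := Subgroup.mem_zpowers_iff.1 ht
    refine ⟨-k, ?_⟩
    rw [← hty]
    change (ModularGroup.T ^ (-k)) • ((ModularGroup.T ^ k) • y) = y
    rw [smul_smul, ← zpow_add, neg_add_cancel, zpow_zero, one_smul]
  · rintro ⟨k, rfl⟩
    refine ⟨⟨ModularGroup.T ^ (-k), Subgroup.zpow_mem_zpowers _ _⟩, ?_⟩
    change (ModularGroup.T ^ (-k)) • ((ModularGroup.T ^ k) • x) = x
    rw [smul_smul, ← zpow_add, neg_add_cancel, zpow_zero, one_smul]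

/-- **C4**, in the form used by the interface: the permutation of `XX N` induced by `T` has
`cuspCount N` orbits. -/
theorem orbitCount_T_aux (N : ℕ) [NeZero N] :
    orbitCount (MulAction.toPerm ModularGroup.T : Equiv.Perm (XX N)) = ModularCurve.cuspCount N := by
  unfold orbitCount
  apply cusp_card_quotient N
  intro x y
  exact sameCycle_toPerm_iff ModularGroup.T x y

end Fermat.Agent.S24
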