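import Fermat.Agent.S24.CombBasic

/-!
# P8-COMB: fixed points of `S` and `S * T` on `SL(2,ℤ) ⧸ Γ₀(N)`

The fixed points of `S` correspond to the roots of `x² + 1` in `ZMod N`, those of `S * T` to the
roots of `x² + x + 1`.
-/

set_option autoImplicit false

open CongruenceSubgroup MatrixGroups Matrix Matrix.SpecialLinearGroup ModularGroup

namespace Fermat.Agent.S24

/-- The element of `SL(2,ℤ)` with first column `(a, 1)`. -/
def fixedRep (a : ℤ) : SL(2, ℤ) := ⟨!![a, -1; 1, 0], by simp [Matrix.det_fin_two_of]⟩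

@[simp] theorem fixedRep_apply_zero_zero (a : ℤ) : fixedRep a 0 0 = a := rfl

@[simp] theorem fixedRep_apply_one_zero (a : ℤ) : fixedRep a 1 0 = 1 := rfl

variable (N : ℕ) [NeZero N]

theorem fixedRep_mk_injective {u v : ZMod N}
    (h : ((fixedRep (u.val : ℤ) : SL(2, ℤ)) : XX N) = (fixedRep (v.val : ℤ) : XX N)) : u = v := by
  rw [mk_eq_mk_iff] at h
  simp only [fixedRep_apply_zero_zero, fixedRep_apply_one_zero, mul_one] at h
  have h2 := (ZMod.intCast_zmod_eq_zero_iff_dvd _ N).mpr h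
  push_cast at h2
  rw [ZMod.natCast_zmod_val, ZMod.natCast_zmod_val] at h2
  exact sub_eq_zero.mp h2

omit [NeZero N] in
/-- If `N ∣ q` and `q ≡ a ^ 2` modulo `c`, with `a, c` coprime, then `c` is invertible
modulo `N`. -/
theorem exists_inv_of_dvd {a c q r : ℤ} (hac : IsCoprime a c) (hq : q = a ^ 2 + c * r)
    (hN : (N : ℤ) ∣ q) : ∃ s : ZMod N, s * (c : ZMod N) = 1 := by
  have h1 : IsCoprime c (a ^ 2) := (hac.pow_left (m := 2)).symm
  have h2 : IsCoprime c q := by
    rw [hq]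
    exact h1.add_mul_left_right r
  have h3 : IsCoprime c (N : ℤ) := h2.of_isCoprime_of_dvd_right hN
  obtain ⟨s, t, hst⟩ := h3
  refine ⟨(s : ZMod N), ?_⟩
  have := congrArg (Int.cast : ℤ → ZMod N) hst
  push_cast at this
  simpa using this

/-- The fixed points of `S` on `SL(2,ℤ) ⧸ Γ₀(N)` correspond to the square roots of `-1` mod `N`. -/
theorem card_fixed_S : Nat.card {x : XX N // S • x = x} = ModularCurve.nuTwo N := by
  unfold ModularCurve.nuTwo
  symm
  refine Nat.card_eq_of_bijective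
    (fun u : {x : ZMod N // x ^ 2 + 1 = 0} =>
      (⟨((fixedRep (u.1.val : ℤ) : SL(2, ℤ)) : XX N), ?_⟩ : {x : XX N // S • x = x})) ⟨?_, ?_⟩
  · rw [S_smul_mk_eq_iff, ← ZMod.intCast_zmod_eq_zero_iff_dvd]
    simp only [fixedRep_apply_zero_zero, fixedRep_apply_one_zero]
    push_cast
    rw [ZMod.natCast_zmod_val]
    simpa using u.2
  · intro u v h
    exact Subtype.ext (fixedRep_mk_injective N (congrArg Subtype.val h))
  · rintro ⟨x, hx⟩
    induction x using QuotientGroup.induction_on with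
    | H g =>
      have hfix := (S_smul_mk_eq_iff N g).mp hx
      obtain ⟨s, hs⟩ := exists_inv_of_dvd N (isCoprime_col g)
        (show g 0 0 ^ 2 + g 1 0 ^ 2 = g 0 0 ^ 2 + g 1 0 * g 1 0 by ring) hfix
      have hz : ((g 0 0 : ℤ) : ZMod N) ^ 2 + ((g 1 0 : ℤ) : ZMod N) ^ 2 = 0 := by
        have := (ZMod.intCast_zmod_eq_zero_iff_dvd _ N).mpr hfix
        push_cast at this
        exact this
      refine ⟨⟨((g 0 0 : ℤ) : ZMod N) * s, ?_⟩, ?_⟩
      · have : (((g 0 0 : ℤ) : ZMod N) * s) ^ 2 + 1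
            = s ^ 2 * (((g 0 0 : ℤ) : ZMod N) ^ 2 + ((g 1 0 : ℤ) : ZMod N) ^ 2)
              + (1 - (s * ((g 1 0 : ℤ) : ZMod N)) ^ 2) := by ring
        rw [this, hz, hs]
        ring
      · apply Subtype.ext
        show ((fixedRep _ : SL(2, ℤ)) : XX N) = (g : XX N)
        rw [mk_eq_mk_iff, ← ZMod.intCast_zmod_eq_zero_iff_dvd]
        simp only [fixedRep_apply_zero_zero, fixedRep_apply_one_zero]
        push_cast
        rw [ZMod.natCast_zmod_val]
        have : ((g 0 0 : ℤ) : ZMod N) * s * ((g 1 0 : ℤ) : ZMod N) - ((g 0 0 : ℤ) : ZMod N) * 1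
            = ((g 0 0 : ℤ) : ZMod N) * (s * ((g 1 0 : ℤ) : ZMod N) - 1) := by ring
        rw [this, hs]
        ring

/-- The fixed points of `S * T` on `SL(2,ℤ) ⧸ Γ₀(N)` correspond to the roots of `x² + x + 1`
mod `N`. -/
theorem card_fixed_ST : Nat.card {x : XX N // (S * T) • x = x} = ModularCurve.nuThree N := by
  unfold ModularCurve.nuThree
  symm
  refine Nat.card_eq_of_bijective
    (fun u : {x : ZMod N // x ^ 2 + x + 1 = 0} =>
      (⟨((fixedRep (u.1.val : ℤ) : SL(2, ℤ)) : XX N), ?_⟩ : {x : XX N // (S * T) • x = x}))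
    ⟨?_, ?_⟩
  · rw [ST_smul_mk_eq_iff, ← ZMod.intCast_zmod_eq_zero_iff_dvd]
    simp only [fixedRep_apply_zero_zero, fixedRep_apply_one_zero]
    push_cast
    rw [ZMod.natCast_zmod_val]
    simpa using u.2
  · intro u v h
    exact Subtype.ext (fixedRep_mk_injective N (congrArg Subtype.val h))
  · rintro ⟨x, hx⟩
    induction x using QuotientGroup.induction_on with
    | H g =>
      have hfix := (ST_smul_mk_eq_iff N g).mp hx
      obtain ⟨s, hs⟩ := exists_inv_of_dvd N (isCoprime_col g)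
        (show g 0 0 ^ 2 + g 0 0 * g 1 0 + g 1 0 ^ 2 = g 0 0 ^ 2 + g 1 0 * (g 0 0 + g 1 0) by ring)
        hfix
      have hz : ((g 0 0 : ℤ) : ZMod N) ^ 2 + ((g 0 0 : ℤ) : ZMod N) * ((g 1 0 : ℤ) : ZMod N)
          + ((g 1 0 : ℤ) : ZMod N) ^ 2 = 0 := by
        have := (ZMod.intCast_zmod_eq_zero_iff_dvd _ N).mpr hfix
        push_cast at this
        exact this
      refine ⟨⟨((g 0 0 : ℤ) : ZMod N) * s, ?_⟩, ?_⟩
      · have : (((g 0 0 : ℤ) : ZMod N) * s) ^ 2 + ((g 0 0 : ℤ) : ZMod N) * s + 1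
            = s ^ 2 * (((g 0 0 : ℤ) : ZMod N) ^ 2
                + ((g 0 0 : ℤ) : ZMod N) * ((g 1 0 : ℤ) : ZMod N) + ((g 1 0 : ℤ) : ZMod N) ^ 2)
              + (1 - s * ((g 1 0 : ℤ) : ZMod N))
                * (((g 0 0 : ℤ) : ZMod N) * s + 1 + s * ((g 1 0 : ℤ) : ZMod N)) := by ring
        rw [this, hz, hs]
        ring
      · apply Subtype.ext
        show ((fixedRep _ : SL(2, ℤ)) : XX N) = (g : XX N)
        rw [mk_eq_mk_iff, ← ZMod.intCast_zmod_eq_zero_iff_dvd]
        simp only [fixedRep_apply_zero_zero, fixedRep_apply_one_zero]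
        push_cast
        rw [ZMod.natCast_zmod_val]
        have : ((g 0 0 : ℤ) : ZMod N) * s * ((g 1 0 : ℤ) : ZMod N) - ((g 0 0 : ℤ) : ZMod N) * 1
            = ((g 0 0 : ℤ) : ZMod N) * (s * ((g 1 0 : ℤ) : ZMod N) - 1) := by ring
        rw [this, hs]
        ring

end Fermat.Agent.S24
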