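import Fermat.Agent.S24.CombBasic

/-!
# P8-COMB C1: the index of `Γ₀(N)` in `SL(2, ℤ)` is the Dedekind `ψ` function

Induction on `N` by peeling off a prime `p`: `Γ₀(Mp) ≤ Γ₀(M)` has relative index `p` if `p ∣ M`
(representatives `[[1, 0], [Mt, 1]]`, `t` mod `p`) and `p + 1` if `p ∤ M` (one more representative
`[[p, *], [M, *]]`), matching the recursion for `ψ` read off from the squarefree-divisor sum.
-/

set_option autoImplicit false

namespace Fermat.Agent.S24

open scoped MatrixGroups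
open CongruenceSubgroup Matrix.SpecialLinearGroup

theorem ci_inv_mul_mem_Gamma0_iff (N : ℕ) (g h : SL(2, ℤ)) :
    g⁻¹ * h ∈ Gamma0 N ↔ (N : ℤ) ∣ g 0 0 * h 1 0 - h 0 0 * g 1 0 := by
  rw [Gamma0_mem, inv_mul_apply_one_zero]
  exact (ZMod.intCast_zmod_eq_zero_iff_dvd _ _)

/-- The lower unipotent matrix `[[1, 0], [m, 1]]`. -/
def ci_L (m : ℤ) : SL(2, ℤ) := ⟨!![1, 0; m, 1], by simp [Matrix.det_fin_two]⟩

@[simp] theorem ci_L_zero_zero (m : ℤ) : ci_L m 0 0 = 1 := rfl
@[simp] theorem ci_L_one_zero (m : ℤ) : ci_L m 1 0 = m := rfl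

theorem ci_L_mem (M : ℕ) (t : ℤ) : ci_L (M * t) ∈ Gamma0 M := by
  rw [Gamma0_mem, ci_L_one_zero]
  simp

theorem ci_Gamma0_le (M p : ℕ) : Gamma0 (M * p) ≤ Gamma0 M := by
  intro g hg
  rw [Gamma0_mem, ZMod.intCast_zmod_eq_zero_iff_dvd] at hg ⊢
  exact dvd_trans (by push_cast; exact dvd_mul_right _ _) hg

/-- Two lower unipotent representatives are equivalent mod `Γ₀(Mp)` iff they agree mod `p`. -/
theorem ci_L_equiv_iff {M p : ℕ} (hM : M ≠ 0) (s t : ℤ) :
    (ci_L (M * s))⁻¹ * ci_L (M * t) ∈ Gamma0 (M * p) ↔ (p : ℤ) ∣ t - s := by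
  have hM' : (M : ℤ) ≠ 0 := by exact_mod_cast hM
  rw [ci_inv_mul_mem_Gamma0_iff, ci_L_zero_zero, ci_L_zero_zero, ci_L_one_zero, ci_L_one_zero]
  have h : (1 : ℤ) * (M * t) - 1 * (M * s) = M * (t - s) := by ring
  rw [h, Nat.cast_mul, mul_dvd_mul_iff_left hM']

/-- An element of `Γ₀(M)` whose upper left entry is prime to `p` is equivalent mod `Γ₀(Mp)` to a
lower unipotent representative. -/
theorem ci_exists_L {M p : ℕ} [Fact p.Prime] (hM : M ≠ 0) (g : SL(2, ℤ)) (hg : g ∈ Gamma0 M)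
    (ha : ((g 0 0 : ℤ) : ZMod p) ≠ 0) :
    ∃ t : ZMod p, (ci_L (M * (t.val : ℤ)))⁻¹ * g ∈ Gamma0 (M * p) := by
  have hM' : (M : ℤ) ≠ 0 := by exact_mod_cast hM
  rw [Gamma0_mem, ZMod.intCast_zmod_eq_zero_iff_dvd] at hg
  obtain ⟨c', hc'⟩ := hg
  refine ⟨(c' : ZMod p) * ((g 0 0 : ℤ) : ZMod p)⁻¹, ?_⟩
  rw [ci_inv_mul_mem_Gamma0_iff, ci_L_zero_zero, ci_L_one_zero, hc']
  set t : ZMod p := (c' : ZMod p) * ((g 0 0 : ℤ) : ZMod p)⁻¹ with ht
  have h : (1 : ℤ) * ((M : ℤ) * c') - g 0 0 * (M * (t.val : ℤ)) = M * (c' - g 0 0 * (t.val : ℤ)) := by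
    ring
  rw [h, Nat.cast_mul, mul_dvd_mul_iff_left hM', ← ZMod.intCast_zmod_eq_zero_iff_dvd]
  push_cast
  rw [ZMod.natCast_zmod_val, ht, mul_comm (c' : ZMod p), ← mul_assoc, mul_inv_cancel₀ ha, one_mul,
    sub_self]

theorem ci_relIndex_of_dvd {M p : ℕ} (hp : p.Prime) (hM : M ≠ 0) (hpM : p ∣ M) :
    (Gamma0 (M * p)).relIndex (Gamma0 M) = p := by
  have : Fact p.Prime := ⟨hp⟩
  let f : ZMod p → (Gamma0 M) ⧸ (Gamma0 (M * p)).subgroupOf (Gamma0 M) :=
    fun t => QuotientGroup.mk ⟨ci_L (M * (t.val : ℤ)), ci_L_mem M _⟩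
  have hf : Function.Bijective f := by
    constructor
    · intro s t hst
      have h1 := QuotientGroup.eq.mp hst
      rw [Subgroup.mem_subgroupOf] at h1
      have h2 : (ci_L (M * (s.val : ℤ)))⁻¹ * ci_L (M * (t.val : ℤ)) ∈ Gamma0 (M * p) := h1
      rw [ci_L_equiv_iff hM] at h2
      have h4 := (ZMod.intCast_eq_intCast_iff_dvd_sub (s.val : ℤ) (t.val : ℤ) p).mpr h2
      simpa using h4
    · intro x
      induction x using QuotientGroup.induction_on with
      | H g =>
        obtain ⟨g, hg⟩ := g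
        have ha : ((g 0 0 : ℤ) : ZMod p) ≠ 0 := by
          intro h0
          have hc : ((g 1 0 : ℤ) : ZMod p) = 0 := by
            rw [Gamma0_mem, ZMod.intCast_zmod_eq_zero_iff_dvd] at hg
            rw [ZMod.intCast_zmod_eq_zero_iff_dvd]
            exact dvd_trans (by exact_mod_cast hpM) hg
          have hdet := g.det_coe
          rw [Matrix.det_fin_two] at hdet
          have := congrArg (Int.cast : ℤ → ZMod p) hdet
          push_cast at this
          rw [h0, hc] at this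
          simp at this
        obtain ⟨t, ht⟩ := ci_exists_L hM g hg ha
        refine ⟨t, ?_⟩
        apply QuotientGroup.eq.mpr
        rw [Subgroup.mem_subgroupOf]
        exact ht
  rw [Subgroup.relIndex, Subgroup.index_eq_card, ← Nat.card_eq_of_bijective f hf, Nat.card_zmod]

theorem ci_relIndex_of_not_dvd {M p : ℕ} (hp : p.Prime) (hM : M ≠ 0) (hpM : ¬ p ∣ M) :
    (Gamma0 (M * p)).relIndex (Gamma0 M) = p + 1 := by
  have : Fact p.Prime := ⟨hp⟩
  have hM' : (M : ℤ) ≠ 0 := by exact_mod_cast hM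
  -- the extra representative `[[p, -v], [M, u]]`
  have hcop : IsCoprime (p : ℤ) (M : ℤ) :=
    Nat.isCoprime_iff_coprime.mpr ((Nat.Prime.coprime_iff_not_dvd hp).mpr hpM)
  obtain ⟨u, v, huv⟩ := hcop
  let W : SL(2, ℤ) := ⟨!![(p : ℤ), -v; (M : ℤ), u], by
    rw [Matrix.det_fin_two_of]; linarith⟩
  have hW00 : W 0 0 = (p : ℤ) := rfl
  have hW10 : W 1 0 = (M : ℤ) := rfl
  have hWmem : W ∈ Gamma0 M := by
    rw [Gamma0_mem, hW10]; simp
  have hp1 : ¬ (p : ℤ) ∣ 1 := fun h => hp.one_lt.ne' (by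
    have := Int.eq_one_of_dvd_one (by positivity) h
    exact_mod_cast this)
  let f : Option (ZMod p) → (Gamma0 M) ⧸ (Gamma0 (M * p)).subgroupOf (Gamma0 M) := fun o =>
    match o with
    | none => QuotientGroup.mk ⟨W, hWmem⟩
    | some t => QuotientGroup.mk ⟨ci_L (M * (t.val : ℤ)), ci_L_mem M _⟩
  have hf : Function.Bijective f := by
    constructor
    · intro s t hst
      match s, t, hst with
      | none, none, _ => rfl
      | none, some t, hst =>
        exfalso
        have h1 := QuotientGroup.eq.mp hst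
        rw [Subgroup.mem_subgroupOf] at h1
        have h2 : W⁻¹ * ci_L (M * (t.val : ℤ)) ∈ Gamma0 (M * p) := h1
        rw [ci_inv_mul_mem_Gamma0_iff, hW00, hW10, ci_L_zero_zero, ci_L_one_zero] at h2
        have h : (p : ℤ) * ((M : ℤ) * (t.val : ℤ)) - 1 * (M : ℤ) = M * (p * (t.val : ℤ) - 1) := by
          ring
        rw [h, Nat.cast_mul, mul_dvd_mul_iff_left hM'] at h2
        exact hp1 ((dvd_sub_right (dvd_mul_right _ _)).mp h2)
      | some s, none, hst =>
        exfalso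
        have h1 := QuotientGroup.eq.mp hst
        rw [Subgroup.mem_subgroupOf] at h1
        have h2 : (ci_L (M * (s.val : ℤ)))⁻¹ * W ∈ Gamma0 (M * p) := h1
        rw [ci_inv_mul_mem_Gamma0_iff, hW00, hW10, ci_L_zero_zero, ci_L_one_zero] at h2
        have h : (1 : ℤ) * (M : ℤ) - (p : ℤ) * ((M : ℤ) * (s.val : ℤ)) = M * (1 - p * (s.val : ℤ)) := by
          ring
        rw [h, Nat.cast_mul, mul_dvd_mul_iff_left hM'] at h2
        exact hp1 ((dvd_sub_left (dvd_mul_right _ _)).mp h2)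
      | some s, some t, hst =>
        have h1 := QuotientGroup.eq.mp hst
        rw [Subgroup.mem_subgroupOf] at h1
        have h2 : (ci_L (M * (s.val : ℤ)))⁻¹ * ci_L (M * (t.val : ℤ)) ∈ Gamma0 (M * p) := h1
        rw [ci_L_equiv_iff hM] at h2
        have h4 := (ZMod.intCast_eq_intCast_iff_dvd_sub (s.val : ℤ) (t.val : ℤ) p).mpr h2
        exact congrArg some (by simpa using h4)
    · intro x
      induction x using QuotientGroup.induction_on with
      | H g =>
        obtain ⟨g, hg⟩ := g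
        by_cases ha : ((g 0 0 : ℤ) : ZMod p) = 0
        · refine ⟨none, ?_⟩
          apply QuotientGroup.eq.mpr
          rw [Subgroup.mem_subgroupOf]
          show W⁻¹ * g ∈ Gamma0 (M * p)
          rw [ZMod.intCast_zmod_eq_zero_iff_dvd] at ha
          have hg' := hg
          rw [Gamma0_mem, ZMod.intCast_zmod_eq_zero_iff_dvd] at hg'
          obtain ⟨c', hc'⟩ := hg'
          rw [ci_inv_mul_mem_Gamma0_iff, hW00, hW10, hc']
          have h : (p : ℤ) * ((M : ℤ) * c') - g 0 0 * (M : ℤ) = M * (p * c' - g 0 0) := by ring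
          rw [h, Nat.cast_mul, mul_dvd_mul_iff_left hM']
          exact dvd_sub (dvd_mul_right _ _) ha
        · obtain ⟨t, ht⟩ := ci_exists_L hM g hg ha
          refine ⟨some t, ?_⟩
          apply QuotientGroup.eq.mpr
          rw [Subgroup.mem_subgroupOf]
          exact ht
  rw [Subgroup.relIndex, Subgroup.index_eq_card, ← Nat.card_eq_of_bijective f hf,
    Nat.card_eq_fintype_card, Fintype.card_option, ZMod.card]

/-! ### Recursion for the Dedekind `ψ` function -/

theorem ci_psi_mul_of_dvd {M p : ℕ} (hp : p.Prime) (hM : M ≠ 0) (hpM : p ∣ M) :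
    ModularCurve.dedekindPsi (M * p) = p * ModularCurve.dedekindPsi M := by
  have hS : (M * p).divisors.filter Squarefree = M.divisors.filter Squarefree := by
    ext d
    simp only [Finset.mem_filter, Nat.mem_divisors]
    constructor
    · rintro ⟨⟨hd, -⟩, hsq⟩
      refine ⟨⟨?_, hM⟩, hsq⟩
      by_cases hpd : p ∣ d
      · obtain ⟨e, rfl⟩ := hpd
        have hcop : Nat.Coprime p e := (Nat.squarefree_mul_iff.mp hsq).1
        have he : e ∣ M := by
          rw [mul_comm M p] at hd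
          exact Nat.dvd_of_mul_dvd_mul_left hp.pos hd
        exact Nat.Coprime.mul_dvd_of_dvd_of_dvd hcop hpM he
      · have hcop : Nat.Coprime d p := ((Nat.Prime.coprime_iff_not_dvd hp).mpr hpd).symm
        exact hcop.dvd_of_dvd_mul_right hd
    · rintro ⟨⟨hd, -⟩, hsq⟩
      exact ⟨⟨dvd_mul_of_dvd_left hd p, mul_ne_zero hM hp.ne_zero⟩, hsq⟩
  unfold ModularCurve.dedekindPsi
  rw [hS, Finset.mul_sum]
  refine Finset.sum_congr rfl fun d hd => ?_
  obtain ⟨k, rfl⟩ := (Nat.mem_divisors.mp (Finset.mem_filter.mp hd).1).1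
  have hd0 : 0 < d := Nat.pos_of_ne_zero (fun h => hM (by simp [h]))
  rw [mul_assoc, Nat.mul_div_cancel_left _ hd0, Nat.mul_div_cancel_left _ hd0, mul_comm]

theorem ci_psi_mul_of_not_dvd {M p : ℕ} (hp : p.Prime) (hM : M ≠ 0) (hpM : ¬ p ∣ M) :
    ModularCurve.dedekindPsi (M * p) = (p + 1) * ModularCurve.dedekindPsi M := by
  have hS : (M * p).divisors.filter Squarefree =
      M.divisors.filter Squarefree ∪ (M.divisors.filter Squarefree).image (· * p) := by
    ext d
    simp only [Finset.mem_filter, Nat.mem_divisors, Finset.mem_union, Finset.mem_image]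
    constructor
    · rintro ⟨⟨hd, -⟩, hsq⟩
      by_cases hpd : p ∣ d
      · right
        obtain ⟨e, rfl⟩ := hpd
        have hsq' := Nat.squarefree_mul_iff.mp hsq
        have he : e ∣ M := by
          rw [mul_comm M p] at hd
          exact Nat.dvd_of_mul_dvd_mul_left hp.pos hd
        exact ⟨e, ⟨⟨he, hM⟩, hsq'.2.2⟩, mul_comm e p⟩
      · left
        have hcop : Nat.Coprime d p := ((Nat.Prime.coprime_iff_not_dvd hp).mpr hpd).symm
        exact ⟨⟨hcop.dvd_of_dvd_mul_right hd, hM⟩, hsq⟩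
    · rintro (⟨⟨hd, -⟩, hsq⟩ | ⟨e, ⟨⟨he, -⟩, hsq⟩, rfl⟩)
      · exact ⟨⟨dvd_mul_of_dvd_left hd p, mul_ne_zero hM hp.ne_zero⟩, hsq⟩
      · refine ⟨⟨mul_dvd_mul_right he p, mul_ne_zero hM hp.ne_zero⟩, ?_⟩
        have hpe : ¬ p ∣ e := fun h => hpM (dvd_trans h he)
        have hcop : Nat.Coprime e p := ((Nat.Prime.coprime_iff_not_dvd hp).mpr hpe).symm
        exact Nat.squarefree_mul_iff.mpr ⟨hcop, hsq, hp.prime.squarefree⟩
  have hdisj : Disjoint (M.divisors.filter Squarefree)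
      ((M.divisors.filter Squarefree).image (· * p)) := by
    rw [Finset.disjoint_left]
    intro d hd hd'
    simp only [Finset.mem_filter, Nat.mem_divisors, Finset.mem_image] at hd hd'
    obtain ⟨e, -, rfl⟩ := hd'
    exact hpM (dvd_trans (dvd_mul_left p e) hd.1.1)
  have hinj : Set.InjOn (· * p) (M.divisors.filter Squarefree : Set ℕ) :=
    fun a _ b _ hab => Nat.eq_of_mul_eq_mul_right hp.pos hab
  unfold ModularCurve.dedekindPsi
  rw [hS, Finset.sum_union hdisj, Finset.sum_image hinj, add_mul, one_mul, Finset.mul_sum]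
  congr 1
  · refine Finset.sum_congr rfl fun d hd => ?_
    obtain ⟨k, rfl⟩ := (Nat.mem_divisors.mp (Finset.mem_filter.mp hd).1).1
    have hd0 : 0 < d := Nat.pos_of_ne_zero (fun h => hM (by simp [h]))
    rw [mul_assoc, Nat.mul_div_cancel_left _ hd0, Nat.mul_div_cancel_left _ hd0, mul_comm]
  · refine Finset.sum_congr rfl fun d _ => ?_
    exact Nat.mul_div_mul_right M d hp.pos


/-! ### The index of `Γ₀(N)` -/

theorem ci_index_Gamma0 (N : ℕ) (hN : N ≠ 0) :
    (Gamma0 N).index = ModularCurve.dedekindPsi N := by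
  induction N using induction_on_primes with
  | zero => exact absurd rfl hN
  | one =>
    have h1 : Gamma0 1 = ⊤ := by
      ext g
      simp [Gamma0_mem, eq_iff_true_of_subsingleton]
    rw [h1, Subgroup.index_top, ModularCurve.dedekindPsi_one]
  | prime_mul p M hp ih =>
    have hM : M ≠ 0 := fun h => hN (by simp [h])
    rw [mul_comm p M, ← Subgroup.relIndex_mul_index (ci_Gamma0_le M p), ih hM]
    by_cases hpM : p ∣ M
    · rw [ci_relIndex_of_dvd hp hM hpM, ci_psi_mul_of_dvd hp hM hpM]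
    · rw [ci_relIndex_of_not_dvd hp hM hpM, ci_psi_mul_of_not_dvd hp hM hpM]

/-- **C1**: the index of `Γ₀(N)` in `SL(2, ℤ)` is the Dedekind `ψ` function. -/
theorem card_XX_aux (N : ℕ) [NeZero N] : Nat.card (XX N) = ModularCurve.dedekindPsi N := by
  rw [← ci_index_Gamma0 N (NeZero.ne N), Subgroup.index_eq_card]

end Fermat.Agent.S24
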