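import Fermat.Agent.S24.Defs

/-!
# General lemmas on the number of orbits of a permutation (P8-COMB)

`orbitCount σ` is the number of `SameCycle` classes of `σ` (cycles and fixed points).
-/

set_option autoImplicit false

namespace Fermat.Agent.S24

open Equiv Equiv.Perm

variable {ι : Type*} [Fintype ι] [DecidableEq ι] (σ : Equiv.Perm ι)

/-- The orbits of `σ` are its cycles together with its fixed points. -/
noncomputable def combPerm_orbitEquiv :
    Quotient (Equiv.Perm.SameCycle.setoid σ) ≃ σ.cycleFactorsFinset ⊕ {x : ι // σ x = x} := by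
  classical
  let f : ι → σ.cycleFactorsFinset ⊕ {x : ι // σ x = x} := fun x =>
    if h : σ x = x then Sum.inr ⟨x, h⟩
    else Sum.inl ⟨σ.cycleOf x, cycleOf_mem_cycleFactorsFinset_iff.mpr (mem_support.mpr h)⟩
  have hf : ∀ x y : ι, σ.SameCycle x y → f x = f y := by
    intro x y hxy
    by_cases hx : σ x = x
    · have hxy' : x = y := hxy.eq_of_left hx
      subst hxy'
      rfl
    · have hy : ¬ σ y = y := fun hy => hx (hxy.apply_eq_self_iff.mpr hy)
      simp only [f, dif_neg hx, dif_neg hy]
      congr 2
      exact hxy.cycleOf_eq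
  refine Equiv.ofBijective (Quotient.lift f hf) ⟨?_, ?_⟩
  · intro a b
    induction a using Quotient.inductionOn with
    | h x =>
    induction b using Quotient.inductionOn with
    | h y =>
    intro hab
    simp only [Quotient.lift_mk] at hab
    apply Quotient.sound
    show σ.SameCycle x y
    by_cases hx : σ x = x
    · by_cases hy : σ y = y
      · simp only [f, dif_pos hx, dif_pos hy, Sum.inr.injEq, Subtype.mk.injEq] at hab
        rw [hab]
      · simp only [f, dif_pos hx, dif_neg hy] at hab
        exact absurd hab (by simp)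
    · by_cases hy : σ y = y
      · simp only [f, dif_neg hx, dif_pos hy] at hab
        exact absurd hab (by simp)
      · simp only [f, dif_neg hx, dif_neg hy, Sum.inl.injEq, Subtype.mk.injEq] at hab
        have hy' : y ∈ (σ.cycleOf y).support := by
          rw [mem_support_cycleOf_iff' hy]
        rw [← hab, mem_support_cycleOf_iff' hx] at hy'
        exact hy'
  · rintro (⟨c, hc⟩ | ⟨x, hx⟩)
    · obtain ⟨x, hx⟩ := (mem_cycleFactorsFinset_iff.mp hc).1.nonempty_support
      have hxσ : σ x ≠ x := mem_support.mp (mem_cycleFactorsFinset_support_le hc hx)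
      refine ⟨Quotient.mk _ x, ?_⟩
      simp only [Quotient.lift_mk, f, dif_neg hxσ, Sum.inl.injEq, Subtype.mk.injEq]
      exact (cycle_is_cycleOf hx hc).symm
    · refine ⟨Quotient.mk _ x, ?_⟩
      simp only [Quotient.lift_mk, f, dif_pos hx]

theorem combPerm_card_fixed_add_card_support :
    Nat.card {x : ι // σ x = x} + σ.support.card = Fintype.card ι := by
  classical
  rw [Nat.card_eq_fintype_card, Fintype.card_subtype]
  have h1 : σ.support = Finset.univ.filter (fun x => ¬ σ x = x) := by
    ext x
    simp
  rw [h1]
  exact Finset.card_filter_add_card_filter_not (fun x => σ x = x) (s := Finset.univ)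

theorem combPerm_orbitCount_eq :
    orbitCount σ = Multiset.card σ.cycleType + Nat.card {x : ι // σ x = x} := by
  classical
  rw [orbitCount, Nat.card_congr (combPerm_orbitEquiv σ), Nat.card_sum, cycleType_def,
    Multiset.card_map, Nat.card_eq_fintype_card, Fintype.card_coe]
  rfl

/-- orbits = cycles + fixed points. -/
theorem orbitCount_add_card_support :
    orbitCount σ + σ.support.card = Multiset.card σ.cycleType + Fintype.card ι := by
  rw [combPerm_orbitCount_eq, add_assoc, combPerm_card_fixed_add_card_support]

theorem sign_eq_neg_one_pow_orbitCount :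
    Equiv.Perm.sign σ = (-1 : ℤˣ) ^ (Fintype.card ι + orbitCount σ) := by
  have h1 := orbitCount_add_card_support σ
  have h2 : Fintype.card ι + orbitCount σ + 2 * σ.support.card =
      σ.cycleType.sum + Multiset.card σ.cycleType + 2 * Fintype.card ι := by
    rw [sum_cycleType]
    omega
  have h3 : (-1 : ℤˣ) ^ (Fintype.card ι + orbitCount σ + 2 * σ.support.card) =
      (-1 : ℤˣ) ^ (Fintype.card ι + orbitCount σ) := by
    rw [pow_add, pow_mul]
    simp
  have h4 : (-1 : ℤˣ) ^ (σ.cycleType.sum + Multiset.card σ.cycleType + 2 * Fintype.card ι) =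
      (-1 : ℤˣ) ^ (σ.cycleType.sum + Multiset.card σ.cycleType) := by
    rw [pow_add _ _ (2 * Fintype.card ι), pow_mul]
    simp
  rw [sign_of_cycleType, ← h4, ← h2, h3]

theorem prime_mul_orbitCount {p : ℕ} (hp : p.Prime) (hσ : σ ^ p = 1) :
    p * orbitCount σ = Fintype.card ι + (p - 1) * Nat.card {x : ι // σ x = x} := by
  have hord : orderOf σ ∣ p := orderOf_dvd_of_pow_eq_one hσ
  -- every cycle has length `p`
  have hall : ∀ n ∈ σ.cycleType, n = p := by
    intro n hn
    have h1 : n ∣ p := (dvd_of_mem_cycleType hn).trans hord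
    have h2 : 2 ≤ n := two_le_of_mem_cycleType hn
    rcases (Nat.dvd_prime hp).mp h1 with h | h
    · omega
    · exact h
  have hsum : σ.cycleType.sum = Multiset.card σ.cycleType * p := by
    rw [Multiset.eq_replicate_of_mem hall, Multiset.sum_replicate, Multiset.card_replicate,
      smul_eq_mul]
  rw [sum_cycleType] at hsum
  have h1 := combPerm_orbitCount_eq σ
  have h2 := combPerm_card_fixed_add_card_support σ
  rw [h1, ← h2, hsum]
  obtain ⟨q, rfl⟩ : ∃ q, p = q + 1 := ⟨p - 1, (Nat.succ_pred_eq_of_pos hp.pos).symm⟩
  simp only [Nat.add_sub_cancel]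
  ring

end Fermat.Agent.S24
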