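import Fermat.Agent.S24.CombIndex
import Fermat.Agent.S24.CombCusp
import Fermat.Agent.S24.CombFixed
import Fermat.Agent.S24.CombPerm

/-!
# P8-COMB: the combinatorics of `SL(2,ℤ) ⧸ Γ₀(N)`

Index and orbit counts of `S`, `S * T`, `T`.
-/

set_option autoImplicit false

namespace Fermat.Agent.S24

open scoped MatrixGroups

open ModularGroup

variable (N : ℕ) [NeZero N]

theorem card_XX : Nat.card (XX N) = ModularCurve.dedekindPsi N := card_XX_aux N

omit [NeZero N] in
theorem toPerm_S_sq : (MulAction.toPerm S : Equiv.Perm (XX N)) ^ 2 = 1 := by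
  have h : (S : SL(2, ℤ)) ^ 2 = -1 := by decide
  show (MulAction.toPermHom SL(2, ℤ) (XX N) S) ^ 2 = 1
  rw [← map_pow (MulAction.toPermHom SL(2, ℤ) (XX N)) S 2, h]
  ext x
  exact neg_one_smul_XX N x

omit [NeZero N] in
theorem toPerm_ST_cube : (MulAction.toPerm (S * T) : Equiv.Perm (XX N)) ^ 3 = 1 := by
  have h : (S * T : SL(2, ℤ)) ^ 3 = -1 := by decide
  show (MulAction.toPermHom SL(2, ℤ) (XX N) (S * T)) ^ 3 = 1
  rw [← map_pow (MulAction.toPermHom SL(2, ℤ) (XX N)) (S * T) 3, h]
  ext x
  exact neg_one_smul_XX N x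

theorem two_mul_orbitCount_S :
    2 * orbitCount (MulAction.toPerm ModularGroup.S : Equiv.Perm (XX N)) =
      ModularCurve.dedekindPsi N + ModularCurve.nuTwo N := by
  classical
  letI : Fintype (XX N) := Fintype.ofFinite _
  have h := prime_mul_orbitCount (MulAction.toPerm S : Equiv.Perm (XX N)) Nat.prime_two
    (toPerm_S_sq N)
  rw [h, ← Nat.card_eq_fintype_card, card_XX_aux, ← card_fixed_S N]
  simp [MulAction.toPerm_apply]

theorem three_mul_orbitCount_ST :
    3 * orbitCount (MulAction.toPerm (ModularGroup.S * ModularGroup.T) : Equiv.Perm (XX N)) =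
      ModularCurve.dedekindPsi N + 2 * ModularCurve.nuThree N := by
  classical
  letI : Fintype (XX N) := Fintype.ofFinite _
  have h := prime_mul_orbitCount (MulAction.toPerm (S * T) : Equiv.Perm (XX N)) Nat.prime_three
    (toPerm_ST_cube N)
  rw [h, ← Nat.card_eq_fintype_card, card_XX_aux, ← card_fixed_ST N]
  simp [MulAction.toPerm_apply]

theorem orbitCount_T :
    orbitCount (MulAction.toPerm ModularGroup.T : Equiv.Perm (XX N)) =
      ModularCurve.cuspCount N := orbitCount_T_aux N

end Fermat.Agent.S24
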