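import Mathlib.RingTheory.LaurentSeries

/-!
P8-ANN: the "rotation" `s ↦ ζ s` on Laurent series, `∑ aₙ sⁿ ↦ ∑ ζⁿ aₙ sⁿ`, as a ring
homomorphism, with the facts needed at the cusp `i∞`: it preserves the order, and a nonzero series
fixed by the rotation by `ζ` has all its exponents `n` satisfying `ζ ^ n = 1`.
-/

set_option autoImplicit false

namespace Fermat.Agent.S24

open HahnSeries

variable {R : Type*} [CommRing R]

/-- The rotation `s ↦ ζ s` on Laurent series: the `n`-th coefficient is multiplied by `ζ ^ n`. -/
noncomputable def laurentRot (ζ : Rˣ) : LaurentSeries R →+* LaurentSeries R where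
  toFun x :=
    { coeff := fun n => ((ζ ^ n : Rˣ) : R) * x.coeff n
      isPWO_support' := x.isPWO_support.mono fun n hn => by
        rw [Function.mem_support] at hn
        rw [HahnSeries.mem_support]
        intro h0
        exact hn (by rw [h0, mul_zero]) }
  map_one' := by
    ext n
    show ((ζ ^ n : Rˣ) : R) * (1 : LaurentSeries R).coeff n = (1 : LaurentSeries R).coeff n
    rw [HahnSeries.coeff_one]
    split_ifs with h
    · subst h; simp
    · simp
  map_mul' x y := by
    ext n
    show ((ζ ^ n : Rˣ) : R) * (x * y).coeff n = _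
    have hx : Function.support (fun n => ((ζ ^ n : Rˣ) : R) * x.coeff n) ⊆ x.support := by
      intro m hm
      rw [Function.mem_support] at hm
      rw [HahnSeries.mem_support]
      intro h0
      exact hm (by rw [h0, mul_zero])
    have hy : Function.support (fun n => ((ζ ^ n : Rˣ) : R) * y.coeff n) ⊆ y.support := by
      intro m hm
      rw [Function.mem_support] at hm
      rw [HahnSeries.mem_support]
      intro h0
      exact hm (by rw [h0, mul_zero])
    rw [HahnSeries.coeff_mul, Finset.mul_sum]
    set x' : LaurentSeries R :=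
      { coeff := fun n => ((ζ ^ n : Rˣ) : R) * x.coeff n
        isPWO_support' := x.isPWO_support.mono hx } with hx'
    set y' : LaurentSeries R :=
      { coeff := fun n => ((ζ ^ n : Rˣ) : R) * y.coeff n
        isPWO_support' := y.isPWO_support.mono hy } with hy'
    have h1 : (x' * y').coeff n =
        ∑ ij ∈ Finset.antidiagonal x.isPWO_support y'.isPWO_support n,
          x'.coeff ij.fst * y'.coeff ij.snd :=
      HahnSeries.coeff_mul_left' x.isPWO_support hx
    have h2 : ∑ ij ∈ Finset.antidiagonal x.isPWO_support y'.isPWO_support n,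
          x'.coeff ij.fst * y'.coeff ij.snd =
        ∑ ij ∈ Finset.antidiagonal x.isPWO_support y.isPWO_support n,
          x'.coeff ij.fst * y'.coeff ij.snd := by
      refine Finset.sum_subset (Finset.antidiagonal_mono_right hy) ?_
      intro ij hij hnot
      rw [Finset.mem_antidiagonal] at hij hnot
      have : y'.coeff ij.snd = 0 := by
        by_contra h
        exact hnot ⟨hij.1, h, hij.2.2⟩
      rw [this, mul_zero]
    rw [h1, h2]
    refine (Finset.sum_congr rfl fun ij hij => ?_).symm
    rw [Finset.mem_antidiagonal] at hij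
    show ((ζ ^ ij.1 : Rˣ) : R) * x.coeff ij.1 * (((ζ ^ ij.2 : Rˣ) : R) * y.coeff ij.2) = _
    rw [← hij.2.2, zpow_add, Units.val_mul]
    ring
  map_zero' := by
    ext n
    show ((ζ ^ n : Rˣ) : R) * (0 : LaurentSeries R).coeff n = (0 : LaurentSeries R).coeff n
    simp
  map_add' x y := by
    ext n
    show ((ζ ^ n : Rˣ) : R) * (x + y).coeff n =
      ((ζ ^ n : Rˣ) : R) * x.coeff n + ((ζ ^ n : Rˣ) : R) * y.coeff n
    rw [HahnSeries.coeff_add, mul_add]

@[simp]
theorem laurentRot_coeff (ζ : Rˣ) (x : LaurentSeries R) (n : ℤ) :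
    (laurentRot ζ x).coeff n = ((ζ ^ n : Rˣ) : R) * x.coeff n := rfl

theorem laurentRot_coeff_eq_zero_iff (ζ : Rˣ) (x : LaurentSeries R) (n : ℤ) :
    (laurentRot ζ x).coeff n = 0 ↔ x.coeff n = 0 := by
  rw [laurentRot_coeff]
  exact Units.mul_right_eq_zero _

theorem laurentRot_support (ζ : Rˣ) (x : LaurentSeries R) :
    (laurentRot ζ x).support = x.support := by
  ext n
  rw [HahnSeries.mem_support, HahnSeries.mem_support, not_iff_not]
  exact laurentRot_coeff_eq_zero_iff ζ x n

theorem laurentRot_injective (ζ : Rˣ) : Function.Injective (laurentRot (R := R) ζ) := by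
  intro x y h
  ext n
  have h' := congrArg (fun z : LaurentSeries R => z.coeff n) h
  simp only [laurentRot_coeff] at h'
  exact (Units.mul_right_inj _).mp h'

theorem laurentRot_eq_zero_iff (ζ : Rˣ) (x : LaurentSeries R) : laurentRot ζ x = 0 ↔ x = 0 := by
  constructor
  · intro h
    exact laurentRot_injective ζ (h.trans (map_zero _).symm)
  · rintro rfl
    exact map_zero _

/-- The rotation preserves the order. -/
theorem order_laurentRot (ζ : Rˣ) (x : LaurentSeries R) : (laurentRot ζ x).order = x.order := by
  rcases eq_or_ne x 0 with rfl | hx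
  · rw [map_zero]
  have hx' : laurentRot ζ x ≠ 0 := fun h => hx ((laurentRot_eq_zero_iff ζ x).mp h)
  rw [HahnSeries.order_of_ne hx, HahnSeries.order_of_ne hx']
  congr 1
  exact laurentRot_support ζ x

theorem laurentRot_one (x : LaurentSeries R) : laurentRot (1 : Rˣ) x = x := by
  ext n
  simp

theorem laurentRot_mul (ζ ξ : Rˣ) (x : LaurentSeries R) :
    laurentRot (ζ * ξ) x = laurentRot ζ (laurentRot ξ x) := by
  ext n
  simp only [laurentRot_coeff, mul_zpow, Units.val_mul]
  ring

theorem laurentRot_pow (ζ : Rˣ) (k : ℕ) (x : LaurentSeries R) :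
    laurentRot (ζ ^ k) x = (laurentRot ζ)^[k] x := by
  induction k with
  | zero => simp [laurentRot_one]
  | succ k ih => rw [pow_succ', laurentRot_mul, ih, Function.iterate_succ_apply']

/-- If a series is fixed by the rotation by `ζ`, then `ζ ^ n = 1` for every exponent `n` in its
support (coefficient ring a domain). -/
theorem zpow_eq_one_of_laurentRot_eq [IsDomain R] (ζ : Rˣ) (x : LaurentSeries R)
    (h : laurentRot ζ x = x) {n : ℤ} (hn : x.coeff n ≠ 0) : ζ ^ n = 1 := by
  have h' := congrArg (fun z : LaurentSeries R => z.coeff n) h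
  simp only [laurentRot_coeff] at h'
  have h2 : (((ζ ^ n : Rˣ) : R) - 1) * x.coeff n = 0 := by rw [sub_mul, h', one_mul, sub_self]
  rcases mul_eq_zero.mp h2 with h3 | h3
  · exact Units.ext (sub_eq_zero.mp h3)
  · exact absurd h3 hn

/-- In particular this holds for the order of a nonzero series. -/
theorem zpow_order_eq_one_of_laurentRot_eq [IsDomain R] (ζ : Rˣ) (x : LaurentSeries R)
    (hx : x ≠ 0) (h : laurentRot ζ x = x) : ζ ^ x.order = 1 :=
  zpow_eq_one_of_laurentRot_eq ζ x h (by
    rw [Ne, HahnSeries.coeff_order_eq_zero]; exact hx)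

end Fermat.Agent.S24
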