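import Fermat.Prelude.Def_ModularCurve_X0
import Fermat.Prelude.Def_ModularCurve_LaurentCoeff

/-!
P8-ANN: orders of Laurent series under the Prelude operations `coeffMap`, `qExpand`, and the order
of the `q`-series `jq`; plus the valuation-like properties of `HahnSeries.order` on Laurent series
over a field in the shape used by `isLocalFamily_of_embeddings`.
-/

set_option autoImplicit false

namespace Fermat.Agent.S24

open HahnSeries

section General

variable {R : Type*} [CommRing R]

/-- Characterisation of the order by the lowest nonzero coefficient. -/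
theorem laurent_order_eq_of_coeff {x : LaurentSeries R} {n : ℤ} (hn : x.coeff n ≠ 0)
    (hlt : ∀ m : ℤ, m < n → x.coeff m = 0) : x.order = n := by
  refine le_antisymm (HahnSeries.order_le_of_coeff_ne_zero hn) ?_
  by_contra h
  rw [not_le] at h
  have hx : x ≠ 0 := HahnSeries.ne_zero_of_coeff_ne_zero hn
  exact (HahnSeries.coeff_order_eq_zero.not.mpr hx) (hlt _ h)

theorem laurent_coeff_eq_zero_of_lt_order {x : LaurentSeries R} {m : ℤ} (hm : m < x.order) :
    x.coeff m = 0 :=
  HahnSeries.coeff_eq_zero_of_lt_order hm

variable {S : Type*} [CommRing S]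

/-- An injective coefficient map preserves the order. -/
theorem order_coeffMap (φ : R →+* S) (hφ : Function.Injective φ) (x : LaurentSeries R) :
    (ModularCurve.coeffMap φ x).order = x.order := by
  rcases eq_or_ne x 0 with rfl | hx
  · rw [map_zero, HahnSeries.order_zero, HahnSeries.order_zero]
  refine laurent_order_eq_of_coeff ?_ ?_
  · rw [ModularCurve.coeffMap_coeff]
    intro h
    exact (HahnSeries.coeff_order_eq_zero.not.mpr hx) (hφ (h.trans (map_zero φ).symm))
  · intro m hm
    rw [ModularCurve.coeffMap_coeff, HahnSeries.coeff_eq_zero_of_lt_order hm, map_zero]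

theorem coeffMap_injective (φ : R →+* S) (hφ : Function.Injective φ) :
    Function.Injective (ModularCurve.coeffMap φ) := by
  intro x y h
  ext n
  have h' := congrArg (fun z : LaurentSeries S => z.coeff n) h
  simp only [ModularCurve.coeffMap_coeff] at h'
  exact hφ h'

/-- `q ↦ q ^ N` multiplies the order by `N`. -/
theorem order_qExpand (N : ℕ) [NeZero N] (x : LaurentSeries R) :
    (ModularCurve.qExpand R N x).order = (N : ℤ) * x.order := by
  rcases eq_or_ne x 0 with rfl | hx
  · rw [map_zero]; simp
  refine laurent_order_eq_of_coeff ?_ ?_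
  · rw [ModularCurve.qExpand_coeff_mul]
    exact HahnSeries.coeff_order_eq_zero.not.mpr hx
  · intro m hm
    by_cases hdvd : (N : ℤ) ∣ m
    · obtain ⟨k, rfl⟩ := hdvd
      rw [ModularCurve.qExpand_coeff_mul]
      apply HahnSeries.coeff_eq_zero_of_lt_order
      have hN : (0 : ℤ) < N := by exact_mod_cast Nat.pos_of_ne_zero (NeZero.ne N)
      exact lt_of_mul_lt_mul_left hm hN.le
    · exact ModularCurve.qExpand_coeff_of_not_dvd N x hdvd

end General

/-- The `q`-series of `j` has a simple pole. -/
theorem order_jq : ModularCurve.jq.order = -1 :=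
  laurent_order_eq_of_coeff (by rw [ModularCurve.coeff_jq_neg_one]; exact one_ne_zero)
    (fun _ hm => ModularCurve.coeff_jq_of_lt hm)

section Field

variable {K : Type*} [Field K]

theorem laurent_order_mul {x y : LaurentSeries K} (hx : x ≠ 0) (hy : y ≠ 0) :
    (x * y).order = x.order + y.order :=
  HahnSeries.order_mul hx hy

theorem laurent_min_order_le_order_add {x y : LaurentSeries K} (hxy : x + y ≠ 0) :
    min x.order y.order ≤ (x + y).order :=
  HahnSeries.min_order_le_order_add hxy

theorem laurent_order_inv (x : LaurentSeries K) : (x⁻¹).order = -x.order := by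
  rcases eq_or_ne x 0 with rfl | hx
  · simp
  have h := laurent_order_mul hx (inv_ne_zero hx)
  rw [mul_inv_cancel₀ hx, HahnSeries.order_one] at h
  linarith

theorem laurent_order_C (c : K) : (HahnSeries.C c : LaurentSeries K).order = 0 :=
  HahnSeries.order_C

end Field

end Fermat.Agent.S24
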