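import Mathlib

/-!
The formal derivative `d/ds` on Laurent series `R((s))` as a derivation
(`LaurentDeriv.lsDer : Derivation R (LaurentSeries R) (LaurentSeries R)`), with
`d/ds s = 1`, `d/ds c = 0`, and the order computation in characteristic zero.
-/

set_option autoImplicit false

namespace Fermat.Agent.S24

open HahnSeries

section LaurentDeriv

variable {R : Type*} [CommRing R]

/-- Formal derivative `d/ds` on Laurent series (Mathlib's `LaurentSeries.derivative`). -/
noncomputable def LaurentDeriv.lsD (f : LaurentSeries R) : LaurentSeries R :=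
  LaurentSeries.derivative R f

theorem LaurentDeriv.lsD_coeff (f : LaurentSeries R) (n : ℤ) :
    (LaurentDeriv.lsD f).coeff n = ((n + 1 : ℤ) : R) * f.coeff (n + 1) := by
  rw [LaurentDeriv.lsD, LaurentSeries.derivative_apply, LaurentSeries.hasseDeriv_coeff]
  simp [zsmul_eq_mul]

theorem LaurentDeriv.lsD_add (f g : LaurentSeries R) :
    LaurentDeriv.lsD (f + g) = LaurentDeriv.lsD f + LaurentDeriv.lsD g := by
  ext n
  rw [coeff_add, LaurentDeriv.lsD_coeff, LaurentDeriv.lsD_coeff, LaurentDeriv.lsD_coeff,
    coeff_add, mul_add]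

theorem LaurentDeriv.lsD_C_mul (r : R) (f : LaurentSeries R) :
    LaurentDeriv.lsD (C r * f) = C r * LaurentDeriv.lsD f := by
  ext n
  rw [C_mul_eq_smul, C_mul_eq_smul, coeff_smul, LaurentDeriv.lsD_coeff, LaurentDeriv.lsD_coeff,
    coeff_smul, smul_eq_mul, smul_eq_mul]
  ring

/-- `d/ds (s^N f) = s^N f' + N s^(N-1) f`. -/
theorem LaurentDeriv.lsD_single_mul (N : ℤ) (f : LaurentSeries R) :
    LaurentDeriv.lsD (single N (1 : R) * f) =
      single N (1 : R) * LaurentDeriv.lsD f + C (N : R) * (single (N - 1) (1 : R) * f) := by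
  ext n
  rw [LaurentDeriv.lsD_coeff, coeff_add, C_mul_eq_smul, coeff_smul, coeff_single_mul,
    coeff_single_mul, coeff_single_mul, LaurentDeriv.lsD_coeff]
  have h1 : n + 1 - N = n - N + 1 := by ring
  have h2 : n - (N - 1) = n - N + 1 := by ring
  rw [h1, h2]
  simp only [one_mul, smul_eq_mul]
  push_cast
  ring

theorem LaurentDeriv.lsD_coe (p : PowerSeries R) :
    LaurentDeriv.lsD (p : LaurentSeries R) =
      ((PowerSeries.derivative R p : PowerSeries R) : LaurentSeries R) := by
  ext n
  rw [LaurentDeriv.lsD_coeff, PowerSeries.coeff_coe, PowerSeries.coeff_coe]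
  by_cases hn : n < 0
  · rw [if_pos hn]
    by_cases hn1 : n + 1 < 0
    · rw [if_pos hn1, mul_zero]
    · have : n + 1 = 0 := by omega
      rw [this]; simp
  · rw [if_neg hn, if_neg (by omega)]
    obtain ⟨k, rfl⟩ := Int.eq_ofNat_of_zero_le (not_lt.mp hn)
    have : ((k : ℤ) + 1).natAbs = k + 1 := by omega
    rw [this, Int.natAbs_natCast, PowerSeries.coeff_derivative]
    push_cast
    ring

theorem LaurentDeriv.lsD_mul_aux (a b : ℤ) (p q : PowerSeries R) :
    LaurentDeriv.lsD ((single a (1 : R) * (p : LaurentSeries R)) *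
        (single b (1 : R) * (q : LaurentSeries R))) =
      (single a (1 : R) * (p : LaurentSeries R)) *
          LaurentDeriv.lsD (single b (1 : R) * (q : LaurentSeries R)) +
        (single b (1 : R) * (q : LaurentSeries R)) *
          LaurentDeriv.lsD (single a (1 : R) * (p : LaurentSeries R)) := by
  have e1 : (single (a + b) (1 : R) : LaurentSeries R) = single a 1 * single b 1 := by
    rw [single_mul_single, one_mul]
  have e2 : (single (a + b - 1) (1 : R) : LaurentSeries R)
      = single a 1 * single b 1 * single (-1) 1 := by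
    rw [single_mul_single, single_mul_single, one_mul, one_mul]; congr 1
  have e3 : (single (a - 1) (1 : R) : LaurentSeries R) = single a 1 * single (-1) 1 := by
    rw [single_mul_single, one_mul]; congr 1
  have e4 : (single (b - 1) (1 : R) : LaurentSeries R) = single b 1 * single (-1) 1 := by
    rw [single_mul_single, one_mul]; congr 1
  have hfg : (single a (1 : R) * (p : LaurentSeries R)) * (single b (1 : R) * (q : LaurentSeries R))
      = single (a + b) (1 : R) * ((p * q : PowerSeries R) : LaurentSeries R) := by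
    rw [PowerSeries.coe_mul, e1]
    ring
  have hD : PowerSeries.derivative R (p * q)
      = p * PowerSeries.derivative R q + q * PowerSeries.derivative R p := by
    have := (PowerSeries.derivative R).leibniz p q
    rw [smul_eq_mul, smul_eq_mul] at this
    exact this
  rw [hfg, LaurentDeriv.lsD_single_mul, LaurentDeriv.lsD_single_mul,
    LaurentDeriv.lsD_single_mul, LaurentDeriv.lsD_coe, LaurentDeriv.lsD_coe,
    LaurentDeriv.lsD_coe, hD, PowerSeries.coe_add, PowerSeries.coe_mul, PowerSeries.coe_mul,
    PowerSeries.coe_mul, e1, e2, e3, e4]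
  have e5 : (C ((a + b : ℤ) : R) : LaurentSeries R) = C (a : R) + C (b : R) := by
    rw [Int.cast_add, map_add]
  rw [e5]
  ring

theorem LaurentDeriv.lsD_mul (f g : LaurentSeries R) :
    LaurentDeriv.lsD (f * g) = f * LaurentDeriv.lsD g + g * LaurentDeriv.lsD f := by
  have hf := LaurentSeries.single_order_mul_powerSeriesPart f
  have hg := LaurentSeries.single_order_mul_powerSeriesPart g
  have := LaurentDeriv.lsD_mul_aux f.order g.order f.powerSeriesPart g.powerSeriesPart
  rw [hf, hg] at this
  exact this

/-- The (default) algebra map `R → R((s))` is `HahnSeries.C`. -/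
theorem LaurentDeriv.algebraMap_eq_C (r : R) :
    algebraMap R (LaurentSeries R) r = C r := by
  rw [HahnSeries.algebraMap_apply', ← PowerSeries.C_eq_algebraMap, ofPowerSeries_C]

/-- `d/ds` as a derivation of the ring of Laurent series. -/
noncomputable def LaurentDeriv.lsDer (R : Type*) [CommRing R] :
    Derivation R (LaurentSeries R) (LaurentSeries R) where
  toFun := LaurentDeriv.lsD
  map_add' := LaurentDeriv.lsD_add
  map_smul' r f := by
    rw [RingHom.id_apply, Algebra.smul_def, LaurentDeriv.algebraMap_eq_C,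
      LaurentDeriv.lsD_C_mul, C_mul_eq_smul]
  map_one_eq_zero' := by
    show LaurentDeriv.lsD (1 : LaurentSeries R) = 0
    ext n
    rw [LaurentDeriv.lsD_coeff]
    by_cases h : n + 1 = 0
    · rw [h]; simp
    · rw [HahnSeries.coeff_one, if_neg h, mul_zero]; simp
  leibniz' f g := by
    show LaurentDeriv.lsD (f * g) = f • LaurentDeriv.lsD g + g • LaurentDeriv.lsD f
    simp only [smul_eq_mul]
    exact LaurentDeriv.lsD_mul f g

theorem LaurentDeriv.lsDer_apply (f : LaurentSeries R) :
    LaurentDeriv.lsDer R f = LaurentDeriv.lsD f := rfl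

theorem LaurentDeriv.lsDer_coeff (f : LaurentSeries R) (n : ℤ) :
    (LaurentDeriv.lsDer R f).coeff n = ((n + 1 : ℤ) : R) * f.coeff (n + 1) :=
  LaurentDeriv.lsD_coeff f n

/-- `d/ds s = 1`. -/
theorem LaurentDeriv.lsDer_single_one :
    LaurentDeriv.lsDer R (single (1 : ℤ) (1 : R)) = 1 := by
  ext n
  rw [LaurentDeriv.lsDer_coeff, HahnSeries.coeff_one]
  by_cases h : n = 0
  · subst h; simp
  · rw [if_neg h, coeff_single_of_ne (by omega), mul_zero]

/-- `d/ds c = 0` for constants. -/
theorem LaurentDeriv.lsDer_C (c : R) : LaurentDeriv.lsDer R (C c) = 0 := by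
  rw [← LaurentDeriv.algebraMap_eq_C]
  exact (LaurentDeriv.lsDer R).map_algebraMap c

end LaurentDeriv

section Order

variable {L : Type*} [Field L] [CharZero L]

/-- In characteristic zero, differentiation lowers a nonzero order by exactly one. -/
theorem LaurentDeriv.lsDer_order {f : LaurentSeries L} (hord : f.order ≠ 0) :
    LaurentDeriv.lsDer L f ≠ 0 ∧ (LaurentDeriv.lsDer L f).order = f.order - 1 := by
  have hf : f ≠ 0 := by
    rintro rfl
    exact hord order_zero
  have hc : (LaurentDeriv.lsDer L f).coeff (f.order - 1) ≠ 0 := by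
    rw [LaurentDeriv.lsDer_coeff, sub_add_cancel]
    exact mul_ne_zero (by exact_mod_cast hord) (coeff_order_eq_zero.not.mpr hf)
  have hne : LaurentDeriv.lsDer L f ≠ 0 := ne_zero_of_coeff_ne_zero hc
  refine ⟨hne, le_antisymm (order_le_of_coeff_ne_zero hc) ?_⟩
  by_contra hlt
  rw [not_le] at hlt
  have h0 := coeff_order_eq_zero.not.mpr hne
  rw [LaurentDeriv.lsDer_coeff] at h0
  apply h0
  rw [coeff_eq_zero_of_lt_order (by omega), mul_zero]

omit [CharZero L] in
/-- A series of nonnegative order has derivative of nonnegative order. -/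
theorem LaurentDeriv.lsDer_order_nonneg {f : LaurentSeries L} (hord : 0 ≤ f.order) :
    0 ≤ (LaurentDeriv.lsDer L f).order := by
  by_cases hne : LaurentDeriv.lsDer L f = 0
  · rw [hne, order_zero]
  · by_contra hlt
    rw [not_le] at hlt
    have h0 := coeff_order_eq_zero.not.mpr hne
    rw [LaurentDeriv.lsDer_coeff] at h0
    apply h0
    by_cases h1 : (LaurentDeriv.lsDer L f).order + 1 = 0
    · rw [h1, Int.cast_zero, zero_mul]
    · rw [coeff_eq_zero_of_lt_order (by omega), mul_zero]

end Order

end Fermat.Agent.S24
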