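import Mathlib
import Fermat.Prelude.Def_ModularCurve_ArithmeticGalois
import Fermat.Prelude.Def_ModularCurve_GenusNumerics
import Fermat.Prelude.Def_AlgebraicCurve_CanonicalDivisor

/-!
Core interface definitions for project P8 (`X₀(N)` as a curve: S24, S20, S21).
-/

set_option autoImplicit false

namespace Fermat.Agent.S24

open AlgebraicCurve IntermediateField
open scoped MatrixGroups

section General

/-- The places of `F/K` at which `y` vanishes. -/
def zeroPlaces (K : Type*) {F : Type*} [Field K] [Field F] [Algebra K F] (y : F) :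
    Set (Place K F) :=
  {v | 0 < v.ord y}

/-- The number of orbits (cycles, fixed points included) of a permutation. -/
noncomputable def orbitCount {ι : Type*} (σ : Equiv.Perm ι) : ℕ :=
  Nat.card (Quotient (Equiv.Perm.SameCycle.setoid σ))

variable {K F : Type*} [Field K] [Field F] [Algebra K F]

/-- A family of integer valued "order functions" on `F` (junk value at `0`), indexed by a finite
set `ι` carrying a permutation `σ`, which computes the places of `F` above the zero of `y`:
all the `u i` take the value `E` at `y`, their sum is the order of the norm to `K0 = K(y)`,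
`u` is constant on the orbits of `σ`, and the values of `u i` are divisible by
`E / (size of the orbit of i)`. -/
structure IsLocalFamily {ι : Type*} [Fintype ι] (K0 : IntermediateField K F) (y : F) (E : ℕ)
    (σ : Equiv.Perm ι) (u : ι → F → ℤ) : Prop where
  mul : ∀ i (f g : F), f ≠ 0 → g ≠ 0 → u i (f * g) = u i f + u i g
  add : ∀ i (f g : F), f ≠ 0 → g ≠ 0 → f + g ≠ 0 → min (u i f) (u i g) ≤ u i (f + g)
  const : ∀ i (a : K), a ≠ 0 → u i (algebraMap K F a) = 0
  base : ∀ i, u i y = E
  norm : ∀ i₀ (f : F), f ≠ 0 → ∑ i, u i f = u i₀ (algebraMap K0 F (Algebra.norm K0 f))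
  perm : ∀ i (f : F), u (σ i) f = u i f
  per : ∀ i, Function.minimalPeriod σ i ∣ E
  dvd : ∀ i (f : F), f ≠ 0 → (E : ℤ) ∣ u i f * (Function.minimalPeriod σ i : ℤ)

end General

section Modular

/-- The function field of `X₀(N)` over `L`: the field generated over `L` by the `q`-expansions
of `j(dτ)`, `d ∣ N`, inside `L((q))`. For `L = ℚ̄` this is `ModularCurve.modularFunctionFieldBar N`
(definitionally). -/
abbrev FFL (L : Type*) [Field L] [Algebra ℚ L] (N : ℕ) : Type _ :=
  ↥(ModularCurve.laurentBaseChange L (ModularCurve.modularFunctionFieldFull N))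

/-- The `j`-function as an element of the function field of `X₀(N)` over `L`. -/
noncomputable def jL (L : Type*) [Field L] [Algebra ℚ L] (N : ℕ) [NeZero N] : FFL L N :=
  ⟨ModularCurve.coeffEmb L ModularCurve.jq,
    ModularCurve.coeffEmb_mem_laurentBaseChange L (by
      have h := ModularCurve.jqd_mem_full N (one_dvd N)
      rwa [ModularCurve.qExpand_one_apply] at h)⟩

/-- The coset space `SL(2, ℤ) / Γ₀(N)`, with `SL(2, ℤ)` acting by left multiplication. -/
abbrev XX (N : ℕ) : Type := SL(2, ℤ) ⧸ CongruenceSubgroup.Gamma0 N

noncomputable instance instFintypeXX (N : ℕ) [NeZero N] : Fintype (XX N) := Fintype.ofFinite _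

end Modular

end Fermat.Agent.S24
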