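import Fermat.Agent.S24.Defs

/-!
P8-ANN: purely formal facts about the function field `FFL L N ⊆ L((q))`:
* `transcendental_jL`: the `q`-series of `j` is transcendental over `L`;
* `jdL`: the `q`-series of `j(dτ)`, `d ∣ N`, as elements of `FFL L N`;
* induction principles / ring-hom extensionality: `FFL L N` is generated as a field by the
  constants and the `jdL d`, `d ∣ N`.
-/

set_option autoImplicit false

namespace Fermat.Agent.S24

open AlgebraicCurve IntermediateField ModularCurve
open scoped MatrixGroups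

namespace FFLAlg

variable (L : Type*) [Field L]

theorem coeff_algebraMap_mul (c : L) (y : LaurentSeries L) (m : ℤ) :
    (algebraMap L (LaurentSeries L) c * y).coeff m = c * y.coeff m := by
  rw [algebraMap_laurentSeries_eq_single, HahnSeries.coeff_single_mul, sub_zero]

variable [Algebra ℚ L]

theorem coeff_coeffEmb_jq_pow_self (n : ℕ) :
    ((coeffEmb L jq) ^ n).coeff (-(n : ℤ)) = 1 := by
  rw [← map_pow, coeffEmb_coeff, coeff_jq_pow_self, map_one]

theorem coeff_coeffEmb_jq_pow_of_lt {n : ℕ} {m : ℤ} (hm : m < -(n : ℤ)) :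
    ((coeffEmb L jq) ^ n).coeff m = 0 := by
  rw [← map_pow, coeffEmb_coeff, coeff_jq_pow_of_lt hm, map_zero]

/-- The coefficient of `q ^ (-deg p)` in `p(j)` is the leading coefficient of `p`. -/
theorem coeff_aeval_jq (p : Polynomial L) :
    (Polynomial.aeval (coeffEmb L jq) p).coeff (-(p.natDegree : ℤ)) = p.leadingCoeff := by
  rw [Polynomial.aeval_eq_sum_range, HahnSeries.coeff_sum]
  rw [Finset.sum_eq_single p.natDegree]
  · rw [Algebra.smul_def, coeff_algebraMap_mul, coeff_coeffEmb_jq_pow_self, mul_one]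
    rfl
  · intro k hk hkn
    have hk' : k < p.natDegree := by
      have := Finset.mem_range.mp hk
      omega
    rw [Algebra.smul_def, coeff_algebraMap_mul,
      coeff_coeffEmb_jq_pow_of_lt L (by omega : -(p.natDegree : ℤ) < -(k : ℤ)), mul_zero]
  · intro h
    exact absurd (Finset.mem_range.mpr (Nat.lt_succ_self _)) h

theorem aeval_coeffEmb_jq_ne_zero {p : Polynomial L} (hp : p ≠ 0) :
    Polynomial.aeval (coeffEmb L jq) p ≠ 0 := by
  intro h
  have := coeff_aeval_jq L p
  rw [h, HahnSeries.coeff_zero] at this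
  exact hp (Polynomial.leadingCoeff_eq_zero.mp this.symm)

theorem coeffEmb_algebraMap (c : ℚ) :
    coeffEmb L (algebraMap ℚ (LaurentSeries ℚ) c) =
      algebraMap L (LaurentSeries L) (algebraMap ℚ L c) := by
  rw [algebraMap_laurentSeries_eq_single, algebraMap_laurentSeries_eq_single, coeffEmb,
    coeffMap_single]

end FFLAlg

variable (N : ℕ)
variable (L : Type*) [Field L] [Algebra ℚ L]

/-- The `q`-series of `j` is transcendental over the constants. -/
theorem transcendental_jL [NeZero N] : Transcendental L (jL L N) := by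
  rw [Transcendental]
  intro halg
  obtain ⟨p, hp, hp0⟩ := halg
  apply FFLAlg.aeval_coeffEmb_jq_ne_zero L hp
  have := congrArg (algebraMap (FFL L N) (LaurentSeries L)) hp0
  rw [← Polynomial.aeval_algebraMap_apply, map_zero] at this
  exact this

/-- Induction principle for the function field `FFL L N`, seen as a subset of `L((q))`: it is
generated, as a field, by the constants and the `q`-expansions of `j(dτ)`, `d ∣ N`. -/
theorem FFL_induction {P : LaurentSeries L → Prop}
    (hC : ∀ c : L, P (algebraMap L (LaurentSeries L) c))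
    (hj : ∀ (d : ℕ) [NeZero d], d ∣ N → P (coeffEmb L (qExpand ℚ d jq)))
    (hadd : ∀ x y, P x → P y → P (x + y))
    (hneg : ∀ x, P x → P (-x))
    (hmul : ∀ x y, P x → P y → P (x * y))
    (hinv : ∀ x, P x → P x⁻¹)
    {x : LaurentSeries L} (hx : x ∈ laurentBaseChange L (modularFunctionFieldFull N)) : P x := by
  have h1 : P 1 := by simpa using hC 1
  have hgen : ∀ z : LaurentSeries ℚ, z ∈ modularFunctionFieldFull N → P (coeffEmb L z) := by
    intro z hz
    have hz' : z ∈ Subfield.closure
        (Set.range (algebraMap ℚ (LaurentSeries ℚ)) ∪ divisorExpansions N) := hz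
    clear hz
    induction hz' using Subfield.closure_induction with
    | mem y hy =>
      rcases hy with ⟨c, rfl⟩ | ⟨d, hd, hdN, rfl⟩
      · rw [FFLAlg.coeffEmb_algebraMap]
        exact hC _
      · exact hj d hdN
    | one => simpa using h1
    | add x y _ _ hx hy => simpa using hadd _ _ hx hy
    | neg x _ hx => simpa using hneg _ hx
    | inv x _ hx => simpa using hinv _ hx
    | mul x y _ _ hx hy => simpa using hmul _ _ hx hy
  rw [mem_laurentBaseChange_iff] at hx
  induction hx using Subfield.closure_induction with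
  | mem y hy =>
    rcases hy with ⟨c, rfl⟩ | ⟨z, hz, rfl⟩
    · exact hC c
    · exact hgen z hz
  | one => exact h1
  | add x y _ _ hx hy => exact hadd _ _ hx hy
  | neg x _ hx => exact hneg _ hx
  | inv x _ hx => exact hinv _ hx
  | mul x y _ _ hx hy => exact hmul _ _ hx hy

variable [NeZero N]

/-- The `q`-series of `j(dτ)`, `d ∣ N`, as an element of the function field of `X₀(N)`. -/
noncomputable def jdL (d : ℕ) (hd : d ∣ N) : FFL L N :=
  haveI : NeZero d := ⟨ne_zero_of_dvd_ne_zero (NeZero.ne N) hd⟩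
  ⟨coeffEmb L (qExpand ℚ d jq), coeffEmb_mem_laurentBaseChange L (jqd_mem_full N hd)⟩

theorem coe_jdL (d : ℕ) [NeZero d] (hd : d ∣ N) :
    (jdL N L d hd : LaurentSeries L) = coeffEmb L (qExpand ℚ d jq) := rfl

theorem jdL_one : jdL N L 1 (one_dvd N) = jL L N := by
  apply Subtype.ext
  rw [coe_jdL]
  show coeffEmb L (qExpand ℚ 1 jq) = coeffEmb L jq
  rw [qExpand_one_apply]

omit [NeZero N] in
theorem coe_algebraMap_FFL (c : L) :
    ((algebraMap L (FFL L N) c : FFL L N) : LaurentSeries L) =
      algebraMap L (LaurentSeries L) c := rfl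

/-- Induction principle for the function field `FFL L N`: it is generated, as a field, by the
constants and the `jdL d`, `d ∣ N`. -/
theorem FFL_induction' {P : FFL L N → Prop}
    (hC : ∀ c : L, P (algebraMap L (FFL L N) c))
    (hj : ∀ (d : ℕ) (hd : d ∣ N), P (jdL N L d hd))
    (hadd : ∀ x y, P x → P y → P (x + y))
    (hneg : ∀ x, P x → P (-x))
    (hmul : ∀ x y, P x → P y → P (x * y))
    (hinv : ∀ x, P x → P x⁻¹)
    (f : FFL L N) : P f := by
  have key : ∀ x : LaurentSeries L, x ∈ laurentBaseChange L (modularFunctionFieldFull N) →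
      ∃ g : FFL L N, (g : LaurentSeries L) = x ∧ P g := by
    intro x hx
    refine FFL_induction N L (P := fun x => ∃ g : FFL L N, (g : LaurentSeries L) = x ∧ P g)
      ?_ ?_ ?_ ?_ ?_ ?_ hx
    · intro c
      exact ⟨algebraMap L (FFL L N) c, coe_algebraMap_FFL N L c, hC c⟩
    · intro d _ hd
      exact ⟨jdL N L d hd, coe_jdL N L d hd, hj d hd⟩
    · rintro x y ⟨g, rfl, hg⟩ ⟨h, rfl, hh⟩
      exact ⟨g + h, IntermediateField.coe_add _ g h, hadd _ _ hg hh⟩
    · rintro x ⟨g, rfl, hg⟩
      exact ⟨-g, IntermediateField.coe_neg _ g, hneg _ hg⟩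
    · rintro x y ⟨g, rfl, hg⟩ ⟨h, rfl, hh⟩
      exact ⟨g * h, IntermediateField.coe_mul _ g h, hmul _ _ hg hh⟩
    · rintro x ⟨g, rfl, hg⟩
      exact ⟨g⁻¹, IntermediateField.coe_inv _ g, hinv _ hg⟩
  obtain ⟨g, hg, hP⟩ := key f.1 f.2
  have : g = f := Subtype.ext hg
  rwa [this] at hP

/-- Two ring homomorphisms out of `FFL L N` which agree on the constants and on the `jdL d`,
`d ∣ N`, are equal. -/
theorem FFL_ringHom_ext {S : Type*} [Ring S] {φ ψ : FFL L N →+* S}
    (hC : ∀ c : L, φ (algebraMap L (FFL L N) c) = ψ (algebraMap L (FFL L N) c))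
    (hj : ∀ (d : ℕ) (hd : d ∣ N), φ (jdL N L d hd) = ψ (jdL N L d hd)) : φ = ψ := by
  ext f
  induction f using FFL_induction' with
  | hC c => exact hC c
  | hj d hd => exact hj d hd
  | hadd x y hx hy => rw [map_add, map_add, hx, hy]
  | hneg x hx => rw [map_neg, map_neg, hx]
  | hmul x y hx hy => rw [map_mul, map_mul, hx, hy]
  | hinv x hx =>
    rcases eq_or_ne x 0 with rfl | hx0
    · rw [inv_zero, map_zero, map_zero]
    · have h1 : φ x⁻¹ * φ x = 1 := by rw [← map_mul, inv_mul_cancel₀ hx0, map_one]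
      have h2 : ψ x * ψ x⁻¹ = 1 := by rw [← map_mul, mul_inv_cancel₀ hx0, map_one]
      calc φ x⁻¹ = φ x⁻¹ * (ψ x * ψ x⁻¹) := by rw [h2, mul_one]
        _ = (φ x⁻¹ * φ x) * ψ x⁻¹ := by rw [hx, mul_assoc]
        _ = ψ x⁻¹ := by rw [h1, one_mul]

/-- A ring homomorphism from `FFL L N` to a field maps into any subfield containing the images
of the constants and of the `jdL d`, `d ∣ N`. -/
theorem FFL_map_mem_subfield {S : Type*} [Field S] (Θ : FFL L N →+* S) (R : Subfield S)
    (hC : ∀ c : L, Θ (algebraMap L (FFL L N) c) ∈ R)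
    (hj : ∀ (d : ℕ) (hd : d ∣ N), Θ (jdL N L d hd) ∈ R) (f : FFL L N) : Θ f ∈ R := by
  induction f using FFL_induction' with
  | hC c => exact hC c
  | hj d hd => exact hj d hd
  | hadd x y hx hy => rw [map_add]; exact add_mem hx hy
  | hneg x hx => rw [map_neg]; exact neg_mem hx
  | hmul x y hx hy => rw [map_mul]; exact mul_mem hx hy
  | hinv x hx => rw [map_inv₀]; exact inv_mem hx

omit [NeZero N] in
/-- Variant of `FFL_map_mem_subfield` for a ring homomorphism defined on all of `L((q))`. -/
theorem FFL_map_mem_subfield' {S : Type*} [Field S] (Θ : LaurentSeries L →+* S) (R : Subfield S)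
    (hC : ∀ c : L, Θ (algebraMap L (LaurentSeries L) c) ∈ R)
    (hj : ∀ (d : ℕ) [NeZero d], d ∣ N → Θ (coeffEmb L (qExpand ℚ d jq)) ∈ R)
    {x : LaurentSeries L} (hx : x ∈ laurentBaseChange L (modularFunctionFieldFull N)) :
    Θ x ∈ R := by
  refine FFL_induction N L (P := fun x => Θ x ∈ R) hC (fun d _ hd => hj d hd) ?_ ?_ ?_ ?_ hx
  · intro x y hx hy
    rw [map_add]
    exact add_mem hx hy
  · intro x hx
    rw [map_neg]
    exact neg_mem hx
  · intro x y hx hy
    rw [map_mul]
    exact mul_mem hx hy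
  · intro x hx
    rw [map_inv₀]
    exact inv_mem hx

/-- The set of generators `jdL d`, `d ∣ N`, of the function field. -/
def jdLSet : Set (FFL L N) := {x | ∃ (d : ℕ) (hd : d ∣ N), x = jdL N L d hd}

theorem jdL_mem_jdLSet (d : ℕ) (hd : d ∣ N) : jdL N L d hd ∈ jdLSet N L := ⟨d, hd, rfl⟩

theorem jL_mem_jdLSet : jL L N ∈ jdLSet N L := ⟨1, one_dvd N, (jdL_one N L).symm⟩

theorem finite_jdLSet : (jdLSet N L).Finite := by
  have : jdLSet N L ⊆ (fun d : ℕ => if hd : d ∣ N then jdL N L d hd else 0) '' (N.divisors : Set ℕ) := by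
    rintro x ⟨d, hd, rfl⟩
    exact ⟨d, Nat.mem_divisors.mpr ⟨hd, NeZero.ne N⟩, dif_pos hd⟩
  exact (Set.Finite.image _ (Finset.finite_toSet _)).subset this

/-- `FFL L N` is generated over `L`, as a field, by the `jdL d`, `d ∣ N`. -/
theorem adjoin_jdLSet : IntermediateField.adjoin L (jdLSet N L) = ⊤ := by
  rw [eq_top_iff]
  intro f _
  induction f using FFL_induction' with
  | hC c => exact IntermediateField.algebraMap_mem _ c
  | hj d hd => exact IntermediateField.subset_adjoin L _ (jdL_mem_jdLSet N L d hd)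
  | hadd x y hx hy => exact add_mem (hx trivial) (hy trivial)
  | hneg x hx => exact neg_mem (hx trivial)
  | hmul x y hx hy => exact mul_mem (hx trivial) (hy trivial)
  | hinv x hx => exact inv_mem (hx trivial)

end Fermat.Agent.S24
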