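import Fermat.Agent.S24.PlacesBasic

/-!
P8-ALG-1d: function fields of one variable over an algebraically closed field: transcendence
facts, and all places have degree one (residue field `K`).
-/

set_option autoImplicit false

namespace Fermat.Agent.S24

open AlgebraicCurve IntermediateField

variable {K F : Type*} [Field K] [Field F] [Algebra K F]

theorem PlacesDeg.adjoin_sub_algebraMap (x : F) (c : K) :
    K⟮x - algebraMap K F c⟯ = K⟮x⟯ := by
  apply le_antisymm
  · rw [adjoin_simple_le_iff]
    exact sub_mem (mem_adjoin_simple_self K x) (IntermediateField.algebraMap_mem _ c)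
  · rw [adjoin_simple_le_iff]
    have h : (x - algebraMap K F c) + algebraMap K F c ∈ K⟮x - algebraMap K F c⟯ :=
      add_mem (mem_adjoin_simple_self K _) (IntermediateField.algebraMap_mem _ c)
    rwa [sub_add_cancel] at h

theorem PlacesDeg.adjoin_inv (x : F) : K⟮x⁻¹⟯ = K⟮x⟯ := by
  apply le_antisymm
  · rw [adjoin_simple_le_iff]
    exact inv_mem (mem_adjoin_simple_self K x)
  · rw [adjoin_simple_le_iff]
    have h : (x⁻¹)⁻¹ ∈ K⟮x⁻¹⟯ := inv_mem (mem_adjoin_simple_self K _)
    rwa [inv_inv] at h

theorem PlacesDeg.transcendental_sub_algebraMap {x : F} (hx : Transcendental K x) (c : K) :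
    Transcendental K (x - algebraMap K F c) := by
  intro h
  apply hx
  have h2 : IsAlgebraic K ((x - algebraMap K F c) + algebraMap K F c) :=
    h.add (isAlgebraic_algebraMap c)
  rwa [sub_add_cancel] at h2

theorem PlacesDeg.transcendental_inv {x : F} (hx : Transcendental K x) :
    Transcendental K x⁻¹ := by
  intro h
  exact hx (IsAlgebraic.inv_iff.mp h)

open scoped IntermediateField.algebraAdjoinAdjoin in
/-- If `F` is algebraic over `K(x)` and `y` is transcendental over `K`, then `F` is algebraic
over `K(y)` (transcendence degree one; no hypothesis on `x` is needed). -/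
theorem PlacesDeg.aux_isAlgebraic_adjoin (x : F) [Algebra.IsAlgebraic K⟮x⟯ F] {y : F}
    (hy : Transcendental K y) : Algebra.IsAlgebraic K⟮y⟯ F := by
  have halgx : Algebra.IsAlgebraic (Algebra.adjoin K ({x} : Set F)) F :=
    Algebra.IsAlgebraic.trans (Algebra.adjoin K ({x} : Set F)) K⟮x⟯ F
  have htr : Algebra.trdeg K F ≤ 1 := by
    have := Algebra.IsAlgebraic.trdeg_le_cardinalMk K ({x} : Set F)
    simpa using this
  have hind : AlgebraicIndependent K (Subtype.val : ({y} : Set F) → F) := by
    rw [algebraicIndependent_singleton_iff ⟨y, rfl⟩]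
    exact hy
  have hbasis : IsTranscendenceBasis K (Subtype.val : ({y} : Set F) → F) :=
    hind.isTranscendenceBasis_of_trdeg_le_of_finite (by simpa using htr)
  have halgy := hbasis.isAlgebraic_field
  rw [Subtype.range_coe] at halgy
  exact halgy

/-- `F` is finite over `K(y)` for every transcendental `y`. -/
theorem PlacesDeg.finiteDimensional_adjoin_of_transcendental {x : F} (hx : Transcendental K x)
    [FiniteDimensional K⟮x⟯ F] {y : F} (hy : Transcendental K y) :
    FiniteDimensional K⟮y⟯ F := by
  have _ := hx
  have halgy : Algebra.IsAlgebraic K⟮y⟯ F := PlacesDeg.aux_isAlgebraic_adjoin x hy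
  have h1 : Algebra.EssFiniteType K K⟮x⟯ :=
    IntermediateField.essFiniteType_iff.mpr
      (IntermediateField.fg_adjoin_of_finite (Set.finite_singleton x))
  have h2 : Algebra.EssFiniteType K F := Algebra.EssFiniteType.comp K K⟮x⟯ F
  have h3 : Algebra.EssFiniteType K⟮y⟯ F := Algebra.EssFiniteType.of_comp K K⟮y⟯ F
  exact Algebra.finite_of_essFiniteType_of_isAlgebraic

theorem PlacesDeg.transcendental_of_not_mem_range [IsAlgClosed K] {y : F}
    (hy : y ∉ Set.range (algebraMap K F)) : Transcendental K y := by
  intro h
  apply hy
  have hint : IsIntegral K y := h.isIntegral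
  have hdeg : (minpoly K y).degree = 1 :=
    IsAlgClosed.degree_eq_one_of_irreducible K (minpoly.irreducible hint)
  exact minpoly.mem_range_of_degree_eq_one K y hdeg

/-- Residues of elements of the valuation ring of a place are algebraic over `K`, as soon as
`F` is algebraic over some `K(x)`: otherwise the valuation ring would contain a subfield `K(y)`
over which `F` is algebraic, hence would be all of `F`. (No hypothesis on `K`.) -/
theorem PlacesDeg.aux_residue_isAlgebraic (x : F) [Algebra.IsAlgebraic K⟮x⟯ F] (v : Place K F)
    (y : v.toValuationSubring) :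
    IsAlgebraic K (IsLocalRing.residue v.toValuationSubring y) := by
  by_contra htr
  have hy' : Transcendental K (y : F) := by
    intro halg
    apply htr
    have h1 : IsAlgebraic K y :=
      (isAlgebraic_algHom_iff (IsScalarTower.toAlgHom K v.toValuationSubring F)
        Subtype.val_injective).mp halg
    exact h1.algHom (IsScalarTower.toAlgHom K v.toValuationSubring v.ResidueField)
  have halgF : Algebra.IsAlgebraic K⟮(y : F)⟯ F := PlacesDeg.aux_isAlgebraic_adjoin x hy'
  have hcoe : ∀ q : Polynomial K,
      Polynomial.aeval (y : F) q = ((Polynomial.aeval y q : v.toValuationSubring) : F) := by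
    intro q
    exact Polynomial.aeval_algHom_apply (IsScalarTower.toAlgHom K v.toValuationSubring F) y q
  have hsub : ∀ z ∈ K⟮(y : F)⟯, z ∈ v.toValuationSubring := by
    intro z hz
    rw [IntermediateField.mem_adjoin_simple_iff] at hz
    obtain ⟨r, s, rfl⟩ := hz
    by_cases hs : s = 0
    · rw [hs, map_zero, div_zero]
      exact zero_mem _
    · have hunit : IsUnit (Polynomial.aeval y s) := by
        rw [← IsLocalRing.residue_ne_zero_iff_isUnit]
        intro h0
        apply htr
        refine ⟨s, hs, ?_⟩
        have := Polynomial.aeval_algHom_apply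
          (IsScalarTower.toAlgHom K v.toValuationSubring v.ResidueField) y s
        exact this.trans h0
      obtain ⟨u, hu⟩ := hunit
      rw [hcoe r, hcoe s, ← hu]
      have : ((Polynomial.aeval y r : v.toValuationSubring) : F) / ((u : v.toValuationSubring) : F)
          = ((Polynomial.aeval y r * ((u⁻¹ : (v.toValuationSubring)ˣ) : v.toValuationSubring) :
              v.toValuationSubring) : F) := by
        have hu0 : ((u : v.toValuationSubring) : F) ≠ 0 := by
          simp [ne_eq, ZeroMemClass.coe_eq_zero]
        rw [div_eq_iff hu0]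
        push_cast
        rw [mul_assoc]
        have h1 : (((u⁻¹ : (v.toValuationSubring)ˣ) : v.toValuationSubring) : F)
            * ((u : v.toValuationSubring) : F) = 1 := by
          have h2 : ((u⁻¹ : (v.toValuationSubring)ˣ) : v.toValuationSubring)
              * (u : v.toValuationSubring) = 1 := u.inv_mul
          have h3 := congrArg (fun a : v.toValuationSubring => (a : F)) h2
          simpa only [MulMemClass.coe_mul, OneMemClass.coe_one] using h3
        rw [h1, mul_one]
      rw [this]
      exact Subtype.mem _
  apply v.ne_top'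
  rw [eq_top_iff]
  intro f _
  have hint : IsIntegral K⟮(y : F)⟯ f := (halgF.isAlgebraic f).isIntegral
  obtain ⟨p, hp, hpf⟩ := hint
  let φ : K⟮(y : F)⟯ →+* v.toValuationSubring :=
    (algebraMap K⟮(y : F)⟯ F).codRestrict v.toValuationSubring.toSubring
      (fun z => hsub _ z.2)
  have hint' : IsIntegral v.toValuationSubring f := by
    refine ⟨p.map φ, hp.map φ, ?_⟩
    rw [Polynomial.eval₂_map]
    exact hpf
  obtain ⟨w, hw⟩ := IsIntegrallyClosed.isIntegral_iff.mp hint'
  rw [← hw]
  exact w.2

/-- The residue field of every place is `K`. -/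
theorem PlacesDeg.surjective_algebraMap_residueField [IsAlgClosed K] {x : F}
    (hx : Transcendental K x) [FiniteDimensional K⟮x⟯ F] (v : Place K F) :
    Function.Surjective (algebraMap K v.ResidueField) := by
  have _ := hx
  have halg : Algebra.IsIntegral K v.ResidueField := by
    constructor
    intro z
    obtain ⟨y, rfl⟩ := IsLocalRing.residue_surjective z
    exact (PlacesDeg.aux_residue_isAlgebraic x v y).isIntegral
  exact (IsAlgClosed.algebraMap_bijective_of_isIntegral (k := K) (K := v.ResidueField)).2

/-- All places have degree one. -/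
theorem PlacesDeg.place_deg_eq_one [IsAlgClosed K] {x : F} (hx : Transcendental K x)
    [FiniteDimensional K⟮x⟯ F] (v : Place K F) : v.deg = 1 := by
  have hsurj := PlacesDeg.surjective_algebraMap_residueField hx v
  have hbij : Function.Bijective (Algebra.linearMap K v.ResidueField) :=
    ⟨(algebraMap K v.ResidueField).injective, hsurj⟩
  unfold Place.deg
  rw [← (LinearEquiv.ofBijective (Algebra.linearMap K v.ResidueField) hbij).finrank_eq,
    Module.finrank_self]

theorem PlacesDeg.exists_sub_mem_maximal [IsAlgClosed K] {x : F} (hx : Transcendental K x)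
    [FiniteDimensional K⟮x⟯ F] (v : Place K F) {f : F} (hf : 0 ≤ v.ord f) :
    ∃ c : K, f = algebraMap K F c ∨ 0 < v.ord (f - algebraMap K F c) := by
  rcases eq_or_ne f 0 with rfl | hf0
  · exact ⟨0, Or.inl (map_zero _).symm⟩
  have hfO : f ∈ v.toValuationSubring := (PlacesBasic.mem_iff_ord_nonneg v hf0).mpr hf
  obtain ⟨c, hc⟩ := PlacesDeg.surjective_algebraMap_residueField hx v
    (IsLocalRing.residue v.toValuationSubring ⟨f, hfO⟩)
  refine ⟨c, ?_⟩
  by_cases h : f = algebraMap K F c
  · exact Or.inl h
  right
  have hmem : ((⟨f, hfO⟩ : v.toValuationSubring) - algebraMap K v.toValuationSubring c)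
      ∈ IsLocalRing.maximalIdeal v.toValuationSubring := by
    rw [← IsLocalRing.residue_eq_zero_iff, map_sub, sub_eq_zero, ← hc]
    exact (IsScalarTower.algebraMap_apply K v.toValuationSubring v.ResidueField c).symm
  have hne : ((⟨f, hfO⟩ : v.toValuationSubring) - algebraMap K v.toValuationSubring c) ≠ 0 := by
    intro h0
    apply h
    have h1 := congrArg (fun a : v.toValuationSubring => (a : F)) h0
    have h2 : f - algebraMap K F c = 0 := h1
    exact sub_eq_zero.mp h2
  exact (PlacesBasic.ord_pos_iff_mem_maximalIdeal v hne).mpr hmem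

end Fermat.Agent.S24
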