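import Fermat.Agent.S24.Defs

/-!
P8-ALG-1c: the Dedekind setup `A = K[y] ⊆ B = integral closure of A in F`, for `y ∈ F`
transcendental over `K` with `F / K(y)` finite.
-/

set_option autoImplicit false

namespace Fermat.Agent.S24

open AlgebraicCurve IntermediateField IsDedekindDomain
open scoped IntermediateField.algebraAdjoinAdjoin

variable {K F : Type*} [Field K] [Field F] [Algebra K F] {y : F}

/-- `y` as an element of `K[y] = Algebra.adjoin K {y}`. -/
def PlacesSetup.gen (K : Type*) {F : Type*} [Field K] [Field F] [Algebra K F] (y : F) :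
    Algebra.adjoin K {y} :=
  ⟨y, Algebra.self_mem_adjoin_singleton K y⟩

@[simp] theorem PlacesSetup.coe_gen : ((PlacesSetup.gen K y : Algebra.adjoin K {y}) : F) = y := rfl

theorem PlacesSetup.isPrincipalIdealRing (hy : Transcendental K y) :
    IsPrincipalIdealRing (Algebra.adjoin K {y}) :=
  IsPrincipalIdealRing.of_surjective
    (Polynomial.algEquivOfTranscendental K y hy).toRingEquiv.toRingHom
    (Polynomial.algEquivOfTranscendental K y hy).surjective

theorem PlacesSetup.isDedekindDomain [CharZero K] [FiniteDimensional K⟮y⟯ F]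
    (hy : Transcendental K y) :
    IsDedekindDomain (integralClosure (Algebra.adjoin K {y}) F) := by
  have := PlacesSetup.isPrincipalIdealRing hy
  exact integralClosure.isDedekindDomain (Algebra.adjoin K {y}) K⟮y⟯ F

theorem PlacesSetup.isFractionRing [FiniteDimensional K⟮y⟯ F] :
    IsFractionRing (integralClosure (Algebra.adjoin K {y}) F) F :=
  integralClosure.isFractionRing_of_finite_extension K⟮y⟯ F

theorem PlacesSetup.moduleFinite [CharZero K] [FiniteDimensional K⟮y⟯ F]
    (hy : Transcendental K y) :
    Module.Finite (Algebra.adjoin K {y}) (integralClosure (Algebra.adjoin K {y}) F) := by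
  have := PlacesSetup.isPrincipalIdealRing hy
  exact IsIntegralClosure.finite (Algebra.adjoin K {y}) K⟮y⟯ F _

theorem PlacesSetup.finrank_eq [CharZero K] [FiniteDimensional K⟮y⟯ F]
    (hy : Transcendental K y) :
    Module.finrank (Algebra.adjoin K {y}) (integralClosure (Algebra.adjoin K {y}) F)
      = Module.finrank K⟮y⟯ F := by
  have := PlacesSetup.isFractionRing (K := K) (F := F) (y := y)
  exact (IsFractionRing.finrank_eq (Algebra.adjoin K {y}) K⟮y⟯
    (integralClosure (Algebra.adjoin K {y}) F) F).symm

theorem PlacesSetup.gen_ne_zero (hy : Transcendental K y) : PlacesSetup.gen K y ≠ 0 := by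
  intro h
  have h0 : y = 0 := congrArg Subtype.val h
  exact hy (h0 ▸ isAlgebraic_zero)

theorem PlacesSetup.gen_eq (hy : Transcendental K y) :
    PlacesSetup.gen K y = Polynomial.algEquivOfTranscendental K y hy Polynomial.X := by
  simp [PlacesSetup.gen]

theorem PlacesSetup.irreducible_gen (hy : Transcendental K y) :
    Irreducible (PlacesSetup.gen K y) := by
  rw [PlacesSetup.gen_eq hy]
  exact (MulEquiv.irreducible_iff
    (Polynomial.algEquivOfTranscendental K y hy).toMulEquiv).mpr Polynomial.irreducible_X

theorem PlacesSetup.span_gen_isMaximal (hy : Transcendental K y) :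
    (Ideal.span {PlacesSetup.gen K y}).IsMaximal := by
  have := PlacesSetup.isPrincipalIdealRing hy
  exact PrincipalIdealRing.isMaximal_of_irreducible (PlacesSetup.irreducible_gen hy)

theorem PlacesSetup.span_gen_ne_bot (hy : Transcendental K y) :
    Ideal.span {PlacesSetup.gen K y} ≠ ⊥ := by
  rw [Ne, Ideal.span_singleton_eq_bot]
  exact PlacesSetup.gen_ne_zero hy

/-- every element of `K[y]` is a polynomial in `y`. -/
theorem PlacesSetup.exists_aeval_eq (a : Algebra.adjoin K {y}) :
    ∃ p : Polynomial K, (a : F) = Polynomial.aeval y p := by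
  obtain ⟨p, hp⟩ := Algebra.adjoin_mem_exists_aeval K y a.2
  exact ⟨p, hp.symm⟩

/-- every element of `K[y]` is a polynomial in `gen`. -/
theorem PlacesSetup.exists_aeval_gen_eq (a : Algebra.adjoin K {y}) :
    ∃ p : Polynomial K, a = Polynomial.aeval (PlacesSetup.gen K y) p := by
  obtain ⟨p, hp⟩ := PlacesSetup.exists_aeval_eq a
  refine ⟨p, Subtype.ext ?_⟩
  rw [hp, ← PlacesSetup.coe_gen (K := K) (y := y)]
  exact (Polynomial.aeval_algebraMap_apply F (PlacesSetup.gen K y) p).symm ▸ rfl

/-- `K → K[y]/(y)` is bijective. -/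
theorem PlacesSetup.bijective_algebraMap_quotient (hy : Transcendental K y) :
    Function.Bijective
      (algebraMap K (Algebra.adjoin K {y} ⧸ Ideal.span {PlacesSetup.gen K y})) := by
  have hmax := PlacesSetup.span_gen_isMaximal hy
  have : Nontrivial (Algebra.adjoin K {y} ⧸ Ideal.span {PlacesSetup.gen K y}) :=
    Ideal.Quotient.nontrivial_iff.mpr hmax.ne_top
  refine ⟨(algebraMap K _).injective, fun z => ?_⟩
  obtain ⟨a, rfl⟩ := Ideal.Quotient.mk_surjective z
  obtain ⟨p, rfl⟩ := PlacesSetup.exists_aeval_gen_eq a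
  refine ⟨p.coeff 0, ?_⟩
  rw [IsScalarTower.algebraMap_apply K (Algebra.adjoin K {y})
    (Algebra.adjoin K {y} ⧸ Ideal.span {PlacesSetup.gen K y}), Ideal.Quotient.algebraMap_eq,
    Ideal.Quotient.eq, Ideal.mem_span_singleton]
  obtain ⟨q, hq⟩ := Polynomial.X_dvd_sub_C (p := p)
  refine ⟨-Polynomial.aeval (PlacesSetup.gen K y) q, ?_⟩
  have h2 := congrArg (Polynomial.aeval (PlacesSetup.gen K y)) hq
  simp only [map_sub, Polynomial.aeval_C, map_mul, Polynomial.aeval_X] at h2
  rw [mul_neg, ← h2]
  ring

/-- If `y` is regular at the place `v`, then the integral closure of `K[y]` is contained in the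
valuation ring of `v`. -/
theorem PlacesSetup.coe_mem_of_mem (v : Place K F) (hv : y ∈ v.toValuationSubring)
    (b : integralClosure (Algebra.adjoin K {y}) F) : (b : F) ∈ v.toValuationSubring := by
  -- `K[y] ⊆ O_v`
  let S : Subalgebra K F :=
    { v.toValuationSubring.toSubring with algebraMap_mem' := v.algebraMap_mem' }
  have hle : Algebra.adjoin K {y} ≤ S := Algebra.adjoin_le (Set.singleton_subset_iff.mpr hv)
  let ι : Algebra.adjoin K {y} →+* v.toValuationSubring :=
    (algebraMap (Algebra.adjoin K {y}) F).codRestrict v.toValuationSubring.toSubring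
      (fun a => hle a.2)
  have hι : (algebraMap v.toValuationSubring F).comp ι = algebraMap (Algebra.adjoin K {y}) F :=
    RingHom.ext fun a => rfl
  obtain ⟨p, hpm, hp⟩ := b.2
  have hint : IsIntegral v.toValuationSubring (b : F) := by
    refine ⟨p.map ι, hpm.map ι, ?_⟩
    rw [Polynomial.eval₂_map, hι]
    exact hp
  obtain ⟨x, hx⟩ := IsIntegrallyClosed.isIntegral_iff.mp hint
  rw [← hx]
  exact x.2

end Fermat.Agent.S24
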