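import Fermat.Agent.S24.PlacesHOS
import Fermat.Agent.S24.PlacesSetup

/-!
P8-ALG-1f: separating elements for the places over the zero of `y`.
-/

set_option autoImplicit false

namespace Fermat.Agent.S24

open AlgebraicCurve IntermediateField IsDedekindDomain

variable {K F : Type*} [Field K] [Field F] [Algebra K F] [IsAlgClosed K] [CharZero K]

/-- In a Dedekind domain, given a height one prime `Q` containing a nonzero element `r`, there is
a nonzero element of `Q` lying in no other height one prime containing `r`. -/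
theorem PlacesSep.aux_exists_mem_not_mem {R : Type*} [CommRing R] [IsDedekindDomain R]
    (Q : HeightOneSpectrum R) {r : R} (hr : r ≠ 0) (hrQ : r ∈ Q.asIdeal) :
    ∃ b : R, b ≠ 0 ∧ b ∈ Q.asIdeal ∧
      ∀ Q' : HeightOneSpectrum R, Q' ≠ Q → r ∈ Q'.asIdeal → b ∉ Q'.asIdeal := by
  classical
  have hI : Ideal.span {r} ≠ (0 : Ideal R) := by
    rw [Ideal.zero_eq_bot, Ne, Ideal.span_singleton_eq_bot]
    exact hr
  have hfin := Ideal.finite_factors hI
  have hmem : ∀ Q' : HeightOneSpectrum R, Q' ∈ hfin.toFinset ↔ r ∈ Q'.asIdeal := by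
    intro Q'
    rw [Set.Finite.mem_toFinset]
    exact Ideal.dvd_span_singleton
  -- Chinese remainder theorem: `b0 ≡ 0 mod Q` and `b0 ≡ 1` modulo the other primes over `r`
  obtain ⟨b0, hb0⟩ := IsDedekindDomain.exists_forall_sub_mem_ideal (s := hfin.toFinset)
    (fun Q' : HeightOneSpectrum R => Q'.asIdeal) (fun _ => 1) (fun Q' _ => Q'.prime)
    (fun Q₁ _ Q₂ _ h12 h => h12 (HeightOneSpectrum.ext h))
    (fun Q' => if (Q' : HeightOneSpectrum R) = Q then 0 else 1)
  have hb0Q : b0 ∈ Q.asIdeal := by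
    have h := hb0 Q ((hmem Q).mpr hrQ)
    rw [if_pos rfl, pow_one, sub_zero] at h
    exact h
  have hb0Q' : ∀ Q' : HeightOneSpectrum R, Q' ≠ Q → r ∈ Q'.asIdeal → b0 ∉ Q'.asIdeal := by
    intro Q' hne hrQ' hb
    have h := hb0 Q' ((hmem Q').mpr hrQ')
    rw [if_neg hne, pow_one] at h
    have h1 : (1 : R) ∈ Q'.asIdeal := by
      have h2 := Q'.asIdeal.sub_mem hb h
      rwa [sub_sub_cancel] at h2
    exact Q'.isPrime.ne_top ((Ideal.eq_top_iff_one _).mpr h1)
  by_cases hb : b0 = 0
  · refine ⟨r, hr, hrQ, fun Q' hne hrQ' _ => hb0Q' Q' hne hrQ' ?_⟩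
    rw [hb]
    exact Q'.asIdeal.zero_mem
  · exact ⟨b0, hb, hb0Q, hb0Q'⟩

omit [IsAlgClosed K] in
open scoped IntermediateField.algebraAdjoinAdjoin in
/-- `PlacesSep.exists_separating` without the assumption that `K` is algebraically closed. -/
theorem PlacesSep.aux_exists_separating {y : F} (hy : Transcendental K y)
    [FiniteDimensional K⟮y⟯ F] {v : Place K F} (hv : v ∈ zeroPlaces K y) :
    ∃ f : F, f ≠ 0 ∧ 0 < v.ord f ∧ (∀ w ∈ zeroPlaces K y, w ≠ v → w.ord f = 0) ∧
      ∃ p : Polynomial K, algebraMap K⟮y⟯ F (Algebra.norm K⟮y⟯ f) = y * Polynomial.aeval y p := by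
  have := PlacesSetup.isPrincipalIdealRing hy
  have := PlacesSetup.isDedekindDomain (F := F) hy
  have := PlacesSetup.isFractionRing (K := K) (F := F) (y := y)
  have := PlacesSetup.moduleFinite (F := F) hy
  have hy0 : y ≠ 0 := fun h => hy (h ▸ isAlgebraic_zero)
  -- `y` as an element of `B`
  have hyB0 : algebraMap (Algebra.adjoin K {y}) (integralClosure (Algebra.adjoin K {y}) F)
      (PlacesSetup.gen K y) ≠ 0 := fun h => hy0 (congrArg Subtype.val h)
  -- dictionary between the places over the zero of `y` and the primes of `B` containing `y`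
  have dict : ∀ w ∈ zeroPlaces K y,
      ∃ Qw : HeightOneSpectrum (integralClosure (Algebra.adjoin K {y}) F),
        Place.ofHeightOneSpectrum (K := K) Qw = w ∧
        algebraMap (Algebra.adjoin K {y}) (integralClosure (Algebra.adjoin K {y}) F)
          (PlacesSetup.gen K y) ∈ Qw.asIdeal := by
    intro w hw
    have hyw : y ∈ w.toValuationSubring :=
      (PlacesBasic.mem_iff_ord_nonneg w hy0).mpr (le_of_lt hw)
    obtain ⟨Qw, hQw⟩ := PlacesHOS.exists_ofHeightOneSpectrum_eq
      (R := integralClosure (Algebra.adjoin K {y}) F) w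
      (fun b => PlacesSetup.coe_mem_of_mem w hyw b)
    refine ⟨Qw, hQw, ?_⟩
    rw [← PlacesHOS.ord_algebraMap_pos_iff (K := K) (F := F) Qw hyB0, hQw]
    exact hw
  obtain ⟨Q, hQv, hyQ⟩ := dict v hv
  -- the separating element
  obtain ⟨b, hb0, hbQ, hbQ'⟩ := PlacesSep.aux_exists_mem_not_mem Q hyB0 hyQ
  refine ⟨algebraMap (integralClosure (Algebra.adjoin K {y}) F) F b, ?_, ?_, ?_, ?_⟩
  · intro h
    exact hb0 (Subtype.ext h)
  · rw [← hQv]
    exact (PlacesHOS.ord_algebraMap_pos_iff Q hb0).mpr hbQ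
  · intro w hw hwv
    obtain ⟨Qw, hQw, hyQw⟩ := dict w hw
    have hne : Qw ≠ Q := fun h => hwv (by rw [← hQw, ← hQv, h])
    have h1 := hbQ' Qw hne hyQw
    have h2 := PlacesHOS.ord_algebraMap_nonneg (K := K) (F := F) Qw b
    have h3 := (PlacesHOS.ord_algebraMap_pos_iff (K := K) (F := F) Qw hb0).not.mpr h1
    rw [hQw] at h2 h3
    omega
  · -- the norm of `b` is the image of `intNorm b ∈ A`, which lies in `Q ∩ A = (y)`
    have h1 : algebraMap (Algebra.adjoin K {y}) K⟮y⟯
        (Algebra.intNorm (Algebra.adjoin K {y}) (integralClosure (Algebra.adjoin K {y}) F) b)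
        = Algebra.norm K⟮y⟯ (algebraMap (integralClosure (Algebra.adjoin K {y}) F) F b) :=
      Algebra.algebraMap_intNorm (A := Algebra.adjoin K {y}) (K := K⟮y⟯) (L := F)
        (B := integralClosure (Algebra.adjoin K {y}) F) b
    have h2 : b ∣ algebraMap (Algebra.adjoin K {y}) (integralClosure (Algebra.adjoin K {y}) F)
        (Algebra.intNorm (Algebra.adjoin K {y}) (integralClosure (Algebra.adjoin K {y}) F) b) :=
      Algebra.dvd_algebraMap_intNorm_self _ _ b
    have h3 : algebraMap (Algebra.adjoin K {y}) (integralClosure (Algebra.adjoin K {y}) F)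
        (Algebra.intNorm (Algebra.adjoin K {y}) (integralClosure (Algebra.adjoin K {y}) F) b)
        ∈ Q.asIdeal := Ideal.mem_of_dvd _ h2 hbQ
    have h4 : Algebra.intNorm (Algebra.adjoin K {y}) (integralClosure (Algebra.adjoin K {y}) F) b
        ∈ Q.asIdeal.comap
          (algebraMap (Algebra.adjoin K {y}) (integralClosure (Algebra.adjoin K {y}) F)) := h3
    have h5 : PlacesSetup.gen K y ∈ Q.asIdeal.comap
        (algebraMap (Algebra.adjoin K {y}) (integralClosure (Algebra.adjoin K {y}) F)) := hyQ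
    have h6 : Ideal.span {PlacesSetup.gen K y} = Q.asIdeal.comap
        (algebraMap (Algebra.adjoin K {y}) (integralClosure (Algebra.adjoin K {y}) F)) :=
      (PlacesSetup.span_gen_isMaximal hy).eq_of_le (Ideal.comap_ne_top _ Q.isPrime.ne_top)
        ((Ideal.span_singleton_le_iff_mem _).mpr h5)
    rw [← h6, Ideal.mem_span_singleton'] at h4
    obtain ⟨a', ha'⟩ := h4
    obtain ⟨p, hp⟩ := PlacesSetup.exists_aeval_eq a'
    refine ⟨p, ?_⟩
    rw [← h1, ← hp, ← ha']
    exact mul_comm (a' : F) y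

set_option linter.unusedSectionVars false in
/-- Separating elements: for a place `v` over the zero of `y` there is `f` vanishing at `v`, a unit
at the other places over the zero of `y`, whose norm to `K(y)` is `y` times a polynomial in `y`. -/
theorem PlacesSep.exists_separating {y : F} (hy : Transcendental K y) [FiniteDimensional K⟮y⟯ F]
    {v : Place K F} (hv : v ∈ zeroPlaces K y) :
    ∃ f : F, f ≠ 0 ∧ 0 < v.ord f ∧ (∀ w ∈ zeroPlaces K y, w ≠ v → w.ord f = 0) ∧
      ∃ p : Polynomial K, algebraMap K⟮y⟯ F (Algebra.norm K⟮y⟯ f) = y * Polynomial.aeval y p :=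
  PlacesSep.aux_exists_separating hy hv

end Fermat.Agent.S24
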