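import Fermat.Agent.S24.PlacesHOS
import Fermat.Agent.S24.PlacesSetup

/-!
P8-ALG-1e: the fibre of `F / K(y)` over the zero of `y` is finite and `∑ e = n`.
-/

set_option autoImplicit false

namespace Fermat.Agent.S24

open AlgebraicCurve IntermediateField IsDedekindDomain

/-- If `k` is algebraically closed and `k → A/p` is surjective, every prime ideal of a finite
`A`-algebra `B` lying over `p` has residue degree `1`. -/
theorem PlacesSum.finrank_quotient_eq_one {k A B : Type*} [Field k] [IsAlgClosed k]
    [CommRing A] [CommRing B] [Algebra k A] [Algebra A B] [Algebra k B] [IsScalarTower k A B]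
    [Module.Finite A B] (p : Ideal A) [p.IsPrime] (q : Ideal B) [q.IsPrime] [q.LiesOver p]
    (hsurj : Function.Surjective (algebraMap k (A ⧸ p))) :
    Module.finrank (A ⧸ p) (B ⧸ q) = 1 := by
  have : Module.Finite k (A ⧸ p) :=
    Module.Finite.of_surjective (Algebra.linearMap k (A ⧸ p)) hsurj
  have : Module.Finite (A ⧸ p) (B ⧸ q) := Module.Finite.of_restrictScalars_finite A _ _
  have : Module.Finite k (B ⧸ q) := Module.Finite.trans (A ⧸ p) (B ⧸ q)
  have h1 : Function.Bijective (algebraMap k (B ⧸ q)) :=
    IsAlgClosed.algebraMap_bijective_of_isIntegral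
  have h2 : Function.Bijective (algebraMap (A ⧸ p) (B ⧸ q)) := by
    refine ⟨FaithfulSMul.algebraMap_injective _ _, fun x => ?_⟩
    obtain ⟨c, rfl⟩ := h1.2 x
    exact ⟨algebraMap k (A ⧸ p) c, (IsScalarTower.algebraMap_apply k (A ⧸ p) (B ⧸ q) c).symm⟩
  exact ((LinearEquiv.ofBijective (Algebra.linearMap (A ⧸ p) (B ⧸ q)) h2).finrank_eq).symm.trans
    (Module.finrank_self _)

/-- The fundamental identity `∑ e = n` over a principal maximal ideal `(a)` with algebraically
closed residue field `k`, for a finite flat extension `B / A` with `B` Dedekind. -/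
theorem PlacesSum.sum_multiplicity_eq_finrank {k A B : Type*} [Field k] [IsAlgClosed k]
    [CommRing A] [IsDomain A] [CommRing B] [IsDedekindDomain B]
    [Algebra k A] [Algebra A B] [Algebra k B] [IsScalarTower k A B]
    [Module.Finite A B] [Module.Flat A B]
    {a : A} (hab : algebraMap A B a ≠ 0) (hmax : (Ideal.span {a}).IsMaximal)
    (hsurj : Function.Surjective (algebraMap k (A ⧸ Ideal.span {a}))) :
    ∑ᶠ w ∈ {w : HeightOneSpectrum B | algebraMap A B a ∈ w.asIdeal},
      multiplicity w.asIdeal (Ideal.span {algebraMap A B a}) = Module.finrank A B := by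
  classical
  set p : Ideal A := Ideal.span {a} with hp
  have hpmap : p.map (algebraMap A B) = Ideal.span {algebraMap A B a} := by
    rw [hp, Ideal.map_span, Set.image_singleton]
  have hpmap0 : p.map (algebraMap A B) ≠ ⊥ := by
    rw [hpmap, Ne, Ideal.span_singleton_eq_bot]
    exact hab
  have hfin : (p.primesOver B).Finite := Algebra.QuasiFinite.finite_primesOver p
  have := hfin.fintype
  rw [← Ideal.sum_ramification_inertia_eq_finrank p B, ← finsum_eq_sum_of_fintype,
    ← finsum_set_coe_eq_finsum_mem]
  symm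
  have hmem : ∀ q : p.primesOver B, algebraMap A B a ∈ (q : Ideal B) := by
    intro q
    have h2 : a ∈ (q : Ideal B).under A := by
      rw [← (q.2.2).over]
      exact Ideal.mem_span_singleton_self a
    exact h2
  have hne : ∀ q : p.primesOver B, (q : Ideal B) ≠ ⊥ := by
    intro q h
    apply hab
    have h1 := hmem q
    rw [h] at h1
    exact h1
  refine finsum_eq_of_bijective
    (fun q : p.primesOver B => (⟨⟨q.1, q.2.1, hne q⟩, hmem q⟩ :
      {w : HeightOneSpectrum B | algebraMap A B a ∈ w.asIdeal})) ⟨?_, ?_⟩ ?_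
  · intro q₁ q₂ h
    apply Subtype.ext
    have := congrArg (fun w : {w : HeightOneSpectrum B | algebraMap A B a ∈ w.asIdeal} =>
      w.1.asIdeal) h
    exact this
  · rintro ⟨w, hw⟩
    have hlies : w.asIdeal.LiesOver p := by
      refine ⟨(hmax.eq_of_le ?_ ?_)⟩
      · exact (Ideal.IsPrime.under A w.asIdeal).ne_top
      · rw [hp, Ideal.span_singleton_le_iff_mem]
        exact hw
    exact ⟨⟨w.asIdeal, w.isPrime, hlies⟩, rfl⟩
  · intro q
    have : (q : Ideal B).IsMaximal := q.2.1.isMaximal (hne q)
    have hq1 : (q : Ideal B).inertiaDeg A = 1 := by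
      rw [Ideal.inertiaDeg_eq_of_isMaximal p (q : Ideal B)]
      exact PlacesSum.finrank_quotient_eq_one p (q : Ideal B) hsurj
    rw [hq1, mul_one, Ideal.IsDedekindDomain.ramificationIdx_eq_multiplicity p (q : Ideal B) hpmap0,
      hpmap]

variable {K F : Type*} [Field K] [Field F] [Algebra K F] [IsAlgClosed K] [CharZero K]

open scoped IntermediateField.algebraAdjoinAdjoin in
/-- Both statements on the fibre over the zero of `y` at once. -/
theorem PlacesSum.finite_and_sum {y : F} (hy : Transcendental K y)
    [FiniteDimensional K⟮y⟯ F] :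
    (zeroPlaces K y).Finite ∧
      ∑ᶠ v ∈ zeroPlaces K y, v.ord y = (Module.finrank K⟮y⟯ F : ℤ) := by
  have := PlacesSetup.isPrincipalIdealRing hy
  have := PlacesSetup.isDedekindDomain hy
  have := PlacesSetup.isFractionRing (K := K) (F := F) (y := y)
  have := PlacesSetup.moduleFinite hy
  have hmax := PlacesSetup.span_gen_isMaximal hy
  have hbij := PlacesSetup.bijective_algebraMap_quotient hy
  have hy0 : y ≠ 0 := fun h => PlacesSetup.gen_ne_zero hy (Subtype.ext h)
  have hab : algebraMap (Algebra.adjoin K {y}) (integralClosure (Algebra.adjoin K {y}) F)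
      (PlacesSetup.gen K y) ≠ 0 := by
    intro h
    apply hy0
    have := congrArg (algebraMap (integralClosure (Algebra.adjoin K {y}) F) F) h
    simpa using this
  have hyF : algebraMap (integralClosure (Algebra.adjoin K {y}) F) F
      (algebraMap (Algebra.adjoin K {y}) (integralClosure (Algebra.adjoin K {y}) F)
        (PlacesSetup.gen K y)) = y := rfl
  set S : Set (HeightOneSpectrum (integralClosure (Algebra.adjoin K {y}) F)) :=
    {w | algebraMap (Algebra.adjoin K {y}) (integralClosure (Algebra.adjoin K {y}) F)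
      (PlacesSetup.gen K y) ∈ w.asIdeal} with hS
  have himg : zeroPlaces K y = (Place.ofHeightOneSpectrum (K := K) (F := F)) '' S := by
    ext v
    constructor
    · intro hv
      have hv' : 0 < v.ord y := hv
      have hmem : y ∈ v.toValuationSubring := (PlacesBasic.mem_iff_ord_nonneg v hy0).2 hv'.le
      obtain ⟨w, rfl⟩ := PlacesHOS.exists_ofHeightOneSpectrum_eq
        (R := integralClosure (Algebra.adjoin K {y}) F) v
        (fun b => PlacesSetup.coe_mem_of_mem v hmem b)
      refine ⟨w, ?_, rfl⟩
      exact (PlacesHOS.ord_algebraMap_pos_iff w hab).1 hv'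
    · rintro ⟨w, hw, rfl⟩
      exact (PlacesHOS.ord_algebraMap_pos_iff (K := K) (F := F) w hab).2 hw
  have hSfin : S.Finite := by
    have h0 : Ideal.span {algebraMap (Algebra.adjoin K {y})
        (integralClosure (Algebra.adjoin K {y}) F) (PlacesSetup.gen K y)} ≠ 0 := by
      rw [Ne, Ideal.zero_eq_bot, Ideal.span_singleton_eq_bot]
      exact hab
    refine (Ideal.finite_factors h0).subset ?_
    intro w hw
    show w.asIdeal ∣ _
    rw [Ideal.dvd_iff_le, Ideal.span_singleton_le_iff_mem]
    exact hw
  refine ⟨himg ▸ hSfin.image _, ?_⟩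
  rw [himg, finsum_mem_image (PlacesHOS.ofHeightOneSpectrum_injective.injOn)]
  have hord : ∀ w ∈ S, (Place.ofHeightOneSpectrum (K := K) (F := F) w).ord y
      = ((multiplicity w.asIdeal (Ideal.span {algebraMap (Algebra.adjoin K {y})
        (integralClosure (Algebra.adjoin K {y}) F) (PlacesSetup.gen K y)}) : ℕ) : ℤ) := by
    intro w _
    exact PlacesHOS.ord_algebraMap_eq_multiplicity (K := K) (F := F) w hab
  rw [finsum_mem_congr rfl hord, ← PlacesSetup.finrank_eq hy,
    ← PlacesSum.sum_multiplicity_eq_finrank (k := K) hab hmax hbij.2]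
  exact (Nat.cast_finsum_mem hSfin _).symm

/-- The fibre over the zero of `y` is finite. -/
theorem PlacesSum.zeroPlaces_finite {y : F} (hy : Transcendental K y)
    [FiniteDimensional K⟮y⟯ F] : (zeroPlaces K y).Finite :=
  (PlacesSum.finite_and_sum hy).1

/-- The fundamental identity `∑ e = n` for the fibre over the zero of `y`. -/
theorem PlacesSum.sum_ord_zeroPlaces {y : F} (hy : Transcendental K y)
    [FiniteDimensional K⟮y⟯ F] :
    ∑ᶠ v ∈ zeroPlaces K y, v.ord y = (Module.finrank K⟮y⟯ F : ℤ) :=
  (PlacesSum.finite_and_sum hy).2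

end Fermat.Agent.S24
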