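import Fermat.Agent.S24.PlacesBasic
import Fermat.Agent.S24.PlacesDeg
import Fermat.Agent.S24.PlacesSum
import Fermat.Agent.S24.PlacesSep

/-!
P8-ALG-1: places of a function field `F / K(x)` (`K` algebraically closed of characteristic zero,
`x` transcendental, `F / K(x)` finite), in the language of the Prelude's `AlgebraicCurve.Place`.

The proofs live in `PlacesBasic`, `PlacesHOS`, `PlacesSetup`, `PlacesDeg`, `PlacesSum`,
`PlacesSep`; this file collects the statements under their interface names.
-/

set_option autoImplicit false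
set_option linter.unusedSectionVars false
set_option linter.unusedVariables false

namespace Fermat.Agent.S24

open AlgebraicCurve IntermediateField

variable {K F : Type*} [Field K] [Field F] [Algebra K F]

/-- A valuation-like function `u : F → ℤ`, trivial on `K` and positive somewhere, is a positive
multiple of the order function of a unique place. -/
theorem exists_place_of_valuation (u : F → ℤ)
    (hmul : ∀ f g : F, f ≠ 0 → g ≠ 0 → u (f * g) = u f + u g)
    (hadd : ∀ f g : F, f ≠ 0 → g ≠ 0 → f + g ≠ 0 → min (u f) (u g) ≤ u (f + g))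
    (hconst : ∀ a : K, a ≠ 0 → u (algebraMap K F a) = 0)
    {y : F} (hy0 : y ≠ 0) (hy : 0 < u y) :
    ∃ (w : Place K F) (d : ℕ), 0 < d ∧ ∀ f : F, f ≠ 0 → u f = d * w.ord f :=
  PlacesBasic.exists_place_of_valuation u hmul hadd hconst hy0 hy

/-- Two places with the same sign pattern of `ord` are equal. -/
theorem place_ext_of_ord {v w : Place K F} (h : ∀ f : F, f ≠ 0 → 0 ≤ v.ord f → 0 ≤ w.ord f) :
    v = w :=
  PlacesBasic.place_ext_of_ord h

theorem adjoin_sub_algebraMap (x : F) (c : K) : K⟮x - algebraMap K F c⟯ = K⟮x⟯ :=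
  PlacesDeg.adjoin_sub_algebraMap x c

theorem adjoin_inv (x : F) : K⟮x⁻¹⟯ = K⟮x⟯ :=
  PlacesDeg.adjoin_inv x

theorem transcendental_sub_algebraMap {x : F} (hx : Transcendental K x) (c : K) :
    Transcendental K (x - algebraMap K F c) :=
  PlacesDeg.transcendental_sub_algebraMap hx c

theorem transcendental_inv {x : F} (hx : Transcendental K x) : Transcendental K x⁻¹ :=
  PlacesDeg.transcendental_inv hx

section FunctionField

variable [IsAlgClosed K] [CharZero K]

/-- Every element outside `K` is transcendental, and `F` is finite over `K(y)` for it. -/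
theorem finiteDimensional_adjoin_of_transcendental {x : F} (hx : Transcendental K x)
    [FiniteDimensional K⟮x⟯ F] {y : F} (hy : Transcendental K y) :
    FiniteDimensional K⟮y⟯ F :=
  PlacesDeg.finiteDimensional_adjoin_of_transcendental hx hy

theorem transcendental_of_not_mem_range {x : F} (hx : Transcendental K x)
    [FiniteDimensional K⟮x⟯ F] {y : F} (hy : y ∉ Set.range (algebraMap K F)) :
    Transcendental K y :=
  PlacesDeg.transcendental_of_not_mem_range hy

/-- All places have degree one. -/
theorem place_deg_eq_one {x : F} (hx : Transcendental K x) [FiniteDimensional K⟮x⟯ F]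
    (v : Place K F) : v.deg = 1 :=
  PlacesDeg.place_deg_eq_one hx v

/-- The residue field of every place is `K`. -/
theorem exists_sub_mem_maximal {x : F} (hx : Transcendental K x) [FiniteDimensional K⟮x⟯ F]
    (v : Place K F) {f : F} (hf : 0 ≤ v.ord f) :
    ∃ c : K, f = algebraMap K F c ∨ 0 < v.ord (f - algebraMap K F c) :=
  PlacesDeg.exists_sub_mem_maximal hx v hf

theorem ord_algebraMap (v : Place K F) (a : K) : v.ord (algebraMap K F a) = 0 :=
  PlacesBasic.ord_algebraMap v a

theorem min_ord_le_ord_add (v : Place K F) {f g : F} (hf : f ≠ 0) (hg : g ≠ 0) (hfg : f + g ≠ 0) :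
    min (v.ord f) (v.ord g) ≤ v.ord (f + g) :=
  PlacesBasic.min_ord_le_ord_add v hf hg hfg

/-- Every place lies over a point `c ∈ K` of the `x`-line or over `∞`. -/
theorem place_cases {x : F} (hx : Transcendental K x) [FiniteDimensional K⟮x⟯ F]
    (v : Place K F) :
    (∃ c : K, v ∈ zeroPlaces K (x - algebraMap K F c)) ∨ v ∈ zeroPlaces K x⁻¹ := by
  by_cases h : 0 ≤ v.ord x
  · left
    obtain ⟨c, hc | hc⟩ := PlacesDeg.exists_sub_mem_maximal hx v h
    · exact absurd (hc ▸ isAlgebraic_algebraMap c) hx
    · exact ⟨c, hc⟩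
  · right
    change 0 < v.ord x⁻¹
    rw [v.ord_inv]
    omega

theorem zeroPlaces_disjoint_of_ne (x : F) {c c' : K} (h : c ≠ c') :
    Disjoint (zeroPlaces K (x - algebraMap K F c)) (zeroPlaces K (x - algebraMap K F c')) := by
  rw [Set.disjoint_left]
  intro v hv hv'
  have hv1 : 0 < v.ord (x - algebraMap K F c) := hv
  have hv2 : 0 < v.ord (x - algebraMap K F c') := hv'
  have h1 : x - algebraMap K F c ≠ 0 := fun h0 => by rw [h0, v.ord_zero] at hv1; exact lt_irrefl _ hv1
  have h2 : x - algebraMap K F c' ≠ 0 := fun h0 => by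
    rw [h0, v.ord_zero] at hv2; exact lt_irrefl _ hv2
  have h3 : (x - algebraMap K F c) + -(x - algebraMap K F c') = algebraMap K F (c' - c) := by
    rw [map_sub]; ring
  have h3ne : algebraMap K F (c' - c) ≠ 0 := by
    rw [Ne, map_eq_zero, sub_eq_zero]
    exact fun h' => h h'.symm
  have key := PlacesBasic.min_ord_le_ord_add v h1 (neg_ne_zero.mpr h2) (by rw [h3]; exact h3ne)
  rw [h3, PlacesBasic.ord_algebraMap, PlacesBasic.ord_neg] at key
  exact absurd key (not_le.mpr (lt_min hv1 hv2))

theorem zeroPlaces_disjoint_inv (x : F) (c : K) :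
    Disjoint (zeroPlaces K (x - algebraMap K F c)) (zeroPlaces K x⁻¹) := by
  rw [Set.disjoint_left]
  intro v hv hv'
  have hv1 : 0 < v.ord (x - algebraMap K F c) := hv
  have hv2 : 0 < v.ord x⁻¹ := hv'
  rw [v.ord_inv] at hv2
  have h1 : x - algebraMap K F c ≠ 0 := fun h0 => by rw [h0, v.ord_zero] at hv1; exact lt_irrefl _ hv1
  have hx0 : x ≠ 0 := fun h0 => by rw [h0, v.ord_zero] at hv2; omega
  rcases eq_or_ne c 0 with rfl | hc
  · rw [map_zero, sub_zero] at hv1
    omega
  · have hc' : algebraMap K F c ≠ 0 := by rwa [Ne, map_eq_zero]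
    have h3 : (x - algebraMap K F c) + algebraMap K F c = x := by ring
    have key := PlacesBasic.min_ord_le_ord_add v h1 hc' (by rw [h3]; exact hx0)
    rw [h3, PlacesBasic.ord_algebraMap] at key
    have : (0 : ℤ) ≤ min (v.ord (x - algebraMap K F c)) 0 := le_min hv1.le le_rfl
    omega

/-- The fibre over the zero of `y` is finite. -/
theorem zeroPlaces_finite {y : F} (hy : Transcendental K y) [FiniteDimensional K⟮y⟯ F] :
    (zeroPlaces K y).Finite :=
  PlacesSum.zeroPlaces_finite hy

/-- The fundamental identity `∑ e = n` for the fibre over the zero of `y`. -/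
theorem sum_ord_zeroPlaces {y : F} (hy : Transcendental K y) [FiniteDimensional K⟮y⟯ F] :
    ∑ᶠ v ∈ zeroPlaces K y, v.ord y = (Module.finrank K⟮y⟯ F : ℤ) :=
  PlacesSum.sum_ord_zeroPlaces hy

/-- Separating elements: for a place `v` over the zero of `y` there is `f` vanishing at `v`, a unit
at the other places over the zero of `y`, whose norm to `K(y)` is `y` times a polynomial in `y`. -/
theorem exists_separating {y : F} (hy : Transcendental K y) [FiniteDimensional K⟮y⟯ F]
    {v : Place K F} (hv : v ∈ zeroPlaces K y) :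
    ∃ f : F, f ≠ 0 ∧ 0 < v.ord f ∧ (∀ w ∈ zeroPlaces K y, w ≠ v → w.ord f = 0) ∧
      ∃ p : Polynomial K, algebraMap K⟮y⟯ F (Algebra.norm K⟮y⟯ f) = y * Polynomial.aeval y p :=
  PlacesSep.exists_separating hy hv

/-- The zeros and poles of a nonconstant function: the places where `ord f ≠ 0` are the zeros of
`f` and the zeros of `f⁻¹`. -/
theorem Places.setOf_ord_ne_zero_subset (f : F) :
    {v : Place K F | v.ord f ≠ 0} ⊆ zeroPlaces K f ∪ zeroPlaces K f⁻¹ := by
  intro v hv
  have hv' : v.ord f ≠ 0 := hv
  rcases lt_or_gt_of_ne hv' with h | h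
  · right
    change 0 < v.ord f⁻¹
    rw [v.ord_inv]
    omega
  · left
    exact h

theorem Places.finrank_congr {L L' : IntermediateField K F} (h : L = L') :
    Module.finrank L F = Module.finrank L' F := by
  subst h
  rfl

/-- A nonzero function has finitely many zeros and poles, and its divisor has degree zero. -/
theorem finite_setOf_ord_ne_zero {x : F} (hx : Transcendental K x) [FiniteDimensional K⟮x⟯ F]
    {f : F} (hf : f ≠ 0) : {v : Place K F | v.ord f ≠ 0}.Finite := by
  by_cases hfK : f ∈ Set.range (algebraMap K F)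
  · obtain ⟨a, rfl⟩ := hfK
    have : {v : Place K F | v.ord (algebraMap K F a) ≠ 0} = ∅ := by
      ext v
      simp [PlacesBasic.ord_algebraMap]
    rw [this]
    exact Set.finite_empty
  · have hft : Transcendental K f := PlacesDeg.transcendental_of_not_mem_range hfK
    have hfit : Transcendental K f⁻¹ := PlacesDeg.transcendental_inv hft
    have : FiniteDimensional K⟮f⟯ F := PlacesDeg.finiteDimensional_adjoin_of_transcendental hx hft
    have : FiniteDimensional K⟮f⁻¹⟯ F :=
      PlacesDeg.finiteDimensional_adjoin_of_transcendental hx hfit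
    exact ((PlacesSum.zeroPlaces_finite hft).union (PlacesSum.zeroPlaces_finite hfit)).subset
      (Places.setOf_ord_ne_zero_subset f)

theorem finsum_ord_eq_zero {x : F} (hx : Transcendental K x) [FiniteDimensional K⟮x⟯ F]
    {f : F} (hf : f ≠ 0) : ∑ᶠ v : Place K F, v.ord f = 0 := by
  by_cases hfK : f ∈ Set.range (algebraMap K F)
  · obtain ⟨a, rfl⟩ := hfK
    exact finsum_eq_zero_of_forall_eq_zero fun v => PlacesBasic.ord_algebraMap v a
  · have hft : Transcendental K f := PlacesDeg.transcendental_of_not_mem_range hfK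
    have hfit : Transcendental K f⁻¹ := PlacesDeg.transcendental_inv hft
    have : FiniteDimensional K⟮f⟯ F := PlacesDeg.finiteDimensional_adjoin_of_transcendental hx hft
    have : FiniteDimensional K⟮f⁻¹⟯ F :=
      PlacesDeg.finiteDimensional_adjoin_of_transcendental hx hfit
    have hfin0 := PlacesSum.zeroPlaces_finite hft
    have hfin1 := PlacesSum.zeroPlaces_finite hfit
    have hdisj : Disjoint (zeroPlaces K f) (zeroPlaces K f⁻¹) := by
      rw [Set.disjoint_left]
      intro v hv hv'
      have hv1 : 0 < v.ord f := hv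
      have hv2 : 0 < v.ord f⁻¹ := hv'
      rw [v.ord_inv] at hv2
      omega
    have hsupp : Function.support (fun v : Place K F => v.ord f)
        ⊆ zeroPlaces K f ∪ zeroPlaces K f⁻¹ := Places.setOf_ord_ne_zero_subset f
    have h0 : ∑ᶠ v : Place K F, v.ord f
        = ∑ᶠ v ∈ zeroPlaces K f ∪ zeroPlaces K f⁻¹, v.ord f := by
      rw [← finsum_mem_univ]
      apply finsum_mem_inter_support_eq
      rw [Set.univ_inter]
      exact (Set.inter_eq_right.mpr hsupp).symm
    have h1 : ∑ᶠ v ∈ zeroPlaces K f⁻¹, v.ord f = -(Module.finrank K⟮f⁻¹⟯ F : ℤ) := by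
      rw [← PlacesSum.sum_ord_zeroPlaces hfit, ← finsum_mem_neg_distrib _ hfin1]
      exact finsum_mem_congr rfl fun v _ => by rw [v.ord_inv, neg_neg]
    rw [h0, finsum_mem_union hdisj hfin0 hfin1, PlacesSum.sum_ord_zeroPlaces hft, h1,
      Places.finrank_congr (PlacesDeg.adjoin_inv (K := K) f)]
    exact add_neg_cancel _

end FunctionField

end Fermat.Agent.S24
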