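import Fermat.Agent.S24.Defs

/-!
P8-ALG-1a: general facts on `AlgebraicCurve.Place` (no hypothesis on `K`, `F`).
-/

set_option autoImplicit false

namespace Fermat.Agent.S24

open AlgebraicCurve IntermediateField

variable {K F : Type*} [Field K] [Field F] [Algebra K F]

theorem PlacesBasic.mem_iff_ord_nonneg (v : Place K F) {f : F} (hf : f ≠ 0) :
    f ∈ v.toValuationSubring ↔ 0 ≤ v.ord f := by
  constructor
  · intro hmem
    have h1 : v.adicValuation f ≤ 1 := by
      have h := v.adicValuation_coe ⟨f, hmem⟩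
      rw [show ((⟨f, hmem⟩ : v.toValuationSubring) : F) = f from rfl] at h
      rw [h]
      exact v.heightOneSpectrum.intValuation_le_one _
    have h2 : WithZero.log (v.adicValuation f) ≤ 0 := by
      rw [WithZero.log_le_iff_le_exp (v.adicValuation_ne_zero hf), WithZero.exp_zero]
      exact h1
    unfold Place.ord
    omega
  · intro hn
    obtain ⟨π, hπ⟩ := IsDiscreteValuationRing.exists_irreducible v.toValuationSubring
    obtain ⟨u, hu⟩ := v.exists_unit_mul_zpow hf hπ
    rw [hu]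
    obtain ⟨n, hn'⟩ := Int.eq_ofNat_of_zero_le hn
    rw [hn', zpow_natCast]
    exact mul_mem (u : v.toValuationSubring).2 (pow_mem π.2 n)

theorem PlacesBasic.ord_pos_iff_inv_not_mem (v : Place K F) {f : F} (hf : f ≠ 0) :
    0 < v.ord f ↔ f⁻¹ ∉ v.toValuationSubring := by
  rw [PlacesBasic.mem_iff_ord_nonneg v (inv_ne_zero hf), v.ord_inv]
  omega

theorem PlacesBasic.aux_ord_eq_zero_iff (v : Place K F) {f : F} (hf : f ≠ 0) :
    v.ord f = 0 ↔ v.adicValuation f = 1 := by
  have hne := v.adicValuation_ne_zero hf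
  constructor
  · intro h
    have h0 : WithZero.log (v.adicValuation f) = 0 := by
      unfold Place.ord at h
      omega
    rw [← WithZero.exp_log hne, h0, WithZero.exp_zero]
  · intro h
    unfold Place.ord
    rw [h, WithZero.log_one, neg_zero]

theorem PlacesBasic.aux_ord_eq_zero_iff_isUnit (v : Place K F) {a : v.toValuationSubring}
    (ha : a ≠ 0) : v.ord (a : F) = 0 ↔ IsUnit a := by
  have haF : (a : F) ≠ 0 := fun h => ha (Subtype.ext h)
  rw [PlacesBasic.aux_ord_eq_zero_iff v haF, v.adicValuation_coe_eq_one_iff]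

theorem PlacesBasic.ord_pos_iff_mem_maximalIdeal (v : Place K F) {a : v.toValuationSubring}
    (ha : a ≠ 0) : 0 < v.ord (a : F) ↔ a ∈ IsLocalRing.maximalIdeal v.toValuationSubring := by
  have haF : (a : F) ≠ 0 := fun h => ha (Subtype.ext h)
  have h0 : 0 ≤ v.ord (a : F) := (PlacesBasic.mem_iff_ord_nonneg v haF).1 a.2
  rw [IsLocalRing.mem_maximalIdeal, mem_nonunits_iff,
    ← PlacesBasic.aux_ord_eq_zero_iff_isUnit v ha]
  omega

theorem PlacesBasic.ord_eq_zero_iff_isUnit (v : Place K F) {a : v.toValuationSubring}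
    (ha : a ≠ 0) : v.ord (a : F) = 0 ↔ IsUnit a :=
  PlacesBasic.aux_ord_eq_zero_iff_isUnit v ha

theorem PlacesBasic.ord_neg (v : Place K F) (f : F) : v.ord (-f) = v.ord f := by
  unfold Place.ord
  rw [Valuation.map_neg]

theorem PlacesBasic.ord_algebraMap (v : Place K F) (a : K) : v.ord (algebraMap K F a) = 0 := by
  rcases eq_or_ne a 0 with rfl | ha
  · rw [map_zero, v.ord_zero]
  · have hne : algebraMap K F a ≠ 0 := by
      rw [Ne, map_eq_zero]
      exact ha
    have h1 : 0 ≤ v.ord (algebraMap K F a) :=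
      (PlacesBasic.mem_iff_ord_nonneg v hne).1 (v.algebraMap_mem' a)
    have h2 : 0 ≤ v.ord (algebraMap K F a)⁻¹ := by
      rw [← map_inv₀]
      have hne' : algebraMap K F a⁻¹ ≠ 0 := by
        rw [Ne, map_eq_zero]
        exact inv_ne_zero ha
      exact (PlacesBasic.mem_iff_ord_nonneg v hne').1 (v.algebraMap_mem' a⁻¹)
    rw [v.ord_inv] at h2
    omega

theorem PlacesBasic.min_ord_le_ord_add (v : Place K F) {f g : F} (hf : f ≠ 0) (hg : g ≠ 0)
    (hfg : f + g ≠ 0) : min (v.ord f) (v.ord g) ≤ v.ord (f + g) := by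
  have h := Valuation.map_add v.adicValuation f g
  rw [le_max_iff] at h
  rw [min_le_iff]
  unfold Place.ord
  rcases h with h | h
  · left
    have := (WithZero.log_le_log (v.adicValuation_ne_zero hfg) (v.adicValuation_ne_zero hf)).2 h
    omega
  · right
    have := (WithZero.log_le_log (v.adicValuation_ne_zero hfg) (v.adicValuation_ne_zero hg)).2 h
    omega

/-- If `ord f ≠ ord g` then `ord (f + g) = min (ord f) (ord g)`. -/
theorem PlacesBasic.ord_add_eq_min (v : Place K F) {f g : F} (hf : f ≠ 0) (hg : g ≠ 0)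
    (h : v.ord f ≠ v.ord g) : v.ord (f + g) = min (v.ord f) (v.ord g) := by
  have hfg : f + g ≠ 0 := by
    intro h0
    apply h
    have : g = -f := by
      rw [eq_neg_iff_add_eq_zero, add_comm]
      exact h0
    rw [this, PlacesBasic.ord_neg]
  have h1 := PlacesBasic.min_ord_le_ord_add v hf hg hfg
  have hng : -g ≠ 0 := neg_ne_zero.2 hg
  have hnf : -f ≠ 0 := neg_ne_zero.2 hf
  have h2 : min (v.ord (f + g)) (v.ord (-g)) ≤ v.ord (f + g + -g) :=
    PlacesBasic.min_ord_le_ord_add v hfg hng (by rw [add_neg_cancel_right]; exact hf)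
  have h3 : min (v.ord (f + g)) (v.ord (-f)) ≤ v.ord (f + g + -f) :=
    PlacesBasic.min_ord_le_ord_add v hfg hnf (by rw [add_neg_cancel_comm]; exact hg)
  rw [add_neg_cancel_right, PlacesBasic.ord_neg] at h2
  rw [add_neg_cancel_comm, PlacesBasic.ord_neg] at h3
  rcases lt_or_gt_of_ne h with hlt | hlt
  · rw [min_eq_left hlt.le] at h1 ⊢
    rcases le_total (v.ord (f + g)) (v.ord g) with h4 | h4
    · rw [min_eq_left h4] at h2
      omega
    · rw [min_eq_right h4] at h2
      omega
  · rw [min_eq_right hlt.le] at h1 ⊢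
    rcases le_total (v.ord (f + g)) (v.ord f) with h4 | h4
    · rw [min_eq_left h4] at h3
      omega
    · rw [min_eq_right h4] at h3
      omega

/-- `ord` is computed by any normalized `ℤᵐ⁰`-valued valuation with the same valuation ring. -/
theorem PlacesBasic.ord_eq_neg_log (v : Place K F) (ν : Valuation F (WithZero (Multiplicative ℤ)))
    (hν : ν.valuationSubring = v.toValuationSubring) {π : F}
    (hπ : ν π = WithZero.exp (-1 : ℤ)) {f : F} (hf : f ≠ 0) :
    v.ord f = -WithZero.log (ν f) := by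
  have hmem : ∀ x : F, x ∈ v.toValuationSubring ↔ ν x ≤ 1 := by
    intro x
    rw [← hν]
    exact Valuation.mem_valuationSubring_iff ν x
  -- units have valuation one
  have hunit : ∀ u : (v.toValuationSubring)ˣ, ν ((u : v.toValuationSubring) : F) = 1 := by
    intro u
    have h1 : ν ((u : v.toValuationSubring) : F) ≤ 1 :=
      (hmem _).1 (u : v.toValuationSubring).2
    have h2 : ν (((u⁻¹ : (v.toValuationSubring)ˣ) : v.toValuationSubring) : F) ≤ 1 :=
      (hmem _).1 ((u⁻¹ : (v.toValuationSubring)ˣ) : v.toValuationSubring).2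
    have h3 : ((u : v.toValuationSubring) : F) *
        (((u⁻¹ : (v.toValuationSubring)ˣ) : v.toValuationSubring) : F) = 1 :=
      congrArg Subtype.val (u.mul_inv)
    have h4 : ν ((u : v.toValuationSubring) : F) *
        ν (((u⁻¹ : (v.toValuationSubring)ˣ) : v.toValuationSubring) : F) = 1 := by
      rw [← map_mul, h3, map_one]
    have h5 : (1 : WithZero (Multiplicative ℤ)) ≤ ν ((u : v.toValuationSubring) : F) := by
      calc (1 : WithZero (Multiplicative ℤ))
          = ν ((u : v.toValuationSubring) : F) *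
            ν (((u⁻¹ : (v.toValuationSubring)ˣ) : v.toValuationSubring) : F) := h4.symm
        _ ≤ ν ((u : v.toValuationSubring) : F) * 1 := mul_le_mul' (le_refl _) h2
        _ = ν ((u : v.toValuationSubring) : F) := mul_one _
    exact le_antisymm h1 h5
  obtain ⟨ϖ, hϖ⟩ := IsDiscreteValuationRing.exists_irreducible v.toValuationSubring
  have hϖ0 : (ϖ : F) ≠ 0 := fun h => hϖ.ne_zero (Subtype.ext h)
  have hνϖ : ν (ϖ : F) ≠ 0 := (Valuation.ne_zero_iff _).mpr hϖ0
  -- the valuation of any nonzero element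
  have key : ∀ g : F, g ≠ 0 → WithZero.log (ν g) = v.ord g * WithZero.log (ν (ϖ : F)) := by
    intro g hg
    obtain ⟨u, hu⟩ := v.exists_unit_mul_zpow hg hϖ
    conv_lhs => rw [hu]
    rw [map_mul, hunit u, one_mul, map_zpow₀, WithZero.log_zpow, smul_eq_mul]
  have hk : WithZero.log (ν (ϖ : F)) ≤ 0 := by
    rw [WithZero.log_le_iff_le_exp hνϖ, WithZero.exp_zero]
    exact (hmem _).1 ϖ.2
  have hπ0 : π ≠ 0 := by
    intro h
    rw [h, map_zero] at hπ
    exact WithZero.exp_ne_zero hπ.symm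
  have hπk := key π hπ0
  rw [hπ, WithZero.log_exp] at hπk
  have hk1 : WithZero.log (ν (ϖ : F)) = -1 := by
    have h1 : WithZero.log (ν (ϖ : F)) * (-v.ord π) = 1 := by linarith
    rcases Int.eq_one_or_neg_one_of_mul_eq_one h1 with h2 | h2
    · omega
    · exact h2
  rw [key f hf, hk1]
  ring

/-- Two places with the same sign pattern of `ord` are equal. -/
theorem PlacesBasic.place_ext_of_ord {v w : Place K F}
    (h : ∀ f : F, f ≠ 0 → 0 ≤ v.ord f → 0 ≤ w.ord f) : v = w := by
  have hle : ∀ f : F, f ∈ v.toValuationSubring → f ∈ w.toValuationSubring := by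
    intro f hfv
    rcases eq_or_ne f 0 with rfl | hf
    · exact zero_mem _
    · exact (PlacesBasic.mem_iff_ord_nonneg w hf).2
        (h f hf ((PlacesBasic.mem_iff_ord_nonneg v hf).1 hfv))
  apply Place.ext
  apply le_antisymm
  · exact hle
  · intro f hfw
    by_contra hfv
    have hf : f ≠ 0 := fun h0 => hfv (h0 ▸ zero_mem _)
    have hneg : v.ord f < 0 := by
      have := (PlacesBasic.mem_iff_ord_nonneg v hf).not.1 hfv
      omega
    apply w.ne_top'
    rw [eq_top_iff]
    intro x _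
    rcases eq_or_ne x 0 with rfl | hx
    · exact zero_mem _
    · have hfn : f ^ (-v.ord x).toNat ≠ 0 := pow_ne_zero _ hf
      have hfin : (f ^ (-v.ord x).toNat)⁻¹ ≠ 0 := inv_ne_zero hfn
      have hord : v.ord (x * (f ^ (-v.ord x).toNat)⁻¹)
          = v.ord x - ((-v.ord x).toNat : ℤ) * v.ord f := by
        rw [v.ord_mul hx hfin, v.ord_inv, ← zpow_natCast, v.ord_zpow]
        ring
      have h0 : 0 ≤ v.ord (x * (f ^ (-v.ord x).toNat)⁻¹) := by
        rw [hord]
        have h1 : ((-v.ord x).toNat : ℤ) * v.ord f ≤ ((-v.ord x).toNat : ℤ) * (-1) :=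
          mul_le_mul_of_nonneg_left (by omega) (by positivity)
        have h2 : -v.ord x ≤ ((-v.ord x).toNat : ℤ) := Int.self_le_toNat _
        linarith
      have h1 : x * (f ^ (-v.ord x).toNat)⁻¹ ∈ w.toValuationSubring :=
        hle _ ((PlacesBasic.mem_iff_ord_nonneg v (mul_ne_zero hx hfin)).2 h0)
      have h2 : x = x * (f ^ (-v.ord x).toNat)⁻¹ * f ^ (-v.ord x).toNat := by
        rw [mul_assoc, inv_mul_cancel₀ hfn, mul_one]
      rw [h2]
      exact mul_mem h1 (pow_mem hfw _)

theorem PlacesBasic.aux_one (u : F → ℤ)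
    (hmul : ∀ f g : F, f ≠ 0 → g ≠ 0 → u (f * g) = u f + u g) : u 1 = 0 := by
  have h := hmul 1 1 one_ne_zero one_ne_zero
  rw [mul_one] at h
  omega

theorem PlacesBasic.aux_neg_one (u : F → ℤ)
    (hmul : ∀ f g : F, f ≠ 0 → g ≠ 0 → u (f * g) = u f + u g) : u (-1) = 0 := by
  have h := hmul (-1) (-1) (neg_ne_zero.2 one_ne_zero) (neg_ne_zero.2 one_ne_zero)
  rw [neg_mul_neg, mul_one, PlacesBasic.aux_one u hmul] at h
  omega

theorem PlacesBasic.aux_inv (u : F → ℤ)
    (hmul : ∀ f g : F, f ≠ 0 → g ≠ 0 → u (f * g) = u f + u g) {f : F} (hf : f ≠ 0) :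
    u f⁻¹ = -u f := by
  have h := hmul f f⁻¹ hf (inv_ne_zero hf)
  rw [mul_inv_cancel₀ hf, PlacesBasic.aux_one u hmul] at h
  omega

theorem PlacesBasic.aux_neg (u : F → ℤ)
    (hmul : ∀ f g : F, f ≠ 0 → g ≠ 0 → u (f * g) = u f + u g) {f : F} (hf : f ≠ 0) :
    u (-f) = u f := by
  have h := hmul (-1) f (neg_ne_zero.2 one_ne_zero) hf
  rw [neg_one_mul, PlacesBasic.aux_neg_one u hmul] at h
  omega

theorem PlacesBasic.aux_pow (u : F → ℤ)
    (hmul : ∀ f g : F, f ≠ 0 → g ≠ 0 → u (f * g) = u f + u g) {f : F} (hf : f ≠ 0) (n : ℕ) :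
    u (f ^ n) = n * u f := by
  induction n with
  | zero => simp [PlacesBasic.aux_one u hmul]
  | succ n ih =>
    rw [pow_succ, hmul _ _ (pow_ne_zero n hf) hf, ih]
    push_cast
    ring

theorem PlacesBasic.aux_zpow (u : F → ℤ)
    (hmul : ∀ f g : F, f ≠ 0 → g ≠ 0 → u (f * g) = u f + u g) {f : F} (hf : f ≠ 0) (n : ℤ) :
    u (f ^ n) = n * u f := by
  obtain ⟨m, rfl | rfl⟩ := Int.eq_nat_or_neg n
  · rw [zpow_natCast, PlacesBasic.aux_pow u hmul hf]
  · rw [zpow_neg, zpow_natCast, PlacesBasic.aux_inv u hmul (pow_ne_zero m hf),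
      PlacesBasic.aux_pow u hmul hf]
    ring

/-- The valuation subring attached to a valuation-like function. -/
def PlacesBasic.auxSubring (u : F → ℤ)
    (hmul : ∀ f g : F, f ≠ 0 → g ≠ 0 → u (f * g) = u f + u g)
    (hadd : ∀ f g : F, f ≠ 0 → g ≠ 0 → f + g ≠ 0 → min (u f) (u g) ≤ u (f + g)) :
    ValuationSubring F where
  carrier := {f | f = 0 ∨ 0 ≤ u f}
  mul_mem' := by
    intro a b ha hb
    by_cases ha0 : a = 0
    · left
      rw [ha0, zero_mul]
    by_cases hb0 : b = 0
    · left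
      rw [hb0, mul_zero]
    right
    have ha' : 0 ≤ u a := ha.resolve_left ha0
    have hb' : 0 ≤ u b := hb.resolve_left hb0
    rw [hmul a b ha0 hb0]
    omega
  one_mem' := Or.inr (by rw [PlacesBasic.aux_one u hmul])
  add_mem' := by
    intro a b ha hb
    by_cases ha0 : a = 0
    · rw [ha0, zero_add]
      exact hb
    by_cases hb0 : b = 0
    · rw [hb0, add_zero]
      exact ha
    by_cases hab : a + b = 0
    · exact Or.inl hab
    right
    have ha' : 0 ≤ u a := ha.resolve_left ha0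
    have hb' : 0 ≤ u b := hb.resolve_left hb0
    exact le_trans (le_min ha' hb') (hadd a b ha0 hb0 hab)
  zero_mem' := Or.inl rfl
  neg_mem' := by
    intro a ha
    by_cases ha0 : a = 0
    · left
      rw [ha0, neg_zero]
    right
    rw [PlacesBasic.aux_neg u hmul ha0]
    exact ha.resolve_left ha0
  mem_or_inv_mem' := by
    intro a
    by_cases ha0 : a = 0
    · exact Or.inl (Or.inl ha0)
    by_cases h : 0 ≤ u a
    · exact Or.inl (Or.inr h)
    · refine Or.inr (Or.inr ?_)
      rw [PlacesBasic.aux_inv u hmul ha0]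
      omega

theorem PlacesBasic.aux_mem_auxSubring (u : F → ℤ)
    (hmul : ∀ f g : F, f ≠ 0 → g ≠ 0 → u (f * g) = u f + u g)
    (hadd : ∀ f g : F, f ≠ 0 → g ≠ 0 → f + g ≠ 0 → min (u f) (u g) ≤ u (f + g)) (x : F) :
    x ∈ PlacesBasic.auxSubring u hmul hadd ↔ x = 0 ∨ 0 ≤ u x := Iff.rfl

theorem PlacesBasic.aux_isPrincipalIdealRing (u : F → ℤ)
    (hmul : ∀ f g : F, f ≠ 0 → g ≠ 0 → u (f * g) = u f + u g)
    (hadd : ∀ f g : F, f ≠ 0 → g ≠ 0 → f + g ≠ 0 → min (u f) (u g) ≤ u (f + g)) :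
    IsPrincipalIdealRing (PlacesBasic.auxSubring u hmul hadd) := by
  classical
  refine ⟨fun I => ?_⟩
  by_cases hI : I = ⊥
  · rw [hI]
    exact bot_isPrincipal
  obtain ⟨a, haI, ha0⟩ := Submodule.exists_mem_ne_zero_of_ne_bot hI
  have hnn : ∀ b : PlacesBasic.auxSubring u hmul hadd, b ≠ 0 → 0 ≤ u (b : F) := by
    intro b hb
    exact (b.2).resolve_left (fun h => hb (Subtype.ext h))
  have hex : ∃ n : ℕ, ∃ b : PlacesBasic.auxSubring u hmul hadd,
      b ∈ I ∧ b ≠ 0 ∧ u (b : F) = n :=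
    ⟨(u (a : F)).toNat, a, haI, ha0, (Int.toNat_of_nonneg (hnn a ha0)).symm⟩
  obtain ⟨a0, ha0I, ha00, ha0u⟩ := Nat.find_spec hex
  have hmin : ∀ b ∈ I, b ≠ 0 → u (a0 : F) ≤ u (b : F) := by
    intro b hbI hb0
    have hb : 0 ≤ u (b : F) := hnn b hb0
    have := Nat.find_min' hex ⟨b, hbI, hb0, (Int.toNat_of_nonneg hb).symm⟩
    rw [ha0u]
    omega
  have ha0F : (a0 : F) ≠ 0 := fun h => ha00 (Subtype.ext h)
  refine ⟨⟨a0, ?_⟩⟩
  apply le_antisymm
  · intro b hbI
    by_cases hb0 : b = 0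
    · rw [hb0]
      exact zero_mem _
    have hbF : (b : F) ≠ 0 := fun h => hb0 (Subtype.ext h)
    have hc : (b : F) * (a0 : F)⁻¹ ∈ PlacesBasic.auxSubring u hmul hadd := by
      right
      rw [hmul _ _ hbF (inv_ne_zero ha0F), PlacesBasic.aux_inv u hmul ha0F]
      have := hmin b hbI hb0
      omega
    rw [Submodule.mem_span_singleton]
    refine ⟨⟨_, hc⟩, ?_⟩
    apply Subtype.ext
    show (b : F) * (a0 : F)⁻¹ * (a0 : F) = (b : F)
    rw [mul_assoc, inv_mul_cancel₀ ha0F, mul_one]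
  · rw [Submodule.span_singleton_le_iff_mem]
    exact ha0I

/-- A valuation-like function `u : F → ℤ`, trivial on `K` and positive somewhere, is a positive
multiple of the order function of a unique place. -/
theorem PlacesBasic.exists_place_of_valuation (u : F → ℤ)
    (hmul : ∀ f g : F, f ≠ 0 → g ≠ 0 → u (f * g) = u f + u g)
    (hadd : ∀ f g : F, f ≠ 0 → g ≠ 0 → f + g ≠ 0 → min (u f) (u g) ≤ u (f + g))
    (hconst : ∀ a : K, a ≠ 0 → u (algebraMap K F a) = 0)
    {y : F} (hy0 : y ≠ 0) (hy : 0 < u y) :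
    ∃ (w : Place K F) (d : ℕ), 0 < d ∧ ∀ f : F, f ≠ 0 → u f = d * w.ord f := by
  obtain ⟨w, hw⟩ : ∃ w : Place K F,
      w.toValuationSubring = PlacesBasic.auxSubring u hmul hadd := ⟨
    { toValuationSubring := PlacesBasic.auxSubring u hmul hadd
      algebraMap_mem' := fun a => by
        by_cases ha : a = 0
        · left
          rw [ha, map_zero]
        · right
          rw [hconst a ha]
      ne_top' := by
        intro htop
        have hmem : y⁻¹ ∈ PlacesBasic.auxSubring u hmul hadd := by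
          rw [htop]
          exact ValuationSubring.mem_top _
        rcases hmem with h | h
        · exact inv_ne_zero hy0 h
        · rw [PlacesBasic.aux_inv u hmul hy0] at h
          omega
      isPrincipalIdealRing' := PlacesBasic.aux_isPrincipalIdealRing u hmul hadd }, rfl⟩
  have hmem : ∀ x : F, x ∈ w.toValuationSubring ↔ x = 0 ∨ 0 ≤ u x := by
    intro x
    rw [hw]
    exact Iff.rfl
  have hnn : ∀ b : w.toValuationSubring, (b : F) ≠ 0 → 0 ≤ u (b : F) := by
    intro b hb
    exact ((hmem _).1 b.2).resolve_left hb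
  obtain ⟨ϖ, hϖ⟩ := IsDiscreteValuationRing.exists_irreducible w.toValuationSubring
  have hϖ0 : (ϖ : F) ≠ 0 := fun h => hϖ.ne_zero (Subtype.ext h)
  -- units have `u = 0`
  have hunit : ∀ a : (w.toValuationSubring)ˣ, u ((a : w.toValuationSubring) : F) = 0 := by
    intro a
    have h3 : ((a : w.toValuationSubring) : F) *
        (((a⁻¹ : (w.toValuationSubring)ˣ) : w.toValuationSubring) : F) = 1 :=
      congrArg Subtype.val (a.mul_inv)
    have ha0 : ((a : w.toValuationSubring) : F) ≠ 0 := left_ne_zero_of_mul_eq_one h3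
    have hb0 : (((a⁻¹ : (w.toValuationSubring)ˣ) : w.toValuationSubring) : F) ≠ 0 :=
      right_ne_zero_of_mul_eq_one h3
    have h1 := hnn _ ha0
    have h2 := hnn _ hb0
    have h4 := hmul _ _ ha0 hb0
    rw [h3, PlacesBasic.aux_one u hmul] at h4
    omega
  have hϖnn : 0 ≤ u (ϖ : F) := hnn ϖ hϖ0
  have hϖpos : 0 < u (ϖ : F) := by
    by_contra hle
    have h0 : u (ϖ : F) = 0 := by omega
    have hinv : (ϖ : F)⁻¹ ∈ w.toValuationSubring :=
      (hmem _).2 (Or.inr (by rw [PlacesBasic.aux_inv u hmul hϖ0]; omega))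
    apply hϖ.not_isUnit
    exact IsUnit.of_mul_eq_one (⟨_, hinv⟩ : w.toValuationSubring)
      (Subtype.ext (mul_inv_cancel₀ hϖ0))
  refine ⟨w, (u (ϖ : F)).toNat, by omega, fun f hf => ?_⟩
  obtain ⟨a, ha⟩ := w.exists_unit_mul_zpow hf hϖ
  have ha0 : ((a : w.toValuationSubring) : F) ≠ 0 := by
    intro h
    exact a.ne_zero (Subtype.ext h)
  have hu : u f = u ((a : w.toValuationSubring) : F) + w.ord f * u (ϖ : F) := by
    conv_lhs => rw [ha]
    rw [hmul _ _ ha0 (zpow_ne_zero _ hϖ0), PlacesBasic.aux_zpow u hmul hϖ0]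
  rw [hu, hunit, Int.toNat_of_nonneg hϖnn]
  ring

end Fermat.Agent.S24
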