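import Fermat.Agent.S24.PlacesSum
import Fermat.Agent.S24.PlacesSep

/-!
P8-ALG-3: the local counting lemma. A local family over the zero of `y` computes the places above
it: they correspond to the orbits of `σ`, with ramification index the size of the orbit.
-/

set_option autoImplicit false

namespace Fermat.Agent.S24

open AlgebraicCurve IntermediateField

variable {K F : Type*} [Field K] [Field F] [Algebra K F]

/-- An element of nonnegative order lies in the valuation ring of the place. -/
theorem lc_mem_of_ord_nonneg (v : Place K F) {f : F} (hf : f ≠ 0) (h : 0 ≤ v.ord f) :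
    f ∈ v.toValuationSubring := by
  obtain ⟨π, hπ⟩ := IsDiscreteValuationRing.exists_irreducible v.toValuationSubring
  obtain ⟨u, hu⟩ := v.exists_unit_mul_zpow hf hπ
  rw [hu]
  obtain ⟨n, hn⟩ := Int.eq_ofNat_of_zero_le h
  rw [hn, zpow_natCast]
  exact v.toValuationSubring.mul_mem _ _ (u : v.toValuationSubring).2 (pow_mem π.2 n)

/-- A nonzero element of the valuation ring of a place has nonnegative order. -/
theorem lc_ord_nonneg_of_mem (v : Place K F) {f : F} (hf : f ≠ 0)
    (h : f ∈ v.toValuationSubring) : 0 ≤ v.ord f := by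
  obtain ⟨π, hπ⟩ := IsDiscreteValuationRing.exists_irreducible v.toValuationSubring
  have hf' : (⟨f, h⟩ : v.toValuationSubring) ≠ 0 := fun h0 => hf (congrArg Subtype.val h0)
  obtain ⟨n, u, hu⟩ := IsDiscreteValuationRing.eq_unit_mul_pow_irreducible hf' hπ
  have hfe : f = ((u : v.toValuationSubring) : F) * ((π : F) ^ (n : ℤ)) := by
    have := congrArg Subtype.val hu
    simpa using this
  rw [hfe, v.ord_unit_smul_zpow u hπ]
  exact Int.natCast_nonneg n

/-- Polynomials in an element of the valuation ring stay in the valuation ring. -/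
theorem lc_aeval_mem (v : Place K F) {y : F} (hy : y ∈ v.toValuationSubring)
    (p : Polynomial K) : Polynomial.aeval y p ∈ v.toValuationSubring := by
  induction p using Polynomial.induction_on' with
  | add p q hp hq => rw [map_add]; exact add_mem hp hq
  | monomial n a =>
    rw [Polynomial.aeval_monomial]
    exact mul_mem (v.algebraMap_mem' a) (pow_mem hy n)

/-- A function on `ι` that is invariant under `σ` is constant on the cycles of `σ`. -/
theorem lc_eq_of_sameCycle {ι α : Type*} {σ : Equiv.Perm ι} {P : ι → α}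
    (hP : ∀ i, P (σ i) = P i) {i j : ι} (hij : σ.SameCycle i j) : P i = P j := by
  have hpow : ∀ (n : ℕ) (i : ι), P ((σ ^ n) i) = P i := by
    intro n
    induction n with
    | zero => intro i; simp
    | succ n ih =>
      intro i
      rw [pow_succ', Equiv.Perm.mul_apply, hP, ih]
  obtain ⟨k, rfl⟩ := hij
  obtain ⟨n, rfl | rfl⟩ := Int.eq_nat_or_neg k
  · rw [zpow_natCast, hpow]
  · have h1 := hpow n (((σ ^ n)⁻¹) i)
    have h2 : (σ ^ n) (((σ ^ n)⁻¹) i) = i := (σ ^ n).apply_symm_apply i
    rw [h2] at h1
    rw [zpow_neg, zpow_natCast]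
    exact h1

/-- Structure theorem for local families. -/
theorem exists_place_of_localFamily [IsAlgClosed K] [CharZero K] {y : F}
    (hy : Transcendental K y) {K0 : IntermediateField K F} (hK0 : K⟮y⟯ = K0)
    [FiniteDimensional K0 F] {ι : Type*} [Fintype ι]
    (hcard : Fintype.card ι = Module.finrank K0 F) {E : ℕ} (hE : 0 < E)
    {σ : Equiv.Perm ι} {u : ι → F → ℤ} (h : IsLocalFamily K0 y E σ u) :
    ∃ P : ι → Place K F, (∀ i, P i ∈ zeroPlaces K y) ∧
      (∀ v ∈ zeroPlaces K y, ∃ i, P i = v) ∧
      (∀ i j, P i = P j ↔ σ.SameCycle i j) ∧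
      (∀ i, (P i).ord y = (Function.minimalPeriod σ i : ℤ)) ∧
      (∀ i (f : F), f ≠ 0 → u i f * (Function.minimalPeriod σ i : ℤ) = E * (P i).ord f) := by
  subst hK0
  classical
  have hEZ : (0 : ℤ) < E := by exact_mod_cast hE
  have hy0 : y ≠ 0 := by
    rintro rfl
    exact hy isAlgebraic_zero
  -- Step 1: every `u i` is a positive multiple of the order function of a place `P i`.
  have h1 : ∀ i, ∃ (w : Place K F) (d : ℕ), 0 < d ∧ ∀ f : F, f ≠ 0 → u i f = d * w.ord f :=
    fun i => PlacesBasic.exists_place_of_valuation (u i) (h.mul i) (h.add i) (h.const i) hy0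
      (by rw [h.base i]; exact hEZ)
  choose P d hd hu using h1
  have hdZ : ∀ i, (0 : ℤ) < d i := fun i => by exact_mod_cast hd i
  have hbase : ∀ i, (d i : ℤ) * (P i).ord y = E := fun i => by rw [← hu i y hy0, h.base i]
  have hmem : ∀ i, P i ∈ zeroPlaces K y := by
    intro i
    show 0 < (P i).ord y
    by_contra hneg
    rw [not_lt] at hneg
    have h2 : (d i : ℤ) * (P i).ord y ≤ 0 := mul_nonpos_of_nonneg_of_nonpos (hdZ i).le hneg
    rw [hbase i] at h2
    omega
  have hperpos : ∀ i, 0 < Function.minimalPeriod σ i := by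
    intro i
    rcases Nat.eq_zero_or_pos (Function.minimalPeriod σ i) with h0 | h0
    · have := h.per i
      rw [h0, zero_dvd_iff] at this
      omega
    · exact h0
  -- Step 2: the ramification index divides the period.
  have hdvd : ∀ i, (P i).ord y ∣ (Function.minimalPeriod σ i : ℤ) := by
    intro i
    obtain ⟨π, hπ⟩ := IsDiscreteValuationRing.exists_irreducible (P i).toValuationSubring
    have hπ0 : (π : F) ≠ 0 := by
      intro h0
      exact hπ.ne_zero (Subtype.ext h0)
    have h2 := h.dvd i (π : F) hπ0
    rw [hu i _ hπ0, (P i).ord_coe_irreducible hπ, mul_one, ← hbase i] at h2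
    exact (mul_dvd_mul_iff_left (hdZ i).ne').mp h2
  have hle : ∀ i, (P i).ord y ≤ (Function.minimalPeriod σ i : ℤ) :=
    fun i => Int.le_of_dvd (by exact_mod_cast hperpos i) (hdvd i)
  -- Step 3: `P` is invariant under `σ`.
  have hperm : ∀ i, P (σ i) = P i := by
    intro i
    apply PlacesBasic.place_ext_of_ord
    intro f hf hnn
    have e1 := hu (σ i) f hf
    have e2 := hu i f hf
    rw [h.perm i f] at e1
    by_contra hneg
    rw [not_le] at hneg
    have h3 : (d i : ℤ) * (P i).ord f < 0 := mul_neg_of_pos_of_neg (hdZ i) hneg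
    have h4 : 0 ≤ (d (σ i) : ℤ) * (P (σ i)).ord f := mul_nonneg (hdZ (σ i)).le hnn
    omega
  -- Step 4: every place over the zero of `y` is some `P i`.
  have hsurj : ∀ v ∈ zeroPlaces K y, ∃ i, P i = v := by
    intro v hv
    obtain ⟨f, hf0, hfv, hfw, p, hp⟩ := PlacesSep.exists_separating hy hv
    have hpos : 0 < Fintype.card ι := by rw [hcard]; exact Module.finrank_pos
    obtain ⟨i₀⟩ := Fintype.card_pos_iff.mp hpos
    have hnorm := h.norm i₀ f hf0
    rw [hp] at hnorm
    have hN0 : y * Polynomial.aeval y p ≠ 0 := by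
      rw [← hp]
      intro h0
      have h0' : Algebra.norm K⟮y⟯ f = 0 := by
        apply (algebraMap K⟮y⟯ F).injective
        rw [h0, map_zero]
      exact hf0 (Algebra.norm_eq_zero_iff.mp h0')
    have hp0 : Polynomial.aeval y p ≠ 0 := right_ne_zero_of_mul hN0
    rw [h.mul i₀ y _ hy0 hp0, h.base] at hnorm
    have hge : 0 ≤ u i₀ (Polynomial.aeval y p) := by
      rw [hu i₀ _ hp0]
      refine mul_nonneg (hdZ i₀).le ?_
      exact lc_ord_nonneg_of_mem _ hp0
        (lc_aeval_mem _ (lc_mem_of_ord_nonneg _ hy0 (le_of_lt (hmem i₀))) p)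
    have hsum : 0 < ∑ i, u i f := by rw [hnorm]; omega
    obtain ⟨i, hi⟩ : ∃ i, 0 < u i f := by
      by_contra hcon
      rw [not_exists] at hcon
      have : ∑ i, u i f ≤ 0 := Finset.sum_nonpos fun i _ => not_lt.mp (hcon i)
      omega
    refine ⟨i, ?_⟩
    by_contra hne
    have h0 := hfw (P i) (hmem i) hne
    rw [hu i f hf0, h0, mul_zero] at hi
    exact lt_irrefl _ hi
  -- Step 5: counting.
  have hfin : (zeroPlaces K y).Finite := PlacesSum.zeroPlaces_finite hy
  have hsumE := PlacesSum.sum_ord_zeroPlaces (K := K) hy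
  rw [finsum_mem_eq_finite_toFinset_sum _ hfin] at hsumE
  set Z := hfin.toFinset with hZ
  have hmaps : ((Finset.univ : Finset ι) : Set ι).MapsTo P Z := by
    intro i _
    simpa [hZ] using hmem i
  have hfib := Finset.card_eq_sum_card_fiberwise hmaps
  -- the orbit of `i` injects into the fibre of `P i`
  have horb : ∀ i, Function.minimalPeriod σ i ≤ (Finset.univ.filter fun a => P a = P i).card := by
    intro i
    have := Finset.card_le_card_of_injOn (s := Finset.range (Function.minimalPeriod σ i))
      (t := Finset.univ.filter fun a => P a = P i) (fun k => (σ ^ k) i)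
      (by
        intro k _
        simp only [Finset.coe_filter, Finset.mem_univ, true_and, Set.mem_ofPred_eq]
        exact (lc_eq_of_sameCycle hperm ⟨(k : ℤ), by simp⟩).symm)
      (by
        intro k hk l hl hkl
        simp only [Finset.coe_range, Set.mem_Iio] at hk hl
        exact Function.iterate_injOn_Iio_minimalPeriod (f := σ) (x := i) hk hl
          (by simpa [Equiv.Perm.iterate_eq_pow] using hkl))
    simpa using this
  have hZle : ∀ v ∈ Z, v.ord y ≤ ((Finset.univ.filter fun a => P a = v).card : ℤ) := by
    intro v hv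
    obtain ⟨i, rfl⟩ := hsurj v (by simpa [hZ] using hv)
    exact (hle i).trans (by exact_mod_cast horb i)
  have hZeq : ∀ v ∈ Z, v.ord y = ((Finset.univ.filter fun a => P a = v).card : ℤ) := by
    refine (Finset.sum_eq_sum_iff_of_le hZle).mp ?_
    rw [hsumE, ← hcard, ← Finset.card_univ, hfib]
    push_cast
    rfl
  have hfibeq : ∀ i, (P i).ord y = ((Finset.univ.filter fun a => P a = P i).card : ℤ) :=
    fun i => hZeq (P i) (by simpa [hZ] using hmem i)
  have hper : ∀ i, (P i).ord y = (Function.minimalPeriod σ i : ℤ) := by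
    intro i
    refine le_antisymm (hle i) ?_
    rw [hfibeq i]
    exact_mod_cast horb i
  refine ⟨P, hmem, hsurj, ?_, hper, ?_⟩
  · intro i j
    refine ⟨fun hij => ?_, fun hij => lc_eq_of_sameCycle hperm hij⟩
    -- the image of the orbit of `i` is the whole fibre
    have himg : (Finset.range (Function.minimalPeriod σ i)).image (fun k => (σ ^ k) i)
        = Finset.univ.filter fun a => P a = P i := by
      apply Finset.eq_of_subset_of_card_le
      · intro a ha
        obtain ⟨k, -, rfl⟩ := Finset.mem_image.mp ha
        simp only [Finset.mem_filter, Finset.mem_univ, true_and]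
        exact (lc_eq_of_sameCycle hperm ⟨(k : ℤ), by simp⟩).symm
      · rw [Finset.card_image_of_injOn, Finset.card_range]
        · have h3 := hfibeq i
          rw [hper i] at h3
          exact_mod_cast h3.symm.le
        · intro k hk l hl hkl
          simp only [Finset.coe_range, Set.mem_Iio] at hk hl
          exact Function.iterate_injOn_Iio_minimalPeriod (f := σ) (x := i) hk hl
            (by simpa [Equiv.Perm.iterate_eq_pow] using hkl)
    have hj : j ∈ Finset.univ.filter fun a => P a = P i := by
      simp only [Finset.mem_filter, Finset.mem_univ, true_and]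
      exact hij.symm
    rw [← himg] at hj
    obtain ⟨k, -, hk⟩ := Finset.mem_image.mp hj
    exact ⟨(k : ℤ), by simpa using hk⟩
  · intro i f hf
    rw [hu i f hf, ← hbase i, hper i]
    ring

/-- The local counting lemma: a local family over the zero of `y` counts the places above it. -/
theorem ncard_zeroPlaces_eq_orbitCount [IsAlgClosed K] [CharZero K] {y : F}
    (hy : Transcendental K y) {K0 : IntermediateField K F} (hK0 : K⟮y⟯ = K0)
    [FiniteDimensional K0 F] {ι : Type*} [Fintype ι]
    (hcard : Fintype.card ι = Module.finrank K0 F) {E : ℕ} (hE : 0 < E)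
    {σ : Equiv.Perm ι} {u : ι → F → ℤ} (h : IsLocalFamily K0 y E σ u) :
    (zeroPlaces K y).ncard = orbitCount σ := by
  obtain ⟨P, hmem, hsurj, hiff, -, -⟩ := exists_place_of_localFamily hy hK0 hcard hE h
  rw [orbitCount, ← Nat.card_coe_set_eq]
  symm
  let g : Quotient (Equiv.Perm.SameCycle.setoid σ) → ↥(zeroPlaces K y) :=
    Quotient.lift (fun i => (⟨P i, hmem i⟩ : ↥(zeroPlaces K y)))
      (fun i j hij => Subtype.ext ((hiff i j).mpr hij))
  refine Nat.card_congr (Equiv.ofBijective g ⟨?_, ?_⟩)
  · intro a b
    induction a using Quotient.inductionOn with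
    | _ i =>
      induction b using Quotient.inductionOn with
      | _ j =>
        intro hab
        exact Quotient.sound ((hiff i j).mp (congrArg Subtype.val hab))
  · rintro ⟨v, hv⟩
    obtain ⟨i, rfl⟩ := hsurj v hv
    exact ⟨Quotient.mk _ i, rfl⟩

end Fermat.Agent.S24
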