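import Fermat.Agent.S24.Real

/-!
The conjugates `conj ι x`, `x ∈ SL(2, ℤ) / Γ₀(N)`, are pairwise distinct.
-/

set_option autoImplicit false

namespace Fermat.Agent.S24

open UpperHalfPlane ModularCurve
open scoped MatrixGroups Manifold

variable (N : ℕ) [NeZero N] {L : Type*} [Field L] [Algebra ℚ L] (ι : L →+* ℂ)

/-- If `J(N · γτ) = J(Nτ)` as elements of `MerN N` then `γ ∈ Γ₀(N)` (compare the orders at `i∞`:
`slComp γ (Jabd N 0 1) = Jabd a b d` with `a d = N`, of order `-a²`, and `a < N` unless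
`γ ∈ Γ₀(N)`). -/
theorem mem_Gamma0_of_actR_JdRN (γ : SL(2, ℤ))
    (h : actR N γ (JdRN N N dvd_rfl) = JdRN N N dvd_rfl) : γ ∈ CongruenceSubgroup.Gamma0 N := by
  by_contra hγ
  have hN : 0 < N := Nat.pos_of_ne_zero (NeZero.ne N)
  obtain ⟨a, b, d', had, hlt, hsl⟩ := slComp_Jabd N γ
  have ha_lt : a < N := hlt hγ
  have hfun : Jabd a b d' = Jabd N 0 1 := by
    have h' := congrArg (fun f : ↥(RN N) => (f : ℍ → ℂ)) h
    simp only [coe_actR, coe_JdRN] at h'
    rw [← hsl]
    exact h'
  have ha : 0 < a := Nat.pos_of_ne_zero (fun h0 => by rw [h0, zero_mul] at had; omega)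
  have hd' : 0 < d' := Nat.pos_of_ne_zero (fun h0 => by rw [h0, mul_zero] at had; omega)
  have hd'N : d' ∣ N := Dvd.intro_left a had
  have h1 := order_qInf_Jabd N a b d' ha hd' hd'N
  have h2 := order_qInf_Jabd N N 0 1 hN Nat.one_pos (one_dvd N)
  rw [hfun, h2] at h1
  have hdiv : N / d' = a := by
    rw [← had]
    exact Nat.mul_div_cancel a hd'
  rw [hdiv, Nat.div_one] at h1
  have h3 : N * N = a * a := by
    have : ((N * N : ℕ) : ℤ) = ((a * a : ℕ) : ℤ) := by linarith
    exact_mod_cast this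
  have h4 : a * a < N * N := Nat.mul_lt_mul'' ha_lt ha_lt
  omega

/-- The conjugates are pairwise distinct. -/
theorem conj_injective : Function.Injective (conj N ι) := by
  intro x y hxy
  induction x using QuotientGroup.induction_on with
  | H g =>
    induction y using QuotientGroup.induction_on with
    | H g' =>
      have h1 := congrArg (fun φ : FFL L N →+* MerN N => φ (jdL N L N dvd_rfl)) hxy
      simp only [conj_mk_apply, realHom_jdL, act_algebraMap] at h1
      have h2 : actR N g⁻¹ (JdRN N N dvd_rfl) = actR N g'⁻¹ (JdRN N N dvd_rfl) :=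
        IsFractionRing.injective ↥(RN N) (MerN N) h1
      have h3 : actR N (g'⁻¹ * g) (JdRN N N dvd_rfl) = JdRN N N dvd_rfl := by
        rw [actR_mul, ← h2, ← actR_mul, inv_mul_cancel, actR_one]
      have h4 := mem_Gamma0_of_actR_JdRN N (g'⁻¹ * g) h3
      exact (QuotientGroup.eq.mpr h4).symm

end Fermat.Agent.S24
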