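import Fermat.Agent.S24.ConjRNk

/-!
Every element `b` of the `L`-algebra generated by the `j(dτ)`, `d ∣ N`, is a root of the monic
polynomial `∏_x (X - conj_x b)`, whose coefficients lie in `L(j)`.
-/

set_option autoImplicit false

namespace Fermat.Agent.S24

open UpperHalfPlane ModularCurve IntermediateField
open scoped MatrixGroups Manifold

variable (N : ℕ) [NeZero N] {L : Type*} [Field L] [Algebra ℚ L] [IsAlgClosed L] (ι : L →+* ℂ)

namespace Integral

theorem Jabd_one_zero_one (τ : ℍ) : Jabd 1 0 1 τ = Jfun τ := by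
  simp [Jabd]

omit [IsAlgClosed L] in
/-- The realization of a polynomial in `j` is the corresponding polynomial in `Jfun`. -/
theorem exists_realHom_aeval_jL (r : Polynomial L) :
    ∃ g : ↥(RN N), realHom N ι (Polynomial.aeval (jL L N) r) = algebraMap ↥(RN N) (MerN N) g ∧
      ∀ τ : ℍ, (g : ℍ → ℂ) τ = (r.map ι).eval (Jfun τ) := by
  induction r using Polynomial.induction_on' with
  | add p q hp hq =>
    obtain ⟨g₁, h₁, h₁'⟩ := hp
    obtain ⟨g₂, h₂, h₂'⟩ := hq
    refine ⟨g₁ + g₂, by rw [map_add, map_add, h₁, h₂, map_add], fun τ => ?_⟩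
    rw [Polynomial.map_add, Polynomial.eval_add, ← h₁', ← h₂']
    rfl
  | monomial n c =>
    refine ⟨constRN N (ι c) * JdRN N 1 (one_dvd N) ^ n, ?_, fun τ => ?_⟩
    · rw [Polynomial.aeval_monomial, map_mul, map_pow, realHom_algebraMap, ← jdL_one,
        realHom_jdL, map_mul, map_pow]
    · rw [Polynomial.map_monomial, Polynomial.eval_monomial]
      show ι c * (Jabd 1 0 1 τ) ^ n = _
      rw [Jabd_one_zero_one]

/-- The coefficients of `∏_x (X - conj_x b)` are realizations of elements of `L(j)`. -/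
theorem coeff_mem_range (b : FFL L N) (hb : b ∈ Algebra.adjoin L (jdLSet N L)) (n : ℕ) :
    (∏ x : XX N, (Polynomial.X - Polynomial.C (conj N ι x b))).coeff n ∈
      Set.range ((realHom N ι).comp (algebraMap ↥(L⟮jL L N⟯) (FFL L N))) := by
  classical
  choose h hk hconj using fun x : XX N => exists_mem_RNk_conj_eq N ι x b hb
  let Q : Polynomial ↥(RNk N ι.fieldRange) :=
    ∏ x : XX N, (Polynomial.X - Polynomial.C ⟨h x, hk x⟩)
  let Q' : Polynomial ↥(RN N) := ∏ x : XX N, (Polynomial.X - Polynomial.C (h x))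
  have hQ' : Q' = Q.map (RNk N ι.fieldRange).subtype := by
    simp [Q, Q', Polynomial.map_prod]
  have hprod : ∏ x : XX N, (Polynomial.X - Polynomial.C (conj N ι x b))
      = Q'.map (algebraMap ↥(RN N) (MerN N)) := by
    simp [Q', Polynomial.map_prod, hconj]
  have hact : ∀ (γ : SL(2, ℤ)) (x : XX N), actR N γ (h x) = h (γ⁻¹ • x) := by
    intro γ x
    apply IsFractionRing.injective ↥(RN N) (MerN N)
    rw [← act_algebraMap, ← hconj, act_conj, hconj]
  have hinv : ∀ γ : SL(2, ℤ), Q'.map (actR N γ) = Q' := by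
    intro γ
    simp only [Q', Polynomial.map_prod, Polynomial.map_sub, Polynomial.map_X, Polynomial.map_C,
      hact]
    exact Fintype.prod_equiv (MulAction.toPerm γ⁻¹) _ _ (fun x => rfl)
  have hcoeff_inv : ∀ γ : SL(2, ℤ), actR N γ (Q'.coeff n) = Q'.coeff n := by
    intro γ
    rw [← Polynomial.coeff_map, hinv]
  have hcoeff_mem : Q'.coeff n ∈ RNk N ι.fieldRange := by
    rw [hQ', Polynomial.coeff_map]
    exact (Q.coeff n).2
  obtain ⟨p, hp⟩ := exists_poly_of_mem_RNk N ι.fieldRange hcoeff_mem hcoeff_inv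
  obtain ⟨r, hr⟩ := Polynomial.map_surjective ι.rangeRestrictField
    (RingHom.rangeRestrictField_bijective ι).surjective p
  obtain ⟨g, hg, hg'⟩ := exists_realHom_aeval_jL N ι r
  have hgQ : g = Q'.coeff n := by
    apply Subtype.ext
    funext τ
    rw [hg' τ, hp τ, ← hr, Polynomial.map_map]
    rfl
  refine ⟨Polynomial.aeval (AdjoinSimple.gen L (jL L N)) r, ?_⟩
  rw [hprod, Polynomial.coeff_map, RingHom.comp_apply, ← Polynomial.aeval_algebraMap_apply,
    AdjoinSimple.algebraMap_gen, hg, hgQ]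

end Integral

theorem exists_charPoly (b : FFL L N) (hb : b ∈ Algebra.adjoin L (jdLSet N L)) :
    ∃ p : Polynomial ↥(L⟮jL L N⟯), p.Monic ∧ p.natDegree = Fintype.card (XX N) ∧
      p.map ((realHom N ι).comp (algebraMap ↥(L⟮jL L N⟯) (FFL L N))) =
        ∏ x : XX N, (Polynomial.X - Polynomial.C (conj N ι x b)) := by
  have hl : (∏ x : XX N, (Polynomial.X - Polynomial.C (conj N ι x b))) ∈
      Polynomial.lifts ((realHom N ι).comp (algebraMap ↥(L⟮jL L N⟯) (FFL L N))) := by
    rw [Polynomial.lifts_iff_coeff_lifts]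
    exact fun n => Integral.coeff_mem_range N ι b hb n
  have hm : (∏ x : XX N, (Polynomial.X - Polynomial.C (conj N ι x b))).Monic :=
    Polynomial.monic_prod_X_sub_C _ _
  obtain ⟨p, hp, hdeg, hmonic⟩ := Polynomial.lifts_and_natDegree_eq_and_monic hl hm
  refine ⟨p, hmonic, ?_, hp⟩
  rw [hdeg, Polynomial.natDegree_finsetProd_X_sub_C_eq_card, Finset.card_univ]

include ι in
theorem exists_monic_aeval_eq_zero (b : FFL L N) (hb : b ∈ Algebra.adjoin L (jdLSet N L)) :
    ∃ p : Polynomial ↥(L⟮jL L N⟯), p.Monic ∧ p.natDegree = Fintype.card (XX N) ∧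
      Polynomial.aeval b p = 0 := by
  obtain ⟨p, hmonic, hdeg, hp⟩ := exists_charPoly N ι b hb
  refine ⟨p, hmonic, hdeg, ?_⟩
  apply (realHom N ι).injective
  rw [map_zero]
  have h1 : realHom N ι (Polynomial.aeval b p)
      = (p.map ((realHom N ι).comp (algebraMap ↥(L⟮jL L N⟯) (FFL L N)))).eval
        (realHom N ι b) := by
    rw [Polynomial.eval_map, Polynomial.aeval_def, Polynomial.hom_eval₂]
  rw [h1, hp, Polynomial.eval_prod]
  apply Finset.prod_eq_zero (Finset.mem_univ (QuotientGroup.mk 1 : XX N))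
  rw [Polynomial.eval_sub, Polynomial.eval_X, Polynomial.eval_C, conj_one, sub_self]

end Fermat.Agent.S24
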