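import Fermat.Agent.S24.DegreeAbs
import Fermat.Agent.S24.Distinct
import Fermat.Agent.S24.Integral

/-!
P8-ANN: the degree of the function field of `X₀(N)` over `L(j)` is the index
`[SL(2, ℤ) : Γ₀(N)]`.

This is the instantiation of the abstract field theory of `DegreeAbs.lean`: the conjugates
`conj N ι x`, `x ∈ SL(2, ℤ) / Γ₀(N)`, are pairwise distinct (`Distinct.lean`), agree on `L(j)`
(`Real.lean`), and every element of the `L`-algebra generated by the `j(dτ)`, `d ∣ N`, is a root
of a monic polynomial of degree `[SL(2, ℤ) : Γ₀(N)]` over `L(j)` (`Integral.lean`).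
-/

set_option autoImplicit false

namespace Fermat.Agent.S24

open UpperHalfPlane ModularCurve IntermediateField
open scoped MatrixGroups Manifold

variable (N : ℕ) [NeZero N] {L : Type*} [Field L] [Algebra ℚ L] [IsAlgClosed L]

/-- `FFL L N` is finite over `L(j)` of degree `[SL(2, ℤ) : Γ₀(N)]` (given an embedding of `L`
into `ℂ`). -/
theorem finiteDimensional_and_finrank_jL (ι : L →+* ℂ) :
    FiniteDimensional ↥(L⟮jL L N⟯) (FFL L N) ∧
      Module.finrank ↥(L⟮jL L N⟯) (FFL L N) = Fintype.card (XX N) := by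
  have : CharZero L := algebraRat.charZero L
  refine DegreeAbs.finrank_eq_card (jL L N) (jdLSet N L) (finite_jdLSet N L)
    (jL_mem_jdLSet N L) (adjoin_jdLSet N L) (conj N ι) (conj_injective N ι) ?_ ?_
  · intro x x' a
    exact (conj_of_mem_adjoin N ι x a.2).trans (conj_of_mem_adjoin N ι x' a.2).symm
  · intro b hb
    obtain ⟨p, -, -, hp⟩ := exists_charPoly N ι b hb
    have h1 : conj N ι (QuotientGroup.mk 1 : XX N) = realHom N ι :=
      RingHom.ext (conj_one N ι)
    exact ⟨p, DegreeAbs.monic_natDegree_aeval_of_prod_eq (L⟮jL L N⟯) (conj N ι)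
      (QuotientGroup.mk 1 : XX N) b p (by rw [h1]; exact hp.symm)⟩

/-- `FFL L N` is finite over `L(j)` (given an embedding of `L` into `ℂ`). -/
theorem finiteDimensional_jL_of_emb (ι : L →+* ℂ) : FiniteDimensional ↥(L⟮jL L N⟯) (FFL L N) :=
  (finiteDimensional_and_finrank_jL N ι).1

/-- `[FFL L N : L(j)] = [SL(2, ℤ) : Γ₀(N)]` (given an embedding of `L` into `ℂ`). -/
theorem finrank_jL_of_emb (ι : L →+* ℂ) :
    Module.finrank ↥(L⟮jL L N⟯) (FFL L N) = Fintype.card (XX N) :=
  (finiteDimensional_and_finrank_jL N ι).2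

end Fermat.Agent.S24
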