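import Fermat.Agent.S24.Families
import Fermat.Agent.S24.Degree

/-!
P8-ANN, final interface: the degree of the function field of `X₀(N)` over `L(j)` and the four
local families of order functions (generic point, `i`, `ρ`, `i∞`).
-/

set_option autoImplicit false

namespace Fermat.Agent.S24

open AlgebraicCurve IntermediateField UpperHalfPlane
open scoped MatrixGroups

/-- There is an embedding of `ℚ̄` into `ℂ`. -/
instance nonempty_ringHom_algebraicClosure_rat_complex :
    Nonempty (AlgebraicClosure ℚ →+* ℂ) := by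
  letI : Algebra ℚ (AlgebraicClosure ℚ) := AlgebraicClosure.instAlgebra ℚ
  exact ⟨(IsAlgClosed.lift : AlgebraicClosure ℚ →ₐ[ℚ] ℂ).toRingHom⟩

variable (N : ℕ) [NeZero N]

variable (L : Type*) [Field L] [Algebra ℚ L] [IsAlgClosed L] [CharZero L]

omit [CharZero L] in
theorem finiteDimensional_jL [Nonempty (L →+* ℂ)] : FiniteDimensional L⟮jL L N⟯ (FFL L N) :=
  finiteDimensional_jL_of_emb N (Classical.arbitrary (L →+* ℂ))

omit [CharZero L] in
theorem finrank_jL [Nonempty (L →+* ℂ)] :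
    Module.finrank L⟮jL L N⟯ (FFL L N) = Fintype.card (XX N) :=
  finrank_jL_of_emb N (Classical.arbitrary (L →+* ℂ))

theorem isLocalFamily_generic (ι : L →+* ℂ) (τ : ℍ) (c : L) (hτ : Jfun τ = ι c) (hc0 : c ≠ 0)
    (hc : c ≠ 1728) :
    IsLocalFamily L⟮jL L N⟯ (jL L N - algebraMap L (FFL L N) c) 1 (1 : Equiv.Perm (XX N))
      (ordAt N L ι τ) :=
  haveI : FiniteDimensional L⟮jL L N⟯ (FFL L N) := finiteDimensional_jL_of_emb N ι
  isLocalFamily_generic_of_card N L (finrank_jL_of_emb N ι) ι τ c hτ hc0 hc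

theorem isLocalFamily_ptI (ι : L →+* ℂ) :
    IsLocalFamily L⟮jL L N⟯ (jL L N - algebraMap L (FFL L N) 1728) 2
      (MulAction.toPerm ModularGroup.S : Equiv.Perm (XX N)) (ordAt N L ι ptI) :=
  haveI : FiniteDimensional L⟮jL L N⟯ (FFL L N) := finiteDimensional_jL_of_emb N ι
  isLocalFamily_ptI_of_card N L (finrank_jL_of_emb N ι) ι

theorem isLocalFamily_ptRho (ι : L →+* ℂ) :
    IsLocalFamily L⟮jL L N⟯ (jL L N - algebraMap L (FFL L N) 0) 3
      (MulAction.toPerm (ModularGroup.S * ModularGroup.T) : Equiv.Perm (XX N))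
      (ordAt N L ι ptRho) :=
  haveI : FiniteDimensional L⟮jL L N⟯ (FFL L N) := finiteDimensional_jL_of_emb N ι
  isLocalFamily_ptRho_of_card N L (finrank_jL_of_emb N ι) ι

theorem isLocalFamily_infty (ι : L →+* ℂ) :
    IsLocalFamily L⟮jL L N⟯ (jL L N)⁻¹ N
      (MulAction.toPerm ModularGroup.T : Equiv.Perm (XX N)) (ordInf N L ι) :=
  haveI : FiniteDimensional L⟮jL L N⟯ (FFL L N) := finiteDimensional_jL_of_emb N ι
  isLocalFamily_infty_of_card N L (finrank_jL_of_emb N ι) ι

end Fermat.Agent.S24
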