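import Fermat.Agent.S24.CombTrans

/-!
# P8-COMB: the Ree / Scott inequality

For two permutations `σ, τ` of a finite nonempty set of `n` elements generating a transitive
group, `c(σ) + c(τ) + c(σ τ) ≤ n + 2`, where `c` is the number of cycles (fixed points included).

Proof (Scott's lemma): on `V = ι → ℚ` put `P_g v = v ∘ g`, `A = 1 - P_σ`, `B = 1 - P_τ`,
`C = 1 - P_{σ τ} = B + P_τ A`.  The maps
`β : V → range A × range B × range C`, `v ↦ (A v, B v, C v)` and
`δ (w₁, w₂, w₃) = P_τ w₁ + w₂ - w₃` satisfy `δ ∘ β = 0`, `dim ker β ≤ 1` and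
`dim range δ ≥ n - 1`, whence `rank A + rank B + rank C ≥ 2 (n - 1)`.
-/

set_option autoImplicit false

namespace Fermat.Agent.S24

/-- **Ree / Scott inequality** for two permutations generating a transitive group:
`c(σ) + c(τ) + c(σ τ) ≤ n + 2`. -/
theorem orbitCount_add_le {ι : Type*} [Fintype ι] [DecidableEq ι] [Nonempty ι]
    (σ τ : Equiv.Perm ι) (htrans : ∀ x y : ι, ∃ g ∈ Subgroup.closure {σ, τ}, g x = y) :
    orbitCount σ + orbitCount τ + orbitCount (σ * τ) ≤ Fintype.card ι + 2 := by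
  set A : (ι → ℚ) →ₗ[ℚ] (ι → ℚ) := LinearMap.id - LinearMap.funLeft ℚ ℚ (σ : ι → ι) with hA
  set B : (ι → ℚ) →ₗ[ℚ] (ι → ℚ) := LinearMap.id - LinearMap.funLeft ℚ ℚ (τ : ι → ι) with hB
  set C : (ι → ℚ) →ₗ[ℚ] (ι → ℚ) :=
    LinearMap.id - LinearMap.funLeft ℚ ℚ ((σ * τ : Equiv.Perm ι) : ι → ι) with hC
  -- key identity: `C v = B v + P_τ (A v)`
  have hkey : ∀ v : ι → ℚ, C v = B v + LinearMap.funLeft ℚ ℚ (τ : ι → ι) (A v) := by
    intro v
    funext x
    simp only [hA, hB, hC, LinearMap.sub_apply, LinearMap.id_apply, LinearMap.funLeft_apply,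
      Pi.sub_apply, Pi.add_apply, Equiv.Perm.mul_apply]
    ring
  let β : (ι → ℚ) →ₗ[ℚ] (LinearMap.range A × LinearMap.range B × LinearMap.range C) :=
    A.rangeRestrict.prod (B.rangeRestrict.prod C.rangeRestrict)
  let δ : (LinearMap.range A × LinearMap.range B × LinearMap.range C) →ₗ[ℚ] (ι → ℚ) :=
    (LinearMap.funLeft ℚ ℚ (τ : ι → ι) ∘ₗ (LinearMap.range A).subtype).coprod
      ((LinearMap.range B).subtype.coprod (-(LinearMap.range C).subtype))
  have hδ : ∀ w : LinearMap.range A × LinearMap.range B × LinearMap.range C,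
      δ w = LinearMap.funLeft ℚ ℚ (τ : ι → ι) (w.1 : ι → ℚ) + ((w.2.1 : ι → ℚ) - (w.2.2 : ι → ℚ)) := by
    intro w
    simp only [δ, LinearMap.coprod_apply, LinearMap.comp_apply, Submodule.subtype_apply,
      LinearMap.neg_apply]
    ring
  have hβ : ∀ v : ι → ℚ, β v = (⟨A v, LinearMap.mem_range_self A v⟩,
      ⟨B v, LinearMap.mem_range_self B v⟩, ⟨C v, LinearMap.mem_range_self C v⟩) := fun v => rfl
  have h1 : LinearMap.range β ≤ LinearMap.ker δ := by
    rintro _ ⟨v, rfl⟩
    rw [LinearMap.mem_ker, hδ, hβ]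
    change LinearMap.funLeft ℚ ℚ (τ : ι → ι) (A v) + (B v - C v) = 0
    rw [hkey v]
    abel
  -- `ker β ≤ ker A ⊓ ker B`
  have hkerβ : Module.finrank ℚ (LinearMap.ker β) ≤ 1 := by
    have hle : LinearMap.ker β ≤ LinearMap.ker A ⊓ LinearMap.ker B := by
      intro v hv
      rw [LinearMap.mem_ker, hβ] at hv
      have h1 := congrArg (fun w => ((w.1 : LinearMap.range A) : ι → ℚ)) hv
      have h2 := congrArg (fun w => ((w.2.1 : LinearMap.range B) : ι → ℚ)) hv
      exact ⟨LinearMap.mem_ker.2 h1, LinearMap.mem_ker.2 h2⟩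
    exact (Submodule.finrank_mono hle).trans (finrank_inf_ker_le_one σ τ htrans)
  -- `range A ⊔ range B ≤ range δ`
  have hrangeδ : LinearMap.range A ⊔ LinearMap.range B ≤ LinearMap.range δ := by
    apply sup_le
    · rintro _ ⟨v, rfl⟩
      refine ⟨(⟨A v, LinearMap.mem_range_self A v⟩,
        ⟨B (A v), LinearMap.mem_range_self B (A v)⟩, 0), ?_⟩
      rw [hδ]
      simp only [hB, LinearMap.sub_apply, LinearMap.id_apply, Submodule.coe_zero]
      abel
    · rintro _ ⟨v, rfl⟩
      refine ⟨(0, ⟨B v, LinearMap.mem_range_self B v⟩, 0), ?_⟩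
      rw [hδ]
      simp
  -- dimension count
  have e1 := LinearMap.finrank_range_add_finrank_ker β
  have e2 := LinearMap.finrank_range_add_finrank_ker δ
  have e3 : Module.finrank ℚ (LinearMap.range β) ≤ Module.finrank ℚ (LinearMap.ker δ) :=
    Submodule.finrank_mono h1
  have e4 : Fintype.card ι ≤ Module.finrank ℚ (LinearMap.range δ) + 1 :=
    (card_le_finrank_sup_range_add_one σ τ htrans).trans
      (Nat.add_le_add_right (Submodule.finrank_mono hrangeδ) 1)
  rw [Module.finrank_prod, Module.finrank_prod] at e2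
  rw [Module.finrank_fintype_fun_eq_card] at e1
  have rA : Module.finrank ℚ (LinearMap.range A) + orbitCount σ = Fintype.card ι :=
    finrank_range_sub_funLeft_add σ
  have rB : Module.finrank ℚ (LinearMap.range B) + orbitCount τ = Fintype.card ι :=
    finrank_range_sub_funLeft_add τ
  have rC : Module.finrank ℚ (LinearMap.range C) + orbitCount (σ * τ) = Fintype.card ι :=
    finrank_range_sub_funLeft_add (σ * τ)
  omega

end Fermat.Agent.S24
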