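import Fermat.Agent.S24.CombCount
import Fermat.Agent.S24.CombScott

/-!
# P8-COMB: the combinatorics of `SL(2,ℤ) ⧸ Γ₀(N)`

Interface file: index and orbit counts of `S`, `S * T`, `T` (from `CombCount`), and the
Riemann–Hurwitz parity / non-negativity.
-/

set_option autoImplicit false

namespace Fermat.Agent.S24

open scoped MatrixGroups

open ModularGroup

variable (N : ℕ) [NeZero N]

omit [NeZero N] in
/-- `S` and `T` act transitively on the coset space. -/
theorem exists_mem_closure_apply_eq (x y : XX N) :
    ∃ g ∈ Subgroup.closure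
        {(MulAction.toPerm S : Equiv.Perm (XX N)), (MulAction.toPerm T : Equiv.Perm (XX N))},
      g x = y := by
  induction x using QuotientGroup.induction_on with
  | H a =>
    induction y using QuotientGroup.induction_on with
    | H b =>
      refine ⟨MulAction.toPerm (b * a⁻¹), ?_, ?_⟩
      · have h1 : b * a⁻¹ ∈ Subgroup.closure ({S, T} : Set SL(2, ℤ)) := by
          rw [SpecialLinearGroup.SL2Z_generators]
          exact Subgroup.mem_top _
        have h2 := Subgroup.mem_map_of_mem (MulAction.toPermHom SL(2, ℤ) (XX N)) h1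
        rw [MonoidHom.map_closure, Set.image_pair] at h2
        exact h2
      · rw [MulAction.toPerm_apply, smul_mk, inv_mul_cancel_right]

/-- Riemann–Hurwitz parity and non-negativity of the genus (Ree / Scott). -/
theorem exists_genus :
    ∃ g : ℕ, orbitCount (MulAction.toPerm ModularGroup.S : Equiv.Perm (XX N)) +
        orbitCount (MulAction.toPerm (ModularGroup.S * ModularGroup.T) : Equiv.Perm (XX N)) +
        orbitCount (MulAction.toPerm ModularGroup.T : Equiv.Perm (XX N)) + 2 * g =
      Nat.card (XX N) + 2 := by
  classical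
  letI : Fintype (XX N) := Fintype.ofFinite _
  have : Nonempty (XX N) := ⟨((1 : SL(2, ℤ)) : XX N)⟩
  have hmul : (MulAction.toPerm (S * T) : Equiv.Perm (XX N))
      = MulAction.toPerm S * MulAction.toPerm T :=
    map_mul (MulAction.toPermHom SL(2, ℤ) (XX N)) S T
  have hle := orbitCount_add_le (MulAction.toPerm S : Equiv.Perm (XX N)) (MulAction.toPerm T)
    (exists_mem_closure_apply_eq N)
  have hsign : Equiv.Perm.sign (MulAction.toPerm S * MulAction.toPerm T : Equiv.Perm (XX N))
      = Equiv.Perm.sign (MulAction.toPerm S : Equiv.Perm (XX N))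
        * Equiv.Perm.sign (MulAction.toPerm T : Equiv.Perm (XX N)) := map_mul _ _ _
  rw [sign_eq_neg_one_pow_orbitCount, sign_eq_neg_one_pow_orbitCount,
    sign_eq_neg_one_pow_orbitCount, ← pow_add] at hsign
  rw [hmul, Nat.card_eq_fintype_card]
  set n := Fintype.card (XX N)
  set a := orbitCount (MulAction.toPerm S : Equiv.Perm (XX N))
  set b := orbitCount (MulAction.toPerm T : Equiv.Perm (XX N))
  set c := orbitCount (MulAction.toPerm S * MulAction.toPerm T : Equiv.Perm (XX N))
  have heven : Even ((n + c) + (n + a + (n + b))) := by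
    rw [← neg_one_pow_eq_one_iff_even (R := ℤˣ) (by decide), pow_add, hsign, ← pow_add,
      ← two_mul, pow_mul]
    simp
  obtain ⟨k, hk⟩ := heven
  refine ⟨(n + 2 - (a + c + b)) / 2, ?_⟩
  omega

end Fermat.Agent.S24
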