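import Fermat.Agent.S24.Kaehler

/-!
P8-ALG-4: Riemann–Hurwitz for `F / K(x)` in terms of the Prelude's divisors of differentials.
-/

set_option autoImplicit false

namespace Fermat.Agent.S24

open AlgebraicCurve IntermediateField KaehlerDifferential

variable {K F : Type*} [Field K] [Field F] [Algebra K F]

theorem RH.finrank_eq_of_eq {A B : IntermediateField K F} (h : A = B) :
    Module.finrank A F = Module.finrank B F := by
  subst h; rfl

/-- The sum of the ramification indices over the point `x = c`. -/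
theorem RH.sum_ord_fibre [IsAlgClosed K] [CharZero K] {x : F} (hx : Transcendental K x)
    [FiniteDimensional K⟮x⟯ F] (c : K)
    (hfin : (zeroPlaces K (x - algebraMap K F c)).Finite) :
    ∑ v ∈ hfin.toFinset, v.ord (x - algebraMap K F c) = (Module.finrank K⟮x⟯ F : ℤ) := by
  haveI : FiniteDimensional K⟮x - algebraMap K F c⟯ F :=
    finiteDimensional_adjoin_of_transcendental hx (transcendental_sub_algebraMap hx c)
  have h := sum_ord_zeroPlaces (transcendental_sub_algebraMap hx c)
  rw [finsum_mem_eq_finite_toFinset_sum _ hfin] at h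
  rw [h, RH.finrank_eq_of_eq (adjoin_sub_algebraMap x c)]

/-- The sum of the ramification indices over `x = ∞`. -/
theorem RH.sum_ord_fibre_inv [IsAlgClosed K] [CharZero K] {x : F} (hx : Transcendental K x)
    [FiniteDimensional K⟮x⟯ F] (hfin : (zeroPlaces K x⁻¹).Finite) :
    ∑ v ∈ hfin.toFinset, v.ord x⁻¹ = (Module.finrank K⟮x⟯ F : ℤ) := by
  haveI : FiniteDimensional K⟮x⁻¹⟯ F :=
    finiteDimensional_adjoin_of_transcendental hx (transcendental_inv hx)
  have h := sum_ord_zeroPlaces (transcendental_inv hx)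
  rw [finsum_mem_eq_finite_toFinset_sum _ hfin] at h
  rw [h, RH.finrank_eq_of_eq (adjoin_inv x)]

/-- Over an unramified point all ramification indices are one. -/
theorem RH.ord_eq_one_of_ncard [IsAlgClosed K] [CharZero K] {x : F} (hx : Transcendental K x)
    [FiniteDimensional K⟮x⟯ F] {c : K}
    (hc : (zeroPlaces K (x - algebraMap K F c)).ncard = Module.finrank K⟮x⟯ F)
    {v : Place K F} (hv : v ∈ zeroPlaces K (x - algebraMap K F c)) :
    v.ord (x - algebraMap K F c) = 1 := by
  classical
  haveI : FiniteDimensional K⟮x - algebraMap K F c⟯ F :=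
    finiteDimensional_adjoin_of_transcendental hx (transcendental_sub_algebraMap hx c)
  have hfin : (zeroPlaces K (x - algebraMap K F c)).Finite :=
    zeroPlaces_finite (transcendental_sub_algebraMap hx c)
  have hsum := RH.sum_ord_fibre hx c hfin
  have hcard : (hfin.toFinset.card : ℤ) = (Module.finrank K⟮x⟯ F : ℤ) := by
    rw [← hc, Set.ncard_eq_toFinset_card _ hfin]
  have hzero : ∑ w ∈ hfin.toFinset, (w.ord (x - algebraMap K F c) - 1) = 0 := by
    rw [Finset.sum_sub_distrib, hsum, Finset.sum_const, nsmul_eq_mul, mul_one, hcard, sub_self]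
  have hnonneg : ∀ w ∈ hfin.toFinset, 0 ≤ w.ord (x - algebraMap K F c) - 1 := by
    intro w hw
    have hw' : 0 < w.ord (x - algebraMap K F c) := (Set.Finite.mem_toFinset hfin).mp hw
    omega
  have := (Finset.sum_eq_zero_iff_of_nonneg hnonneg).mp hzero v
    ((Set.Finite.mem_toFinset hfin).mpr hv)
  omega

/-- Riemann–Hurwitz for `F / K(x)`: the degree of the divisor of a nonzero differential. -/
theorem degree_eq_of_fibres [IsAlgClosed K] [CharZero K] {x : F} (hx : Transcendental K x)
    [FiniteDimensional K⟮x⟯ F] (B : Finset K)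
    (hB : ∀ c : K, c ∉ B →
      (zeroPlaces K (x - algebraMap K F c)).ncard = Module.finrank K⟮x⟯ F)
    (ω : Ω[F⁄K]) (hω : ω ≠ 0) (D : Divisor K F)
    (hD : ∀ v : Place K F, D v = v.ordDifferential ω) :
    Divisor.degree D =
      ∑ c ∈ B, ((Module.finrank K⟮x⟯ F : ℤ) -
          ((zeroPlaces K (x - algebraMap K F c)).ncard : ℤ))
        - (Module.finrank K⟮x⟯ F : ℤ) - ((zeroPlaces K x⁻¹).ncard : ℤ) := by
  classical
  -- `ω = f dx`
  obtain ⟨f, rfl⟩ := exists_eq_smul_D hx ω
  have hf : f ≠ 0 := by
    rintro rfl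
    exact hω (zero_smul _ _)
  set a : Place K F → ℤ := fun v => v.ordDifferential (KaehlerDifferential.D K F x) with ha
  have hDv : ∀ v : Place K F, D v = v.ord f + a v := fun v => by
    rw [hD v, ordDifferential_smul_D hx v hf]
  -- finiteness of the fibres
  have hfinc : ∀ c : K, (zeroPlaces K (x - algebraMap K F c)).Finite := fun c => by
    haveI : FiniteDimensional K⟮x - algebraMap K F c⟯ F :=
      finiteDimensional_adjoin_of_transcendental hx (transcendental_sub_algebraMap hx c)
    exact zeroPlaces_finite (transcendental_sub_algebraMap hx c)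
  have hfininf : (zeroPlaces K x⁻¹).Finite := by
    haveI : FiniteDimensional K⟮x⁻¹⟯ F :=
      finiteDimensional_adjoin_of_transcendental hx (transcendental_inv hx)
    exact zeroPlaces_finite (transcendental_inv hx)
  have hfinf : {v : Place K F | v.ord f ≠ 0}.Finite := finite_setOf_ord_ne_zero hx hf
  -- the values of `a`
  have ha_c : ∀ (c : K) (v : Place K F), v ∈ zeroPlaces K (x - algebraMap K F c) →
      a v = v.ord (x - algebraMap K F c) - 1 := fun c v hv => ordDifferential_D_of_mem hx hv
  have ha_inf : ∀ v : Place K F, v ∈ zeroPlaces K x⁻¹ → a v = - v.ord x⁻¹ - 1 :=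
    fun v hv => ordDifferential_D_of_mem_inv hx hv
  -- the finite sets
  set ZB : Finset (Place K F) := B.biUnion fun c => (hfinc c).toFinset with hZB
  set Zinf : Finset (Place K F) := hfininf.toFinset with hZinf
  set S : Finset (Place K F) := D.support ∪ hfinf.toFinset ∪ (ZB ∪ Zinf) with hS
  have ha_zero : ∀ v : Place K F, v ∉ ZB ∪ Zinf → a v = 0 := by
    intro v hv
    rw [Finset.mem_union, not_or] at hv
    rcases place_cases hx v with ⟨c, hc⟩ | hinf
    · have hcB : c ∉ B := by
        intro hcB
        exact hv.1 (Finset.mem_biUnion.mpr ⟨c, hcB, (Set.Finite.mem_toFinset _).mpr hc⟩)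
      rw [ha_c c v hc, RH.ord_eq_one_of_ncard hx (hB c hcB) hc, sub_self]
    · exact absurd ((Set.Finite.mem_toFinset _).mpr hinf) hv.2
  -- degree as a sum over `S`
  have hdeg : Divisor.degree D = ∑ v ∈ S, D v := by
    have h1 : Divisor.degree D = ∑ v ∈ D.support, D v := by
      unfold Divisor.degree
      rw [Finsupp.liftAddHom_apply, Finsupp.sum]
      refine Finset.sum_congr rfl fun v _ => ?_
      rw [AddMonoidHom.mulRight_apply, place_deg_eq_one hx v, Nat.cast_one, mul_one]
    rw [h1]
    refine Finset.sum_subset ?_ ?_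
    · intro v hv
      exact Finset.mem_union_left _ (Finset.mem_union_left _ hv)
    · intro v _ hv
      exact Finsupp.notMem_support_iff.mp hv
  -- the principal part
  have hprin : ∑ v ∈ S, v.ord f = 0 := by
    rw [← finsum_ord_eq_zero hx hf]
    symm
    refine finsum_eq_sum_of_support_subset _ ?_
    intro v hv
    rw [Function.mem_support] at hv
    rw [hS, Finset.coe_union, Finset.coe_union]
    exact Or.inl (Or.inr ((Set.Finite.mem_toFinset hfinf).mpr hv))
  -- the differential part
  have hdiff : ∑ v ∈ S, a v = ∑ v ∈ ZB ∪ Zinf, a v := by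
    symm
    refine Finset.sum_subset ?_ ?_
    · intro v hv
      exact Finset.mem_union_right _ hv
    · intro v _ hv
      exact ha_zero v hv
  have hdisj : Disjoint ZB Zinf := by
    rw [Finset.disjoint_left]
    intro v hvB hvinf
    obtain ⟨c, _, hc⟩ := Finset.mem_biUnion.mp hvB
    have h1 : v ∈ zeroPlaces K (x - algebraMap K F c) := (Set.Finite.mem_toFinset _).mp hc
    have h2 : v ∈ zeroPlaces K x⁻¹ := (Set.Finite.mem_toFinset _).mp hvinf
    exact (Set.disjoint_left.mp (zeroPlaces_disjoint_inv x c)) h1 h2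
  have hpair : ∀ c ∈ B, ∀ c' ∈ B, c ≠ c' →
      Disjoint (hfinc c).toFinset (hfinc c').toFinset := by
    intro c _ c' _ hcc'
    rw [Finset.disjoint_left]
    intro v h1 h2
    exact (Set.disjoint_left.mp (zeroPlaces_disjoint_of_ne x hcc'))
      ((Set.Finite.mem_toFinset _).mp h1) ((Set.Finite.mem_toFinset _).mp h2)
  have hsumB : ∑ v ∈ ZB, a v = ∑ c ∈ B, ((Module.finrank K⟮x⟯ F : ℤ) -
      ((zeroPlaces K (x - algebraMap K F c)).ncard : ℤ)) := by
    rw [hZB, Finset.sum_biUnion hpair]
    refine Finset.sum_congr rfl fun c _ => ?_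
    have h1 : ∑ v ∈ (hfinc c).toFinset, a v =
        ∑ v ∈ (hfinc c).toFinset, (v.ord (x - algebraMap K F c) - 1) :=
      Finset.sum_congr rfl fun v hv => ha_c c v ((Set.Finite.mem_toFinset _).mp hv)
    rw [h1, Finset.sum_sub_distrib, RH.sum_ord_fibre hx c (hfinc c), Finset.sum_const,
      nsmul_eq_mul, mul_one, Set.ncard_eq_toFinset_card _ (hfinc c)]
  have hsuminf : ∑ v ∈ Zinf, a v =
      - (Module.finrank K⟮x⟯ F : ℤ) - ((zeroPlaces K x⁻¹).ncard : ℤ) := by
    have h1 : ∑ v ∈ Zinf, a v = ∑ v ∈ Zinf, (- v.ord x⁻¹ - 1) :=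
      Finset.sum_congr rfl fun v hv => ha_inf v ((Set.Finite.mem_toFinset _).mp hv)
    rw [h1, Finset.sum_sub_distrib, Finset.sum_neg_distrib, RH.sum_ord_fibre_inv hx hfininf,
      Finset.sum_const, nsmul_eq_mul, mul_one, Set.ncard_eq_toFinset_card _ hfininf]
  rw [hdeg, Finset.sum_congr rfl fun v _ => hDv v, Finset.sum_add_distrib, hprin, zero_add,
    hdiff, Finset.sum_union hdisj, hsumB, hsuminf]
  ring

end Fermat.Agent.S24
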