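import Mathlib.NumberTheory.ModularForms.QExpansion
import Mathlib.RingTheory.LaurentSeries
import Fermat.Agent.S24.JDefs

/-!
Shared analytic definitions for the `X₀(N)` project (ANN): the ring of holomorphic functions on
the upper half plane, translates of `Jfun`, and periodic functions meromorphic at `i∞`.
-/

set_option autoImplicit false

namespace Fermat.Agent.S24

open UpperHalfPlane ModularForm EisensteinSeries
open scoped MatrixGroups Manifold

/-- The ring of holomorphic functions on the upper half plane. -/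
def Hol : Subring (ℍ → ℂ) where
  carrier := {f | MDiff f}
  mul_mem' hf hg := hf.mul hg
  one_mem' := mdifferentiable_const
  add_mem' hf hg := hf.add hg
  zero_mem' := mdifferentiable_const
  neg_mem' hf := hf.neg

theorem mem_Hol {f : ℍ → ℂ} : f ∈ Hol ↔ MDiff f := Iff.rfl

/-- The function `τ ↦ Jfun ((a τ + b) / d)`. -/
noncomputable def Jabd (a b d : ℕ) : ℍ → ℂ :=
  fun τ => Jfun (ofComplex (((a : ℂ) * (τ : ℂ) + (b : ℂ)) / (d : ℂ)))

/-- Precomposition of a function on the upper half plane with an element of `SL(2, ℤ)`. -/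
noncomputable def slComp (γ : SL(2, ℤ)) (f : ℍ → ℂ) : ℍ → ℂ := fun τ => f (γ • τ)

theorem slComp_apply (γ : SL(2, ℤ)) (f : ℍ → ℂ) (τ : ℍ) : slComp γ f τ = f (γ • τ) := rfl

/-- Holomorphic on the upper half plane, `N`-periodic and meromorphic at `i∞`. -/
structure IsMerPer (N : ℕ) (f : ℍ → ℂ) : Prop where
  mdiff : MDiff f
  periodic : Function.Periodic (f ∘ ofComplex) (N : ℝ)
  mero : ∃ m : ℕ, IsBoundedAtImInfty
    (fun τ : ℍ => Function.Periodic.qParam (N : ℝ) (τ : ℂ) ^ m * f τ)

end Fermat.Agent.S24
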