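import Mathlib
import Fermat.Agent.S24.AnDefs

/-!
P8 / ANN: the field `Mer` of meromorphic functions on the upper half plane (the fraction field
of the ring `Hol` of holomorphic functions), precomposition with `SL(2, ℤ)` and the order
function `merOrd τ : Mer → ℤ` at a point `τ`.
-/

set_option autoImplicit false

namespace Fermat.Agent.S24

open UpperHalfPlane ModularForm Filter Topology
open scoped MatrixGroups Manifold

/-- A holomorphic function on `ℍ`, transported to `ℂ`, is analytic at the points of `ℍ`. -/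
theorem mer_analyticAt (f : Hol) (τ : ℍ) : AnalyticAt ℂ ((f : ℍ → ℂ) ∘ ofComplex) (τ : ℂ) :=
  (UpperHalfPlane.mdifferentiable_iff.mp f.2).analyticAt
    (isOpen_upperHalfPlaneSet.mem_nhds τ.im_pos)

theorem mer_analyticOnNhd (f : Hol) :
    AnalyticOnNhd ℂ ((f : ℍ → ℂ) ∘ ofComplex) upperHalfPlaneSet :=
  (UpperHalfPlane.mdifferentiable_iff.mp f.2).analyticOnNhd isOpen_upperHalfPlaneSet

theorem mer_isPreconnected_upperHalfPlaneSet : IsPreconnected upperHalfPlaneSet :=
  (convex_halfSpace_im_gt 0).isPreconnected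

/-- If the transported function vanishes on the upper half plane then `f = 0`. -/
theorem mer_eq_zero_of_forall {f : Hol}
    (h : ∀ z ∈ upperHalfPlaneSet, ((f : ℍ → ℂ) ∘ ofComplex) z = 0) : f = 0 := by
  apply Subtype.ext
  funext τ
  have := h (τ : ℂ) τ.im_pos
  simpa using this

/-- `Hol` is an integral domain (identity theorem on the connected set `ℍ`). -/
instance instIsDomainHol : IsDomain Hol := by
  have : Nontrivial Hol := by
    refine ⟨⟨0, 1, fun h => ?_⟩⟩
    have h1 := congrArg (fun f : Hol => (f : ℍ → ℂ) UpperHalfPlane.I) h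
    simp at h1
  have : NoZeroDivisors Hol := by
    refine ⟨fun {f g} hfg => ?_⟩
    have hfg' : ∀ z ∈ upperHalfPlaneSet,
        ((f : ℍ → ℂ) ∘ ofComplex) z * ((g : ℍ → ℂ) ∘ ofComplex) z = 0 := by
      intro z _
      have := congrArg (fun h : Hol => (h : ℍ → ℂ) (ofComplex z)) hfg
      simpa using this
    rcases (mer_analyticOnNhd f).eq_zero_or_eq_zero_of_mul_eq_zero (mer_analyticOnNhd g) hfg'
      mer_isPreconnected_upperHalfPlaneSet with h | h
    · exact Or.inl (mer_eq_zero_of_forall h)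
    · exact Or.inr (mer_eq_zero_of_forall h)
  exact NoZeroDivisors.to_isDomain _

/-- The field of meromorphic functions on the upper half plane. -/
abbrev Mer : Type := FractionRing Hol

/-- Constant functions. -/
noncomputable def holC : ℂ →+* Hol where
  toFun c := ⟨fun _ => c, mdifferentiable_const⟩
  map_one' := rfl
  map_mul' _ _ := rfl
  map_zero' := rfl
  map_add' _ _ := rfl

theorem holC_apply (c : ℂ) (τ : ℍ) : (holC c : ℍ → ℂ) τ = c := rfl

theorem mer_mdifferentiable_slComp (γ : SL(2, ℤ)) {f : ℍ → ℂ} (hf : MDiff f) :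
    MDiff (slComp γ f) := by
  have hdet : 0 < (Matrix.SpecialLinearGroup.mapGL ℝ γ : GL (Fin 2) ℝ).det.val := by
    simp
  exact hf.comp (UpperHalfPlane.mdifferentiable_smul hdet)

/-- Precomposition with `γ ∈ SL(2, ℤ)` as a ring endomorphism of `Hol`. -/
noncomputable def compSLHol (γ : SL(2, ℤ)) : Hol →+* Hol where
  toFun f := ⟨slComp γ f.1, mer_mdifferentiable_slComp γ f.2⟩
  map_one' := rfl
  map_mul' _ _ := rfl
  map_zero' := rfl
  map_add' _ _ := rfl

theorem compSLHol_apply (γ : SL(2, ℤ)) (f : Hol) (τ : ℍ) :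
    (compSLHol γ f : ℍ → ℂ) τ = (f : ℍ → ℂ) (γ • τ) := rfl

theorem coe_compSLHol (γ : SL(2, ℤ)) (f : Hol) :
    ((compSLHol γ f : Hol) : ℍ → ℂ) = slComp γ f := rfl

theorem compSLHol_one (f : Hol) : compSLHol 1 f = f := by
  apply Subtype.ext
  funext τ
  rw [compSLHol_apply, one_smul]

theorem compSLHol_mul (γ₁ γ₂ : SL(2, ℤ)) (f : Hol) :
    compSLHol (γ₁ * γ₂) f = compSLHol γ₂ (compSLHol γ₁ f) := by
  apply Subtype.ext
  funext τ
  rw [compSLHol_apply, compSLHol_apply, compSLHol_apply, mul_smul]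

theorem compSLHol_neg (γ : SL(2, ℤ)) (f : Hol) : compSLHol (-γ) f = compSLHol γ f := by
  apply Subtype.ext
  funext τ
  rw [compSLHol_apply, compSLHol_apply, ModularGroup.SL_neg_smul]

theorem compSLHol_injective (γ : SL(2, ℤ)) : Function.Injective (compSLHol γ) := by
  intro f g h
  have h2 : compSLHol γ⁻¹ (compSLHol γ f) = compSLHol γ⁻¹ (compSLHol γ g) := by rw [h]
  rwa [← compSLHol_mul, ← compSLHol_mul, mul_inv_cancel, compSLHol_one, compSLHol_one] at h2

/-- Precomposition with `γ ∈ SL(2, ℤ)` on meromorphic functions. -/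
noncomputable def compSL (γ : SL(2, ℤ)) : Mer →+* Mer :=
  IsFractionRing.lift (g := (algebraMap Hol Mer).comp (compSLHol γ))
    ((IsFractionRing.injective Hol Mer).comp (compSLHol_injective γ))

theorem compSL_algebraMap (γ : SL(2, ℤ)) (f : Hol) :
    compSL γ (algebraMap Hol Mer f) = algebraMap Hol Mer (compSLHol γ f) :=
  IsFractionRing.lift_algebraMap _ f

/-- Every meromorphic function is a quotient of holomorphic functions. -/
theorem mer_exists_div (x : Mer) :
    ∃ a b : Hol, b ≠ 0 ∧ x = algebraMap Hol Mer a / algebraMap Hol Mer b := by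
  obtain ⟨a, b, hb, h⟩ := IsFractionRing.div_surjective (A := Hol) x
  exact ⟨a, b, nonZeroDivisors.ne_zero hb, h.symm⟩

theorem compSL_div (γ : SL(2, ℤ)) (a b : Hol) :
    compSL γ (algebraMap Hol Mer a / algebraMap Hol Mer b) =
      algebraMap Hol Mer (compSLHol γ a) / algebraMap Hol Mer (compSLHol γ b) := by
  rw [map_div₀, compSL_algebraMap, compSL_algebraMap]

theorem compSL_one (x : Mer) : compSL 1 x = x := by
  obtain ⟨a, b, -, rfl⟩ := mer_exists_div x
  rw [compSL_div, compSLHol_one, compSLHol_one]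

theorem compSL_mul (γ₁ γ₂ : SL(2, ℤ)) (x : Mer) :
    compSL (γ₁ * γ₂) x = compSL γ₂ (compSL γ₁ x) := by
  obtain ⟨a, b, -, rfl⟩ := mer_exists_div x
  rw [compSL_div, compSL_div, compSL_div, compSLHol_mul, compSLHol_mul]

theorem compSL_neg (γ : SL(2, ℤ)) (x : Mer) : compSL (-γ) x = compSL γ x := by
  obtain ⟨a, b, -, rfl⟩ := mer_exists_div x
  rw [compSL_div, compSL_div, compSLHol_neg, compSLHol_neg]

/-! ### The order function -/

/-- The quotient of two holomorphic functions, as a function on `ℂ`. -/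
noncomputable def merFun (a b : Hol) : ℂ → ℂ :=
  fun z => (a : ℍ → ℂ) (ofComplex z) / (b : ℍ → ℂ) (ofComplex z)

theorem mer_meromorphicAt (a b : Hol) (τ : ℍ) : MeromorphicAt (merFun a b) (τ : ℂ) :=
  (mer_analyticAt a τ).meromorphicAt.div (mer_analyticAt b τ).meromorphicAt

/-- A nonzero holomorphic function is nonzero on a punctured neighbourhood of each point. -/
theorem mer_eventually_ne {f : Hol} (hf : f ≠ 0) (τ : ℍ) :
    ∀ᶠ z in 𝓝[≠] (τ : ℂ), ((f : ℍ → ℂ) ∘ ofComplex) z ≠ 0 := by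
  rcases (mer_analyticAt f τ).eventually_eq_zero_or_eventually_ne_zero with h | h
  · exfalso
    apply hf
    apply mer_eq_zero_of_forall
    exact (mer_analyticOnNhd f).eqOn_zero_of_preconnected_of_eventuallyEq_zero
      mer_isPreconnected_upperHalfPlaneSet τ.im_pos h
  · exact h

theorem mer_analyticOrderAt_ne_top (τ : ℍ) {f : Hol} (hf : f ≠ 0) :
    analyticOrderAt ((f : ℍ → ℂ) ∘ ofComplex) (τ : ℂ) ≠ ⊤ := by
  rw [Ne, analyticOrderAt_eq_top]
  intro h
  have h1 := mer_eventually_ne hf τ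
  have h2 : ∀ᶠ z in 𝓝[≠] (τ : ℂ), ((f : ℍ → ℂ) ∘ ofComplex) z = 0 :=
    h.filter_mono nhdsWithin_le_nhds
  obtain ⟨z, hz1, hz2⟩ := (h1.and h2).exists
  exact hz1 hz2

theorem mer_meromorphicOrderAt_ne_top {a b : Hol} (ha : a ≠ 0) (hb : b ≠ 0) (τ : ℍ) :
    meromorphicOrderAt (merFun a b) (τ : ℂ) ≠ ⊤ := by
  rw [meromorphicOrderAt_ne_top_iff_eventually_ne_zero (mer_meromorphicAt a b τ)]
  filter_upwards [mer_eventually_ne ha τ, mer_eventually_ne hb τ] with z h1 h2
  exact div_ne_zero h1 h2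

/-- The order at `τ` of a meromorphic function on the upper half plane (`0` for the zero
function). -/
noncomputable def merOrd (τ : ℍ) (x : Mer) : ℤ :=
  (meromorphicOrderAt (merFun (IsLocalization.sec (nonZeroDivisors Hol) x).1
    (IsLocalization.sec (nonZeroDivisors Hol) x).2) (τ : ℂ)).untop₀

theorem mer_algebraMap_ne_zero {b : Hol} (hb : b ≠ 0) : algebraMap Hol Mer b ≠ 0 :=
  (map_ne_zero_iff _ (IsFractionRing.injective Hol Mer)).mpr hb

/-- The order of a quotient can be computed from any representation. -/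
theorem merOrd_div_eq (τ : ℍ) (a : Hol) {b : Hol} (hb : b ≠ 0) :
    merOrd τ (algebraMap Hol Mer a / algebraMap Hol Mer b) =
      (meromorphicOrderAt (merFun a b) (τ : ℂ)).untop₀ := by
  unfold merOrd
  set x := algebraMap Hol Mer a / algebraMap Hol Mer b with hx
  set a' := (IsLocalization.sec (nonZeroDivisors Hol) x).1 with ha'
  set b' := (IsLocalization.sec (nonZeroDivisors Hol) x).2 with hb'
  have hspec : x * algebraMap Hol Mer b' = algebraMap Hol Mer a' :=
    IsLocalization.sec_spec _ x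
  have hb'0 : (b' : Hol) ≠ 0 := nonZeroDivisors.ne_zero b'.2
  have hbK : algebraMap Hol Mer b ≠ 0 := mer_algebraMap_ne_zero hb
  have key : a * b' = a' * b := by
    apply IsFractionRing.injective Hol Mer
    rw [map_mul, map_mul, ← hspec, hx]
    field_simp
  congr 1
  apply meromorphicOrderAt_congr
  filter_upwards [mer_eventually_ne hb τ, mer_eventually_ne hb'0 τ] with z h1 h2
  have key' := congrArg (fun h : Hol => (h : ℍ → ℂ) (ofComplex z)) key
  simp only [Subring.coe_mul, Pi.mul_apply] at key'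
  simp only [Function.comp_apply] at h1 h2
  unfold merFun
  rw [div_eq_div_iff h2 h1]
  exact key'.symm

theorem merOrd_zero (τ : ℍ) : merOrd τ 0 = 0 := by
  have h : (0 : Mer) = algebraMap Hol Mer 0 / algebraMap Hol Mer 1 := by simp
  rw [h, merOrd_div_eq τ 0 one_ne_zero]
  have h0 : merFun 0 1 = fun _ => (0 : ℂ) := by
    funext z
    simp [merFun]
  rw [h0, WithTop.untop₀_eq_zero]
  right
  rw [meromorphicOrderAt_eq_top_iff]
  exact Eventually.of_forall fun _ => rfl

theorem merFun_one_right (f : Hol) : merFun f 1 = (f : ℍ → ℂ) ∘ ofComplex := by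
  funext z
  simp [merFun]

/-- (O5) The order of a holomorphic function is its order of vanishing. -/
theorem merOrd_algebraMap (τ : ℍ) (f : Hol) :
    merOrd τ (algebraMap Hol Mer f) =
      (analyticOrderNatAt ((f : ℍ → ℂ) ∘ ofComplex) (τ : ℂ) : ℤ) := by
  have h : algebraMap Hol Mer f = algebraMap Hol Mer f / algebraMap Hol Mer 1 := by simp
  rw [h, merOrd_div_eq τ f one_ne_zero, merFun_one_right, (mer_analyticAt f τ).meromorphicOrderAt_eq,
    analyticOrderNatAt]
  cases analyticOrderAt ((f : ℍ → ℂ) ∘ ofComplex) (τ : ℂ) with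
  | top => simp
  | coe n => simp

/-- (O5), `analyticOrderAt` form. -/
theorem merOrd_algebraMap_of_analyticOrderAt (τ : ℍ) (f : Hol) {n : ℕ}
    (h : analyticOrderAt ((f : ℍ → ℂ) ∘ ofComplex) (τ : ℂ) = n) :
    merOrd τ (algebraMap Hol Mer f) = n := by
  rw [merOrd_algebraMap, analyticOrderNatAt, h]
  simp

theorem merOrd_algebraMap_nonneg (τ : ℍ) (f : Hol) : 0 ≤ merOrd τ (algebraMap Hol Mer f) := by
  rw [merOrd_algebraMap]
  exact Int.natCast_nonneg _

theorem merOrd_algebraMap_eq_zero (τ : ℍ) (f : Hol) (h : (f : ℍ → ℂ) τ ≠ 0) :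
    merOrd τ (algebraMap Hol Mer f) = 0 := by
  have h0 : analyticOrderAt ((f : ℍ → ℂ) ∘ ofComplex) (τ : ℂ) = (0 : ℕ) := by
    rw [Nat.cast_zero, (mer_analyticAt f τ).analyticOrderAt_eq_zero]
    simpa using h
  simpa using merOrd_algebraMap_of_analyticOrderAt τ f h0

theorem merOrd_algebraMap_pos_iff (τ : ℍ) {f : Hol} (hf : f ≠ 0) :
    0 < merOrd τ (algebraMap Hol Mer f) ↔ (f : ℍ → ℂ) τ = 0 := by
  constructor
  · intro h
    by_contra h0
    rw [merOrd_algebraMap_eq_zero τ f h0] at h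
    exact lt_irrefl _ h
  · intro h
    rw [merOrd_algebraMap]
    have h1 := mer_analyticOrderAt_ne_top τ hf
    have h2 : analyticOrderAt ((f : ℍ → ℂ) ∘ ofComplex) (τ : ℂ) ≠ 0 := by
      rw [Ne, (mer_analyticAt f τ).analyticOrderAt_eq_zero]
      simpa using h
    have h3 : analyticOrderNatAt ((f : ℍ → ℂ) ∘ ofComplex) (τ : ℂ) ≠ 0 := by
      intro h4
      apply h2
      rw [← Nat.cast_analyticOrderNatAt h1, h4, Nat.cast_zero]
    exact_mod_cast Nat.pos_of_ne_zero h3

theorem mer_div_ne_zero_iff {a b : Hol} (hb : b ≠ 0) :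
    algebraMap Hol Mer a / algebraMap Hol Mer b ≠ 0 ↔ a ≠ 0 := by
  rw [div_ne_zero_iff]
  constructor
  · rintro ⟨h, -⟩ rfl
    exact h (map_zero _)
  · intro h
    exact ⟨mer_algebraMap_ne_zero h, mer_algebraMap_ne_zero hb⟩

/-- (O1) -/
theorem merOrd_mul (τ : ℍ) {x y : Mer} (hx : x ≠ 0) (hy : y ≠ 0) :
    merOrd τ (x * y) = merOrd τ x + merOrd τ y := by
  obtain ⟨a, b, hb, rfl⟩ := mer_exists_div x
  obtain ⟨c, d, hd, rfl⟩ := mer_exists_div y
  have ha : a ≠ 0 := (mer_div_ne_zero_iff hb).mp hx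
  have hc : c ≠ 0 := (mer_div_ne_zero_iff hd).mp hy
  have h1 : algebraMap Hol Mer a / algebraMap Hol Mer b *
      (algebraMap Hol Mer c / algebraMap Hol Mer d) =
      algebraMap Hol Mer (a * c) / algebraMap Hol Mer (b * d) := by
    rw [map_mul, map_mul, mul_div_mul_comm]
  have h2 : merFun (a * c) (b * d) = merFun a b * merFun c d := by
    funext z
    simp only [merFun, Subring.coe_mul, Pi.mul_apply]
    rw [mul_div_mul_comm]
  rw [h1, merOrd_div_eq τ _ (mul_ne_zero hb hd), merOrd_div_eq τ _ hb, merOrd_div_eq τ _ hd, h2,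
    meromorphicOrderAt_mul (mer_meromorphicAt a b τ) (mer_meromorphicAt c d τ),
    WithTop.untop₀_add (mer_meromorphicOrderAt_ne_top ha hb τ)
      (mer_meromorphicOrderAt_ne_top hc hd τ)]

theorem merOrd_inv (τ : ℍ) (x : Mer) : merOrd τ x⁻¹ = - merOrd τ x := by
  rcases eq_or_ne x 0 with rfl | hx
  · simp [merOrd_zero]
  obtain ⟨a, b, hb, rfl⟩ := mer_exists_div x
  have ha : a ≠ 0 := (mer_div_ne_zero_iff hb).mp hx
  have h2 : merFun b a = (merFun a b)⁻¹ := by
    funext z
    simp only [merFun, Pi.inv_apply, inv_div]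
  rw [inv_div, merOrd_div_eq τ _ ha, merOrd_div_eq τ _ hb, h2, meromorphicOrderAt_inv,
    WithTop.untop₀_neg]

theorem merOrd_div (τ : ℍ) {x y : Mer} (hx : x ≠ 0) (hy : y ≠ 0) :
    merOrd τ (x / y) = merOrd τ x - merOrd τ y := by
  rw [div_eq_mul_inv, merOrd_mul τ hx (inv_ne_zero hy), merOrd_inv, sub_eq_add_neg]

/-- (O2) -/
theorem merOrd_add (τ : ℍ) {x y : Mer} (hx : x ≠ 0) (hy : y ≠ 0) (hxy : x + y ≠ 0) :
    min (merOrd τ x) (merOrd τ y) ≤ merOrd τ (x + y) := by
  obtain ⟨a, b, hb, rfl⟩ := mer_exists_div x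
  obtain ⟨c, d, hd, rfl⟩ := mer_exists_div y
  have ha : a ≠ 0 := (mer_div_ne_zero_iff hb).mp hx
  have hc : c ≠ 0 := (mer_div_ne_zero_iff hd).mp hy
  have h1 : algebraMap Hol Mer a / algebraMap Hol Mer b +
      algebraMap Hol Mer c / algebraMap Hol Mer d =
      algebraMap Hol Mer (a * d + b * c) / algebraMap Hol Mer (b * d) := by
    rw [map_add, map_mul, map_mul, map_mul,
      div_add_div _ _ (mer_algebraMap_ne_zero hb) (mer_algebraMap_ne_zero hd)]
  have hbd : b * d ≠ 0 := mul_ne_zero hb hd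
  have hs : a * d + b * c ≠ 0 := by
    rw [h1] at hxy
    exact (mer_div_ne_zero_iff hbd).mp hxy
  have h2 : merFun (a * d + b * c) (b * d) =ᶠ[𝓝[≠] (τ : ℂ)] merFun a b + merFun c d := by
    filter_upwards [mer_eventually_ne hb τ, mer_eventually_ne hd τ] with z hz1 hz2
    simp only [Function.comp_apply] at hz1 hz2
    simp only [merFun, Subring.coe_mul, Subring.coe_add, Pi.mul_apply, Pi.add_apply]
    rw [div_add_div _ _ hz1 hz2]
  rw [h1, merOrd_div_eq τ _ hbd, merOrd_div_eq τ _ hb, merOrd_div_eq τ _ hd,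
    meromorphicOrderAt_congr h2]
  have h3 := meromorphicOrderAt_add (mer_meromorphicAt a b τ) (mer_meromorphicAt c d τ)
  have hn1 := mer_meromorphicOrderAt_ne_top ha hb τ
  have hn2 := mer_meromorphicOrderAt_ne_top hc hd τ
  have hn3 : meromorphicOrderAt (merFun a b + merFun c d) (τ : ℂ) ≠ ⊤ := by
    rw [← meromorphicOrderAt_congr h2]
    exact mer_meromorphicOrderAt_ne_top hs hbd τ
  rw [← WithTop.untop₀_min hn1 hn2]
  exact WithTop.untop₀_le_untop₀ hn3 h3

/-- (O3) -/
theorem merOrd_const (τ : ℍ) {c : ℂ} (hc : c ≠ 0) :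
    merOrd τ (algebraMap Hol Mer (holC c)) = 0 :=
  merOrd_algebraMap_eq_zero τ _ hc

theorem mer_det_pos (γ : SL(2, ℤ)) :
    0 < (Matrix.SpecialLinearGroup.mapGL ℝ γ : GL (Fin 2) ℝ).val.det := by
  have h : (Matrix.SpecialLinearGroup.mapGL ℝ γ : GL (Fin 2) ℝ).val.det = 1 := by
    rw [← Matrix.GeneralLinearGroup.val_det_apply, Matrix.SpecialLinearGroup.det_mapGL]
    rfl
  rw [h]
  exact one_pos

/-- (O4) -/
theorem merOrd_compSL (γ : SL(2, ℤ)) (τ : ℍ) (x : Mer) :
    merOrd τ (compSL γ x) = merOrd (γ • τ) x := by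
  obtain ⟨a, b, hb, rfl⟩ := mer_exists_div x
  have hb' : compSLHol γ b ≠ 0 := fun h => hb (compSLHol_injective γ (h.trans (map_zero _).symm))
  rw [compSL_div, merOrd_div_eq τ _ hb', merOrd_div_eq _ _ hb]
  have h := UpperHalfPlane.meromorphicOrderAt_comp_smul
    (f := fun w : ℍ => (a : ℍ → ℂ) w / (b : ℍ → ℂ) w) (τ := τ) (mer_det_pos γ)
  exact congrArg WithTop.untop₀ h

/-- The multiplier lemma: if a meromorphic function `m` of order `n` at `t` is invariant under
a map `G` fixing `t`, then the `n`-th power of the derivative of `G` at `t` is `1`. -/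
theorem mer_multiplier {m G : ℂ → ℂ} {t : ℂ} {n : ℤ} (hm : MeromorphicAt m t)
    (hn : meromorphicOrderAt m t = n) (hG : DifferentiableAt ℂ G t) (hGt : G t = t)
    (hG' : deriv G t ≠ 0) (hinv : ∀ᶠ z in 𝓝[≠] t, m (G z) = m z) : deriv G t ^ n = 1 := by
  obtain ⟨g, hg, hg0, hgm⟩ := (meromorphicOrderAt_eq_int_iff hm).mp hn
  set s : ℂ → ℂ := dslope G t with hs
  have hsc : ContinuousAt s t := continuousAt_dslope_same.mpr hG
  have hst : s t = deriv G t := dslope_same G t
  have hGz : ∀ z, G z - t = (z - t) * s z := by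
    intro z
    have h := sub_smul_dslope G t z
    rw [hGt] at h
    rw [← h, smul_eq_mul]
  have hs0 : ∀ᶠ z in 𝓝 t, s z ≠ 0 := hsc.eventually_ne (by rwa [hst])
  have hGtend : Tendsto G (𝓝[≠] t) (𝓝[≠] t) := by
    rw [tendsto_nhdsWithin_iff]
    constructor
    · have h := hG.continuousAt.tendsto
      rw [hGt] at h
      exact h.mono_left nhdsWithin_le_nhds
    · filter_upwards [self_mem_nhdsWithin, hs0.filter_mono nhdsWithin_le_nhds] with z hz hsz
      intro h
      have h2 := hGz z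
      rw [h, sub_self] at h2
      exact (mul_ne_zero (sub_ne_zero.mpr hz) hsz) h2.symm
  have hgm' : ∀ᶠ z in 𝓝[≠] t, m (G z) = (G z - t) ^ n • g (G z) := hGtend.eventually hgm
  have hmain : (fun z => g z) =ᶠ[𝓝[≠] t] (fun z => s z ^ n * g (G z)) := by
    filter_upwards [hgm, hgm', hinv, self_mem_nhdsWithin] with z h1 h2 h3 hz
    have hz' : z - t ≠ 0 := sub_ne_zero.mpr hz
    rw [h1, h2, hGz z, mul_zpow, smul_eq_mul, smul_eq_mul, mul_assoc] at h3
    exact (mul_left_cancel₀ (zpow_ne_zero n hz') h3).symm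
  have hc1 : ContinuousAt (fun z => g z) t := hg.continuousAt
  have hc2 : ContinuousAt (fun z => s z ^ n * g (G z)) t := by
    apply ContinuousAt.mul
    · exact hsc.zpow₀ n (Or.inl (by rwa [hst]))
    · have h : ContinuousAt g (G t) := by
        rw [hGt]
        exact hg.continuousAt
      exact h.comp hG.continuousAt
  have heq : g t = s t ^ n * g (G t) :=
    ((hc1.eventuallyEq_nhds_iff_eventuallyEq_nhdsNE hc2).mp hmain).eq_of_nhds
  rw [hGt, hst] at heq
  have h0 : (deriv G t ^ n - 1) * g t = 0 := by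
    rw [sub_mul, one_mul, ← heq, sub_self]
  rcases mul_eq_zero.mp h0 with h | h
  · exact sub_eq_zero.mp h
  · exact absurd h hg0

/-- (O6) The elliptic multiplier: if `γ` fixes `τ` and `x ≠ 0` is `γ`-invariant then
`(cτ + d) ^ (2 * merOrd τ x) = 1`. -/
theorem merOrd_elliptic (γ : SL(2, ℤ)) (τ : ℍ) (hγ : γ • τ = τ) {x : Mer} (hx : x ≠ 0)
    (hinv : compSL γ x = x) :
    (((γ 1 0 : ℤ) : ℂ) * (τ : ℂ) + ((γ 1 1 : ℤ) : ℂ)) ^ (2 * merOrd τ x) = 1 := by
  obtain ⟨a, b, hb, rfl⟩ := mer_exists_div x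
  have ha : a ≠ 0 := (mer_div_ne_zero_iff hb).mp hx
  have hb' : compSLHol γ b ≠ 0 := fun h => hb (compSLHol_injective γ (h.trans (map_zero _).symm))
  rw [compSL_div] at hinv
  have key : compSLHol γ a * b = a * compSLHol γ b := by
    apply IsFractionRing.injective Hol Mer
    rw [map_mul, map_mul]
    rwa [div_eq_div_iff (mer_algebraMap_ne_zero hb') (mer_algebraMap_ne_zero hb)] at hinv
  set g : GL (Fin 2) ℝ := Matrix.SpecialLinearGroup.mapGL ℝ γ with hg
  set G : ℂ → ℂ := fun z => ((g • ofComplex z : ℍ) : ℂ) with hG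
  have hGt : G τ = τ := by
    simp only [hG, ofComplex_apply]
    exact congrArg _ hγ
  have hGd : HasStrictDerivAt G (g.val.det / denom g τ ^ 2) τ :=
    UpperHalfPlane.hasStrictDerivAt_smul (mer_det_pos γ) τ
  have hdet : ((g.val.det : ℝ) : ℂ) = 1 := by
    have h : (Matrix.SpecialLinearGroup.mapGL ℝ γ : GL (Fin 2) ℝ).val.det = 1 := by
      rw [← Matrix.GeneralLinearGroup.val_det_apply, Matrix.SpecialLinearGroup.det_mapGL]
      rfl
    rw [hg, h, Complex.ofReal_one]
  have hderiv : deriv G τ = 1 / denom g τ ^ 2 := by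
    rw [hGd.hasDerivAt.deriv, hdet]
  have hden : denom g τ = ((γ 1 0 : ℤ) : ℂ) * (τ : ℂ) + ((γ 1 1 : ℤ) : ℂ) := by
    simp [denom, hg]
  have hne : denom g τ ≠ 0 := denom_ne_zero g τ
  have hn : meromorphicOrderAt (merFun a b) (τ : ℂ) =
      ((merOrd τ (algebraMap Hol Mer a / algebraMap Hol Mer b) : ℤ) : WithTop ℤ) := by
    rw [merOrd_div_eq τ a hb,
      WithTop.coe_untop₀_of_ne_top (mer_meromorphicOrderAt_ne_top ha hb τ)]
  have hinvF : ∀ᶠ z in 𝓝[≠] (τ : ℂ), merFun a b (G z) = merFun a b z := by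
    filter_upwards [mer_eventually_ne hb τ, mer_eventually_ne hb' τ] with z h1 h2
    simp only [Function.comp_apply] at h1 h2
    have key' := congrArg (fun h : Hol => (h : ℍ → ℂ) (ofComplex z)) key
    simp only [Subring.coe_mul, Pi.mul_apply] at key'
    have h2' : (b : ℍ → ℂ) (g • ofComplex z) ≠ 0 := h2
    have key'' : (a : ℍ → ℂ) (g • ofComplex z) * (b : ℍ → ℂ) (ofComplex z) =
        (a : ℍ → ℂ) (ofComplex z) * (b : ℍ → ℂ) (g • ofComplex z) := key'
    simp only [merFun, hG, ofComplex_apply]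
    rw [div_eq_div_iff h2' h1]
    exact key''
  have hm := mer_multiplier (mer_meromorphicAt a b τ) hn hGd.hasDerivAt.differentiableAt hGt
    (by rw [hderiv]; exact one_div_ne_zero (pow_ne_zero 2 hne)) hinvF
  rw [hderiv, one_div, inv_zpow, inv_eq_one] at hm
  rw [← hden, zpow_mul]
  exact_mod_cast hm

end Fermat.Agent.S24
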