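import Fermat.Agent.S24.QInf
import Fermat.Agent.S24.MerH

/-!
The ring `RN N` of holomorphic functions on the upper half plane all of whose
`SL(2, ℤ)`-translates are `N`-periodic and meromorphic at `i∞`, its fraction field `MerN N`,
the action of `SL(2, ℤ)`, the expansion at `i∞` and the map to meromorphic functions.
-/

set_option autoImplicit false

namespace Fermat.Agent.S24

open UpperHalfPlane
open scoped MatrixGroups Manifold

theorem slComp_one (f : ℍ → ℂ) : slComp 1 f = f := by
  funext τ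
  simp [slComp]

theorem slComp_mul (γ₁ γ₂ : SL(2, ℤ)) (f : ℍ → ℂ) :
    slComp (γ₁ * γ₂) f = slComp γ₂ (slComp γ₁ f) := by
  funext τ
  simp [slComp, mul_smul]

theorem slComp_injective (γ : SL(2, ℤ)) : Function.Injective (slComp γ) := by
  intro f g h
  have h2 := congrArg (slComp γ⁻¹) h
  rwa [← slComp_mul, ← slComp_mul, mul_inv_cancel, slComp_one, slComp_one] at h2

/-- Holomorphic functions all of whose `SL(2, ℤ)`-translates are `N`-periodic and meromorphic
at `i∞`. -/
def RN (N : ℕ) : Subring (ℍ → ℂ) where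
  carrier := {f | ∀ γ : SL(2, ℤ), IsMerPer N (slComp γ f)}
  mul_mem' hf hg γ := (hf γ).mul (hg γ)
  one_mem' _ := isMerPer_const N 1
  add_mem' hf hg γ := (hf γ).add (hg γ)
  zero_mem' _ := isMerPer_const N 0
  neg_mem' hf γ := (hf γ).neg

theorem mem_RN {N : ℕ} {f : ℍ → ℂ} : f ∈ RN N ↔ ∀ γ : SL(2, ℤ), IsMerPer N (slComp γ f) :=
  Iff.rfl

theorem isMerPer_of_mem_RN {N : ℕ} {f : ℍ → ℂ} (hf : f ∈ RN N) : IsMerPer N f := by
  have h := hf 1
  rwa [slComp_one] at h

theorem RN_le_Hol (N : ℕ) : RN N ≤ Hol := fun _ hf => (isMerPer_of_mem_RN hf).mdiff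

/-- The inclusion of `RN N` into the ring of holomorphic functions. -/
def toHol (N : ℕ) : ↥(RN N) →+* ↥Hol := Subring.inclusion (RN_le_Hol N)

theorem toHol_injective (N : ℕ) : Function.Injective (toHol N) :=
  Subring.inclusion_injective (RN_le_Hol N)

theorem coe_toHol (N : ℕ) (f : ↥(RN N)) : ((toHol N f : ↥Hol) : ℍ → ℂ) = (f : ℍ → ℂ) := rfl

instance instIsDomainRN (N : ℕ) : IsDomain ↥(RN N) :=
  Function.Injective.isDomain (toHol N) (toHol_injective N)

/-- The fraction field of `RN N`. -/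
abbrev MerN (N : ℕ) : Type := FractionRing ↥(RN N)

/-- Constant functions as elements of `RN N`. -/
def constRN (N : ℕ) (c : ℂ) : ↥(RN N) := ⟨fun _ => c, fun _ => isMerPer_const N c⟩

/-- Translation by `γ ∈ SL(2, ℤ)` on `RN N`. -/
noncomputable def actR (N : ℕ) (γ : SL(2, ℤ)) : ↥(RN N) →+* ↥(RN N) where
  toFun f := ⟨slComp γ (f : ℍ → ℂ), fun γ' => by
    rw [← slComp_mul]
    exact f.2 (γ * γ')⟩
  map_one' := rfl
  map_mul' _ _ := rfl
  map_zero' := rfl
  map_add' _ _ := rfl

theorem coe_actR (N : ℕ) (γ : SL(2, ℤ)) (f : ↥(RN N)) :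
    ((actR N γ f : ↥(RN N)) : ℍ → ℂ) = slComp γ (f : ℍ → ℂ) := rfl

theorem actR_injective (N : ℕ) (γ : SL(2, ℤ)) : Function.Injective (actR N γ) := by
  intro f g h
  apply Subtype.ext
  apply slComp_injective γ
  exact congrArg Subtype.val h

theorem actR_mul (N : ℕ) (γ₁ γ₂ : SL(2, ℤ)) (f : ↥(RN N)) :
    actR N (γ₁ * γ₂) f = actR N γ₂ (actR N γ₁ f) :=
  Subtype.ext (slComp_mul γ₁ γ₂ _)

theorem actR_one (N : ℕ) (f : ↥(RN N)) : actR N 1 f = f := Subtype.ext (slComp_one _)

/-- Translation by `γ ∈ SL(2, ℤ)` on the fraction field `MerN N`. -/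
noncomputable def act (N : ℕ) (γ : SL(2, ℤ)) : MerN N →+* MerN N :=
  IsFractionRing.lift (g := (algebraMap ↥(RN N) (MerN N)).comp (actR N γ))
    ((IsFractionRing.injective ↥(RN N) (MerN N)).comp (actR_injective N γ))

theorem act_algebraMap (N : ℕ) (γ : SL(2, ℤ)) (f : ↥(RN N)) :
    act N γ (algebraMap ↥(RN N) (MerN N) f) = algebraMap ↥(RN N) (MerN N) (actR N γ f) :=
  IsFractionRing.lift_algebraMap _ f

/-- Two ring homomorphisms out of `MerN N` agreeing on `RN N` are equal. -/
theorem MerN_ringHom_ext {N : ℕ} {S : Type*} [Semiring S] {φ ψ : MerN N →+* S}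
    (h : ∀ f : ↥(RN N), φ (algebraMap ↥(RN N) (MerN N) f) = ψ (algebraMap ↥(RN N) (MerN N) f)) :
    φ = ψ :=
  IsLocalization.ringHom_ext (nonZeroDivisors ↥(RN N)) (RingHom.ext h)

theorem act_mul (N : ℕ) (γ₁ γ₂ : SL(2, ℤ)) (x : MerN N) :
    act N (γ₁ * γ₂) x = act N γ₂ (act N γ₁ x) := by
  have h : act N (γ₁ * γ₂) = (act N γ₂).comp (act N γ₁) := by
    apply MerN_ringHom_ext
    intro f
    rw [RingHom.comp_apply, act_algebraMap, act_algebraMap, act_algebraMap, actR_mul]
  rw [h, RingHom.comp_apply]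

theorem act_one (N : ℕ) (x : MerN N) : act N 1 x = x := by
  have h : act N 1 = RingHom.id (MerN N) := by
    apply MerN_ringHom_ext
    intro f
    rw [act_algebraMap, actR_one, RingHom.id_apply]
  rw [h, RingHom.id_apply]

variable (N : ℕ) [NeZero N]

/-- The expansion at `i∞` in the parameter `q_N` as a ring homomorphism on `RN N`. -/
noncomputable def qInfR : ↥(RN N) →+* LaurentSeries ℂ where
  toFun f := qInf N (f : ℍ → ℂ)
  map_one' := by
    show qInf N (fun _ : ℍ => (1 : ℂ)) = 1
    rw [qInf_const (Nat.pos_of_ne_zero (NeZero.ne N)) 1, map_one]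
  map_mul' f g := qInf_mul (Nat.pos_of_ne_zero (NeZero.ne N)) (isMerPer_of_mem_RN f.2)
    (isMerPer_of_mem_RN g.2)
  map_zero' := by
    show qInf N (fun _ : ℍ => (0 : ℂ)) = 0
    rw [qInf_const (Nat.pos_of_ne_zero (NeZero.ne N)) 0, map_zero]
  map_add' f g := qInf_add (Nat.pos_of_ne_zero (NeZero.ne N)) (isMerPer_of_mem_RN f.2)
    (isMerPer_of_mem_RN g.2)

theorem qInfR_apply (f : ↥(RN N)) : qInfR N f = qInf N (f : ℍ → ℂ) := rfl

theorem qInfR_injective : Function.Injective (qInfR N) := by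
  rw [injective_iff_map_eq_zero]
  intro f hf
  apply Subtype.ext
  exact (qInf_eq_zero_iff (Nat.pos_of_ne_zero (NeZero.ne N)) (isMerPer_of_mem_RN f.2)).mp hf

/-- The expansion at `i∞` in the parameter `q_N` on the fraction field. -/
noncomputable def qInfM : MerN N →+* LaurentSeries ℂ :=
  IsFractionRing.lift (qInfR_injective N)

theorem qInfM_algebraMap (f : ↥(RN N)) :
    qInfM N (algebraMap ↥(RN N) (MerN N) f) = qInf N (f : ℍ → ℂ) :=
  IsFractionRing.lift_algebraMap _ f

theorem qInfM_injective : Function.Injective (qInfM N) := (qInfM N).injective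

omit [NeZero N] in
/-- The map from `MerN N` to the field of meromorphic functions on the upper half plane. -/
noncomputable def toMer : MerN N →+* Mer :=
  IsFractionRing.lift (g := (algebraMap ↥Hol Mer).comp (toHol N))
    ((IsFractionRing.injective ↥Hol Mer).comp (toHol_injective N))

omit [NeZero N] in
theorem toMer_algebraMap (f : ↥(RN N)) :
    toMer N (algebraMap ↥(RN N) (MerN N) f) = algebraMap ↥Hol Mer (toHol N f) :=
  IsFractionRing.lift_algebraMap _ f

omit [NeZero N] in
theorem toMer_injective : Function.Injective (toMer N) := (toMer N).injective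

omit [NeZero N] in
theorem toMer_act (γ : SL(2, ℤ)) (x : MerN N) :
    toMer N (act N γ x) = compSL γ (toMer N x) := by
  have h : (toMer N).comp (act N γ) = (compSL γ).comp (toMer N) := by
    apply MerN_ringHom_ext
    intro f
    have h1 : toHol N (actR N γ f) = compSLHol γ (toHol N f) :=
      Subtype.ext (by rw [coe_compSLHol]; rfl)
    rw [RingHom.comp_apply, RingHom.comp_apply, act_algebraMap, toMer_algebraMap,
      toMer_algebraMap, compSL_algebraMap, h1]
  exact congrArg (fun φ => φ x) h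

end Fermat.Agent.S24
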