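import Fermat.Agent.S24.QInf
import Fermat.Agent.S24.JPoly

/-!
An `SL(2, ℤ)`-invariant holomorphic function on the upper half plane which is meromorphic at
`i∞`, with `q`-expansion coefficients in a subfield `k ⊆ ℂ`, is a polynomial in `j` over `k`.
-/

set_option autoImplicit false

namespace Fermat.Agent.S24

open UpperHalfPlane
open scoped MatrixGroups Manifold

namespace InvPoly

open ModularForm Filter Asymptotics Function

/-- `Δ = O(q)` at `i∞`. -/
theorem discriminant_isBigO_qParam :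
    (ModularForm.discriminant : ℍ → ℂ) =O[atImInfty]
      fun τ : ℍ => Periodic.qParam 1 (τ : ℂ) := by
  have h := CuspFormClass.exp_decay_atImInfty CuspForm.discriminant one_pos
    one_mem_strictPeriods_SL
  refine h.trans (IsBigO.of_bound 1 (Eventually.of_forall fun τ => ?_))
  rw [Periodic.norm_qParam]
  simp

/-- If `q ^ m * h` is bounded at `i∞`, so is `Δ ^ m * h`. -/
theorem isBoundedAtImInfty_discriminant_pow_mul {h : ℍ → ℂ} (m : ℕ)
    (hb : IsBoundedAtImInfty (fun τ : ℍ => Periodic.qParam 1 (τ : ℂ) ^ m * h τ)) :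
    IsBoundedAtImInfty (fun τ : ℍ => ModularForm.discriminant τ ^ m * h τ) :=
  ((discriminant_isBigO_qParam.pow m).mul (isBigO_refl h atImInfty)).trans hb

/-- `Δ ^ m * h` as a level one modular form of weight `12 m`, for `h` holomorphic and
`SL(2, ℤ)`-invariant with `Δ ^ m * h` bounded at `i∞`. -/
noncomputable def mkForm (m : ℕ) (h : ℍ → ℂ) (hhol : MDiff h)
    (hinv : ∀ γ : SL(2, ℤ), slComp γ h = h)
    (hb : IsBoundedAtImInfty (fun τ : ℍ => ModularForm.discriminant τ ^ m * h τ)) :
    ModularForm 𝒮ℒ (12 * (m : ℤ)) where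
  toFun := fun τ => ModularForm.discriminant τ ^ m * h τ
  slash_action_eq' A hA := by
    obtain ⟨γ, rfl⟩ := hA
    funext τ
    show ((fun τ => ModularForm.discriminant τ ^ m * h τ) ∣[12 * (m : ℤ)] γ) τ = _
    have hd : denom γ τ ≠ 0 := denom_ne_zero γ τ
    have h1 : h (γ • τ) = h τ := congrFun (hinv γ) τ
    rw [SL_slash_apply, discriminant_smul_apply, h1, mul_pow, ← zpow_natCast, ← zpow_mul,
      mul_assoc, mul_assoc, mul_comm, mul_assoc, mul_assoc, ← zpow_add₀ hd]
    simp [mul_comm]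
  holo' := ((ModularFormClass.holo CuspForm.discriminant).pow m).mul hhol
  bdd_at_cusps' hc := by
    rw [Subgroup.IsArithmetic.isCusp_iff_isCusp_SL2Z] at hc
    rw [OnePoint.isBoundedAt_iff_forall_SL2Z hc]
    intro γ _
    have hsl : (fun τ => ModularForm.discriminant τ ^ m * h τ) ∣[12 * (m : ℤ)] γ =
        fun τ => ModularForm.discriminant τ ^ m * h τ := by
      funext τ
      have hd : denom γ τ ≠ 0 := denom_ne_zero γ τ
      have h1 : h (γ • τ) = h τ := congrFun (hinv γ) τ
      rw [SL_slash_apply, discriminant_smul_apply, h1, mul_pow, ← zpow_natCast, ← zpow_mul,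
        mul_assoc, mul_assoc, mul_comm, mul_assoc, mul_assoc, ← zpow_add₀ hd]
      simp [mul_comm]
    show IsBoundedAtImInfty ((fun τ => ModularForm.discriminant τ ^ m * h τ) ∣[12 * (m : ℤ)] γ)
    rw [hsl]
    exact hb

theorem mkForm_apply (m : ℕ) (h : ℍ → ℂ) (hhol : MDiff h)
    (hinv : ∀ γ : SL(2, ℤ), slComp γ h = h)
    (hb : IsBoundedAtImInfty (fun τ : ℍ => ModularForm.discriminant τ ^ m * h τ)) (τ : ℍ) :
    mkForm m h hhol hinv hb τ = ModularForm.discriminant τ ^ m * h τ := rfl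

/-- A level one modular form is meromorphic at `i∞`, with Laurent expansion its `q`-expansion. -/
theorem isMerPer_levelOne {w : ℤ} (F : ModularForm 𝒮ℒ w) : IsMerPer 1 (F : ℍ → ℂ) := by
  have hper : Function.Periodic ((F : ℍ → ℂ) ∘ ofComplex) ((1 : ℕ) : ℝ) := by
    rw [Nat.cast_one]
    exact SlashInvariantFormClass.periodic_comp_ofComplex F one_mem_strictPeriods_SL
  refine isMerPer_of_hasSum one_pos (ModularFormClass.holo F) hper 0
    (fun n => (qExpansion 1 F).coeff n) fun τ => ?_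
  have := ModularForm.hasSum_qExpansion (f := F) one_pos one_mem_strictPeriods_SL τ
  simpa using this

theorem qInf_levelOne {w : ℤ} (F : ModularForm 𝒮ℒ w) :
    qInf 1 (F : ℍ → ℂ) = HahnSeries.ofPowerSeries ℤ ℂ (qExpansion 1 F) := by
  have hper : Function.Periodic ((F : ℍ → ℂ) ∘ ofComplex) ((1 : ℕ) : ℝ) := by
    rw [Nat.cast_one]
    exact SlashInvariantFormClass.periodic_comp_ofComplex F one_mem_strictPeriods_SL
  have h := qInf_of_hasSum one_pos (ModularFormClass.holo F) hper 0
    (fun n => (qExpansion 1 F).coeff n) fun τ => by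
      have := ModularForm.hasSum_qExpansion (f := F) one_pos one_mem_strictPeriods_SL τ
      simpa using this
  rw [h]
  have hmk : PowerSeries.mk (fun n => (qExpansion 1 F).coeff n) = qExpansion 1 F := by
    ext n
    simp
  rw [hmk]
  simp

/-- All coefficients of the Laurent series lie in the subfield `K`. -/
def LCoeffsIn (K : Subfield ℂ) (x : LaurentSeries ℂ) : Prop := ∀ n : ℤ, x.coeff n ∈ K

theorem LCoeffsIn.mul {K : Subfield ℂ} {x y : LaurentSeries ℂ} (hx : LCoeffsIn K x)
    (hy : LCoeffsIn K y) : LCoeffsIn K (x * y) := by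
  intro n
  rw [HahnSeries.coeff_mul]
  exact sum_mem fun ij _ => mul_mem (hx _) (hy _)

theorem LCoeffsIn.ofPowerSeries {K : Subfield ℂ} {p : PowerSeries ℂ} (hp : JPoly.CoeffsIn K p) :
    LCoeffsIn K (HahnSeries.ofPowerSeries ℤ ℂ p) := by
  intro n
  rw [PowerSeries.coeff_coe]
  split_ifs
  · exact zero_mem K
  · exact hp _

end InvPoly

open InvPoly in
theorem exists_poly_of_invariant (k : Subfield ℂ) (h : ℍ → ℂ) (hh : IsMerPer 1 h)
    (hinv : ∀ γ : SL(2, ℤ), slComp γ h = h) (hk : ∀ n : ℤ, (qInf 1 h).coeff n ∈ k) :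
    ∃ p : Polynomial ↥k, ∀ τ : ℍ, h τ = (p.map k.subtype).eval (Jfun τ) := by
  obtain ⟨m, -, hsum⟩ := hasSum_qInf one_pos hh
  -- `q ^ m * h` is bounded at `i∞`
  have hb0 : IsBoundedAtImInfty
      (fun τ : ℍ => Function.Periodic.qParam 1 (τ : ℂ) ^ m * h τ) := by
    refine isBoundedAtImInfty_of_hasSum_qExpansion one_pos
      (c := fun n : ℕ => (qInf 1 h).coeff ((n : ℤ) - m)) fun τ => ?_
    have := hsum τ
    simpa using this
  have hb := isBoundedAtImInfty_discriminant_pow_mul m hb0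
  let G : ModularForm 𝒮ℒ (12 * (m : ℤ)) := mkForm m h hh.mdiff hinv hb
  -- the `q`-expansion of `G` has coefficients in `k`
  let Δm : ModularForm 𝒮ℒ (m * 12) :=
    (ModularFormClass.modularForm CuspForm.discriminant : ModularForm 𝒮ℒ 12).pow m
  have hΔm : (Δm : ℍ → ℂ) = fun τ => ModularForm.discriminant τ ^ m := by
    funext τ
    show ((ModularFormClass.modularForm CuspForm.discriminant : ModularForm 𝒮ℒ 12).pow m) τ = _
    rw [ModularForm.coe_pow]
    rfl
  have hGfun : (G : ℍ → ℂ) = (Δm : ℍ → ℂ) * h := by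
    rw [hΔm]
    rfl
  have hq : qInf 1 (G : ℍ → ℂ) = qInf 1 (Δm : ℍ → ℂ) * qInf 1 h := by
    rw [hGfun]
    exact qInf_mul one_pos (isMerPer_levelOne Δm) hh
  have hΔq : qExpansion 1 Δm = qExpansion 1 ModularForm.discriminant ^ m :=
    ModularForm.qExpansion_pow one_pos one_mem_strictPeriods_SL _ m
  have hGk : ∀ n : ℕ, PowerSeries.coeff n (qExpansion 1 G) ∈ k := by
    intro n
    have h1 : PowerSeries.coeff n (qExpansion 1 G) = (qInf 1 (G : ℍ → ℂ)).coeff (n : ℤ) := by
      rw [qInf_levelOne G, HahnSeries.ofPowerSeries_apply_coeff]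
    rw [h1, hq, qInf_levelOne Δm, hΔq]
    exact (LCoeffsIn.ofPowerSeries (JPoly.coeffsIn_discriminant.pow m)).mul hk n
  obtain ⟨P, -, hP⟩ := exists_polynomial_Jfun k m G hGk
  refine ⟨P, fun τ => ?_⟩
  have h2 := hP τ
  rw [show G τ = ModularForm.discriminant τ ^ m * h τ from rfl] at h2
  exact mul_left_cancel₀ (pow_ne_zero m (ModularForm.discriminant_ne_zero τ))
    (by rw [h2]; ring)

end Fermat.Agent.S24
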