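import Fermat.Agent.S24.Real
import Fermat.Agent.S24.InvPoly

/-!
Elements of `RN N` all of whose `SL(2, ℤ)`-translates have `q_N`-expansions with coefficients
in a subfield `k ⊆ ℂ`; the invariant ones are polynomials in `j` over `k`.
-/

set_option autoImplicit false

namespace Fermat.Agent.S24

open UpperHalfPlane ModularCurve
open scoped MatrixGroups Manifold

namespace CoeffField

/-- The Laurent series all of whose coefficients lie in the subfield `k`. -/
def coeffSubring (k : Subfield ℂ) : Subring (LaurentSeries ℂ) where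
  carrier := {x | ∀ n : ℤ, x.coeff n ∈ k}
  mul_mem' := by
    intro x y hx hy n
    rw [HahnSeries.coeff_mul]
    exact Subfield.sum_mem _ fun ij _ => mul_mem (hx _) (hy _)
  one_mem' := by
    intro n
    rw [HahnSeries.coeff_one]
    split_ifs
    · exact one_mem _
    · exact zero_mem _
  add_mem' := by
    intro x y hx hy n
    rw [HahnSeries.coeff_add]
    exact add_mem (hx _) (hy _)
  zero_mem' := by
    intro n
    rw [HahnSeries.coeff_zero]
    exact zero_mem _
  neg_mem' := by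
    intro x hx n
    rw [HahnSeries.coeff_neg]
    exact neg_mem (hx _)

theorem mem_coeffSubring {k : Subfield ℂ} {x : LaurentSeries ℂ} :
    x ∈ coeffSubring k ↔ ∀ n : ℤ, x.coeff n ∈ k := Iff.rfl

theorem C_mem_coeffSubring {k : Subfield ℂ} {c : ℂ} (hc : c ∈ k) :
    (HahnSeries.C c : LaurentSeries ℂ) ∈ coeffSubring k := by
  intro n
  rw [HahnSeries.C_apply, HahnSeries.coeff_single]
  split_ifs
  · exact hc
  · exact zero_mem _

/-- A `T`-invariant function is `1`-periodic. -/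
theorem periodic_one_of_invariant {f : ℍ → ℂ} (hinv : slComp ModularGroup.T f = f) :
    Function.Periodic (f ∘ ofComplex) ((1 : ℕ) : ℝ) := by
  intro w
  by_cases hw : 0 < w.im
  · have hw' : 0 < (w + (((1 : ℕ) : ℝ) : ℂ)).im := by simpa using hw
    simp only [Function.comp_apply, ofComplex_apply_of_im_pos hw', ofComplex_apply_of_im_pos hw]
    have h := congrFun hinv ⟨w, hw⟩
    rw [slComp_apply, modular_T_smul] at h
    rw [← h]
    congr 1
    ext
    simp [add_comm]
  · have hw0 : w.im ≤ 0 := not_lt.mp hw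
    have hw' : (w + (((1 : ℕ) : ℝ) : ℂ)).im ≤ 0 := by simpa using hw0
    simp only [Function.comp_apply, ofComplex_apply_of_im_nonpos hw',
      ofComplex_apply_of_im_nonpos hw0]

/-- An `N`-periodic function meromorphic at `i∞` which is `1`-periodic is meromorphic at `i∞`
in the parameter `q`. -/
theorem isMerPer_one_of_periodic {N : ℕ} (hN : 0 < N) {f : ℍ → ℂ} (hf : IsMerPer N f)
    (hper : Function.Periodic (f ∘ ofComplex) ((1 : ℕ) : ℝ)) : IsMerPer 1 f := by
  obtain ⟨m, hm⟩ := hf.mero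
  refine ⟨hf.mdiff, hper, m, ?_⟩
  have hN0 : (N : ℂ) ≠ 0 := Nat.cast_ne_zero.mpr hN.ne'
  have hq : ∀ τ : ℍ, Function.Periodic.qParam ((1 : ℕ) : ℝ) (τ : ℂ) =
      Function.Periodic.qParam (N : ℝ) (τ : ℂ) ^ N := by
    intro τ
    simp only [Function.Periodic.qParam]
    rw [← Complex.exp_nat_mul]
    congr 1
    push_cast
    field_simp
  have key : (fun τ : ℍ => Function.Periodic.qParam ((1 : ℕ) : ℝ) (τ : ℂ) ^ m * f τ) =
      (fun τ : ℍ => Function.Periodic.qParam (N : ℝ) (τ : ℂ) ^ ((N - 1) * m)) *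
        (fun τ : ℍ => Function.Periodic.qParam (N : ℝ) (τ : ℂ) ^ m * f τ) := by
    funext τ
    simp only [Pi.mul_apply]
    rw [hq, ← pow_mul, ← mul_assoc, ← pow_add]
    congr 2
    obtain ⟨n, rfl⟩ : ∃ n, N = n + 1 := ⟨N - 1, by omega⟩
    simp only [Nat.add_sub_cancel]
    ring
  rw [key]
  refine Filter.BoundedAtFilter.mul ?_ hm
  refine Asymptotics.IsBigO.of_bound 1 (Filter.Eventually.of_forall fun τ => ?_)
  have h1 : ‖Function.Periodic.qParam (N : ℝ) (τ : ℂ)‖ ≤ 1 :=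
    (Function.Periodic.norm_qParam_lt_one (Nat.cast_pos.mpr hN) τ.im_pos).le
  simp only [norm_pow, Pi.one_apply, norm_one, mul_one]
  exact pow_le_one₀ (norm_nonneg _) h1

end CoeffField

open CoeffField

variable (N : ℕ) [NeZero N] (k : Subfield ℂ)

/-- The elements of `RN N` all of whose translates have `q_N`-expansion coefficients in `k`. -/
def RNk : Subring ↥(RN N) where
  carrier := {f | ∀ (γ : SL(2, ℤ)) (n : ℤ), (qInf N (slComp γ (f : ℍ → ℂ))).coeff n ∈ k}
  mul_mem' := by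
    intro f g hf hg γ
    have h : qInf N (slComp γ ((f * g : ↥(RN N)) : ℍ → ℂ)) =
        qInfR N (actR N γ f) * qInfR N (actR N γ g) := by
      rw [← map_mul, ← map_mul]
      rfl
    rw [h]
    exact (coeffSubring k).mul_mem (hf γ) (hg γ)
  one_mem' := by
    intro γ
    have h : qInf N (slComp γ ((1 : ↥(RN N)) : ℍ → ℂ)) = 1 := by
      rw [← map_one (qInfR N), ← map_one (actR N γ)]
      rfl
    rw [h]
    exact (coeffSubring k).one_mem
  add_mem' := by
    intro f g hf hg γ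
    have h : qInf N (slComp γ ((f + g : ↥(RN N)) : ℍ → ℂ)) =
        qInfR N (actR N γ f) + qInfR N (actR N γ g) := by
      rw [← map_add, ← map_add]
      rfl
    rw [h]
    exact (coeffSubring k).add_mem (hf γ) (hg γ)
  zero_mem' := by
    intro γ
    have h : qInf N (slComp γ ((0 : ↥(RN N)) : ℍ → ℂ)) = 0 := by
      rw [← map_zero (qInfR N), ← map_zero (actR N γ)]
      rfl
    rw [h]
    exact (coeffSubring k).zero_mem
  neg_mem' := by
    intro f hf γ
    have h : qInf N (slComp γ ((-f : ↥(RN N)) : ℍ → ℂ)) = -qInfR N (actR N γ f) := by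
      rw [← map_neg, ← map_neg]
      rfl
    rw [h]
    exact (coeffSubring k).neg_mem (hf γ)

theorem mem_RNk {f : ↥(RN N)} :
    f ∈ RNk N k ↔ ∀ (γ : SL(2, ℤ)) (n : ℤ), (qInf N (slComp γ (f : ℍ → ℂ))).coeff n ∈ k :=
  Iff.rfl

theorem actR_mem_RNk (γ : SL(2, ℤ)) {f : ↥(RN N)} (hf : f ∈ RNk N k) :
    actR N γ f ∈ RNk N k := by
  intro γ' n
  rw [coe_actR, ← slComp_mul]
  exact hf (γ * γ') n

theorem constRN_mem_RNk {c : ℂ} (hc : c ∈ k) : constRN N c ∈ RNk N k := by
  intro γ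
  have h : slComp γ ((constRN N c : ↥(RN N)) : ℍ → ℂ) = fun _ => c := rfl
  rw [h, qInf_const (Nat.pos_of_ne_zero (NeZero.ne N))]
  exact C_mem_coeffSubring hc

theorem JdRN_mem_RNk (d : ℕ) (hd : d ∣ N)
    (hk : ∀ m : ℕ, m ∣ N → Complex.exp (2 * (Real.pi : ℂ) * Complex.I / (m : ℂ)) ∈ k) :
    JdRN N d hd ∈ RNk N k := by
  intro γ n
  have hd0 : d ≠ 0 := ne_zero_of_dvd_ne_zero (NeZero.ne N) hd
  have : NeZero d := ⟨hd0⟩
  obtain ⟨a, b, d', had, -, h⟩ := slComp_Jabd d γ
  rw [coe_JdRN, h]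
  have ha : 0 < a := Nat.pos_of_ne_zero (fun h0 => hd0 (by rw [← had, h0, zero_mul]))
  have hd' : 0 < d' := Nat.pos_of_ne_zero (fun h0 => hd0 (by rw [← had, h0, mul_zero]))
  have hd'N : d' ∣ N := (Dvd.intro_left a had).trans hd
  exact qInf_Jabd_coeff_mem N k a b d' ha hd' hd'N (hk d' hd'N) n

/-- An `SL(2, ℤ)`-invariant element of `RNk N k` is a polynomial in `j` with coefficients in
`k`. -/
theorem exists_poly_of_mem_RNk {f : ↥(RN N)} (hf : f ∈ RNk N k)
    (hinv : ∀ γ : SL(2, ℤ), actR N γ f = f) :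
    ∃ p : Polynomial ↥k, ∀ τ : ℍ, (f : ℍ → ℂ) τ = (p.map k.subtype).eval (Jfun τ) := by
  have hinv' : ∀ γ : SL(2, ℤ), slComp γ (f : ℍ → ℂ) = (f : ℍ → ℂ) := fun γ => by
    rw [← coe_actR, hinv γ]
  have hN : 0 < N := Nat.pos_of_ne_zero (NeZero.ne N)
  have h1 : IsMerPer 1 (f : ℍ → ℂ) :=
    isMerPer_one_of_periodic hN (isMerPer_of_mem_RN f.2)
      (periodic_one_of_invariant (hinv' ModularGroup.T))
  refine exists_poly_of_invariant k (f : ℍ → ℂ) h1 hinv' fun n => ?_
  have h2 : (qInf 1 (f : ℍ → ℂ)).coeff n = (qInf N (f : ℍ → ℂ)).coeff ((N : ℤ) * n) := by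
    have h4 : qInf N (f : ℍ → ℂ) = qExpand ℂ N (qInf 1 (f : ℍ → ℂ)) := qInf_of_one h1
    rw [h4, qExpand_coeff_mul]
  rw [h2]
  have h3 := hf 1 ((N : ℤ) * n)
  rwa [slComp_one] at h3

end Fermat.Agent.S24
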