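import Fermat.Agent.S24.Defs

/-!
# P8-COMB: basic facts on the coset space `SL(2,ℤ) ⧸ Γ₀(N)`

Left cosets `g Γ₀(N)` are classified by the first column `(g 0 0 : g 1 0)` of `g` modulo `N`:
`g Γ₀(N) = h Γ₀(N)` iff `N ∣ g₀₀ h₁₀ - h₀₀ g₁₀`.
-/

set_option autoImplicit false

open CongruenceSubgroup MatrixGroups Matrix Matrix.SpecialLinearGroup ModularGroup

namespace Fermat.Agent.S24

/-- Lower-left entry of `g⁻¹ * h`. -/
theorem inv_mul_apply_one_zero (g h : SL(2, ℤ)) :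
    (g⁻¹ * h) 1 0 = g 0 0 * h 1 0 - h 0 0 * g 1 0 := by
  simp [Matrix.adjugate_fin_two, Matrix.mul_apply, Fin.sum_univ_two]
  ring

/-- The coset criterion: `g Γ₀(N) = h Γ₀(N)` iff `N ∣ g₀₀ h₁₀ - h₀₀ g₁₀`. -/
theorem mk_eq_mk_iff (N : ℕ) (g h : SL(2, ℤ)) :
    ((g : SL(2, ℤ)) : XX N) = (h : XX N) ↔ (N : ℤ) ∣ g 0 0 * h 1 0 - h 0 0 * g 1 0 := by
  rw [QuotientGroup.eq, Gamma0_mem, inv_mul_apply_one_zero, ZMod.intCast_zmod_eq_zero_iff_dvd]

theorem smul_mk (N : ℕ) (g h : SL(2, ℤ)) : g • ((h : SL(2, ℤ)) : XX N) = ((g * h : SL(2, ℤ)) : XX N) :=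
  rfl

/-- `-1` acts trivially on the coset space. -/
theorem neg_one_smul_XX (N : ℕ) (x : XX N) : (-1 : SL(2, ℤ)) • x = x := by
  induction x using QuotientGroup.induction_on with
  | H g =>
    rw [smul_mk, mk_eq_mk_iff]
    simp only [neg_mul, one_mul, SpecialLinearGroup.coe_neg, Matrix.neg_apply]
    exact ⟨0, by ring⟩

/-- The first column of an element of `SL(2,ℤ)` is coprime. -/
theorem isCoprime_col (g : SL(2, ℤ)) : IsCoprime (g 0 0) (g 1 0) := by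
  refine ⟨g 1 1, -(g 0 1), ?_⟩
  have h := g.det_coe
  rw [Matrix.det_fin_two] at h
  linarith

/-- Every coprime pair is the first column of an element of `SL(2,ℤ)`. -/
theorem exists_col {a c : ℤ} (h : IsCoprime a c) : ∃ g : SL(2, ℤ), g 0 0 = a ∧ g 1 0 = c := by
  obtain ⟨u, v, huv⟩ := h
  refine ⟨⟨!![a, -v; c, u], ?_⟩, rfl, rfl⟩
  rw [Matrix.det_fin_two_of]
  linarith

/-! ### First columns of `S * g`, `T ^ k * g`, `S * T * g` -/

theorem S_mul_apply_zero_zero (g : SL(2, ℤ)) : (S * g) 0 0 = -g 1 0 := by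
  simp [coe_S, Matrix.mul_apply, Fin.sum_univ_two]

theorem S_mul_apply_one_zero (g : SL(2, ℤ)) : (S * g) 1 0 = g 0 0 := by
  simp [coe_S, Matrix.mul_apply, Fin.sum_univ_two]

theorem T_zpow_mul_apply_zero_zero (k : ℤ) (g : SL(2, ℤ)) :
    (T ^ k * g) 0 0 = g 0 0 + k * g 1 0 := by
  simp [coe_T_zpow, Matrix.mul_apply, Fin.sum_univ_two]

theorem T_zpow_mul_apply_one_zero (k : ℤ) (g : SL(2, ℤ)) : (T ^ k * g) 1 0 = g 1 0 := by
  simp

theorem T_mul_apply_zero_zero (g : SL(2, ℤ)) : (T * g) 0 0 = g 0 0 + g 1 0 := by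
  simp [coe_T, Matrix.mul_apply, Fin.sum_univ_two]

theorem T_mul_apply_one_zero (g : SL(2, ℤ)) : (T * g) 1 0 = g 1 0 := by
  simp

theorem ST_mul_apply_zero_zero (g : SL(2, ℤ)) : (S * T * g) 0 0 = -g 1 0 := by
  rw [mul_assoc, S_mul_apply_zero_zero, T_mul_apply_one_zero]

theorem ST_mul_apply_one_zero (g : SL(2, ℤ)) : (S * T * g) 1 0 = g 0 0 + g 1 0 := by
  rw [mul_assoc, S_mul_apply_one_zero, T_mul_apply_zero_zero]

/-! ### Fixed-point criteria -/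

/-- `S` fixes the coset of `g` iff `N ∣ g₀₀² + g₁₀²`. -/
theorem S_smul_mk_eq_iff (N : ℕ) (g : SL(2, ℤ)) :
    S • ((g : SL(2, ℤ)) : XX N) = (g : XX N) ↔ (N : ℤ) ∣ g 0 0 ^ 2 + g 1 0 ^ 2 := by
  rw [smul_mk, eq_comm, mk_eq_mk_iff, S_mul_apply_zero_zero, S_mul_apply_one_zero]
  constructor <;> intro h <;> convert h using 1 <;> ring

/-- `S * T` fixes the coset of `g` iff `N ∣ g₀₀² + g₀₀ g₁₀ + g₁₀²`. -/
theorem ST_smul_mk_eq_iff (N : ℕ) (g : SL(2, ℤ)) :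
    (S * T) • ((g : SL(2, ℤ)) : XX N) = (g : XX N) ↔
      (N : ℤ) ∣ g 0 0 ^ 2 + g 0 0 * g 1 0 + g 1 0 ^ 2 := by
  rw [smul_mk, eq_comm, mk_eq_mk_iff, ST_mul_apply_zero_zero, ST_mul_apply_one_zero]
  constructor <;> intro h <;> convert h using 1 <;> ring

/-- Two points are in the same cycle of the permutation induced by `g` iff some power of `g`
maps one to the other. -/
theorem sameCycle_toPerm_iff {G X : Type*} [Group G] [MulAction G X] (g : G) (x y : X) :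
    (MulAction.toPerm g : Equiv.Perm X).SameCycle x y ↔ ∃ k : ℤ, g ^ k • x = y := by
  unfold Equiv.Perm.SameCycle
  refine exists_congr fun k => ?_
  have h : (MulAction.toPerm g : Equiv.Perm X) ^ k = MulAction.toPerm (g ^ k) :=
    (map_zpow (MulAction.toPermHom G X) g k).symm
  rw [h, MulAction.toPerm_apply]

/-- `T ^ k` maps the coset of `g` to the coset of `h` iff `N ∣ (g₀₀ + k g₁₀) h₁₀ - h₀₀ g₁₀`. -/
theorem T_zpow_smul_mk_eq_iff (N : ℕ) (k : ℤ) (g h : SL(2, ℤ)) :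
    (T ^ k) • ((g : SL(2, ℤ)) : XX N) = (h : XX N) ↔
      (N : ℤ) ∣ (g 0 0 + k * g 1 0) * h 1 0 - h 0 0 * g 1 0 := by
  rw [smul_mk, mk_eq_mk_iff, T_zpow_mul_apply_zero_zero, T_zpow_mul_apply_one_zero]

end Fermat.Agent.S24
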