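import Fermat.Agent.S24.Comb

/-!
# P8-COMB: the genus number of `SL(2,ℤ) ⧸ Γ₀(N)` is the classical genus formula
-/

set_option autoImplicit false

namespace Fermat.Agent.S24

open scoped MatrixGroups

open ModularGroup

variable (N : ℕ) [NeZero N]

/-- The natural number `g` with `orb S + orb (S*T) + orb T + 2 g = ψ(N) + 2` equals the
classical genus formula. -/
theorem exists_genus_eq_genusFormula :
    ∃ g : ℕ, (g : ℚ) = ModularCurve.genusFormula N ∧
      orbitCount (MulAction.toPerm ModularGroup.S : Equiv.Perm (XX N)) +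
        orbitCount (MulAction.toPerm (ModularGroup.S * ModularGroup.T) : Equiv.Perm (XX N)) +
        orbitCount (MulAction.toPerm ModularGroup.T : Equiv.Perm (XX N)) + 2 * g =
      Nat.card (XX N) + 2 := by
  obtain ⟨g, hg⟩ := exists_genus N
  refine ⟨g, ?_, hg⟩
  have h1 := two_mul_orbitCount_S N
  have h2 := three_mul_orbitCount_ST N
  have h3 := orbitCount_T N
  have h4 := card_XX N
  rw [h3, h4] at hg
  have e1 : (2 : ℚ) * (orbitCount (MulAction.toPerm ModularGroup.S : Equiv.Perm (XX N)) : ℚ)
      = (ModularCurve.dedekindPsi N : ℚ) + (ModularCurve.nuTwo N : ℚ) := by exact_mod_cast h1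
  have e2 : (3 : ℚ) * (orbitCount (MulAction.toPerm (ModularGroup.S * ModularGroup.T) :
      Equiv.Perm (XX N)) : ℚ)
      = (ModularCurve.dedekindPsi N : ℚ) + 2 * (ModularCurve.nuThree N : ℚ) := by exact_mod_cast h2
  have e3 : (orbitCount (MulAction.toPerm ModularGroup.S : Equiv.Perm (XX N)) : ℚ) +
      (orbitCount (MulAction.toPerm (ModularGroup.S * ModularGroup.T) : Equiv.Perm (XX N)) : ℚ) +
      (ModularCurve.cuspCount N : ℚ) + 2 * (g : ℚ) = (ModularCurve.dedekindPsi N : ℚ) + 2 := by
    exact_mod_cast hg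
  unfold ModularCurve.genusFormula
  linarith

/-- Integer form: `ψ(N) - orb S - orb (S*T) - orb T = 2 g - 2` with `g` the genus formula. -/
theorem exists_genus_int :
    ∃ g : ℕ, (g : ℚ) = ModularCurve.genusFormula N ∧
      (Nat.card (XX N) : ℤ)
        - orbitCount (MulAction.toPerm ModularGroup.S : Equiv.Perm (XX N))
        - orbitCount (MulAction.toPerm (ModularGroup.S * ModularGroup.T) : Equiv.Perm (XX N))
        - orbitCount (MulAction.toPerm ModularGroup.T : Equiv.Perm (XX N)) = 2 * (g : ℤ) - 2 := by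
  obtain ⟨g, hg1, hg2⟩ := exists_genus_eq_genusFormula N
  refine ⟨g, hg1, ?_⟩
  omega

end Fermat.Agent.S24
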