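import Fermat.Agent.S24.Defs

/-!
# P8-COMB: invariant functions of a permutation

For a permutation `σ` of a finite type `ι`, the space of `σ`-invariant functions `ι → ℚ` (the kernel
of `1 - P_σ`, `P_σ v = v ∘ σ`) has dimension the number of cycles `orbitCount σ` of `σ`.
-/

set_option autoImplicit false

namespace Fermat.Agent.S24

/-- A function invariant under `σ` is constant on the cycles of `σ`. -/
theorem cinv_eq_of_sameCycle {ι : Type*} (σ : Equiv.Perm ι) {v : ι → ℚ}
    (hv : ∀ x, v (σ x) = v x) {x y : ι} (h : σ.SameCycle x y) : v x = v y := by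
  have hnat : ∀ (n : ℕ) (z : ι), v ((σ ^ n) z) = v z := by
    intro n
    induction n with
    | zero => intro z; simp
    | succ n ih => intro z; rw [pow_succ', Equiv.Perm.mul_apply, hv, ih]
  obtain ⟨i, rfl⟩ := h
  obtain ⟨n, rfl | rfl⟩ := Int.eq_nat_or_neg i
  · rw [zpow_natCast, hnat]
  · have h1 := hnat n ((σ ^ (-(n : ℤ))) x)
    rw [← h1, ← zpow_natCast, ← Equiv.Perm.mul_apply, ← zpow_add, add_neg_cancel, zpow_zero,
      Equiv.Perm.one_apply]

theorem cinv_mem_ker_iff {ι : Type*} (σ : Equiv.Perm ι) (v : ι → ℚ) :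
    v ∈ LinearMap.ker (LinearMap.id - LinearMap.funLeft ℚ ℚ (σ : ι → ι) :
      (ι → ℚ) →ₗ[ℚ] (ι → ℚ)) ↔ ∀ x, v (σ x) = v x := by
  rw [LinearMap.mem_ker, LinearMap.sub_apply, LinearMap.id_apply, sub_eq_zero]
  constructor
  · intro h x
    have := congrFun h x
    rw [LinearMap.funLeft_apply] at this
    exact this.symm
  · intro h
    funext x
    rw [LinearMap.funLeft_apply]
    exact (h x).symm

/-- The `σ`-invariant functions are the functions factoring through the set of cycles. -/
theorem cinv_range_eq_ker {ι : Type*} (σ : Equiv.Perm ι) :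
    LinearMap.range (LinearMap.funLeft ℚ ℚ
        (Quotient.mk (Equiv.Perm.SameCycle.setoid σ) : ι → Quotient (Equiv.Perm.SameCycle.setoid σ))) =
      LinearMap.ker (LinearMap.id - LinearMap.funLeft ℚ ℚ (σ : ι → ι) :
        (ι → ℚ) →ₗ[ℚ] (ι → ℚ)) := by
  ext v
  rw [cinv_mem_ker_iff, LinearMap.mem_range]
  constructor
  · rintro ⟨f, rfl⟩ x
    rw [LinearMap.funLeft_apply, LinearMap.funLeft_apply]
    congr 1
    exact Quotient.sound ⟨-1, by simp⟩
  · intro hv
    refine ⟨Quotient.lift v (fun x y h => cinv_eq_of_sameCycle σ hv h), ?_⟩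
    funext x
    rw [LinearMap.funLeft_apply]
    rfl

/-- The space of `σ`-invariant functions has dimension the number of cycles of `σ`. -/
theorem finrank_ker_sub_funLeft {ι : Type*} [Fintype ι] [DecidableEq ι] (σ : Equiv.Perm ι) :
    Module.finrank ℚ (LinearMap.ker (LinearMap.id - LinearMap.funLeft ℚ ℚ (σ : ι → ι) :
      (ι → ℚ) →ₗ[ℚ] (ι → ℚ))) = orbitCount σ := by
  classical
  have : Fintype (Quotient (Equiv.Perm.SameCycle.setoid σ)) := Fintype.ofFinite _
  rw [← cinv_range_eq_ker, LinearMap.finrank_range_of_inj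
    (LinearMap.funLeft_injective_of_surjective ℚ ℚ _ Quotient.mk_surjective),
    Module.finrank_fintype_fun_eq_card, orbitCount, Nat.card_eq_fintype_card]

/-- Rank form: `rank (1 - P_σ) + orbitCount σ = |ι|`. -/
theorem finrank_range_sub_funLeft_add {ι : Type*} [Fintype ι] [DecidableEq ι] (σ : Equiv.Perm ι) :
    Module.finrank ℚ (LinearMap.range (LinearMap.id - LinearMap.funLeft ℚ ℚ (σ : ι → ι) :
      (ι → ℚ) →ₗ[ℚ] (ι → ℚ))) + orbitCount σ = Fintype.card ι := by
  rw [← finrank_ker_sub_funLeft, LinearMap.finrank_range_add_finrank_ker,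
    Module.finrank_fintype_fun_eq_card]

end Fermat.Agent.S24
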