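import Fermat.Agent.S24.CombInv

/-!
# P8-COMB: invariants and coinvariants of a transitive pair of permutations

For permutations `σ, τ` of a finite type `ι` generating a transitive group, the common invariant
functions are the constants, and the sum of the ranges of `1 - P_σ`, `1 - P_τ` has codimension at
most one (`P_σ v = v ∘ σ`).
-/

set_option autoImplicit false

namespace Fermat.Agent.S24

/-- A function invariant under `σ` and `τ` is invariant under the group they generate. -/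
theorem ctr_invariant_of_mem_closure {ι : Type*} (σ τ : Equiv.Perm ι) {v : ι → ℚ}
    (hσ : ∀ x, v (σ x) = v x) (hτ : ∀ x, v (τ x) = v x) {g : Equiv.Perm ι}
    (hg : g ∈ Subgroup.closure {σ, τ}) : ∀ x, v (g x) = v x := by
  induction hg using Subgroup.closure_induction with
  | mem g hg =>
    rcases hg with rfl | rfl
    · exact hσ
    · exact hτ
  | one => intro x; rfl
  | mul g h _ _ ihg ihh => intro x; rw [Equiv.Perm.mul_apply, ihg, ihh]
  | inv g _ ih =>
    intro x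
    have := ih (g⁻¹ x)
    simp only [Equiv.Perm.inv_def, Equiv.apply_symm_apply] at this ⊢
    exact this.symm

theorem finrank_inf_ker_le_one {ι : Type*} [Fintype ι] [DecidableEq ι] (σ τ : Equiv.Perm ι)
    (htrans : ∀ x y : ι, ∃ g ∈ Subgroup.closure {σ, τ}, g x = y) :
    Module.finrank ℚ ↥(LinearMap.ker (LinearMap.id - LinearMap.funLeft ℚ ℚ (σ : ι → ι) :
        (ι → ℚ) →ₗ[ℚ] (ι → ℚ)) ⊓
      LinearMap.ker (LinearMap.id - LinearMap.funLeft ℚ ℚ (τ : ι → ι) :
        (ι → ℚ) →ₗ[ℚ] (ι → ℚ))) ≤ 1 := by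
  have hle : (LinearMap.ker (LinearMap.id - LinearMap.funLeft ℚ ℚ (σ : ι → ι) :
        (ι → ℚ) →ₗ[ℚ] (ι → ℚ)) ⊓
      LinearMap.ker (LinearMap.id - LinearMap.funLeft ℚ ℚ (τ : ι → ι) :
        (ι → ℚ) →ₗ[ℚ] (ι → ℚ))) ≤ Submodule.span ℚ {fun _ : ι => (1 : ℚ)} := by
    intro v hv
    rw [Submodule.mem_inf, cinv_mem_ker_iff, cinv_mem_ker_iff] at hv
    rw [Submodule.mem_span_singleton]
    rcases isEmpty_or_nonempty ι with hι | ⟨⟨x₀⟩⟩
    · exact ⟨0, funext fun x => (hι.false x).elim⟩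
    · refine ⟨v x₀, funext fun y => ?_⟩
      obtain ⟨g, hg, rfl⟩ := htrans x₀ y
      rw [ctr_invariant_of_mem_closure σ τ hv.1 hv.2 hg x₀]
      simp
  refine (Submodule.finrank_mono hle).trans ?_
  refine (finrank_span_le_card _).trans ?_
  simp

/-- The differences `e_{g x} - e_x` lie in the sum of the ranges of `1 - P_σ` and `1 - P_τ`. -/
theorem ctr_single_sub_single_mem {ι : Type*} [DecidableEq ι] (σ τ : Equiv.Perm ι)
    {g : Equiv.Perm ι} (hg : g ∈ Subgroup.closure {σ, τ}) :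
    ∀ x, (Pi.single (g x) (1 : ℚ) - Pi.single x 1 : ι → ℚ) ∈
      LinearMap.range (LinearMap.id - LinearMap.funLeft ℚ ℚ (σ : ι → ι) :
        (ι → ℚ) →ₗ[ℚ] (ι → ℚ)) ⊔
      LinearMap.range (LinearMap.id - LinearMap.funLeft ℚ ℚ (τ : ι → ι) :
        (ι → ℚ) →ₗ[ℚ] (ι → ℚ)) := by
  have key : ∀ (ρ : Equiv.Perm ι) (x : ι), (Pi.single (ρ x) (1 : ℚ) - Pi.single x 1 : ι → ℚ) ∈
      LinearMap.range (LinearMap.id - LinearMap.funLeft ℚ ℚ (ρ : ι → ι) :
        (ι → ℚ) →ₗ[ℚ] (ι → ℚ)) := by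
    intro ρ x
    refine ⟨Pi.single (ρ x) 1, ?_⟩
    funext y
    simp only [LinearMap.sub_apply, LinearMap.id_apply, LinearMap.funLeft_apply, Pi.sub_apply,
      Pi.single_apply, EmbeddingLike.apply_eq_iff_eq]
  induction hg using Subgroup.closure_induction with
  | mem g hg =>
    rcases hg with rfl | rfl
    · exact fun x => Submodule.mem_sup_left (key _ x)
    · exact fun x => Submodule.mem_sup_right (key _ x)
  | one => intro x; simp
  | mul g h _ _ ihg ihh =>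
    intro x
    have h1 := Submodule.add_mem _ (ihg (h x)) (ihh x)
    rw [Equiv.Perm.mul_apply]
    convert h1 using 1
    abel
  | inv g _ ih =>
    intro x
    have h1 := Submodule.neg_mem _ (ih (g⁻¹ x))
    simp only [Equiv.Perm.inv_def, Equiv.apply_symm_apply] at h1 ⊢
    convert h1 using 1
    abel

theorem card_le_finrank_sup_range_add_one {ι : Type*} [Fintype ι] [DecidableEq ι]
    (σ τ : Equiv.Perm ι) (htrans : ∀ x y : ι, ∃ g ∈ Subgroup.closure {σ, τ}, g x = y) :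
    Fintype.card ι ≤ Module.finrank ℚ ↥(LinearMap.range (LinearMap.id -
        LinearMap.funLeft ℚ ℚ (σ : ι → ι) : (ι → ℚ) →ₗ[ℚ] (ι → ℚ)) ⊔
      LinearMap.range (LinearMap.id - LinearMap.funLeft ℚ ℚ (τ : ι → ι) :
        (ι → ℚ) →ₗ[ℚ] (ι → ℚ))) + 1 := by
  rcases isEmpty_or_nonempty ι with hι | ⟨⟨x₀⟩⟩
  · rw [Fintype.card_eq_zero]; exact Nat.zero_le _
  set I : Submodule ℚ (ι → ℚ) := LinearMap.range (LinearMap.id -
        LinearMap.funLeft ℚ ℚ (σ : ι → ι) : (ι → ℚ) →ₗ[ℚ] (ι → ℚ)) ⊔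
      LinearMap.range (LinearMap.id - LinearMap.funLeft ℚ ℚ (τ : ι → ι) :
        (ι → ℚ) →ₗ[ℚ] (ι → ℚ)) with hI
  have hdiff : ∀ x : ι, (Pi.single x (1 : ℚ) - Pi.single x₀ 1 : ι → ℚ) ∈ I := by
    intro x
    obtain ⟨g, hg, rfl⟩ := htrans x₀ x
    exact ctr_single_sub_single_mem σ τ hg x₀
  have htop : (⊤ : Submodule ℚ (ι → ℚ)) ≤ I ⊔ Submodule.span ℚ {(Pi.single x₀ (1 : ℚ) : ι → ℚ)} := by
    intro v _
    have hv : v = ∑ x, v x • (Pi.single x (1 : ℚ) - Pi.single x₀ 1 : ι → ℚ) +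
        (∑ x, v x) • (Pi.single x₀ (1 : ℚ) : ι → ℚ) := by
      rw [Finset.sum_smul, ← Finset.sum_add_distrib]
      conv_lhs => rw [pi_eq_sum_univ' v]
      refine Finset.sum_congr rfl fun x _ => ?_
      rw [smul_sub, sub_add_cancel]
    rw [hv]
    refine Submodule.add_mem_sup ?_ ?_
    · exact Submodule.sum_mem _ fun x _ => Submodule.smul_mem _ _ (hdiff x)
    · exact Submodule.smul_mem _ _ (Submodule.mem_span_singleton_self _)
  have h1 : Fintype.card ι = Module.finrank ℚ (⊤ : Submodule ℚ (ι → ℚ)) := by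
    rw [finrank_top, Module.finrank_fintype_fun_eq_card]
  have h2 : Module.finrank ℚ (Submodule.span ℚ {(Pi.single x₀ (1 : ℚ) : ι → ℚ)}) ≤ 1 := by
    refine (finrank_span_le_card _).trans ?_
    simp
  calc Fintype.card ι = Module.finrank ℚ (⊤ : Submodule ℚ (ι → ℚ)) := h1
    _ ≤ Module.finrank ℚ ↥(I ⊔ Submodule.span ℚ {(Pi.single x₀ (1 : ℚ) : ι → ℚ)}) :=
        Submodule.finrank_mono htop
    _ ≤ Module.finrank ℚ I + Module.finrank ℚ (Submodule.span ℚ {(Pi.single x₀ (1 : ℚ) : ι → ℚ)}) :=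
        Submodule.finrank_add_le_finrank_add_finrank _ _
    _ ≤ Module.finrank ℚ I + 1 := Nat.add_le_add_left h2 _

end Fermat.Agent.S24
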