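import Fermat.Agent.S24.CoeffField

/-!
The conjugates `conj N ι x b` of an element `b` of the `L`-algebra generated by the `j(dτ)`,
`d ∣ N`, are (images of) elements of `RNk N ι.fieldRange`: holomorphic functions all of whose
translates have `q_N`-expansion coefficients in the image of `ι`.
-/

set_option autoImplicit false

namespace Fermat.Agent.S24

open UpperHalfPlane ModularCurve IntermediateField
open scoped MatrixGroups Manifold

/-- The image of an algebraically closed field in `ℂ` contains the roots of unity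
`exp (2πi/m)`. -/
theorem exp_mem_fieldRange {L : Type*} [Field L] [IsAlgClosed L] (ι : L →+* ℂ)
    (m : ℕ) (hm : m ≠ 0) :
    Complex.exp (2 * (Real.pi : ℂ) * Complex.I / (m : ℂ)) ∈ ι.fieldRange := by
  have : NeZero m := ⟨hm⟩
  have : CharZero L := RingHom.charZero ι
  have : NeZero ((m : ℕ) : L) := ⟨Nat.cast_ne_zero.mpr hm⟩
  obtain ⟨ξ, hξ⟩ := HasEnoughRootsOfUnity.exists_primitiveRoot L m
  have hξ' : IsPrimitiveRoot (ι ξ) m := hξ.map_of_injective ι.injective
  have hexp : Complex.exp (2 * (Real.pi : ℂ) * Complex.I / (m : ℂ)) ^ m = 1 :=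
    (Complex.isPrimitiveRoot_exp m hm).pow_eq_one
  obtain ⟨i, -, hi⟩ := hξ'.eq_pow_of_pow_eq_one hexp
  rw [RingHom.mem_fieldRange]
  exact ⟨ξ ^ i, by rw [map_pow, hi]⟩

variable (N : ℕ) [NeZero N] {L : Type*} [Field L] [Algebra ℚ L] [IsAlgClosed L] (ι : L →+* ℂ)

omit [Algebra ℚ L] in
/-- `J(dτ)`, `d ∣ N`, has all its translates with `q_N`-expansion coefficients in the image of
`ι`. -/
theorem JdRN_mem_RNk_fieldRange (d : ℕ) (hd : d ∣ N) : JdRN N d hd ∈ RNk N ι.fieldRange :=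
  JdRN_mem_RNk N ι.fieldRange d hd fun m hm =>
    exp_mem_fieldRange ι m (ne_zero_of_dvd_ne_zero (NeZero.ne N) hm)

/-- The conjugates of an element of the `L`-algebra generated by the `j(dτ)`, `d ∣ N`, lie in
(the image of) `RNk N ι.fieldRange`. -/
theorem exists_mem_RNk_conj_eq (x : XX N) (b : FFL L N)
    (hb : b ∈ Algebra.adjoin L (jdLSet N L)) :
    ∃ h : ↥(RN N), h ∈ RNk N ι.fieldRange ∧
      conj N ι x b = algebraMap ↥(RN N) (MerN N) h := by
  induction hb using Algebra.adjoin_induction with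
  | mem b hb =>
    obtain ⟨d, hd, rfl⟩ := hb
    induction x using QuotientGroup.induction_on with
    | H g =>
      refine ⟨actR N g⁻¹ (JdRN N d hd), actR_mem_RNk N _ g⁻¹ (JdRN_mem_RNk_fieldRange N ι d hd), ?_⟩
      rw [conj_mk_apply, realHom_jdL, act_algebraMap]
  | algebraMap c =>
    exact ⟨constRN N (ι c), constRN_mem_RNk N _ (RingHom.mem_fieldRange.mpr ⟨c, rfl⟩),
      conj_algebraMap N ι x c⟩
  | add a b _ _ ha hb =>
    obtain ⟨h₁, hh₁, e₁⟩ := ha
    obtain ⟨h₂, hh₂, e₂⟩ := hb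
    exact ⟨h₁ + h₂, add_mem hh₁ hh₂, by rw [map_add, map_add, e₁, e₂]⟩
  | mul a b _ _ ha hb =>
    obtain ⟨h₁, hh₁, e₁⟩ := ha
    obtain ⟨h₂, hh₂, e₂⟩ := hb
    exact ⟨h₁ * h₂, mul_mem hh₁ hh₂, by rw [map_mul, map_mul, e₁, e₂]⟩

end Fermat.Agent.S24
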