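import Mathlib

/-!
P8-ANN: the degree of a function field over `K(j)`, abstractly (pure field theory).

Let `F / K` be a field extension in characteristic zero, generated as a field by a finite set `S`
containing a transcendental element `j`.  Given `n` pairwise distinct ring homomorphisms
`c i : F →+* M` into a field which agree on `K(j)`, and given that every element of the
`K`-algebra generated by `S` is a root of a monic polynomial of degree `n` over `K(j)`, the
extension `F / K(j)` is finite of degree `n`.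
-/

set_option autoImplicit false

namespace Fermat.Agent.S24

namespace DegreeAbs

open IntermediateField Polynomial

variable {K F : Type*} [Field K] [Field F] [Algebra K F]

/-- Two ring homomorphisms which agree on `K` and on `j` agree on `K(j)`. -/
theorem eq_on_adjoin_simple {M : Type*} [Field M] (j : F) (φ ψ : F →+* M)
    (hK : ∀ a : K, φ (algebraMap K F a) = ψ (algebraMap K F a)) (hj : φ j = ψ j)
    (a : K⟮j⟯) : φ (algebraMap K⟮j⟯ F a) = ψ (algebraMap K⟮j⟯ F a) := by
  have hpoly : ∀ r : K[X], φ (aeval j r) = ψ (aeval j r) := by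
    intro r
    induction r using Polynomial.induction_on' with
    | add p q hp hq => rw [map_add, map_add, map_add, hp, hq]
    | monomial n a =>
      rw [aeval_monomial, map_mul, map_mul, map_pow, map_pow, hK, hj]
  obtain ⟨r, s, hrs⟩ := (IntermediateField.mem_adjoin_simple_iff K (a : F)).mp a.2
  show φ (a : F) = ψ (a : F)
  rw [hrs, map_div₀, map_div₀, hpoly, hpoly]

/-- If `F` is generated over `K` by `S`, it is generated over any intermediate field by `S`. -/
theorem adjoin_eq_top_of_le (K0 : IntermediateField K F) (S : Set F)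
    (hgen : IntermediateField.adjoin K S = ⊤) : IntermediateField.adjoin K0 S = ⊤ := by
  rw [eq_top_iff]
  intro f _
  have hf : f ∈ IntermediateField.adjoin K S := by rw [hgen]; trivial
  have hle : IntermediateField.adjoin K S ≤
      (IntermediateField.adjoin K0 S).restrictScalars K := by
    rw [IntermediateField.adjoin_le_iff]
    intro x hx
    exact IntermediateField.subset_adjoin K0 S hx
  exact hle hf

/-- Finite generation by integral elements gives finite dimensionality. -/
theorem finiteDimensional_of_isIntegral (K0 : IntermediateField K F) (S : Set F) (hS : S.Finite)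
    (hgen : IntermediateField.adjoin K S = ⊤) (h : ∀ x ∈ S, IsIntegral K0 x) :
    FiniteDimensional K0 F := by
  have : Finite S := hS.to_subtype
  have hfd : FiniteDimensional K0 (IntermediateField.adjoin K0 S) :=
    IntermediateField.finiteDimensional_adjoin h
  rw [adjoin_eq_top_of_le K0 S hgen] at hfd
  exact Module.Finite.equiv (IntermediateField.topEquiv (F := K0) (E := F)).toLinearEquiv

/-- `aeval j r` lies in `K(j)`. -/
theorem aeval_mem_adjoin_simple (j : F) (r : K[X]) : aeval j r ∈ K⟮j⟯ := by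
  rw [IntermediateField.mem_adjoin_simple_iff]
  exact ⟨r, 1, by simp⟩

/-- `aeval j r` lies in any `K`-subalgebra containing `j`. -/
theorem aeval_mem_subalgebra (A : Subalgebra K F) {j : F} (hj : j ∈ A) (r : K[X]) :
    aeval j r ∈ A := by
  have := (aeval (⟨j, hj⟩ : A) r).2
  rwa [← Subalgebra.aeval_coe] at this

/-- **Clearing denominators.** If `F` is finite over `K(j)` and generated over `K` by `S ∋ j`,
every element of `F` becomes an element of the `K`-algebra generated by `S` after multiplication
by a nonzero polynomial in `j`. -/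
theorem exists_mul_mem_adjoin (j : F) (S : Set F) (hjS : j ∈ S)
    (hgen : IntermediateField.adjoin K S = ⊤) [FiniteDimensional K⟮j⟯ F] (θ : F) :
    ∃ q : K[X], aeval j q ≠ 0 ∧ aeval j q * θ ∈ Algebra.adjoin K S := by
  have hjA : j ∈ Algebra.adjoin K S := Algebra.subset_adjoin hjS
  have halg : Algebra.adjoin K⟮j⟯ S = ⊤ := by
    have h1 := IntermediateField.adjoin_eq_algebra_adjoin K⟮j⟯ S (fun x hx => by
      have hx' : IsAlgebraic K⟮j⟯ x := Algebra.IsAlgebraic.isAlgebraic x
      exact (Algebra.adjoin K⟮j⟯ S).inv_mem_of_algebraic (x := ⟨x, hx⟩) hx')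
    rw [← h1, adjoin_eq_top_of_le K⟮j⟯ S hgen]
    rfl
  have hθ : θ ∈ Algebra.adjoin K⟮j⟯ S := by rw [halg]; trivial
  induction hθ using Algebra.adjoin_induction with
  | mem x hx =>
    exact ⟨1, by simp, by simpa using Algebra.subset_adjoin hx⟩
  | algebraMap a =>
    obtain ⟨r, s, hrs⟩ := (IntermediateField.mem_adjoin_simple_iff K (a : F)).mp a.2
    have ha : algebraMap K⟮j⟯ F a = aeval j r / aeval j s := hrs
    by_cases hs : aeval j s = 0
    · refine ⟨1, by simp, ?_⟩
      rw [ha, hs, div_zero, mul_zero]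
      exact zero_mem _
    · refine ⟨s, hs, ?_⟩
      rw [ha, mul_div_cancel₀ _ hs]
      exact aeval_mem_subalgebra _ hjA r
  | add x y _ _ hx hy =>
    obtain ⟨q₁, hq₁, h₁⟩ := hx
    obtain ⟨q₂, hq₂, h₂⟩ := hy
    refine ⟨q₁ * q₂, by rw [map_mul]; exact mul_ne_zero hq₁ hq₂, ?_⟩
    have e : aeval j (q₁ * q₂) * (x + y) =
        aeval j q₂ * (aeval j q₁ * x) + aeval j q₁ * (aeval j q₂ * y) := by
      rw [map_mul]; ring
    rw [e]
    exact add_mem (mul_mem (aeval_mem_subalgebra _ hjA q₂) h₁)
      (mul_mem (aeval_mem_subalgebra _ hjA q₁) h₂)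
  | mul x y _ _ hx hy =>
    obtain ⟨q₁, hq₁, h₁⟩ := hx
    obtain ⟨q₂, hq₂, h₂⟩ := hy
    refine ⟨q₁ * q₂, by rw [map_mul]; exact mul_ne_zero hq₁ hq₂, ?_⟩
    have e : aeval j (q₁ * q₂) * (x * y) = (aeval j q₁ * x) * (aeval j q₂ * y) := by
      rw [map_mul]; ring
    rw [e]
    exact mul_mem h₁ h₂

/-- Lower bound: `n` pairwise distinct ring homomorphisms into a field which agree on `K0` force
`[F : K0] ≥ n`. -/
theorem card_le_finrank_of_embeddings (K0 : IntermediateField K F) [FiniteDimensional K0 F]
    [Algebra.IsSeparable K0 F] {ι M : Type*} [Fintype ι] [Field M]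
    (c : ι → F →+* M) (hinj : Function.Injective c)
    (hK0 : ∀ i i' (a : K0), c i (algebraMap K0 F a) = c i' (algebraMap K0 F a)) :
    Fintype.card ι ≤ Module.finrank K0 F := by
  classical
  rcases isEmpty_or_nonempty ι with hι | ⟨⟨i₀⟩⟩
  · rw [Fintype.card_eq_zero]
    exact Nat.zero_le _
  let _ : Algebra K0 M := ((c i₀).comp (algebraMap K0 F)).toAlgebra
  have hmap : ∀ a : K0, algebraMap K0 M a = c i₀ (algebraMap K0 F a) := fun _ => rfl
  let Ω := AlgebraicClosure M
  let E : ι → (F →ₐ[K0] Ω) := fun i =>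
    { toRingHom := (algebraMap M Ω).comp (c i)
      commutes' := fun a => by
        show algebraMap M Ω (c i (algebraMap K0 F a)) = algebraMap K0 Ω a
        rw [hK0 i i₀, ← hmap, ← IsScalarTower.algebraMap_apply] }
  have hE : ∀ i (x : F), E i x = algebraMap M Ω (c i x) := fun _ _ => rfl
  have hEinj : Function.Injective E := by
    intro i i' hii'
    apply hinj
    ext x
    have h := congrArg (fun σ : F →ₐ[K0] Ω => σ x) hii'
    simp only [hE] at h
    exact (algebraMap M Ω).injective h
  calc Fintype.card ι ≤ Fintype.card (F →ₐ[K0] Ω) := Fintype.card_le_of_injective E hEinj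
    _ = Module.finrank K0 F := AlgHom.card K0 F Ω

/-- **The degree of a function field over `K(j)`.** -/
theorem finrank_eq_card [CharZero K] (j : F) (S : Set F) (hS : S.Finite) (hjS : j ∈ S)
    (hgen : IntermediateField.adjoin K S = ⊤) {ι M : Type*} [Fintype ι] [Field M]
    (c : ι → F →+* M) (hinj : Function.Injective c)
    (hK0 : ∀ i i' (a : K⟮j⟯), c i (algebraMap K⟮j⟯ F a) = c i' (algebraMap K⟮j⟯ F a))
    (hint : ∀ b ∈ Algebra.adjoin K S, ∃ p : K⟮j⟯[X],
      p.Monic ∧ p.natDegree = Fintype.card ι ∧ aeval b p = 0) :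
    FiniteDimensional K⟮j⟯ F ∧ Module.finrank K⟮j⟯ F = Fintype.card ι := by
  have hfd : FiniteDimensional K⟮j⟯ F :=
    finiteDimensional_of_isIntegral K⟮j⟯ S hS hgen (fun x hx => by
      obtain ⟨p, hp, -, hp0⟩ := hint x (Algebra.subset_adjoin hx)
      exact ⟨p, hp, hp0⟩)
  have hchar : CharZero K⟮j⟯ := charZero_of_injective_algebraMap (algebraMap K K⟮j⟯).injective
  refine ⟨hfd, le_antisymm ?_ (card_le_finrank_of_embeddings K⟮j⟯ c hinj hK0)⟩
  obtain ⟨θ, hθ⟩ := Field.exists_primitive_element K⟮j⟯ F
  obtain ⟨q, hq, hb⟩ := exists_mul_mem_adjoin j S hjS hgen θ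
  obtain ⟨p, hp, hdeg, hp0⟩ := hint _ hb
  have hint_b : IsIntegral K⟮j⟯ (aeval j q * θ) := ⟨p, hp, hp0⟩
  have hbθ : K⟮j⟯⟮aeval j q * θ⟯ = ⊤ := by
    rw [eq_top_iff, ← hθ, IntermediateField.adjoin_simple_le_iff]
    have hqmem : aeval j q ∈ K⟮j⟯⟮aeval j q * θ⟯ := by
      have h := IntermediateField.algebraMap_mem K⟮j⟯⟮aeval j q * θ⟯
        (⟨aeval j q, aeval_mem_adjoin_simple j q⟩ : K⟮j⟯)
      exact h
    have hmem : (aeval j q)⁻¹ * (aeval j q * θ) ∈ K⟮j⟯⟮aeval j q * θ⟯ :=
      mul_mem (inv_mem hqmem) (IntermediateField.mem_adjoin_simple_self _ _)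
    rwa [← mul_assoc, inv_mul_cancel₀ hq, one_mul] at hmem
  calc Module.finrank K⟮j⟯ F
      = Module.finrank K⟮j⟯ K⟮j⟯⟮aeval j q * θ⟯ := by
        rw [hbθ, IntermediateField.finrank_top']
    _ = (minpoly K⟮j⟯ (aeval j q * θ)).natDegree := IntermediateField.adjoin.finrank hint_b
    _ ≤ p.natDegree := natDegree_le_of_dvd (minpoly.dvd _ _ hp0) hp.ne_zero
    _ = Fintype.card ι := hdeg

/-- If the "characteristic polynomial" `∏ i, (X - c i b)` of `b` with respect to the conjugate
embeddings `c i` descends to a polynomial `p` over `K0`, then `p` is monic of degree `card ι`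
and `b` is a root of `p`. -/
theorem monic_natDegree_aeval_of_prod_eq {ι M : Type*} [Fintype ι] [Field M]
    (K0 : IntermediateField K F) (c : ι → F →+* M) (i₀ : ι) (b : F) (p : K0[X])
    (hp : ∏ i, (X - C (c i b)) = p.map ((c i₀).comp (algebraMap K0 F))) :
    p.Monic ∧ p.natDegree = Fintype.card ι ∧ aeval b p = 0 := by
  have hf : Function.Injective ((c i₀).comp (algebraMap K0 F)) := RingHom.injective _
  have hmonic : (p.map ((c i₀).comp (algebraMap K0 F))).Monic := by
    rw [← hp]
    exact monic_prod_of_monic _ _ fun i _ => monic_X_sub_C _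
  have hdeg : (p.map ((c i₀).comp (algebraMap K0 F))).natDegree = Fintype.card ι := by
    rw [← hp, natDegree_prod_of_monic _ _ fun i _ => monic_X_sub_C _]
    simp
  refine ⟨monic_of_injective hf hmonic, ?_, ?_⟩
  · rw [← hdeg, natDegree_map_eq_of_injective hf]
  · apply (c i₀).injective
    rw [map_zero, aeval_def, hom_eval₂, ← eval_map, ← hp, eval_prod]
    exact Finset.prod_eq_zero (Finset.mem_univ i₀) (by simp)

end DegreeAbs

end Fermat.Agent.S24
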