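import Fermat.Agent.S24.FamilyAtAbs
import Fermat.Agent.S24.Distinct

/-!
P8-ANN: the four local families of order functions on the function field of `X₀(N)`
(generic point, `i`, `ρ`, `i∞`), obtained by instantiating the abstract lemmas of
`FamilyAtAbs` / `FamilyInfAbs` with the conjugates `conj ι x` of the analytic realization.
-/

set_option autoImplicit false

namespace Fermat.Agent.S24

open AlgebraicCurve IntermediateField UpperHalfPlane
open scoped MatrixGroups Manifold

section Rot

variable (N : ℕ) [NeZero N]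

/-- The root of unity `exp(2πi/N)` as a unit of `ℂ`. -/
noncomputable def zetaUnit : ℂˣ :=
  Units.mk0 (Complex.exp (2 * (Real.pi : ℂ) * Complex.I / (N : ℂ))) (Complex.exp_ne_zero _)

omit [NeZero N] in
theorem coe_zetaUnit :
    ((zetaUnit N : ℂˣ) : ℂ) = Complex.exp (2 * (Real.pi : ℂ) * Complex.I / (N : ℂ)) := rfl

theorem isPrimitiveRoot_zetaUnit : IsPrimitiveRoot (zetaUnit N) N := by
  rw [← IsPrimitiveRoot.coe_units_iff, coe_zetaUnit]
  exact Complex.isPrimitiveRoot_exp N (NeZero.ne N)

/-- Translation by `T` rotates the expansion at `i∞` by `exp(2πi/N)`. -/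
theorem qInfM_act_T (y : MerN N) :
    qInfM N (act N ModularGroup.T y) = laurentRot (zetaUnit N) (qInfM N y) := by
  have h : (qInfM N).comp (act N ModularGroup.T) = (laurentRot (zetaUnit N)).comp (qInfM N) := by
    apply MerN_ringHom_ext
    intro f
    rw [RingHom.comp_apply, RingHom.comp_apply, act_algebraMap, qInfM_algebraMap,
      qInfM_algebraMap, coe_actR]
    have hf : IsMerPer N (f : ℍ → ℂ) := isMerPer_of_mem_RN f.2
    have hsl : slComp ModularGroup.T (f : ℍ → ℂ) =
        fun τ : ℍ => (f : ℍ → ℂ) (((1 : ℕ) : ℝ) +ᵥ τ) := by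
      funext τ
      rw [slComp_apply, UpperHalfPlane.modular_T_smul, Nat.cast_one]
    rw [hsl]
    ext n
    rw [qInf_vadd_coeff (Nat.pos_of_ne_zero (NeZero.ne N)) hf 1 n, laurentRot_coeff,
      Units.val_zpow_eq_zpow_val, coe_zetaUnit, Nat.cast_one, mul_one]
  exact congrArg (fun φ => φ y) h

/-- Translation by `T⁻¹` rotates the expansion at `i∞` by `exp(-2πi/N)`. -/
theorem qInfM_act_T_inv (y : MerN N) :
    qInfM N (act N ModularGroup.T⁻¹ y) = laurentRot (zetaUnit N)⁻¹ (qInfM N y) := by
  have h1 : act N ModularGroup.T (act N ModularGroup.T⁻¹ y) = y := by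
    rw [← act_mul, inv_mul_cancel, act_one]
  have h2 := qInfM_act_T N (act N ModularGroup.T⁻¹ y)
  rw [h1] at h2
  rw [h2, ← laurentRot_mul, inv_mul_cancel, laurentRot_one]

end Rot

section Conj

variable (N : ℕ) [NeZero N] {L : Type*} [Field L] [Algebra ℚ L] (ι : L →+* ℂ)

theorem conj_smul (γ : SL(2, ℤ)) (x : XX N) (f : FFL L N) :
    conj N ι (γ • x) f = act N γ⁻¹ (conj N ι x f) := by
  rw [act_conj, inv_inv]

omit [NeZero N] in
theorem toHol_constRN (c : ℂ) : toHol N (constRN N c) = holC c := rfl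

theorem Jabd_one_zero_one : Jabd 1 0 1 = Jfun := by
  funext τ
  simp only [Jabd, Nat.cast_one, one_mul, Nat.cast_zero, add_zero, div_one, ofComplex_apply]

theorem toHol_JdRN_one :
    toHol N (JdRN N 1 (one_dvd N)) = (⟨Jfun, mdifferentiable_Jfun⟩ : Hol) :=
  Subtype.ext (by rw [coe_toHol, coe_JdRN, Jabd_one_zero_one])

theorem conj_jL_eq (x : XX N) :
    conj N ι x (jL L N) = algebraMap ↥(RN N) (MerN N) (JdRN N 1 (one_dvd N)) := by
  rw [conj_jL, ← jdL_one, realHom_jdL]

/-- The conjugates, viewed in the field of meromorphic functions on the upper half plane. -/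
noncomputable def conjMer (x : XX N) : FFL L N →+* Mer := (toMer N).comp (conj N ι x)

/-- The expansions at `i∞` of the conjugates. -/
noncomputable def conjInf (x : XX N) : FFL L N →+* LaurentSeries ℂ :=
  (qInfM N).comp (conj N ι x)

theorem conjMer_apply (x : XX N) (f : FFL L N) :
    conjMer N ι x f = toMer N (conj N ι x f) := rfl

theorem conjInf_apply (x : XX N) (f : FFL L N) :
    conjInf N ι x f = qInfM N (conj N ι x f) := rfl

theorem conjMer_injective : Function.Injective (conjMer N ι (L := L)) := by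
  intro x x' h
  apply conj_injective N ι
  ext f
  apply toMer_injective N
  have := congrArg (fun φ : FFL L N →+* Mer => φ f) h
  exact this

theorem conjInf_injective : Function.Injective (conjInf N ι (L := L)) := by
  intro x x' h
  apply conj_injective N ι
  ext f
  apply qInfM_injective N
  have := congrArg (fun φ : FFL L N →+* LaurentSeries ℂ => φ f) h
  exact this

theorem conjMer_algebraMap (x : XX N) (c : L) :
    conjMer N ι x (algebraMap L (FFL L N) c) = algebraMap Hol Mer (holC (ι c)) := by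
  rw [conjMer_apply, conj_algebraMap, toMer_algebraMap, toHol_constRN]

theorem conjMer_jL (x : XX N) :
    conjMer N ι x (jL L N) = algebraMap Hol Mer ⟨Jfun, mdifferentiable_Jfun⟩ := by
  rw [conjMer_apply, conj_jL_eq, toMer_algebraMap, toHol_JdRN_one]

theorem conjMer_smul (γ : SL(2, ℤ)) (x : XX N) (f : FFL L N) :
    conjMer N ι (γ • x) f = compSL γ⁻¹ (conjMer N ι x f) := by
  rw [conjMer_apply, conj_smul, toMer_act, conjMer_apply]

theorem conjInf_algebraMap (x : XX N) (c : L) :
    conjInf N ι x (algebraMap L (FFL L N) c) = HahnSeries.C (ι c) := by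
  rw [conjInf_apply, conj_algebraMap, qInfM_constRN]

theorem conjInf_jL (x : XX N) :
    conjInf N ι x (jL L N) = ModularCurve.qExpand ℂ N
      (ModularCurve.coeffMap (ι.comp (algebraMap ℚ L)) ModularCurve.jq) := by
  have h : ModularCurve.coeffMap ι ((jL L N : FFL L N) : LaurentSeries L) =
      ModularCurve.coeffMap (ι.comp (algebraMap ℚ L)) ModularCurve.jq := by
    show ModularCurve.coeffMap ι (ModularCurve.coeffEmb L ModularCurve.jq) = _
    rw [ModularCurve.coeffEmb, ModularCurve.coeffMap_coeffMap]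
  rw [conjInf_apply, conj_jL, qInfM_realHom, expMap, RingHom.comp_apply, h]

theorem conjInf_smul_T (x : XX N) (f : FFL L N) :
    conjInf N ι (ModularGroup.T • x) f = laurentRot (zetaUnit N)⁻¹ (conjInf N ι x f) := by
  rw [conjInf_apply, conj_smul, qInfM_act_T_inv, conjInf_apply]

end Conj

section Families

variable (N : ℕ) [NeZero N]
variable (L : Type*) [Field L] [Algebra ℚ L] [CharZero L]

/-- `ordAt N L ι τ x f`: the order at `τ` of the `x`-conjugate of (the analytic realization of)
`f`. -/
noncomputable def ordAt (ι : L →+* ℂ) (τ : ℍ) : XX N → FFL L N → ℤ :=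
  fun x f => merOrd τ (toMer N (conj N ι x f))

/-- `ordInf N L ι x f`: the order at `i∞`, in the parameter `q^{1/N}`, of the `x`-conjugate of
`f`. -/
noncomputable def ordInf (ι : L →+* ℂ) : XX N → FFL L N → ℤ :=
  fun x f => (qInfM N (conj N ι x f)).order

omit [CharZero L] in
theorem ordAt_apply (ι : L →+* ℂ) (τ : ℍ) (x : XX N) (f : FFL L N) :
    ordAt N L ι τ x f = merOrd τ (toMer N (conj N ι x f)) := rfl

omit [CharZero L] in
theorem ordInf_apply (ι : L →+* ℂ) (x : XX N) (f : FFL L N) :
    ordInf N L ι x f = (qInfM N (conj N ι x f)).order := rfl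

variable [FiniteDimensional L⟮jL L N⟯ (FFL L N)]

theorem isLocalFamily_generic_of_card
    (hcard : Module.finrank L⟮jL L N⟯ (FFL L N) = Fintype.card (XX N))
    (ι : L →+* ℂ) (τ : ℍ) (c : L) (hτ : Jfun τ = ι c) (hc0 : c ≠ 0) (hc : c ≠ 1728) :
    IsLocalFamily L⟮jL L N⟯ (jL L N - algebraMap L (FFL L N) c) 1 (1 : Equiv.Perm (XX N))
      (ordAt N L ι τ) :=
  isLocalFamily_generic_of_conj N L hcard ι (conjMer N ι) (conjMer_injective N ι)
    (conjMer_algebraMap N ι) (conjMer_jL N ι) (conjMer_smul N ι) τ c hτ hc0 hc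

theorem isLocalFamily_ptI_of_card
    (hcard : Module.finrank L⟮jL L N⟯ (FFL L N) = Fintype.card (XX N)) (ι : L →+* ℂ) :
    IsLocalFamily L⟮jL L N⟯ (jL L N - algebraMap L (FFL L N) 1728) 2
      (MulAction.toPerm ModularGroup.S : Equiv.Perm (XX N)) (ordAt N L ι ptI) :=
  isLocalFamily_ptI_of_conj N L hcard ι (conjMer N ι) (conjMer_injective N ι)
    (conjMer_algebraMap N ι) (conjMer_jL N ι) (conjMer_smul N ι)

theorem isLocalFamily_ptRho_of_card
    (hcard : Module.finrank L⟮jL L N⟯ (FFL L N) = Fintype.card (XX N)) (ι : L →+* ℂ) :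
    IsLocalFamily L⟮jL L N⟯ (jL L N - algebraMap L (FFL L N) 0) 3
      (MulAction.toPerm (ModularGroup.S * ModularGroup.T) : Equiv.Perm (XX N))
      (ordAt N L ι ptRho) :=
  isLocalFamily_ptRho_of_conj N L hcard ι (conjMer N ι) (conjMer_injective N ι)
    (conjMer_algebraMap N ι) (conjMer_jL N ι) (conjMer_smul N ι)

theorem isLocalFamily_infty_of_card
    (hcard : Module.finrank L⟮jL L N⟯ (FFL L N) = Fintype.card (XX N)) (ι : L →+* ℂ) :
    IsLocalFamily L⟮jL L N⟯ (jL L N)⁻¹ N
      (MulAction.toPerm ModularGroup.T : Equiv.Perm (XX N)) (ordInf N L ι) :=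
  isLocalFamily_infty_of_expansions N L hcard ι (zetaUnit N)⁻¹
    (isPrimitiveRoot_zetaUnit N).inv (conjInf N ι) (conjInf_injective N ι)
    (conjInf_algebraMap N ι) (conjInf_jL N ι) (conjInf_smul_T N ι)

end Families

end Fermat.Agent.S24
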