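import Fermat.Agent.S24.FamilyInfAbs
import Fermat.Agent.S24.MerH
import Fermat.Agent.S24.JOrder

/-!
P8-ANN: the local families at points of the upper half plane (generic point, `i`, `ρ`), from
abstract conjugation data.

`C x : FFL L N →+* Mer` is meant to be the `x`-conjugate (`x ∈ SL(2,ℤ)/Γ₀(N)`) of the analytic
realization.  The hypotheses are exactly the facts the analytic construction provides.
-/

set_option autoImplicit false

namespace Fermat.Agent.S24

open IntermediateField UpperHalfPlane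
open scoped MatrixGroups Manifold

/-- **The local family at a point `τ` fixed by `ε`**, from conjugation data. -/
theorem isLocalFamily_at_of_conj (N : ℕ) [NeZero N] [Fintype (XX N)]
    (L : Type*) [Field L] [Algebra ℚ L] [CharZero L]
    [FiniteDimensional L⟮jL L N⟯ (FFL L N)]
    (hcard : Module.finrank L⟮jL L N⟯ (FFL L N) = Fintype.card (XX N))
    (ι : L →+* ℂ)
    (C : XX N → FFL L N →+* Mer) (hinj : Function.Injective C)
    (hconst : ∀ x (c : L), C x (algebraMap L (FFL L N) c) = algebraMap Hol Mer (holC (ι c)))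
    (hj : ∀ x, C x (jL L N) = algebraMap Hol Mer ⟨Jfun, mdifferentiable_Jfun⟩)
    (hact : ∀ (γ : SL(2, ℤ)) x f, C (γ • x) f = compSL γ⁻¹ (C x f))
    (τ : ℍ) (c : L) (E0 : ℕ)
    (hord : analyticOrderAt (fun z : ℂ => Jfun (ofComplex z) - ι c) (τ : ℂ) = E0)
    (ε : SL(2, ℤ)) (hε : ε • τ = τ)
    (hper : ∀ x : XX N,
      Function.minimalPeriod (MulAction.toPerm ε : Equiv.Perm (XX N)) x ∣ E0)
    (hmult : ∀ (k : ℕ) (n : ℤ), k ∣ E0 →
      ((((ε ^ k)⁻¹ 1 0 : ℤ) : ℂ) * (τ : ℂ) + (((ε ^ k)⁻¹ 1 1 : ℤ) : ℂ)) ^ (2 * n) = 1 →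
        (E0 : ℤ) ∣ n * k) :
    IsLocalFamily L⟮jL L N⟯ (jL L N - algebraMap L (FFL L N) c) E0
      (MulAction.toPerm ε : Equiv.Perm (XX N)) (fun x f => merOrd τ (C x f)) := by
  haveI : CharZero (FFL L N) := charZero_of_injective_algebraMap (algebraMap L (FFL L N)).injective
  haveI : CharZero L⟮jL L N⟯ :=
    charZero_of_injective_algebraMap (algebraMap L L⟮jL L N⟯).injective
  have hεinv : ε⁻¹ • τ = τ := by rw [inv_smul_eq_iff, hε]
  have hεk : ∀ k : ℕ, (ε ^ k)⁻¹ • τ = τ := by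
    intro k
    rw [inv_smul_eq_iff]
    induction k with
    | zero => simp
    | succ k ih => rw [pow_succ, mul_smul, hε, ← ih]
  refine isLocalFamily_of_embeddings (K := L) (F := FFL L N) (S := Mer) L⟮jL L N⟯ hcard
    (merOrd τ)
    (fun a b ha hb => merOrd_mul τ ha hb)
    (fun a b ha hb hab => merOrd_add τ ha hb hab)
    C hinj ?_ (jL L N - algebraMap L (FFL L N) c) E0 _ ?_ ?_ ?_ hper ?_
  · -- agreement on `L(j)`
    intro x x' a
    exact ringHom_eq_on_adjoin_jL N L (C x) (C x')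
      (fun c => by rw [hconst, hconst]) (by rw [hj, hj]) a
  · -- const
    intro x a ha
    rw [hconst]
    exact merOrd_const τ ((map_ne_zero ι).mpr ha)
  · -- base
    intro x
    rw [map_sub, hj, hconst, ← map_sub]
    exact merOrd_algebraMap_of_analyticOrderAt τ _ hord
  · -- perm
    intro x f
    show merOrd τ (C (ε • x) f) = merOrd τ (C x f)
    rw [hact, merOrd_compSL, hεinv]
  · -- dvd
    intro x f hf
    set k := Function.minimalPeriod (MulAction.toPerm ε : Equiv.Perm (XX N)) x with hk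
    have hfix : ε ^ k • x = x := pow_minimalPeriod_smul ε x
    have hinv : compSL (ε ^ k)⁻¹ (C x f) = C x f := by
      rw [← hact, hfix]
    have hne : C x f ≠ 0 := (map_ne_zero (C x)).mpr hf
    exact hmult k _ (hper x) (merOrd_elliptic _ τ (hεk k) hne hinv)

/-- Generic point: `J τ = ι c` with `c ≠ 0, 1728`; ramification index `1`, trivial permutation. -/
theorem isLocalFamily_generic_of_conj (N : ℕ) [NeZero N] [Fintype (XX N)]
    (L : Type*) [Field L] [Algebra ℚ L] [CharZero L]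
    [FiniteDimensional L⟮jL L N⟯ (FFL L N)]
    (hcard : Module.finrank L⟮jL L N⟯ (FFL L N) = Fintype.card (XX N))
    (ι : L →+* ℂ)
    (C : XX N → FFL L N →+* Mer) (hinj : Function.Injective C)
    (hconst : ∀ x (c : L), C x (algebraMap L (FFL L N) c) = algebraMap Hol Mer (holC (ι c)))
    (hj : ∀ x, C x (jL L N) = algebraMap Hol Mer ⟨Jfun, mdifferentiable_Jfun⟩)
    (hact : ∀ (γ : SL(2, ℤ)) x f, C (γ • x) f = compSL γ⁻¹ (C x f))
    (τ : ℍ) (c : L) (hτ : Jfun τ = ι c) (hc0 : c ≠ 0) (hc : c ≠ 1728) :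
    IsLocalFamily L⟮jL L N⟯ (jL L N - algebraMap L (FFL L N) c) 1 (1 : Equiv.Perm (XX N))
      (fun x f => merOrd τ (C x f)) := by
  have h0 : Jfun τ ≠ 0 := by rw [hτ]; exact (map_ne_zero ι).mpr hc0
  have h1 : Jfun τ ≠ 1728 := by
    rw [hτ]
    intro h
    apply hc
    apply ι.injective
    rw [h, map_ofNat]
  have hord : analyticOrderAt (fun z : ℂ => Jfun (ofComplex z) - ι c) (τ : ℂ) = ((1 : ℕ) : ℕ∞) := by
    rw [← hτ, Nat.cast_one]
    exact analyticOrderAt_Jfun_sub_of_ne τ h0 h1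
  have key := isLocalFamily_at_of_conj N L hcard ι C hinj hconst hj hact τ c 1 hord 1
    (one_smul _ τ)
    (fun x => minimalPeriod_toPerm_dvd_of_pow_smul (1 : SL(2, ℤ)) x 1 (by simp))
    (fun k n _ _ => by simp)
  have hperm : (MulAction.toPerm (1 : SL(2, ℤ)) : Equiv.Perm (XX N)) = 1 :=
    Equiv.ext fun x => (one_smul (SL(2, ℤ)) x : (1 : SL(2, ℤ)) • x = x)
  rw [hperm] at key
  exact key

/-- The point `i`: ramification index `2`, permutation induced by `S`. -/
theorem isLocalFamily_ptI_of_conj (N : ℕ) [NeZero N] [Fintype (XX N)]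
    (L : Type*) [Field L] [Algebra ℚ L] [CharZero L]
    [FiniteDimensional L⟮jL L N⟯ (FFL L N)]
    (hcard : Module.finrank L⟮jL L N⟯ (FFL L N) = Fintype.card (XX N))
    (ι : L →+* ℂ)
    (C : XX N → FFL L N →+* Mer) (hinj : Function.Injective C)
    (hconst : ∀ x (c : L), C x (algebraMap L (FFL L N) c) = algebraMap Hol Mer (holC (ι c)))
    (hj : ∀ x, C x (jL L N) = algebraMap Hol Mer ⟨Jfun, mdifferentiable_Jfun⟩)
    (hact : ∀ (γ : SL(2, ℤ)) x f, C (γ • x) f = compSL γ⁻¹ (C x f)) :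
    IsLocalFamily L⟮jL L N⟯ (jL L N - algebraMap L (FFL L N) 1728) 2
      (MulAction.toPerm ModularGroup.S : Equiv.Perm (XX N))
      (fun x f => merOrd ptI (C x f)) := by
  have hord : analyticOrderAt (fun z : ℂ => Jfun (ofComplex z) - ι 1728) (ptI : ℂ)
      = ((2 : ℕ) : ℕ∞) := by
    rw [map_ofNat]
    exact analyticOrderAt_Jfun_sub_ptI
  refine isLocalFamily_at_of_conj N L hcard ι C hinj hconst hj hact ptI 1728 2 hord
    ModularGroup.S S_smul_ptI (minimalPeriod_toPerm_S_dvd N) ?_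
  intro k n hk h
  rcases (Nat.dvd_prime Nat.prime_two).mp hk with rfl | rfl
  · -- `k = 1`: the multiplier is `-i`
    rw [pow_one] at h
    have h10 : ((ModularGroup.S⁻¹ : SL(2, ℤ)) 1 0 : ℤ) = -1 := by
      simp [ModularGroup.coe_S, Matrix.adjugate_fin_two]
    have h11 : ((ModularGroup.S⁻¹ : SL(2, ℤ)) 1 1 : ℤ) = 0 := by
      simp [ModularGroup.coe_S, Matrix.adjugate_fin_two]
    rw [h10, h11, coe_ptI] at h
    have h2 : ((-1 : ℂ)) ^ n = 1 := by
      have : (((-1 : ℤ) : ℂ) * Complex.I + ((0 : ℤ) : ℂ)) ^ (2 * n) = (-1 : ℂ) ^ n := by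
        rw [zpow_mul]
        congr 1
        push_cast
        rw [add_zero, zpow_ofNat, neg_one_mul, neg_sq, Complex.I_sq]
      rw [this] at h
      exact h
    have hev : Even n := by
      by_contra hodd
      rw [Int.not_even_iff_odd] at hodd
      rw [hodd.neg_one_zpow] at h2
      norm_num at h2
    obtain ⟨m, rfl⟩ := hev
    exact ⟨m, by push_cast; ring⟩
  · exact ⟨n, by push_cast; ring⟩

/-- The point `ρ`: ramification index `3`, permutation induced by `S * T`. -/
theorem isLocalFamily_ptRho_of_conj (N : ℕ) [NeZero N] [Fintype (XX N)]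
    (L : Type*) [Field L] [Algebra ℚ L] [CharZero L]
    [FiniteDimensional L⟮jL L N⟯ (FFL L N)]
    (hcard : Module.finrank L⟮jL L N⟯ (FFL L N) = Fintype.card (XX N))
    (ι : L →+* ℂ)
    (C : XX N → FFL L N →+* Mer) (hinj : Function.Injective C)
    (hconst : ∀ x (c : L), C x (algebraMap L (FFL L N) c) = algebraMap Hol Mer (holC (ι c)))
    (hj : ∀ x, C x (jL L N) = algebraMap Hol Mer ⟨Jfun, mdifferentiable_Jfun⟩)
    (hact : ∀ (γ : SL(2, ℤ)) x f, C (γ • x) f = compSL γ⁻¹ (C x f)) :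
    IsLocalFamily L⟮jL L N⟯ (jL L N - algebraMap L (FFL L N) 0) 3
      (MulAction.toPerm (ModularGroup.S * ModularGroup.T) : Equiv.Perm (XX N))
      (fun x f => merOrd ptRho (C x f)) := by
  have hord : analyticOrderAt (fun z : ℂ => Jfun (ofComplex z) - ι 0) (ptRho : ℂ)
      = ((3 : ℕ) : ℕ∞) := by
    simp only [map_zero, sub_zero]
    exact analyticOrderAt_Jfun_ptRho
  refine isLocalFamily_at_of_conj N L hcard ι C hinj hconst hj hact ptRho 0 3 hord
    (ModularGroup.S * ModularGroup.T) ST_smul_ptRho (minimalPeriod_toPerm_ST_dvd N) ?_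
  intro k n hk h
  rcases (Nat.dvd_prime Nat.prime_three).mp hk with rfl | rfl
  · -- `k = 1`: the multiplier is `-ρ`
    rw [pow_one] at h
    have h10 : (((ModularGroup.S * ModularGroup.T)⁻¹ : SL(2, ℤ)) 1 0 : ℤ) = -1 := by
      simp [ModularGroup.coe_S, Matrix.adjugate_fin_two]
    have h11 : (((ModularGroup.S * ModularGroup.T)⁻¹ : SL(2, ℤ)) 1 1 : ℤ) = 0 := by
      simp [ModularGroup.coe_S, Matrix.adjugate_fin_two]
    rw [h10, h11] at h
    -- `ρ` is a primitive cube root of unity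
    have hρ2 : (ptRho : ℂ) ^ 2 + (ptRho : ℂ) + 1 = 0 := ptRho_sq_add
    have hρ3 : (ptRho : ℂ) ^ 3 = 1 := by linear_combination ((ptRho : ℂ) - 1) * hρ2
    have hρ1 : (ptRho : ℂ) ≠ 1 := by
      intro h1
      rw [h1] at hρ2
      norm_num at hρ2
    have hprim : IsPrimitiveRoot (ptRho : ℂ) 3 := by
      refine IsPrimitiveRoot.mk_of_lt _ (by norm_num) hρ3 ?_
      intro l hl0 hl3 hl
      interval_cases l
      · exact hρ1 (by simpa using hl)
      · -- `ρ² = 1` and `ρ³ = 1` give `ρ = 1`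
        apply hρ1
        have : (ptRho : ℂ) ^ 3 = (ptRho : ℂ) ^ 2 * (ptRho : ℂ) := by ring
        rw [hρ3, hl, one_mul] at this
        exact this.symm
    have h2 : (ptRho : ℂ) ^ (2 * n) = 1 := by
      have : (((-1 : ℤ) : ℂ) * (ptRho : ℂ) + ((0 : ℤ) : ℂ)) ^ (2 * n) = (ptRho : ℂ) ^ (2 * n) := by
        rw [zpow_mul, zpow_mul]
        congr 1
        push_cast
        rw [add_zero, zpow_ofNat, zpow_ofNat, neg_one_mul, neg_sq]
      rw [this] at h
      exact h
    have h3 : ((3 : ℕ) : ℤ) ∣ 2 * n := (hprim.zpow_eq_one_iff_dvd _).mp h2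
    have h4 : (3 : ℤ) ∣ n := by
      have hcop : IsCoprime (3 : ℤ) 2 := by
        exact ⟨1, -1, by norm_num⟩
      exact hcop.dvd_of_dvd_mul_left (by exact_mod_cast h3)
    obtain ⟨m, rfl⟩ := h4
    exact ⟨m, by push_cast; ring⟩
  · exact ⟨n, by push_cast; ring⟩

end Fermat.Agent.S24
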