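import Fermat.Agent.S24.CombBasic

/-!
P8-ANN: the `per` clauses of `IsLocalFamily` for the permutations of `XX N = SL(2,ℤ) ⧸ Γ₀(N)`
induced by `1`, `S`, `S * T` and `T`: orbit sizes divide `1`, `2`, `3`, `N` respectively.
-/

set_option autoImplicit false

open CongruenceSubgroup MatrixGroups Matrix Matrix.SpecialLinearGroup ModularGroup

namespace Fermat.Agent.S24

theorem minimalPeriod_toPerm_dvd_of_pow_smul {G X : Type*} [Group G] [MulAction G X] (g : G)
    (x : X) (n : ℕ) (h : g ^ n • x = x) :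
    Function.minimalPeriod (MulAction.toPerm g : Equiv.Perm X) x ∣ n := by
  apply Function.IsPeriodicPt.minimalPeriod_dvd
  show (⇑(MulAction.toPerm g : Equiv.Perm X))^[n] x = x
  have : (⇑(MulAction.toPerm g : Equiv.Perm X)) = (g • · : X → X) := rfl
  rw [this, smul_iterate]
  exact h

theorem S_sq_eq_neg_one : (S : SL(2, ℤ)) ^ 2 = -1 := by
  ext i j
  fin_cases i <;> fin_cases j <;>
    simp [pow_two, coe_S, Matrix.mul_apply, Fin.sum_univ_two]

theorem ST_cube_eq_neg_one : ((S * T : SL(2, ℤ))) ^ 3 = -1 := by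
  ext i j
  fin_cases i <;> fin_cases j <;>
    simp [pow_succ, coe_S, coe_T, Matrix.mul_apply, Fin.sum_univ_two]

theorem S_sq_smul_XX (N : ℕ) (x : XX N) : (S : SL(2, ℤ)) ^ 2 • x = x := by
  rw [S_sq_eq_neg_one]
  exact neg_one_smul_XX N x

theorem ST_cube_smul_XX (N : ℕ) (x : XX N) : ((S * T : SL(2, ℤ))) ^ 3 • x = x := by
  rw [ST_cube_eq_neg_one]
  exact neg_one_smul_XX N x

theorem T_pow_smul_XX (N : ℕ) (x : XX N) : (T : SL(2, ℤ)) ^ N • x = x := by
  induction x using QuotientGroup.induction_on with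
  | H g =>
    rw [← zpow_natCast, T_zpow_smul_mk_eq_iff]
    exact ⟨g 1 0 * g 1 0, by ring⟩

theorem minimalPeriod_toPerm_S_dvd (N : ℕ) (x : XX N) :
    Function.minimalPeriod (MulAction.toPerm (S : SL(2, ℤ)) : Equiv.Perm (XX N)) x ∣ 2 :=
  minimalPeriod_toPerm_dvd_of_pow_smul S x 2 (S_sq_smul_XX N x)

theorem minimalPeriod_toPerm_ST_dvd (N : ℕ) (x : XX N) :
    Function.minimalPeriod (MulAction.toPerm ((S * T : SL(2, ℤ))) : Equiv.Perm (XX N)) x ∣ 3 :=
  minimalPeriod_toPerm_dvd_of_pow_smul (S * T) x 3 (ST_cube_smul_XX N x)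

theorem minimalPeriod_toPerm_T_dvd (N : ℕ) (x : XX N) :
    Function.minimalPeriod (MulAction.toPerm (T : SL(2, ℤ)) : Equiv.Perm (XX N)) x ∣ N :=
  minimalPeriod_toPerm_dvd_of_pow_smul T x N (T_pow_smul_XX N x)

theorem minimalPeriod_one_perm {X : Type*} (x : X) :
    Function.minimalPeriod (⇑(1 : Equiv.Perm X)) x = 1 := by
  have : (⇑(1 : Equiv.Perm X)) = id := rfl
  rw [this]
  exact Function.minimalPeriod_id

/-- With `k` the orbit size of `x` under `g`, `g ^ k` fixes `x`. -/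
theorem pow_minimalPeriod_smul {G X : Type*} [Group G] [MulAction G X] (g : G) (x : X) :
    g ^ Function.minimalPeriod (MulAction.toPerm g : Equiv.Perm X) x • x = x := by
  have h := Function.isPeriodicPt_minimalPeriod (⇑(MulAction.toPerm g : Equiv.Perm X)) x
  have h2 : (⇑(MulAction.toPerm g : Equiv.Perm X)) = (g • · : X → X) := rfl
  rw [Function.IsPeriodicPt, Function.IsFixedPt, h2, smul_iterate] at h
  exact h

end Fermat.Agent.S24
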