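import Fermat.Agent.S24.LocalFamilyOfEmb
import Fermat.Agent.S24.LaurentRot
import Fermat.Agent.S24.LaurentOrder
import Fermat.Agent.S24.PerDvd

/-!
P8-ANN (B): the local family at the cusp `i∞`, from abstract expansion data.

`E x : FFL L N →+* ℂ((s))` is meant to be the `q^{1/N}`-expansion at `i∞` of the `x`-conjugate
(`x ∈ SL(2,ℤ)/Γ₀(N)`).  The hypotheses are exactly the facts the analytic construction provides.
-/

set_option autoImplicit false

namespace Fermat.Agent.S24

open IntermediateField
open scoped MatrixGroups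

/-- Ring homomorphisms out of `FFL L N` which agree on the constants and on `j` agree on
`L(j)`. -/
theorem ringHom_eq_on_adjoin_jL (N : ℕ) [NeZero N] (L : Type*) [Field L] [Algebra ℚ L]
    {S : Type*} [Field S] (φ ψ : FFL L N →+* S)
    (hC : ∀ c : L, φ (algebraMap L (FFL L N) c) = ψ (algebraMap L (FFL L N) c))
    (hj : φ (jL L N) = ψ (jL L N)) (a : L⟮jL L N⟯) :
    φ (algebraMap L⟮jL L N⟯ (FFL L N) a) = ψ (algebraMap L⟮jL L N⟯ (FFL L N) a) := by
  obtain ⟨a, ha⟩ := a
  show φ a = ψ a
  induction ha using IntermediateField.adjoin_induction with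
  | mem x hx =>
    rw [Set.mem_singleton_iff] at hx
    subst hx
    exact hj
  | algebraMap c => exact hC c
  | add x y _ _ hx hy => rw [map_add, map_add, hx, hy]
  | inv x _ hx => rw [map_inv₀, map_inv₀, hx]
  | mul x y _ _ hx hy => rw [map_mul, map_mul, hx, hy]

/-- **The local family at `i∞`** from expansion data. -/
theorem isLocalFamily_infty_of_expansions (N : ℕ) [NeZero N] [Fintype (XX N)]
    (L : Type*) [Field L] [Algebra ℚ L] [CharZero L]
    [FiniteDimensional L⟮jL L N⟯ (FFL L N)]
    (hcard : Module.finrank L⟮jL L N⟯ (FFL L N) = Fintype.card (XX N))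
    (ι : L →+* ℂ) (ζ : ℂˣ) (hζ : IsPrimitiveRoot ζ N)
    (E : XX N → FFL L N →+* LaurentSeries ℂ) (hinj : Function.Injective E)
    (hconst : ∀ x (c : L), E x (algebraMap L (FFL L N) c) = HahnSeries.C (ι c))
    (hj : ∀ x, E x (jL L N) = ModularCurve.qExpand ℂ N
      (ModularCurve.coeffMap (ι.comp (algebraMap ℚ L)) ModularCurve.jq))
    (hT : ∀ x f, E (ModularGroup.T • x) f = laurentRot ζ (E x f)) :
    IsLocalFamily L⟮jL L N⟯ (jL L N)⁻¹ N
      (MulAction.toPerm ModularGroup.T : Equiv.Perm (XX N)) (fun x f => (E x f).order) := by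
  haveI : CharZero (FFL L N) := charZero_of_injective_algebraMap (algebraMap L (FFL L N)).injective
  haveI : CharZero L⟮jL L N⟯ :=
    charZero_of_injective_algebraMap (algebraMap L L⟮jL L N⟯).injective
  have hNpos : 0 < N := Nat.pos_of_ne_zero (NeZero.ne N)
  -- iterating `hT`
  have hTk : ∀ (k : ℕ) x f, E (ModularGroup.T ^ k • x) f = laurentRot (ζ ^ k) (E x f) := by
    intro k
    induction k with
    | zero => intro x f; simp [laurentRot_one]
    | succ k ih =>
      intro x f
      rw [pow_succ', mul_smul, hT, ih, pow_succ', laurentRot_mul]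
  refine isLocalFamily_of_embeddings (K := L) (F := FFL L N) (S := LaurentSeries ℂ) L⟮jL L N⟯ hcard
    (fun s => s.order)
    (fun a b ha hb => laurent_order_mul ha hb)
    (fun a b _ _ hab => laurent_min_order_le_order_add hab)
    E hinj ?_ (jL L N)⁻¹ N _ ?_ ?_ ?_ ?_ ?_
  · -- agreement on `L(j)`
    intro x x' a
    exact ringHom_eq_on_adjoin_jL N L (E x) (E x')
      (fun c => by rw [hconst, hconst]) (by rw [hj, hj]) a
  · -- const
    intro x a _
    rw [hconst]
    exact laurent_order_C _
  · -- base
    intro x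
    rw [map_inv₀, laurent_order_inv, hj, order_qExpand,
      order_coeffMap _ (RingHom.injective _), order_jq]
    simp
  · -- perm
    intro x f
    show (E (ModularGroup.T • x) f).order = (E x f).order
    rw [hT, order_laurentRot]
  · -- per
    intro x
    exact minimalPeriod_toPerm_T_dvd N x
  · -- dvd
    intro x f hf
    set k := Function.minimalPeriod (MulAction.toPerm ModularGroup.T : Equiv.Perm (XX N)) x
      with hk
    have hfix : ModularGroup.T ^ k • x = x := pow_minimalPeriod_smul ModularGroup.T x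
    have hrot : laurentRot (ζ ^ k) (E x f) = E x f := by
      rw [← hTk k x f, hfix]
    have hne : E x f ≠ 0 := (map_ne_zero (E x)).mpr hf
    have h1 : (ζ ^ k) ^ (E x f).order = 1 := zpow_order_eq_one_of_laurentRot_eq _ _ hne hrot
    rw [← zpow_natCast, ← zpow_mul] at h1
    have h2 := (hζ.zpow_eq_one_iff_dvd _).mp h1
    rw [mul_comm]
    exact h2

end Fermat.Agent.S24
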