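import Fermat.Agent.S24.JDefs
import Fermat.Prelude.Def_ModularCurve_X0
import Mathlib.NumberTheory.ModularForms.EisensteinSeries.QExpansion
import Mathlib.NumberTheory.ModularForms.QExpansion
import Mathlib.Analysis.Complex.TaylorSeries
import Mathlib.Analysis.Complex.LocallyUniformLimit
import Mathlib.Analysis.Analytic.OfScalars
import Mathlib.Analysis.Analytic.Uniqueness
import Mathlib.Analysis.Normed.Ring.InfiniteSum
import Mathlib.Analysis.SpecialFunctions.Log.Summable

/-!
P8 / AN1 [J1]: the `q`-expansion of the analytic `j`-function is the Prelude series `jNum`: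
`q * J(τ) = ∑ jNum_n qⁿ`.
-/

set_option autoImplicit false

namespace Fermat.Agent.S24

open UpperHalfPlane ModularForm EisensteinSeries
open scoped MatrixGroups Manifold PowerSeries.WithPiTopology

namespace JqExp

open PowerSeries in
/-- The power series `P` converges to `f` on the open unit disc. -/
def Conv (P : PowerSeries ℂ) (f : ℂ → ℂ) : Prop :=
  ∀ q : ℂ, ‖q‖ < 1 → HasSum (fun n : ℕ => PowerSeries.coeff n P * q ^ n) (f q)

theorem Conv.summable_norm {P : PowerSeries ℂ} {f : ℂ → ℂ} (h : Conv P f) {q : ℂ}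
    (hq : ‖q‖ < 1) : Summable (fun n : ℕ => ‖PowerSeries.coeff n P * q ^ n‖) := by
  have h1 := (h (‖q‖ : ℂ) (by simpa using hq)).summable.norm
  refine h1.congr fun n => ?_
  simp [norm_pow]

theorem Conv.mul {P Q : PowerSeries ℂ} {f g : ℂ → ℂ} (hP : Conv P f) (hQ : Conv Q g) :
    Conv (P * Q) (fun q => f q * g q) := by
  intro q hq
  have h1 := hP.summable_norm hq
  have h2 := hQ.summable_norm hq
  have h3 := summable_norm_sum_mul_antidiagonal_of_summable_norm h1 h2
  have h4 := tsum_mul_tsum_eq_tsum_sum_antidiagonal_of_summable_norm h1 h2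
  rw [(hP q hq).tsum_eq, (hQ q hq).tsum_eq] at h4
  have h5 : ∀ n : ℕ, PowerSeries.coeff n (P * Q) * q ^ n =
      ∑ kl ∈ Finset.HasAntidiagonal.antidiagonal n, (PowerSeries.coeff kl.1 P * q ^ kl.1) *
        (PowerSeries.coeff kl.2 Q * q ^ kl.2) := by
    intro n
    rw [PowerSeries.coeff_mul, Finset.sum_mul]
    refine Finset.sum_congr rfl fun kl hkl => ?_
    rw [← Finset.HasAntidiagonal.mem_antidiagonal.mp hkl, pow_add]
    ring
  simp only [h5]
  rw [h4]
  exact h3.of_norm.hasSum

theorem Conv.one : Conv 1 (fun _ => 1) := by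
  intro q _
  have := hasSum_ite_eq (0 : ℕ) (1 : ℂ)
  refine this.congr_fun fun n => ?_
  rw [PowerSeries.coeff_one]
  split_ifs with h
  · subst h; simp
  · simp

theorem Conv.pow {P : PowerSeries ℂ} {f : ℂ → ℂ} (hP : Conv P f) (k : ℕ) :
    Conv (P ^ k) (fun q => f q ^ k) := by
  induction k with
  | zero => simpa using Conv.one
  | succ k ih => simpa [pow_succ] using ih.mul hP

theorem Conv.congr {P : PowerSeries ℂ} {f g : ℂ → ℂ} (hP : Conv P f)
    (hfg : ∀ q : ℂ, ‖q‖ < 1 → f q = g q) : Conv P g := by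
  intro q hq
  rw [← hfg q hq]
  exact hP q hq

theorem Conv.hasFPowerSeriesOnBall {P : PowerSeries ℂ} {f : ℂ → ℂ} (h : Conv P f) :
    HasFPowerSeriesOnBall f (.ofScalars ℂ fun n => PowerSeries.coeff n P) 0 1 := by
  constructor
  · refine le_of_forall_lt_imp_le_of_dense fun r hr ↦ ?_
    lift r to NNReal using hr.ne_top
    apply FormalMultilinearSeries.le_radius_of_summable
    have h1 := (h (r : ℂ) (by simpa using hr)).summable.norm
    simpa [smul_eq_mul, norm_mul, mul_comm, mul_left_comm, mul_assoc] using h1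
  · simp
  · intro y hy
    rw [← ENNReal.coe_one, Metric.eball_coe, NNReal.coe_one, mem_ball_zero_iff] at hy
    simpa [mul_comm] using h y hy

theorem Conv.unique {P Q : PowerSeries ℂ} {f : ℂ → ℂ} (hP : Conv P f) (hQ : Conv Q f) :
    P = Q := by
  have h := hP.hasFPowerSeriesOnBall.hasFPowerSeriesAt.eq_formalMultilinearSeries
    hQ.hasFPowerSeriesOnBall.hasFPowerSeriesAt
  have h2 := FormalMultilinearSeries.ofScalars_series_injective (E := ℂ) (𝕜 := ℂ) h
  ext n
  exact congrFun h2 n

/-- The Taylor series at `0` of a function. -/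
noncomputable def taylor (f : ℂ → ℂ) : PowerSeries ℂ :=
  .mk fun n => (↑n.factorial)⁻¹ * iteratedDeriv n f 0

theorem conv_taylor {f : ℂ → ℂ} (hf : DifferentiableOn ℂ f (Metric.ball 0 1)) :
    Conv (taylor f) f := by
  intro q hq
  have := Complex.hasSum_taylorSeries_on_ball hf (z := q) (by simpa using hq)
  refine this.congr_fun fun n => ?_
  simp [taylor, smul_eq_mul]
  ring

theorem Conv.eq_taylor {P : PowerSeries ℂ} {f : ℂ → ℂ} (hP : Conv P f)
    (hf : DifferentiableOn ℂ f (Metric.ball 0 1)) : P = taylor f :=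
  hP.unique (conv_taylor hf)

theorem Conv.X : Conv PowerSeries.X (fun q => q) := by
  intro q _
  have := hasSum_ite_eq (1 : ℕ) q
  refine this.congr_fun fun n => ?_
  rw [PowerSeries.coeff_X]
  split_ifs with h
  · subst h; simp
  · simp

theorem Conv.sub {P Q : PowerSeries ℂ} {f g : ℂ → ℂ} (hP : Conv P f) (hQ : Conv Q g) :
    Conv (P - Q) (fun q => f q - g q) := by
  intro q hq
  refine ((hP q hq).sub (hQ q hq)).congr_fun fun n => ?_
  rw [map_sub, sub_mul]

theorem Conv.finsetProd (I : Finset ℕ) {P : ℕ → PowerSeries ℂ} {f : ℕ → ℂ → ℂ}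
    (h : ∀ n, Conv (P n) (f n)) : Conv (∏ n ∈ I, P n) (fun q => ∏ n ∈ I, f n q) := by
  induction I using Finset.induction_on with
  | empty => simpa using Conv.one
  | insert a s ha ih =>
    simp only [Finset.prod_insert ha]
    exact (h a).mul ih

/-- Iterated derivatives of a locally uniform limit of holomorphic functions. -/
theorem tendsto_iteratedDeriv {ι : Type*} {φ : Filter ι} {F : ι → ℂ → ℂ} {f : ℂ → ℂ}
    {U : Set ℂ} (hU : IsOpen U) (hf : TendstoLocallyUniformlyOn F f φ U)
    (hF : ∀ᶠ i in φ, DifferentiableOn ℂ (F i) U) (n : ℕ) :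
    TendstoLocallyUniformlyOn (fun i => iteratedDeriv n (F i)) (iteratedDeriv n f) φ U ∧
      ∀ᶠ i in φ, DifferentiableOn ℂ (iteratedDeriv n (F i)) U := by
  induction n with
  | zero => simpa [iteratedDeriv_zero] using ⟨hf, hF⟩
  | succ n ih =>
    refine ⟨?_, ?_⟩
    · have := ih.1.deriv ih.2 hU
      simpa only [iteratedDeriv_succ, Function.comp_def] using this
    · filter_upwards [ih.2] with i hi
      rw [iteratedDeriv_succ]
      exact hi.deriv hU

/-- The analytic product `∏ (1 - q^(n+1))`. -/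
noncomputable def Fq (q : ℂ) : ℂ := ∏' n : ℕ, (1 - q ^ (n + 1))

theorem differentiableOn_Fq : DifferentiableOn ℂ Fq (Metric.ball 0 1) :=
  differentiableOn_tprod_one_sub_pow

theorem Fq_ne_zero {q : ℂ} (hq : ‖q‖ < 1) : Fq q ≠ 0 := by
  have h := tprod_one_add_ne_zero_of_summable (f := fun n : ℕ => -q ^ (n + 1)) ?_ ?_
  · simpa [Fq, sub_eq_add_neg] using h
  · intro i h
    have h1 : q ^ (i + 1) = 1 := by linear_combination -h
    have h2 : ‖q‖ ^ (i + 1) = 1 := by rw [← norm_pow, h1, norm_one]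
    have h3 : ‖q‖ ^ (i + 1) < 1 := pow_lt_one₀ (norm_nonneg _) hq (by omega)
    linarith
  · simpa using (summable_nat_add_iff 1).mpr (summable_geometric_of_lt_one (norm_nonneg _) hq)

theorem conv_partial (I : Finset ℕ) :
    Conv (∏ n ∈ I, (1 - PowerSeries.X ^ (n + 1))) (fun q => ∏ n ∈ I, (1 - q ^ (n + 1))) :=
  Conv.finsetProd I fun n => Conv.one.sub (Conv.X.pow (n + 1))

theorem map_etaProd_eq_taylor :
    PowerSeries.map (Int.castRingHom ℂ) ModularCurve.etaProd = taylor Fq := by
  ext n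
  -- locally uniform convergence of the partial products
  have hT : TendstoLocallyUniformlyOn
      (fun (I : Finset ℕ) (q : ℂ) => ∏ n ∈ I, (1 - q ^ (n + 1))) Fq Filter.atTop
      (Metric.ball 0 1) :=
    multipliableLocallyUniformlyOn_one_sub_pow.hasProdLocallyUniformlyOn
  have hD : ∀ I : Finset ℕ, DifferentiableOn ℂ (fun q : ℂ => ∏ n ∈ I, (1 - q ^ (n + 1)))
      (Metric.ball 0 1) := fun I => by
    have h : DifferentiableOn ℂ (∏ n ∈ I, fun q : ℂ => (1 - q ^ (n + 1))) (Metric.ball 0 1) :=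
      DifferentiableOn.finsetProd (fun _ _ ↦ by fun_prop)
    simpa [Finset.prod_fn] using h
  have h1 := ((tendsto_iteratedDeriv Metric.isOpen_ball hT (.of_forall hD) n).1.tendsto_at
    (Metric.mem_ball_self one_pos)).const_mul ((n.factorial : ℂ)⁻¹)
  -- identify the Taylor coefficients of the partial products
  have h2 : ∀ I : Finset ℕ, (↑n.factorial)⁻¹ *
      iteratedDeriv n (fun q : ℂ => ∏ n ∈ I, (1 - q ^ (n + 1))) 0 =
      ((PowerSeries.coeff n (∏ n ∈ I, (1 - PowerSeries.X ^ (n + 1)) : PowerSeries ℤ) : ℤ) : ℂ) := by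
    intro I
    have h := (conv_partial I).eq_taylor (hD I)
    have h' := congrArg (PowerSeries.coeff n) h
    rw [taylor, PowerSeries.coeff_mk] at h'
    rw [← h']
    have h3 : (∏ n ∈ I, (1 - PowerSeries.X ^ (n + 1)) : PowerSeries ℂ) =
        PowerSeries.map (Int.castRingHom ℂ) (∏ n ∈ I, (1 - PowerSeries.X ^ (n + 1))) := by
      simp [map_prod]
    rw [h3, PowerSeries.coeff_map]
    simp
  simp only [h2] at h1
  -- formal convergence
  have h4 : Filter.Tendsto (fun I : Finset ℕ =>
      ((PowerSeries.coeff n (∏ n ∈ I, (1 - PowerSeries.X ^ (n + 1)) : PowerSeries ℤ) : ℤ) : ℂ))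
      Filter.atTop (nhds ((PowerSeries.coeff n ModularCurve.etaProd : ℤ) : ℂ)) := by
    have h5 := (PowerSeries.WithPiTopology.multipliable_one_sub_X_pow ℤ).hasProd
    have h6 : Continuous (fun P : PowerSeries ℤ => ((PowerSeries.coeff n P : ℤ) : ℂ)) :=
      continuous_of_discreteTopology.comp (PowerSeries.WithPiTopology.continuous_coeff ℤ n)
    exact (h6.tendsto _).comp h5
  rw [PowerSeries.coeff_map, taylor, PowerSeries.coeff_mk]
  exact tendsto_nhds_unique (by simpa using h4) h1

theorem conv_etaProd : Conv (PowerSeries.map (Int.castRingHom ℂ) ModularCurve.etaProd) Fq := by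
  rw [map_etaProd_eq_taylor]
  exact conv_taylor differentiableOn_Fq

/-- The analytic function `1 / ∏ (1 - q^(n+1))^24`. -/
noncomputable def Ginv (q : ℂ) : ℂ := (Fq q ^ 24)⁻¹

theorem differentiableOn_Ginv : DifferentiableOn ℂ Ginv (Metric.ball 0 1) := by
  refine (differentiableOn_Fq.pow 24).inv fun q hq => ?_
  exact pow_ne_zero _ (Fq_ne_zero (by simpa using hq))

theorem map_dedekindEtaUnitInv_eq_taylor :
    PowerSeries.map (Int.castRingHom ℂ) ModularCurve.dedekindEtaUnitInv = taylor Ginv := by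
  have h1 : Conv (taylor Ginv * PowerSeries.map (Int.castRingHom ℂ) ModularCurve.etaProd ^ 24)
      (fun _ => 1) := by
    refine ((conv_taylor differentiableOn_Ginv).mul (conv_etaProd.pow 24)).congr fun q hq => ?_
    exact inv_mul_cancel₀ (pow_ne_zero _ (Fq_ne_zero hq))
  have h2 : taylor Ginv * PowerSeries.map (Int.castRingHom ℂ) ModularCurve.etaProd ^ 24 = 1 :=
    h1.unique Conv.one
  have h3 : PowerSeries.map (Int.castRingHom ℂ) ModularCurve.etaProd ^ 24 *
      PowerSeries.map (Int.castRingHom ℂ) ModularCurve.dedekindEtaUnitInv = 1 := by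
    rw [← map_pow, ← map_mul]
    have := ModularCurve.dedekindEtaUnit_mul_inv
    rw [ModularCurve.dedekindEtaUnit] at this
    rw [this, map_one]
  calc PowerSeries.map (Int.castRingHom ℂ) ModularCurve.dedekindEtaUnitInv
      = (taylor Ginv * PowerSeries.map (Int.castRingHom ℂ) ModularCurve.etaProd ^ 24) *
          PowerSeries.map (Int.castRingHom ℂ) ModularCurve.dedekindEtaUnitInv := by
        rw [h2, one_mul]
    _ = taylor Ginv := by rw [mul_assoc, h3, mul_one]

theorem conv_dedekindEtaUnitInv :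
    Conv (PowerSeries.map (Int.castRingHom ℂ) ModularCurve.dedekindEtaUnitInv) Ginv := by
  rw [map_dedekindEtaUnitInv_eq_taylor]
  exact conv_taylor differentiableOn_Ginv

theorem conv_dedekindEtaUnit :
    Conv (PowerSeries.map (Int.castRingHom ℂ) ModularCurve.dedekindEtaUnit)
      (fun q => Fq q ^ 24) := by
  rw [ModularCurve.dedekindEtaUnit, map_pow]
  exact conv_etaProd.pow 24

/-- Coefficients of `E₄`: `1` and `240 σ₃(n)`. -/
theorem E₄_coeff (n : ℕ) :
    (qExpansion 1 E₄).coeff n =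
      if n = 0 then 1 else 240 * (ArithmeticFunction.sigma 3 n : ℂ) := by
  rw [E_qExpansion_coeff _ ⟨2, rfl⟩]
  norm_num [show bernoulli 4 = -1 / 30 by decide +kernel]

theorem map_eisenstein4 :
    PowerSeries.map (Int.castRingHom ℂ) ModularCurve.eisenstein4 = qExpansion 1 E₄ := by
  ext n
  rw [PowerSeries.coeff_map, E₄_coeff, ModularCurve.eisenstein4, PowerSeries.coeff_mk]
  split_ifs with h
  · simp
  · simp [ArithmeticFunction.sigma_apply]

theorem conv_eisenstein4 :
    Conv (PowerSeries.map (Int.castRingHom ℂ) ModularCurve.eisenstein4) (cuspFunction 1 E₄) := by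
  rw [map_eisenstein4]
  intro q hq
  have := UpperHalfPlane.hasSum_qExpansion_of_norm_lt (h := 1) one_pos
    (SlashInvariantFormClass.periodic_comp_ofComplex E₄ one_mem_strictPeriods_SL)
    (ModularFormClass.holo E₄) (ModularFormClass.bdd_at_infty E₄) hq
  simpa [smul_eq_mul] using this

theorem conv_jNum :
    Conv (PowerSeries.map (Int.castRingHom ℂ) ModularCurve.jNum)
      (fun q => cuspFunction 1 E₄ q ^ 3 * Ginv q) := by
  rw [ModularCurve.jNum, map_mul, map_pow]
  exact (conv_eisenstein4.pow 3).mul conv_dedekindEtaUnitInv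

theorem Conv.hasSum_int {P : PowerSeries ℤ} {f : ℂ → ℂ}
    (h : Conv (PowerSeries.map (Int.castRingHom ℂ) P) f) {q : ℂ} (hq : ‖q‖ < 1) :
    HasSum (fun n : ℕ => ((PowerSeries.coeff n P : ℤ) : ℂ) * q ^ n) (f q) := by
  simpa [PowerSeries.coeff_map] using h q hq

theorem norm_qParam_lt_one (τ : ℍ) : ‖Function.Periodic.qParam 1 (τ : ℂ)‖ < 1 :=
  Function.Periodic.norm_qParam_lt_one one_pos τ.im_pos

theorem cuspFunction_E₄ (τ : ℍ) :
    cuspFunction 1 E₄ (Function.Periodic.qParam 1 (τ : ℂ)) = E₄ τ :=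
  SlashInvariantFormClass.eq_cuspFunction E₄ τ one_mem_strictPeriods_SL one_ne_zero

theorem discriminant_eq (τ : ℍ) :
    ModularForm.discriminant τ = Function.Periodic.qParam 1 (τ : ℂ) *
      Fq (Function.Periodic.qParam 1 (τ : ℂ)) ^ 24 := by
  rw [ModularForm.discriminant_eq_q_prod, Fq,
    (multipliable_one_sub_pow (norm_qParam_lt_one τ)).tprod_pow 24]

end JqExp

open JqExp

/-- `E₄ τ = ∑ eisenstein4_n qⁿ`. -/
theorem hasSum_E₄_qParam (τ : ℍ) :
    HasSum (fun n : ℕ => ((PowerSeries.coeff n ModularCurve.eisenstein4 : ℤ) : ℂ) *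
      Function.Periodic.qParam 1 (τ : ℂ) ^ n) (E₄ τ) := by
  have h := conv_eisenstein4.hasSum_int (norm_qParam_lt_one τ)
  rwa [cuspFunction_E₄] at h

/-- `Δ τ / q = ∑ dedekindEtaUnit_n qⁿ`. -/
theorem hasSum_discriminant_div_qParam (τ : ℍ) :
    HasSum (fun n : ℕ => ((PowerSeries.coeff n ModularCurve.dedekindEtaUnit : ℤ) : ℂ) *
      Function.Periodic.qParam 1 (τ : ℂ) ^ n)
      (ModularForm.discriminant τ / Function.Periodic.qParam 1 (τ : ℂ)) := by
  have h := conv_dedekindEtaUnit.hasSum_int (norm_qParam_lt_one τ)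
  have hq : Function.Periodic.qParam 1 (τ : ℂ) ≠ 0 := Function.Periodic.qParam_ne_zero _
  rwa [discriminant_eq, mul_div_cancel_left₀ _ hq]

/-- `q * J(τ) = ∑ jNum_n qⁿ`. -/
theorem hasSum_Jfun_mul_qParam (τ : ℍ) :
    HasSum (fun n : ℕ => ((PowerSeries.coeff n ModularCurve.jNum : ℤ) : ℂ) *
      Function.Periodic.qParam 1 (τ : ℂ) ^ n)
      (Jfun τ * Function.Periodic.qParam 1 (τ : ℂ)) := by
  have h := conv_jNum.hasSum_int (norm_qParam_lt_one τ)
  have hq : Function.Periodic.qParam 1 (τ : ℂ) ≠ 0 := Function.Periodic.qParam_ne_zero _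
  have hF : Fq (Function.Periodic.qParam 1 (τ : ℂ)) ^ 24 ≠ 0 :=
    pow_ne_zero _ (Fq_ne_zero (norm_qParam_lt_one τ))
  have e : Jfun τ * Function.Periodic.qParam 1 (τ : ℂ) =
      cuspFunction 1 E₄ (Function.Periodic.qParam 1 (τ : ℂ)) ^ 3 *
        Ginv (Function.Periodic.qParam 1 (τ : ℂ)) := by
    rw [cuspFunction_E₄, Jfun_apply, discriminant_eq, Ginv]
    field_simp
  rw [e]
  exact h

end Fermat.Agent.S24
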