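import Fermat.Agent.S24.AnDefs
import Fermat.Agent.S22.Good
import Fermat.Prelude.Def_ModularCurve_X0
import Fermat.Prelude.Thm_UpperHalfPlane_qExpansion_coeff_nat_mul

/-!
Laurent expansions at `i∞` in the parameter `q_N = exp(2πiτ/N)` of `N`-periodic holomorphic
functions on the upper half plane which are meromorphic at `i∞`.
-/

set_option autoImplicit false

namespace Fermat.Agent.S24

open UpperHalfPlane
open scoped MatrixGroups Manifold

variable {N : ℕ} {f g : ℍ → ℂ}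

namespace QInf

open Fermat.Agent.S22.KeyAux (IsPer)

/-- The function `q_N ^ m * f`. -/
noncomputable def tw (N m : ℕ) (f : ℍ → ℂ) : ℍ → ℂ :=
  fun τ => Function.Periodic.qParam (N : ℝ) (τ : ℂ) ^ m * f τ

lemma tw_apply (N m : ℕ) (f : ℍ → ℂ) (τ : ℍ) :
    tw N m f τ = Function.Periodic.qParam (N : ℝ) (τ : ℂ) ^ m * f τ := rfl

lemma norm_qParam_le_one (N : ℕ) (τ : ℍ) :
    ‖Function.Periodic.qParam (N : ℝ) (τ : ℂ)‖ ≤ 1 := by
  rw [Function.Periodic.norm_qParam, Real.exp_le_one_iff]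
  have h1 : 0 < (τ : ℂ).im := τ.im_pos
  have h2 : (0 : ℝ) ≤ N := Nat.cast_nonneg N
  have h3 : 0 ≤ 2 * Real.pi * (τ : ℂ).im / N := by positivity
  have h4 : -2 * Real.pi * (τ : ℂ).im / N = -(2 * Real.pi * (τ : ℂ).im / N) := by ring
  linarith

lemma qParam_add_period (N : ℕ) (w : ℂ) :
    Function.Periodic.qParam (N : ℝ) (w + ((N : ℝ) : ℂ)) =
      Function.Periodic.qParam (N : ℝ) w := by
  rcases Nat.eq_zero_or_pos N with rfl | hN
  · simp
  · unfold Function.Periodic.qParam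
    have hN0 : ((N : ℝ) : ℂ) ≠ 0 := by exact_mod_cast hN.ne'
    rw [mul_add, add_div, mul_div_cancel_right₀ _ hN0, Complex.exp_add,
      Complex.exp_two_pi_mul_I, mul_one]

lemma qParam_nat_add (N k : ℕ) (w : ℂ) :
    Function.Periodic.qParam (N : ℝ) ((k : ℂ) + w) =
      Complex.exp (2 * (Real.pi : ℂ) * Complex.I * (k : ℂ) / (N : ℂ)) *
        Function.Periodic.qParam (N : ℝ) w := by
  unfold Function.Periodic.qParam
  rw [← Complex.exp_add]
  congr 1
  push_cast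
  ring

lemma qParam_pow_self (hN : 0 < N) (z : ℂ) :
    Function.Periodic.qParam (N : ℝ) z ^ N = Function.Periodic.qParam ((1 : ℕ) : ℝ) z := by
  unfold Function.Periodic.qParam
  rw [← Complex.exp_nat_mul]
  congr 1
  have hN0 : (N : ℂ) ≠ 0 := by exact_mod_cast hN.ne'
  push_cast
  field_simp

lemma qpow_mdiff (N m : ℕ) :
    MDiff (fun τ : ℍ => Function.Periodic.qParam (N : ℝ) (τ : ℂ) ^ m) := by
  rw [UpperHalfPlane.mdifferentiable_iff]
  have h1 : DifferentiableOn ℂ (fun z : ℂ => Function.Periodic.qParam (N : ℝ) z ^ m)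
      {z | 0 < z.im} :=
    ((Function.Periodic.differentiable_qParam (h := (N : ℝ))).pow m).differentiableOn
  refine h1.congr ?_
  intro z hz
  simp only [Function.comp_apply, ofComplex_apply_of_im_pos hz]

lemma qpow_periodic (N m : ℕ) :
    Function.Periodic ((fun τ : ℍ => Function.Periodic.qParam (N : ℝ) (τ : ℂ) ^ m) ∘ ofComplex)
      ((N : ℝ) : ℂ) := by
  intro w
  by_cases hw : 0 < w.im
  · have hw' : 0 < (w + ((N : ℝ) : ℂ)).im := by simpa using hw
    simp only [Function.comp_apply, ofComplex_apply_of_im_pos hw', ofComplex_apply_of_im_pos hw]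
    congr 1
    exact qParam_add_period N w
  · have hw1 : w.im ≤ 0 := not_lt.mp hw
    have hw' : (w + ((N : ℝ) : ℂ)).im ≤ 0 := by simpa using hw1
    simp only [Function.comp_apply, ofComplex_apply_of_im_nonpos hw',
      ofComplex_apply_of_im_nonpos hw1]

lemma vadd_mk (k : ℕ) (z : ℂ) (hz : 0 < z.im) (hz' : 0 < ((k : ℂ) + z).im) :
    (k : ℝ) +ᵥ (⟨z, hz⟩ : ℍ) = ⟨(k : ℂ) + z, hz'⟩ := by
  ext1
  simp

lemma bdd_qpow_mul (N k : ℕ) {F : ℍ → ℂ} (hF : IsBoundedAtImInfty F) :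
    IsBoundedAtImInfty (fun τ : ℍ => Function.Periodic.qParam (N : ℝ) (τ : ℂ) ^ k * F τ) := by
  rw [isBoundedAtImInfty_iff] at hF ⊢
  obtain ⟨M, A, hMA⟩ := hF
  refine ⟨M, A, fun z hz => ?_⟩
  rw [norm_mul, norm_pow]
  calc ‖Function.Periodic.qParam (N : ℝ) (z : ℂ)‖ ^ k * ‖F z‖ ≤ 1 * ‖F z‖ := by
        gcongr
        exact pow_le_one₀ (norm_nonneg _) (norm_qParam_le_one N z)
    _ ≤ M := by rw [one_mul]; exact hMA z hz

lemma tw_add (N k m : ℕ) (f : ℍ → ℂ) :
    tw N (k + m) f =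
      fun τ : ℍ => Function.Periodic.qParam (N : ℝ) (τ : ℂ) ^ k * tw N m f τ := by
  funext τ
  simp only [tw_apply, pow_add, mul_assoc]

lemma bdd_tw_add {N m : ℕ} {f : ℍ → ℂ} (hb : IsBoundedAtImInfty (tw N m f)) (k : ℕ) :
    IsBoundedAtImInfty (tw N (k + m) f) := by
  rw [tw_add]
  exact bdd_qpow_mul N k hb

lemma tw_periodic {N : ℕ} {f : ℍ → ℂ} (hper : Function.Periodic (f ∘ ofComplex) ((N : ℝ) : ℂ))
    (m : ℕ) : Function.Periodic (tw N m f ∘ ofComplex) ((N : ℝ) : ℂ) := by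
  intro x
  have h1 := qpow_periodic N m x
  have h2 := hper x
  simp only [Function.comp_apply, tw_apply] at h1 h2 ⊢
  rw [h1, h2]

lemma bdd_tw_vadd {N m : ℕ} {f : ℍ → ℂ} (hb : IsBoundedAtImInfty (tw N m f)) (k : ℕ) :
    IsBoundedAtImInfty (tw N m (fun τ : ℍ => f ((k : ℝ) +ᵥ τ))) := by
  rw [isBoundedAtImInfty_iff] at hb ⊢
  obtain ⟨M, A, hMA⟩ := hb
  refine ⟨M, A, fun z hz => ?_⟩
  have h1 := hMA ((k : ℝ) +ᵥ z) (by simpa using hz)
  have h2 : ‖Function.Periodic.qParam (N : ℝ) (((k : ℝ) +ᵥ z : ℍ) : ℂ)‖ =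
      ‖Function.Periodic.qParam (N : ℝ) (z : ℂ)‖ := by
    rw [Function.Periodic.norm_qParam, Function.Periodic.norm_qParam]
    simp
  rw [tw_apply, norm_mul, norm_pow] at h1 ⊢
  rw [h2] at h1
  exact h1

end QInf

open QInf in
theorem isMerPer_const (N : ℕ) (c : ℂ) : IsMerPer N (fun _ : ℍ => c) where
  mdiff := mdifferentiable_const
  periodic := fun _ => rfl
  mero := ⟨0, bdd_qpow_mul N 0 (F := fun _ => c) (Filter.const_boundedAtFilter _ c)⟩

open QInf in
theorem IsMerPer.add (hf : IsMerPer N f) (hg : IsMerPer N g) : IsMerPer N (f + g) := by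
  obtain ⟨mf, hmf⟩ := hf.mero
  obtain ⟨mg, hmg⟩ := hg.mero
  refine ⟨hf.mdiff.add hg.mdiff, ?_, mg + mf, ?_⟩
  · intro x
    have h1 := hf.periodic x
    have h2 := hg.periodic x
    simp only [Function.comp_apply, Pi.add_apply] at h1 h2 ⊢
    rw [h1, h2]
  · have h1 : IsBoundedAtImInfty (tw N (mg + mf) f) := bdd_tw_add hmf mg
    have h2 : IsBoundedAtImInfty (tw N (mg + mf) g) := by
      rw [add_comm]
      exact bdd_tw_add hmg mf
    have h3 : (fun τ : ℍ => Function.Periodic.qParam (N : ℝ) (τ : ℂ) ^ (mg + mf) * (f + g) τ)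
        = tw N (mg + mf) f + tw N (mg + mf) g := by
      funext τ
      simp only [tw_apply, Pi.add_apply, mul_add]
    rw [h3]
    exact h1.add h2

open QInf in
theorem IsMerPer.neg (hf : IsMerPer N f) : IsMerPer N (-f) := by
  obtain ⟨mf, hmf⟩ := hf.mero
  refine ⟨hf.mdiff.neg, ?_, mf, ?_⟩
  · intro x
    have h1 := hf.periodic x
    simp only [Function.comp_apply, Pi.neg_apply] at h1 ⊢
    rw [h1]
  · have h3 : (fun τ : ℍ => Function.Periodic.qParam (N : ℝ) (τ : ℂ) ^ mf * (-f) τ)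
        = -tw N mf f := by
      funext τ
      simp only [tw_apply, Pi.neg_apply, mul_neg]
    rw [h3]
    exact hmf.neg

open QInf in
theorem IsMerPer.mul (hf : IsMerPer N f) (hg : IsMerPer N g) : IsMerPer N (f * g) := by
  obtain ⟨mf, hmf⟩ := hf.mero
  obtain ⟨mg, hmg⟩ := hg.mero
  refine ⟨hf.mdiff.mul hg.mdiff, ?_, mf + mg, ?_⟩
  · intro x
    have h1 := hf.periodic x
    have h2 := hg.periodic x
    simp only [Function.comp_apply, Pi.mul_apply] at h1 h2 ⊢
    rw [h1, h2]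
  · have h3 : (fun τ : ℍ => Function.Periodic.qParam (N : ℝ) (τ : ℂ) ^ (mf + mg) * (f * g) τ)
        = tw N mf f * tw N mg g := by
      funext τ
      simp only [tw_apply, Pi.mul_apply, pow_add]
      ring
    rw [h3]
    exact hmf.mul hmg

/-- A `1`-periodic function is `N`-periodic. -/
theorem IsMerPer.of_one (hN : 0 < N) (hf : IsMerPer 1 f) : IsMerPer N f := by
  obtain ⟨m, hm⟩ := hf.mero
  refine ⟨hf.mdiff, ?_, N * m, ?_⟩
  · have h1 := hf.periodic.nat_mul N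
    simpa using h1
  · have h3 : (fun τ : ℍ => Function.Periodic.qParam (N : ℝ) (τ : ℂ) ^ (N * m) * f τ)
        = fun τ : ℍ => Function.Periodic.qParam ((1 : ℕ) : ℝ) (τ : ℂ) ^ m * f τ := by
      funext τ
      rw [pow_mul, QInf.qParam_pow_self hN]
    rw [h3]
    exact hm

/-- Translation by an integer preserves the class. -/
theorem IsMerPer.vadd (hf : IsMerPer N f) (k : ℕ) :
    IsMerPer N (fun τ : ℍ => f ((k : ℝ) +ᵥ τ)) := by
  obtain ⟨m, hm⟩ := hf.mero
  refine ⟨?_, ?_, m, ?_⟩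
  · rw [UpperHalfPlane.mdifferentiable_iff]
    have h1 : DifferentiableOn ℂ (f ∘ ofComplex) {z | 0 < z.im} :=
      UpperHalfPlane.mdifferentiable_iff.mp hf.mdiff
    have h2 : DifferentiableOn ℂ (fun z : ℂ => (k : ℂ) + z) {z | 0 < z.im} := by
      fun_prop
    have h3 : Set.MapsTo (fun z : ℂ => (k : ℂ) + z) {z | 0 < z.im} {z | 0 < z.im} := by
      intro z hz
      simpa using hz
    refine (h1.comp h2 h3).congr ?_
    intro z hz
    have hz' : 0 < ((k : ℂ) + z).im := by simpa using hz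
    simp only [Function.comp_apply, ofComplex_apply_of_im_pos hz, ofComplex_apply_of_im_pos hz']
    rw [QInf.vadd_mk k z hz hz']
  · intro w
    by_cases hw : 0 < w.im
    · have hw' : 0 < (w + ((N : ℝ) : ℂ)).im := by simpa using hw
      have hw1 : 0 < ((k : ℂ) + w).im := by simpa using hw
      have hw2 : 0 < ((k : ℂ) + w + ((N : ℝ) : ℂ)).im := by simpa using hw
      have h1 := hf.periodic ((k : ℂ) + w)
      simp only [Function.comp_apply, ofComplex_apply_of_im_pos hw1,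
        ofComplex_apply_of_im_pos hw2] at h1
      simp only [Function.comp_apply, ofComplex_apply_of_im_pos hw', ofComplex_apply_of_im_pos hw]
      have e1 : (k : ℝ) +ᵥ (⟨w + ((N : ℝ) : ℂ), hw'⟩ : ℍ) =
          ⟨(k : ℂ) + w + ((N : ℝ) : ℂ), hw2⟩ := by
        ext1
        simp [add_assoc]
      rw [e1, QInf.vadd_mk k w hw hw1, h1]
    · have hw1 : w.im ≤ 0 := not_lt.mp hw
      have hw' : (w + ((N : ℝ) : ℂ)).im ≤ 0 := by simpa using hw1
      simp only [Function.comp_apply, ofComplex_apply_of_im_nonpos hw',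
        ofComplex_apply_of_im_nonpos hw1]
  · exact QInf.bdd_tw_vadd hm k

namespace QInf

open Fermat.Agent.S22.KeyAux (IsPer)

lemma isPer_tw (hf : IsMerPer N f) {m : ℕ} (hb : IsBoundedAtImInfty (tw N m f)) :
    IsPer N (tw N m f) where
  mdiff := (qpow_mdiff N m).mul hf.mdiff
  periodic := tw_periodic hf.periodic m
  bdd := hb

/-- Uniqueness of the expansion, as an equality of power series. -/
lemma qExpansion_eq_mk (hN : 0 < N) {F : ℍ → ℂ} (hF : IsPer N F) (c : ℕ → ℂ)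
    (h : ∀ τ : ℍ, HasSum (fun n : ℕ => c n * Function.Periodic.qParam (N : ℝ) (τ : ℂ) ^ n)
      (F τ)) :
    qExpansion (N : ℝ) F = PowerSeries.mk c := by
  ext n
  rw [PowerSeries.coeff_mk]
  let _ : FunLike (ℍ → ℂ) ℍ ℂ := ⟨fun f => f, fun _ _ hfg => hfg⟩
  exact (qExpansion_coeff_unique (F := ℍ → ℂ) F (by exact_mod_cast hN) (hF.analyticAt hN)
    h n).symm

lemma isPer_qpow (N k : ℕ) :
    IsPer N (fun τ : ℍ => Function.Periodic.qParam (N : ℝ) (τ : ℂ) ^ k) where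
  mdiff := qpow_mdiff N k
  periodic := qpow_periodic N k
  bdd := by
    simpa using bdd_qpow_mul N k (F := fun _ => (1 : ℂ)) (Filter.const_boundedAtFilter _ 1)

lemma qExpansion_qpow (hN : 0 < N) (k : ℕ) :
    qExpansion (N : ℝ) (fun τ : ℍ => Function.Periodic.qParam (N : ℝ) (τ : ℂ) ^ k) =
      PowerSeries.X ^ k := by
  rw [qExpansion_eq_mk hN (isPer_qpow N k) (fun n => if n = k then 1 else 0)]
  · ext n
    simp [PowerSeries.coeff_X_pow]
  · intro τ
    have h1 := hasSum_ite_eq k (Function.Periodic.qParam (N : ℝ) (τ : ℂ) ^ k)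
    convert h1 using 1
    funext n
    split_ifs with h
    · subst h
      simp
    · simp

lemma qExpansion_tw_add (hN : 0 < N) {m : ℕ} (hF : IsPer N (tw N m f)) (k : ℕ) :
    qExpansion (N : ℝ) (tw N (k + m) f) =
      PowerSeries.X ^ k * qExpansion (N : ℝ) (tw N m f) := by
  have h1 : tw N (k + m) f =
      (fun τ : ℍ => Function.Periodic.qParam (N : ℝ) (τ : ℂ) ^ k) * tw N m f := by
    rw [tw_add]
    rfl
  rw [h1, (isPer_qpow N k).qExpansion_mul hN hF, qExpansion_qpow hN k]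

/-- The Laurent series attached to the exponent `m`. -/
noncomputable def L (N m : ℕ) (f : ℍ → ℂ) : LaurentSeries ℂ :=
  HahnSeries.single (-(m : ℤ)) (1 : ℂ) *
    HahnSeries.ofPowerSeries ℤ ℂ (qExpansion (N : ℝ) (tw N m f))

lemma L_add (hN : 0 < N) {m : ℕ} (hF : IsPer N (tw N m f)) (k : ℕ) :
    L N (k + m) f = L N m f := by
  unfold L
  rw [qExpansion_tw_add hN hF k, map_mul, HahnSeries.ofPowerSeries_X_pow, ← mul_assoc,
    HahnSeries.single_mul_single]
  have h1 : -(((k + m : ℕ) : ℤ)) + (k : ℤ) = -(m : ℤ) := by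
    push_cast
    ring
  rw [h1, one_mul]

lemma L_eq_of_bdd (hN : 0 < N) (hf : IsMerPer N f) {m m' : ℕ}
    (hb : IsBoundedAtImInfty (tw N m f)) (hb' : IsBoundedAtImInfty (tw N m' f)) :
    L N m f = L N m' f := by
  rw [← L_add hN (isPer_tw hf hb) m', ← L_add hN (isPer_tw hf hb') m, add_comm]

lemma coeff_L (N m : ℕ) (f : ℍ → ℂ) (n : ℤ) :
    (L N m f).coeff n =
      (HahnSeries.ofPowerSeries ℤ ℂ (qExpansion (N : ℝ) (tw N m f))).coeff (n + m) := by
  rw [L, HahnSeries.coeff_single_mul, one_mul, sub_neg_eq_add]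

end QInf

/-- The Laurent expansion at `i∞` in the parameter `q_N` (junk unless `IsMerPer N f`). -/
noncomputable def qInf (N : ℕ) (f : ℍ → ℂ) : LaurentSeries ℂ :=
  haveI := Classical.dec (IsMerPer N f)
  if hf : IsMerPer N f then QInf.L N (Classical.choose hf.mero) f else 0

namespace QInf

open Fermat.Agent.S22.KeyAux (IsPer)

/-- Independence of the exponent. -/
lemma qInf_eq (hN : 0 < N) (hf : IsMerPer N f) {m : ℕ} (hb : IsBoundedAtImInfty (tw N m f)) :
    qInf N f = L N m f := by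
  rw [qInf, dif_pos hf]
  exact L_eq_of_bdd hN hf (Classical.choose_spec hf.mero) hb

lemma qExpand_ofPowerSeries (N : ℕ) [NeZero N] (P1 PN : PowerSeries ℂ)
    (h : ∀ n : ℕ, PN.coeff n = if N ∣ n then P1.coeff (n / N) else 0) :
    ModularCurve.qExpand ℂ N (HahnSeries.ofPowerSeries ℤ ℂ P1) =
      HahnSeries.ofPowerSeries ℤ ℂ PN := by
  have hN : 0 < N := Nat.pos_of_ne_zero (NeZero.ne N)
  ext j
  by_cases hj : (N : ℤ) ∣ j
  · obtain ⟨k, rfl⟩ := hj
    rw [ModularCurve.qExpand_coeff_mul]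
    by_cases hk : k < 0
    · have hk' : (N : ℤ) * k < 0 := mul_neg_of_pos_of_neg (by exact_mod_cast hN) hk
      rw [ModularCurve.ofPowerSeries_coeff_of_neg _ hk,
        ModularCurve.ofPowerSeries_coeff_of_neg _ hk']
    · obtain ⟨k', rfl⟩ : ∃ k' : ℕ, k = (k' : ℤ) := Int.eq_ofNat_of_zero_le (by omega)
      have h1 : (N : ℤ) * (k' : ℤ) = ((N * k' : ℕ) : ℤ) := by
        push_cast
        ring
      rw [h1, HahnSeries.ofPowerSeries_apply_coeff, HahnSeries.ofPowerSeries_apply_coeff, h,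
        if_pos (dvd_mul_right N k'), Nat.mul_div_cancel_left _ hN]
  · rw [ModularCurve.qExpand_coeff_of_not_dvd N _ hj]
    by_cases hj0 : j < 0
    · rw [ModularCurve.ofPowerSeries_coeff_of_neg _ hj0]
    · obtain ⟨j', rfl⟩ : ∃ j' : ℕ, j = (j' : ℤ) := Int.eq_ofNat_of_zero_le (by omega)
      rw [HahnSeries.ofPowerSeries_apply_coeff, h, if_neg]
      intro hd
      exact hj (Int.natCast_dvd_natCast.mpr hd)

end QInf

open QInf in
theorem qInf_const (hN : 0 < N) (c : ℂ) : qInf N (fun _ : ℍ => c) = HahnSeries.C c := by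
  have hb : IsBoundedAtImInfty (tw N 0 (fun _ : ℍ => c)) :=
    bdd_qpow_mul N 0 (F := fun _ => c) (Filter.const_boundedAtFilter _ c)
  have hf := isMerPer_const N c
  rw [qInf_eq hN hf hb, L]
  have h1 : qExpansion (N : ℝ) (tw N 0 (fun _ : ℍ => c)) = PowerSeries.C c := by
    rw [qExpansion_eq_mk hN (isPer_tw hf hb) (fun n => if n = 0 then c else 0)]
    · ext n
      simp [PowerSeries.coeff_C]
    · intro τ
      have h2 := hasSum_ite_eq (0 : ℕ) c
      convert h2 using 1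
      · funext n
        split_ifs with h <;> simp [h]
      · simp [tw_apply]
  rw [h1, HahnSeries.ofPowerSeries_C]
  simp

open QInf in
theorem qInf_add (hN : 0 < N) (hf : IsMerPer N f) (hg : IsMerPer N g) :
    qInf N (f + g) = qInf N f + qInf N g := by
  obtain ⟨mf, hmf⟩ := hf.mero
  obtain ⟨mg, hmg⟩ := hg.mero
  have h1 : IsBoundedAtImInfty (tw N (mg + mf) f) := bdd_tw_add hmf mg
  have h2 : IsBoundedAtImInfty (tw N (mg + mf) g) := by
    rw [add_comm]
    exact bdd_tw_add hmg mf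
  have h3 : tw N (mg + mf) (f + g) = tw N (mg + mf) f + tw N (mg + mf) g := by
    funext τ
    simp only [tw_apply, Pi.add_apply, mul_add]
  have h4 : IsBoundedAtImInfty (tw N (mg + mf) (f + g)) := by
    rw [h3]
    exact h1.add h2
  rw [qInf_eq hN (hf.add hg) h4, qInf_eq hN hf h1, qInf_eq hN hg h2, L, L, L, h3,
    (isPer_tw hf h1).qExpansion_add hN (isPer_tw hg h2), map_add, mul_add]

open QInf in
theorem qInf_neg (hN : 0 < N) (hf : IsMerPer N f) : qInf N (-f) = -qInf N f := by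
  obtain ⟨mf, hmf⟩ := hf.mero
  have h3 : tw N mf (-f) = -tw N mf f := by
    funext τ
    simp only [tw_apply, Pi.neg_apply, mul_neg]
  have h4 : IsBoundedAtImInfty (tw N mf (-f)) := by
    rw [h3]
    exact hmf.neg
  rw [qInf_eq hN hf.neg h4, qInf_eq hN hf hmf, L, L, h3,
    (isPer_tw hf hmf).qExpansion_neg hN, map_neg]
  exact mul_neg (HahnSeries.single (-(mf : ℤ)) (1 : ℂ))
    (HahnSeries.ofPowerSeries ℤ ℂ (qExpansion (N : ℝ) (tw N mf f)))

open QInf in
theorem qInf_mul (hN : 0 < N) (hf : IsMerPer N f) (hg : IsMerPer N g) :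
    qInf N (f * g) = qInf N f * qInf N g := by
  obtain ⟨mf, hmf⟩ := hf.mero
  obtain ⟨mg, hmg⟩ := hg.mero
  have h3 : tw N (mf + mg) (f * g) = tw N mf f * tw N mg g := by
    funext τ
    simp only [tw_apply, Pi.mul_apply, pow_add]
    ring
  have h4 : IsBoundedAtImInfty (tw N (mf + mg) (f * g)) := by
    rw [h3]
    exact hmf.mul hmg
  rw [qInf_eq hN (hf.mul hg) h4, qInf_eq hN hf hmf, qInf_eq hN hg hmg, L, L, L, h3,
    (isPer_tw hf hmf).qExpansion_mul hN (isPer_tw hg hmg), map_mul]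
  have h6 : -((mf + mg : ℕ) : ℤ) = -(mf : ℤ) + -(mg : ℤ) := by
    push_cast
    ring
  have h5 : HahnSeries.single (-((mf + mg : ℕ) : ℤ)) (1 : ℂ) =
      HahnSeries.single (-(mf : ℤ)) (1 : ℂ) * HahnSeries.single (-(mg : ℤ)) (1 : ℂ) := by
    rw [HahnSeries.single_mul_single, one_mul, h6]
  rw [h5]
  ring1

open QInf in
theorem qInf_eq_zero_iff (hN : 0 < N) (hf : IsMerPer N f) : qInf N f = 0 ↔ f = 0 := by
  obtain ⟨m, hm⟩ := hf.mero
  have hP := isPer_tw hf hm
  rw [qInf_eq hN hf hm, L]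
  constructor
  · intro h
    have h1 : HahnSeries.ofPowerSeries ℤ ℂ (qExpansion (N : ℝ) (tw N m f)) = 0 := by
      have h0 := congrArg (fun x => HahnSeries.single (m : ℤ) (1 : ℂ) * x) h
      simpa [← mul_assoc, HahnSeries.single_mul_single] using h0
    have h2 : qExpansion (N : ℝ) (tw N m f) = 0 :=
      HahnSeries.ofPowerSeries_injective (by rw [h1, map_zero])
    have h3 : tw N m f = 0 :=
      (qExpansion_eq_zero_iff (by exact_mod_cast hN) hP.periodic hP.mdiff hP.bdd).mp h2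
    funext τ
    have h4 := congrFun h3 τ
    rw [tw_apply] at h4
    simpa [Function.Periodic.qParam_ne_zero] using h4
  · rintro rfl
    have h1 : tw N m (0 : ℍ → ℂ) = 0 := by
      funext τ
      simp [tw_apply]
    rw [h1, qExpansion_zero, map_zero, mul_zero]

/-- A convergent expansion `q_N ^ m * f = ∑ c n q_N ^ n` shows `f` is meromorphic at `i∞`. -/
theorem isMerPer_of_hasSum (hN : 0 < N) (hf : MDiff f)
    (hper : Function.Periodic (f ∘ ofComplex) (N : ℝ)) (m : ℕ) (c : ℕ → ℂ)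
    (h : ∀ τ : ℍ, HasSum (fun n : ℕ => c n * Function.Periodic.qParam (N : ℝ) (τ : ℂ) ^ n)
      (Function.Periodic.qParam (N : ℝ) (τ : ℂ) ^ m * f τ)) : IsMerPer N f :=
  ⟨hf, hper, m, isBoundedAtImInfty_of_hasSum_qExpansion (c := c) (by exact_mod_cast hN) h⟩

/-- ... and computes its Laurent expansion. -/
theorem qInf_of_hasSum (hN : 0 < N) (hf : MDiff f)
    (hper : Function.Periodic (f ∘ ofComplex) (N : ℝ)) (m : ℕ) (c : ℕ → ℂ)
    (h : ∀ τ : ℍ, HasSum (fun n : ℕ => c n * Function.Periodic.qParam (N : ℝ) (τ : ℂ) ^ n)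
      (Function.Periodic.qParam (N : ℝ) (τ : ℂ) ^ m * f τ)) :
    qInf N f = HahnSeries.single (-(m : ℤ)) (1 : ℂ) *
      HahnSeries.ofPowerSeries ℤ ℂ (PowerSeries.mk c) := by
  have hM := isMerPer_of_hasSum hN hf hper m c h
  have hb : IsBoundedAtImInfty (QInf.tw N m f) :=
    isBoundedAtImInfty_of_hasSum_qExpansion (c := c) (by exact_mod_cast hN) h
  rw [QInf.qInf_eq hN hM hb, QInf.L, QInf.qExpansion_eq_mk hN (QInf.isPer_tw hM hb) c h]

/-- The Laurent expansion converges to the function. -/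
theorem hasSum_qInf (hN : 0 < N) (hf : IsMerPer N f) :
    ∃ m : ℕ, (∀ n : ℤ, n < -(m : ℤ) → (qInf N f).coeff n = 0) ∧
      ∀ τ : ℍ, HasSum
        (fun n : ℕ => (qInf N f).coeff ((n : ℤ) - m) * Function.Periodic.qParam (N : ℝ) (τ : ℂ) ^ n)
        (Function.Periodic.qParam (N : ℝ) (τ : ℂ) ^ m * f τ) := by
  obtain ⟨m, hm⟩ := hf.mero
  have hP := QInf.isPer_tw hf hm
  refine ⟨m, ?_, ?_⟩
  · intro n hn
    rw [QInf.qInf_eq hN hf hm, QInf.coeff_L]
    exact ModularCurve.ofPowerSeries_coeff_of_neg _ (by omega)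
  · intro τ
    have hs := hasSum_qExpansion (by exact_mod_cast hN : (0 : ℝ) < N) hP.periodic hP.mdiff
      hP.bdd τ
    have hs' : HasSum (fun n : ℕ => (qExpansion (N : ℝ) (QInf.tw N m f)).coeff n •
        Function.Periodic.qParam (N : ℝ) (τ : ℂ) ^ n)
        (Function.Periodic.qParam (N : ℝ) (τ : ℂ) ^ m * f τ) := hs
    convert hs' using 1
    funext n
    rw [QInf.qInf_eq hN hf hm, QInf.coeff_L, sub_add_cancel,
      HahnSeries.ofPowerSeries_apply_coeff, smul_eq_mul]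

/-- Translation by `k` multiplies the `n`-th coefficient by `exp(2πik/N) ^ n`. -/
theorem qInf_vadd_coeff (hN : 0 < N) (hf : IsMerPer N f) (k : ℕ) (n : ℤ) :
    (qInf N (fun τ : ℍ => f ((k : ℝ) +ᵥ τ))).coeff n =
      Complex.exp (2 * (Real.pi : ℂ) * Complex.I * (k : ℂ) / (N : ℂ)) ^ n * (qInf N f).coeff n := by
  obtain ⟨m, hm⟩ := hf.mero
  have hζ0 : Complex.exp (2 * (Real.pi : ℂ) * Complex.I * (k : ℂ) / (N : ℂ)) ≠ 0 :=
    Complex.exp_ne_zero _
  have hq : ∀ w : ℂ, Function.Periodic.qParam (N : ℝ) ((k : ℂ) + w) =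
      Complex.exp (2 * (Real.pi : ℂ) * Complex.I * (k : ℂ) / (N : ℂ)) *
        Function.Periodic.qParam (N : ℝ) w := QInf.qParam_nat_add N k
  generalize Complex.exp (2 * (Real.pi : ℂ) * Complex.I * (k : ℂ) / (N : ℂ)) = ζ at hζ0 hq ⊢
  have hgM : IsMerPer N (fun τ : ℍ => f ((k : ℝ) +ᵥ τ)) := hf.vadd k
  have hbg : IsBoundedAtImInfty (QInf.tw N m (fun τ : ℍ => f ((k : ℝ) +ᵥ τ))) :=
    QInf.bdd_tw_vadd hm k
  have hP := QInf.isPer_tw hf hm
  have hcoe : ∀ τ : ℍ, Function.Periodic.qParam (N : ℝ) (((k : ℝ) +ᵥ τ : ℍ) : ℂ) =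
      ζ * Function.Periodic.qParam (N : ℝ) (τ : ℂ) := by
    intro τ
    rw [UpperHalfPlane.coe_vadd, Complex.ofReal_natCast, hq]
  have htw : ∀ τ : ℍ, QInf.tw N m (fun τ : ℍ => f ((k : ℝ) +ᵥ τ)) τ =
      (ζ⁻¹) ^ m * QInf.tw N m f ((k : ℝ) +ᵥ τ) := by
    intro τ
    rw [QInf.tw_apply, QInf.tw_apply, hcoe, mul_pow, ← mul_assoc, ← mul_assoc, ← mul_pow,
      inv_mul_cancel₀ hζ0, one_pow, one_mul]
  have hsum : ∀ τ : ℍ, HasSum (fun j : ℕ =>
      ((ζ⁻¹) ^ m * ((qExpansion (N : ℝ) (QInf.tw N m f)).coeff j * ζ ^ j)) *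
        Function.Periodic.qParam (N : ℝ) (τ : ℂ) ^ j)
      (QInf.tw N m (fun τ : ℍ => f ((k : ℝ) +ᵥ τ)) τ) := by
    intro τ
    have hs := hasSum_qExpansion (by exact_mod_cast hN : (0 : ℝ) < N) hP.periodic hP.mdiff
      hP.bdd ((k : ℝ) +ᵥ τ)
    rw [htw τ]
    have hs2 := hs.mul_left ((ζ⁻¹) ^ m)
    have hfun : (fun j : ℕ =>
        ((ζ⁻¹) ^ m * ((qExpansion (N : ℝ) (QInf.tw N m f)).coeff j * ζ ^ j)) *
          Function.Periodic.qParam (N : ℝ) (τ : ℂ) ^ j) =
        (fun j : ℕ => (ζ⁻¹) ^ m * ((qExpansion (N : ℝ) (QInf.tw N m f)).coeff j •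
          Function.Periodic.qParam (N : ℝ) (((k : ℝ) +ᵥ τ : ℍ) : ℂ) ^ j)) := by
      funext j
      rw [hcoe, mul_pow, smul_eq_mul]
      ring
    rw [hfun]
    exact hs2
  have hcoef := QInf.qExpansion_eq_mk hN (QInf.isPer_tw hgM hbg) _ hsum
  rw [QInf.qInf_eq hN hgM hbg, QInf.qInf_eq hN hf hm, QInf.coeff_L, QInf.coeff_L, hcoef]
  by_cases hn : n + (m : ℤ) < 0
  · rw [ModularCurve.ofPowerSeries_coeff_of_neg _ hn,
      ModularCurve.ofPowerSeries_coeff_of_neg _ hn, mul_zero]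
  · obtain ⟨j, hj⟩ : ∃ j : ℕ, n + (m : ℤ) = (j : ℤ) := Int.eq_ofNat_of_zero_le (by omega)
    rw [hj, HahnSeries.ofPowerSeries_apply_coeff, HahnSeries.ofPowerSeries_apply_coeff,
      PowerSeries.coeff_mk]
    have hn' : n = (j : ℤ) - (m : ℤ) := by omega
    rw [hn', zpow_sub₀ hζ0, zpow_natCast, zpow_natCast, inv_pow]
    field_simp

/-- Period `1` versus period `N`. -/
theorem qInf_of_one [NeZero N] (hf : IsMerPer 1 f) :
    qInf N f = ModularCurve.qExpand ℂ N (qInf 1 f) := by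
  have hN : 0 < N := Nat.pos_of_ne_zero (NeZero.ne N)
  obtain ⟨m, hm⟩ := hf.mero
  have hP1 := QInf.isPer_tw hf hm
  have htw : QInf.tw N (N * m) f = QInf.tw 1 m f := by
    funext τ
    rw [QInf.tw_apply, QInf.tw_apply, pow_mul, QInf.qParam_pow_self hN]
  have hfN : IsMerPer N f := hf.of_one hN
  have hbN : IsBoundedAtImInfty (QInf.tw N (N * m) f) := by
    rw [htw]
    exact hm
  have h1 : (N : ℤ) * -(m : ℤ) = -((N * m : ℕ) : ℤ) := by
    push_cast
    ring
  have h2 : ModularCurve.qExpand ℂ N (HahnSeries.ofPowerSeries ℤ ℂ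
      (qExpansion ((1 : ℕ) : ℝ) (QInf.tw 1 m f))) =
      HahnSeries.ofPowerSeries ℤ ℂ (qExpansion (N : ℝ) (QInf.tw 1 m f)) := by
    apply QInf.qExpand_ofPowerSeries
    intro n
    have h := UpperHalfPlane.qExpansion_coeff_nat_mul (h := ((1 : ℕ) : ℝ)) (by norm_num)
      hP1.periodic hP1.mdiff hP1.bdd hN n
    rw [Nat.cast_one, mul_one] at h
    rw [Nat.cast_one]
    exact h
  rw [QInf.qInf_eq hN hfN hbN, QInf.qInf_eq one_pos hf hm, QInf.L, QInf.L, map_mul,
    ModularCurve.qExpand_single, htw, h1, h2]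

end Fermat.Agent.S24
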