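import Fermat.Agent.S24.JBasic
import Fermat.Agent.S24.JqExp
import Fermat.Agent.S24.QInf
import Fermat.Agent.S22.Hermite

/-!
The `SL(2, ℤ)`-translates of `τ ↦ J(dτ)` and their expansions at `i∞`.
-/

set_option autoImplicit false

namespace Fermat.Agent.S24

open UpperHalfPlane
open scoped MatrixGroups Manifold

namespace JTranslates

open ModularForm Matrix.SpecialLinearGroup

/-- The image point `(a z + b) / d` lies in the upper half plane. -/
lemma im_pos_aux (a b d : ℕ) (ha : 0 < a) (hd : 0 < d) (z : ℂ) (hz : 0 < z.im) :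
    0 < (((a : ℂ) * z + (b : ℂ)) / (d : ℂ)).im := by
  have h1 : (((a : ℂ) * z + (b : ℂ)) / (d : ℂ)).im = (a : ℝ) * z.im / (d : ℝ) := by
    rw [Complex.div_natCast_im]
    simp
  rw [h1]
  have ha' : (0 : ℝ) < a := by exact_mod_cast ha
  have hd' : (0 : ℝ) < d := by exact_mod_cast hd
  positivity

/-- Value of `Jabd` as a value of `Jfun`. -/
lemma Jabd_apply (a b d : ℕ) (ha : 0 < a) (hd : 0 < d) (τ : ℍ) :
    Jabd a b d τ =
      Jfun ⟨((a : ℂ) * (τ : ℂ) + (b : ℂ)) / (d : ℂ), im_pos_aux a b d ha hd τ τ.im_pos⟩ := by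
  unfold Jabd
  rw [ofComplex_apply_of_im_pos]

/-- The point `U • τ` for an upper triangular matrix with positive diagonal. -/
lemma coe_upperTriangular_smul (a b d : ℕ) (ha : 0 < a) (hd : 0 < d) (h : (a : ℝ) * d ≠ 0)
    (τ : ℍ) :
    ((upperTriangularGL a b d h • τ : ℍ) : ℂ) = ((a : ℂ) * (τ : ℂ) + (b : ℂ)) / (d : ℂ) := by
  have hdet : ((upperTriangularGL a b d h).det : ℝ) = a * d := by
    rw [Matrix.GeneralLinearGroup.val_det_apply, val_upperTriangularGL, Matrix.det_fin_two_of]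
    ring
  have hpos : 0 < ((upperTriangularGL a b d h).det : ℝ) := by
    rw [hdet]; positivity
  rw [coe_smul_of_det_pos hpos]
  simp [num, denom]

lemma Jabd_eq_smul (a b d : ℕ) (ha : 0 < a) (hd : 0 < d) (h : (a : ℝ) * d ≠ 0) (τ : ℍ) :
    Jabd a b d τ = Jfun (upperTriangularGL a b d h • τ) := by
  unfold Jabd
  rw [← coe_upperTriangular_smul a b d ha hd h τ, ofComplex_apply]

/-- `J(N γτ) = J((aτ + b)/d)` from the integer matrix identity `diag(N,1) γ = γ' (a b; 0 d)`. -/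
lemma slComp_Jabd_of_identity (N a b d : ℕ) (hN : 0 < N) (ha : 0 < a) (hd : 0 < d)
    (γ γ' : SL(2, ℤ))
    (e1 : (N : ℤ) * γ 0 0 = γ' 0 0 * a) (e2 : (N : ℤ) * γ 0 1 = γ' 0 0 * b + γ' 0 1 * d)
    (e3 : γ 1 0 = γ' 1 0 * a) (e4 : γ 1 1 = γ' 1 0 * b + γ' 1 1 * d) :
    slComp γ (Jabd N 0 1) = Jabd a b d := by
  have h1 : (N : ℝ) * 1 ≠ 0 := by positivity
  have h2 : (a : ℝ) * d ≠ 0 := by positivity
  have hmat := Fermat.Agent.S22.Hermite.gl_identity N a b d γ γ' h1 h2 e1 e2 e3 e4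
  have key : ∀ σ : ℍ, Jabd N 0 1 σ = Jfun (upperTriangularGL N 0 1 h1 • σ) := by
    intro σ
    have := Jabd_eq_smul N 0 1 hN Nat.one_pos (by exact_mod_cast h1) σ
    simpa only [Nat.cast_one, Nat.cast_zero] using this
  funext τ
  rw [slComp_apply, key, Jabd_eq_smul a b d ha hd h2 τ, ModularGroup.sl_moeb, ← mul_smul]
  have hmat' : upperTriangularGL N 0 1 h1 * (γ : GL (Fin 2) ℝ) =
      (γ' : GL (Fin 2) ℝ) * upperTriangularGL a b d h2 := hmat
  rw [hmat', mul_smul, ← ModularGroup.sl_moeb, Jfun_smul]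

/-- Holomorphy of `Jabd a b d`. -/
lemma Jabd_mdiff (a b d : ℕ) (ha : 0 < a) (hd : 0 < d) : MDiff (Jabd a b d) := by
  rw [UpperHalfPlane.mdifferentiable_iff]
  have h1 : DifferentiableOn ℂ (Jfun ∘ ofComplex) {z | 0 < z.im} :=
    UpperHalfPlane.mdifferentiable_iff.mp mdifferentiable_Jfun
  have h2 : DifferentiableOn ℂ (fun z : ℂ => ((a : ℂ) * z + (b : ℂ)) / (d : ℂ))
      {z | 0 < z.im} := by
    fun_prop
  have h3 : Set.MapsTo (fun z : ℂ => ((a : ℂ) * z + (b : ℂ)) / (d : ℂ))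
      {z | 0 < z.im} {z | 0 < z.im} :=
    fun z hz => im_pos_aux a b d ha hd z hz
  refine (h1.comp h2 h3).congr ?_
  intro z hz
  simp only [Function.comp_apply, Jabd, ofComplex_apply_of_im_pos hz]

/-- `Jfun` is invariant under integer translations. -/
lemma Jfun_add_nat (k : ℕ) (z : ℂ) (hz : 0 < z.im) (hz' : 0 < (z + (k : ℂ)).im) :
    Jfun ⟨z + (k : ℂ), hz'⟩ = Jfun ⟨z, hz⟩ := by
  have h := Jfun_smul (ModularGroup.T ^ (k : ℤ)) ⟨z, hz⟩
  rw [modular_T_zpow_smul] at h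
  rw [← h]
  congr 1
  ext
  simp [coe_vadd, add_comm]

/-- Periodicity of `Jabd a b d`. -/
lemma Jabd_periodic (a b d : ℕ) (ha : 0 < a) (hd : 0 < d) (h : ℝ) (k : ℕ)
    (hk : (a : ℂ) * (h : ℂ) = (k : ℂ) * (d : ℂ)) :
    Function.Periodic (Jabd a b d ∘ ofComplex) (h : ℂ) := by
  intro w
  by_cases hw : 0 < w.im
  · have hw' : 0 < (w + (h : ℂ)).im := by simpa using hw
    simp only [Function.comp_apply, ofComplex_apply_of_im_pos hw', ofComplex_apply_of_im_pos hw]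
    rw [Jabd_apply a b d ha hd, Jabd_apply a b d ha hd]
    have hd0 : (d : ℂ) ≠ 0 := by exact_mod_cast hd.ne'
    have key : ((a : ℂ) * (w + (h : ℂ)) + (b : ℂ)) / (d : ℂ)
        = ((a : ℂ) * w + (b : ℂ)) / (d : ℂ) + (k : ℂ) := by
      rw [mul_add, hk]
      field_simp
      ring
    have him : 0 < (((a : ℂ) * w + (b : ℂ)) / (d : ℂ)).im := im_pos_aux a b d ha hd w hw
    have him' : 0 < (((a : ℂ) * w + (b : ℂ)) / (d : ℂ) + (k : ℂ)).im := by simpa using him
    rw [← Jfun_add_nat k _ him him']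
    congr 1
    ext
    exact key
  · have hw1 : w.im ≤ 0 := not_lt.mp hw
    have hw' : (w + (h : ℂ)).im ≤ 0 := by simpa using hw1
    simp [ofComplex_apply_of_im_nonpos hw', ofComplex_apply_of_im_nonpos hw1]

/-- Periodicity of `Jabd a b d` with period `N` when `d ∣ N`. -/
lemma Jabd_periodic_nat (N a b d : ℕ) (ha : 0 < a) (hd : 0 < d) (hdN : d ∣ N) :
    Function.Periodic (Jabd a b d ∘ ofComplex) ((N : ℝ) : ℂ) := by
  refine Jabd_periodic a b d ha hd (N : ℝ) (a * (N / d)) ?_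
  obtain ⟨e, rfl⟩ := hdN
  rw [Nat.mul_div_cancel_left e hd]
  push_cast
  ring

/-- The parameter of period one at the image point. -/
lemma qParam_Jabd (N a b d : ℕ) (hd : 0 < d) (hdN : d ∣ N) (hN : 0 < N) (z : ℂ) :
    Function.Periodic.qParam 1 (((a : ℂ) * z + (b : ℂ)) / (d : ℂ)) =
      Complex.exp (2 * (Real.pi : ℂ) * Complex.I * (b : ℂ) / (d : ℂ)) *
        Function.Periodic.qParam (N : ℝ) z ^ (a * (N / d)) := by
  obtain ⟨e, rfl⟩ := hdN
  have he : e ≠ 0 := by rintro rfl; simp at hN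
  have hd0 : (d : ℂ) ≠ 0 := by exact_mod_cast hd.ne'
  have he0 : (e : ℂ) ≠ 0 := by exact_mod_cast he
  rw [Nat.mul_div_cancel_left e hd]
  unfold Function.Periodic.qParam
  rw [← Complex.exp_nat_mul, ← Complex.exp_add]
  congr 1
  push_cast
  field_simp
  ring

/-- The coefficients of the expansion of `q_N ^ M * J((aτ + b)/d)`. -/
noncomputable def cSeq (M : ℕ) (ζ : ℂ) (n : ℕ) : ℂ :=
  if M ∣ n then ((PowerSeries.coeff (n / M) ModularCurve.jNum : ℤ) : ℂ) * ζ ^ (n / M) * ζ⁻¹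
  else 0

/-- Reindexing of the expansion of `q * J` along multiples of `M`. -/
lemma hasSum_cSeq (M : ℕ) (hM : 0 < M) (ζ Q J : ℂ) (hζ : ζ ≠ 0)
    (hs : HasSum (fun n : ℕ => ((PowerSeries.coeff n ModularCurve.jNum : ℤ) : ℂ) *
      (ζ * Q ^ M) ^ n) (J * (ζ * Q ^ M))) :
    HasSum (fun n : ℕ => cSeq M ζ n * Q ^ n) (Q ^ M * J) := by
  have hs' := hs.mul_left ζ⁻¹
  have hinj : Function.Injective (fun m : ℕ ↦ M * m) := mul_right_injective₀ hM.ne'
  refine (hinj.hasSum_iff ?_).mp ?_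
  · intro x hx
    have : ¬ M ∣ x := by
      rintro ⟨k, rfl⟩
      exact hx ⟨k, rfl⟩
    simp [cSeq, this]
  · have hfun : ((fun n : ℕ => cSeq M ζ n * Q ^ n) ∘ fun m : ℕ => M * m) =
        fun i : ℕ => ζ⁻¹ * (((PowerSeries.coeff i ModularCurve.jNum : ℤ) : ℂ) *
          (ζ * Q ^ M) ^ i) := by
      funext m
      simp only [Function.comp_apply, cSeq, if_pos (dvd_mul_right M m),
        Nat.mul_div_cancel_left _ hM, mul_pow, pow_mul]
      ring
    have hval : Q ^ M * J = ζ⁻¹ * (J * (ζ * Q ^ M)) := by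
      field_simp
    rw [hfun, hval]
    exact hs'

/-- The expansion of `q_N ^ M * J((aτ + b)/d)`, `M = a * (N / d)`. -/
lemma hasSum_Jabd (N a b d : ℕ) (ha : 0 < a) (hd : 0 < d) (hdN : d ∣ N) (hN : 0 < N) (τ : ℍ) :
    HasSum (fun n : ℕ => cSeq (a * (N / d))
        (Complex.exp (2 * (Real.pi : ℂ) * Complex.I * (b : ℂ) / (d : ℂ))) n *
          Function.Periodic.qParam (N : ℝ) (τ : ℂ) ^ n)
      (Function.Periodic.qParam (N : ℝ) (τ : ℂ) ^ (a * (N / d)) * Jabd a b d τ) := by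
  have hM : 0 < a * (N / d) := Nat.mul_pos ha (Nat.div_pos (Nat.le_of_dvd hN hdN) hd)
  have hq := qParam_Jabd N a b d hd hdN hN (τ : ℂ)
  rw [Jabd_apply a b d ha hd τ]
  have hs := hasSum_Jfun_mul_qParam
    ⟨((a : ℂ) * (τ : ℂ) + (b : ℂ)) / (d : ℂ), im_pos_aux a b d ha hd τ τ.im_pos⟩
  dsimp only at hs
  rw [hq] at hs
  exact hasSum_cSeq _ hM _ _ _ (Complex.exp_ne_zero _) hs

/-- The coefficients of `jq` in terms of `jNum`. -/
lemma jq_coeff_natCast_sub_one (i : ℕ) :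
    ModularCurve.jq.coeff ((i : ℤ) - 1) = ((PowerSeries.coeff i ModularCurve.jNum : ℤ) : ℚ) := by
  rw [ModularCurve.jq, HahnSeries.coeff_single_mul, one_mul,
    show (i : ℤ) - 1 - (-1) = (i : ℤ) by ring, HahnSeries.ofPowerSeries_apply_coeff,
    ModularCurve.jNumQ, PowerSeries.coeff_map]
  rfl

end JTranslates

/-- Hermite form: `J(d · γτ) = J((aτ + b)/d')` with `a d' = d`. -/
theorem slComp_Jabd (d : ℕ) [NeZero d] (γ : SL(2, ℤ)) :
    ∃ a b d' : ℕ, a * d' = d ∧ (γ ∉ CongruenceSubgroup.Gamma0 d → a < d) ∧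
      slComp γ (Jabd d 0 1) = Jabd a b d' := by
  obtain ⟨a, b, d', γ', had, hlt, e1, e2, e3, e4⟩ :=
    Fermat.Agent.S22.Hermite.exists_hermite d γ
  have hd : 0 < d := Nat.pos_of_ne_zero (NeZero.ne d)
  have ha : 0 < a := by
    rcases Nat.eq_zero_or_pos a with h | h
    · rw [h, zero_mul] at had; omega
    · exact h
  have hd' : 0 < d' := by
    rcases Nat.eq_zero_or_pos d' with h | h
    · rw [h, mul_zero] at had; omega
    · exact h
  exact ⟨a, b, d', had, hlt,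
    JTranslates.slComp_Jabd_of_identity d a b d' hd ha hd' γ γ' e1 e2 e3 e4⟩

theorem slComp_Jabd_of_mem (d : ℕ) [NeZero d] (γ : SL(2, ℤ))
    (hγ : γ ∈ CongruenceSubgroup.Gamma0 d) : slComp γ (Jabd d 0 1) = Jabd d 0 1 := by
  have hd : 0 < d := Nat.pos_of_ne_zero (NeZero.ne d)
  obtain ⟨r', hr'⟩ : (d : ℤ) ∣ γ 1 0 :=
    (ZMod.intCast_zmod_eq_zero_iff_dvd _ _).mp (CongruenceSubgroup.Gamma0_mem.mp hγ)
  have hdet := Fermat.Agent.S22.Hermite.det_eq γ
  refine JTranslates.slComp_Jabd_of_identity d d 0 1 hd hd Nat.one_pos γ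
    ⟨!![γ 0 0, d * γ 0 1; r', γ 1 1], ?_⟩ ?_ ?_ ?_ ?_
  · rw [Matrix.det_fin_two_of]
    linear_combination hdet + γ 0 1 * hr'
  · simp only [Matrix.of_apply, Matrix.cons_val', Matrix.cons_val_zero,
      Matrix.cons_val_fin_one]
    ring
  · simp only [Matrix.of_apply, Matrix.cons_val', Matrix.cons_val_zero, Matrix.cons_val_one,
      Matrix.cons_val_fin_one]
    push_cast
    ring
  · simp only [Matrix.of_apply, Matrix.cons_val', Matrix.cons_val_zero, Matrix.cons_val_one,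
      Matrix.cons_val_fin_one]
    rw [hr']; ring
  · simp only [Matrix.of_apply, Matrix.cons_val', Matrix.cons_val_zero, Matrix.cons_val_one,
      Matrix.cons_val_fin_one]
    push_cast
    ring

theorem isMerPer_Jabd (N a b d : ℕ) (ha : 0 < a) (hd : 0 < d) (hdN : d ∣ N) (hN : 0 < N) :
    IsMerPer N (Jabd a b d) :=
  isMerPer_of_hasSum hN (JTranslates.Jabd_mdiff a b d ha hd)
    (JTranslates.Jabd_periodic_nat N a b d ha hd hdN) (a * (N / d)) _
    (JTranslates.hasSum_Jabd N a b d ha hd hdN hN)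

/-- The `q_N`-expansion of `J((aτ + b)/d)`, `d ∣ N`: supported on multiples of `a * (N / d)`. -/
theorem qInf_Jabd_coeff (N a b d : ℕ) (ha : 0 < a) (hd : 0 < d) (hdN : d ∣ N) (hN : 0 < N)
    (n : ℤ) :
    (qInf N (Jabd a b d)).coeff n =
      if ((a * (N / d) : ℕ) : ℤ) ∣ n then
        ((ModularCurve.jq.coeff (n / ((a * (N / d) : ℕ) : ℤ)) : ℚ) : ℂ) *
          Complex.exp (2 * (Real.pi : ℂ) * Complex.I * (b : ℂ) / (d : ℂ)) ^
            (n / ((a * (N / d) : ℕ) : ℤ))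
      else 0 := by
  rw [qInf_of_hasSum hN (JTranslates.Jabd_mdiff a b d ha hd)
    (JTranslates.Jabd_periodic_nat N a b d ha hd hdN) (a * (N / d)) _
    (JTranslates.hasSum_Jabd N a b d ha hd hdN hN)]
  have hM : 0 < a * (N / d) := Nat.mul_pos ha (Nat.div_pos (Nat.le_of_dvd hN hdN) hd)
  obtain ⟨M, hMdef⟩ : ∃ M : ℕ, M = a * (N / d) := ⟨_, rfl⟩
  obtain ⟨ζ, hζdef⟩ : ∃ ζ : ℂ,
      ζ = Complex.exp (2 * (Real.pi : ℂ) * Complex.I * (b : ℂ) / (d : ℂ)) := ⟨_, rfl⟩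
  have hζ : ζ ≠ 0 := hζdef ▸ Complex.exp_ne_zero _
  rw [← hMdef, ← hζdef]
  rw [← hMdef] at hM
  have hM0 : (M : ℤ) ≠ 0 := by exact_mod_cast hM.ne'
  have hMpos : (0 : ℤ) < (M : ℤ) := by exact_mod_cast hM
  rw [HahnSeries.coeff_single_mul, one_mul, sub_neg_eq_add]
  by_cases hn : 0 ≤ n + (M : ℤ)
  · obtain ⟨j, hj⟩ := Int.eq_ofNat_of_zero_le hn
    rw [hj, HahnSeries.ofPowerSeries_apply_coeff, PowerSeries.coeff_mk]
    unfold JTranslates.cSeq
    by_cases hdvd : (M : ℤ) ∣ n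
    · have hdvd' : M ∣ j := by
        have h1 : (M : ℤ) ∣ (j : ℤ) := by
          rw [← hj]
          exact dvd_add hdvd (dvd_refl _)
        exact Int.natCast_dvd_natCast.mp h1
      rw [if_pos hdvd, if_pos hdvd']
      obtain ⟨i, rfl⟩ := hdvd'
      have hn' : n = (M : ℤ) * ((i : ℤ) - 1) := by
        push_cast at hj
        linear_combination hj
      rw [hn', Int.mul_ediv_cancel_left _ hM0, Nat.mul_div_cancel_left _ hM,
        JTranslates.jq_coeff_natCast_sub_one, zpow_sub_one₀ hζ, zpow_natCast]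
      push_cast
      ring
    · have hdvd' : ¬ M ∣ j := by
        intro h
        apply hdvd
        have h1 : (M : ℤ) ∣ (j : ℤ) := Int.natCast_dvd_natCast.mpr h
        rw [← hj] at h1
        exact (dvd_add_left (dvd_refl _)).mp h1
      rw [if_neg hdvd, if_neg hdvd']
  · rw [ModularCurve.ofPowerSeries_coeff_of_neg _ (not_le.mp hn)]
    split_ifs with hdvd
    · obtain ⟨k, rfl⟩ := hdvd
      have hk : k < -1 := by
        by_contra hk
        apply hn
        have : 0 ≤ (M : ℤ) * (k + 1) := mul_nonneg hMpos.le (by omega)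
        linarith
      rw [Int.mul_ediv_cancel_left _ hM0, ModularCurve.coeff_jq_of_lt hk]
      simp
    · rfl

end Fermat.Agent.S24
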