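import Fermat.Agent.S24.JTranslates
import Fermat.Agent.S24.FFLAlg
import Fermat.Agent.S24.LaurentOrder

/-!
The comparison map `L((q)) → ℂ((q_N))` and the `q_N`-expansions of `J(dτ)` and its translates.
-/

set_option autoImplicit false

namespace Fermat.Agent.S24

open UpperHalfPlane ModularCurve
open scoped MatrixGroups Manifold

variable (N : ℕ) [NeZero N] {L : Type*} [Field L] [Algebra ℚ L] (ι : L →+* ℂ)

/-- The comparison map `L((q)) → ℂ((q_N))`, `f(q) ↦ (ι f)(q_N ^ N)`. -/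
noncomputable def expMap : LaurentSeries L →+* LaurentSeries ℂ :=
  (qExpand ℂ N).comp (coeffMap ι)

omit [Algebra ℚ L] in
theorem expMap_algebraMap (c : L) :
    expMap N ι (algebraMap L (LaurentSeries L) c) = HahnSeries.C (ι c) := by
  rw [expMap, RingHom.comp_apply, algebraMap_laurentSeries_eq_single, coeffMap_single,
    qExpand_single, mul_zero]
  rfl

set_option linter.unusedVariables false in
/-- The `q_N`-expansion of `J(dτ)` is the image of the formal `q`-expansion of `j(dτ)`. -/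
theorem qInf_Jabd_eq_expMap (d : ℕ) [NeZero d] (hd : d ∣ N) :
    qInf N (Jabd d 0 1) = expMap N ι (coeffEmb L (qExpand ℚ d jq)) := by
  have hN : 0 < N := Nat.pos_of_ne_zero (NeZero.ne N)
  have hd0 : 0 < d := Nat.pos_of_ne_zero (NeZero.ne d)
  have hNz : (N : ℤ) ≠ 0 := by exact_mod_cast hN.ne'
  have hdz : (d : ℤ) ≠ 0 := by exact_mod_cast hd0.ne'
  ext n
  rw [qInf_Jabd_coeff N d 0 1 hd0 one_pos (one_dvd N) hN n]
  simp only [Nat.div_one, Nat.cast_zero, mul_zero, zero_div, Complex.exp_zero, one_zpow, mul_one]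
  show _ = (qExpand ℂ N (coeffMap ι (coeffEmb L (qExpand ℚ d jq)))).coeff n
  by_cases hNn : (N : ℤ) ∣ n
  · obtain ⟨m, rfl⟩ := hNn
    rw [qExpand_coeff_mul, coeffMap_coeff, coeffEmb_coeff]
    by_cases hdm : (d : ℤ) ∣ m
    · obtain ⟨l, rfl⟩ := hdm
      rw [qExpand_coeff_mul]
      have h1 : ((d * N : ℕ) : ℤ) ∣ (N : ℤ) * ((d : ℤ) * l) := ⟨l, by push_cast; ring⟩
      rw [if_pos h1]
      have h2 : (N : ℤ) * ((d : ℤ) * l) / ((d * N : ℕ) : ℤ) = l := by
        have h3 : (N : ℤ) * ((d : ℤ) * l) = ((d * N : ℕ) : ℤ) * l := by push_cast; ring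
        rw [h3, Int.mul_ediv_cancel_left]
        push_cast
        exact mul_ne_zero hdz hNz
      rw [h2, eq_ratCast, map_ratCast]
    · rw [qExpand_coeff_of_not_dvd d _ hdm, map_zero, map_zero, if_neg]
      rintro ⟨l, hl⟩
      apply hdm
      refine ⟨l, ?_⟩
      have h3 : (N : ℤ) * m = (N : ℤ) * ((d : ℤ) * l) := by rw [hl]; push_cast; ring
      exact mul_left_cancel₀ hNz h3
  · rw [qExpand_coeff_of_not_dvd N _ hNn, if_neg]
    rintro ⟨l, hl⟩
    exact hNn ⟨(d : ℤ) * l, by rw [hl]; push_cast; ring⟩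

/-- The order at `i∞` of `J((aτ + b)/d)` in the parameter `q_N`. -/
theorem order_qInf_Jabd (a b d : ℕ) (ha : 0 < a) (hd : 0 < d) (hdN : d ∣ N) :
    (qInf N (Jabd a b d)).order = -((a * (N / d) : ℕ) : ℤ) := by
  have hN : 0 < N := Nat.pos_of_ne_zero (NeZero.ne N)
  have hM : 0 < a * (N / d) := Nat.mul_pos ha (Nat.div_pos (Nat.le_of_dvd hN hdN) hd)
  have hcoeff := qInf_Jabd_coeff N a b d ha hd hdN hN
  generalize a * (N / d) = M at hM hcoeff ⊢
  have hMz : (0 : ℤ) < (M : ℤ) := by exact_mod_cast hM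
  refine laurent_order_eq_of_coeff ?_ ?_
  · rw [hcoeff]
    have h1 : (M : ℤ) ∣ -(M : ℤ) := (dvd_neg).mpr dvd_rfl
    have h2 : -(M : ℤ) / (M : ℤ) = -1 := by
      rw [Int.neg_ediv_of_dvd dvd_rfl, Int.ediv_self hMz.ne']
    rw [if_pos h1, h2, coeff_jq_neg_one]
    simp only [Rat.cast_one, one_mul]
    exact zpow_ne_zero _ (Complex.exp_ne_zero _)
  · intro m hm
    rw [hcoeff]
    split_ifs with h
    · obtain ⟨l, rfl⟩ := h
      rw [Int.mul_ediv_cancel_left _ hMz.ne']
      have hl : l < -1 := by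
        by_contra hcon
        rw [not_lt] at hcon
        have h3 : -(M : ℤ) ≤ (M : ℤ) * l := by nlinarith
        linarith
      rw [coeff_jq_of_lt hl]
      simp
    · rfl

/-- The coefficients of the `q_N`-expansion of `J((aτ + b)/d)` lie in any subfield of `ℂ`
containing the `d`-th roots of unity. -/
theorem qInf_Jabd_coeff_mem (k : Subfield ℂ) (a b d : ℕ) (ha : 0 < a) (hd : 0 < d) (hdN : d ∣ N)
    (hk : Complex.exp (2 * (Real.pi : ℂ) * Complex.I / (d : ℂ)) ∈ k) (n : ℤ) :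
    (qInf N (Jabd a b d)).coeff n ∈ k := by
  have hN : 0 < N := Nat.pos_of_ne_zero (NeZero.ne N)
  rw [qInf_Jabd_coeff N a b d ha hd hdN hN]
  split_ifs with h
  · refine mul_mem (SubfieldClass.ratCast_mem k _) (zpow_mem ?_ _)
    have h1 : Complex.exp (2 * (Real.pi : ℂ) * Complex.I * (b : ℂ) / (d : ℂ)) =
        Complex.exp (2 * (Real.pi : ℂ) * Complex.I / (d : ℂ)) ^ b := by
      rw [← Complex.exp_nat_mul]
      congr 1
      ring
    rw [h1]
    exact pow_mem hk b
  · exact zero_mem k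

end Fermat.Agent.S24
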