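import Fermat.Agent.S24.Defs
import Fermat.Agent.S24.LaurentDeriv

/-!
P8-ALG-2 (core): Kähler differentials of a function field `F / K(x)` are free of rank one on `dx`;
Taylor expansion at a place of degree one (`Kaehler.taylorF : F →+* K((t))`, with
`Kaehler.order_taylorF`), and the key lemma `Kaehler.ord_coeff_of_D_eq`:
`dy = g dt` and `ord_v y ≠ 0` imply `ord_v g = ord_v y - 1`.
-/

set_option autoImplicit false
set_option linter.style.haveILetI false

namespace Fermat.Agent.S24

open AlgebraicCurve IntermediateField KaehlerDifferential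

variable {K F : Type*} [Field K] [Field F] [Algebra K F]

section Span

open Polynomial

theorem Kaehler.D_mem_span_of_mem_adjoin (x : F) {e : F} (he : e ∈ K⟮x⟯) :
    D K F e ∈ Submodule.span F {D K F x} := by
  obtain ⟨r, s, rfl⟩ := (mem_adjoin_simple_iff K e).mp he
  rw [Derivation.leibniz_div, Derivation.map_aeval, Derivation.map_aeval]
  refine Submodule.smul_mem _ _ (Submodule.sub_mem _ ?_ ?_) <;>
    exact Submodule.smul_mem _ _ (Submodule.smul_mem _ _ (Submodule.mem_span_singleton_self _))

theorem Kaehler.span_D_eq_top [CharZero K] (x : F) [Algebra.IsAlgebraic K⟮x⟯ F] :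
    Submodule.span F {D K F x} = ⊤ := by
  have : CharZero K⟮x⟯ := charZero_of_injective_algebraMap (algebraMap K K⟮x⟯).injective
  have : Algebra.IsSeparable K⟮x⟯ F := Algebra.IsAlgebraic.isSeparable_of_perfectField
  have : Algebra.FormallyUnramified K⟮x⟯ F := Algebra.FormallyUnramified.of_isSeparable K⟮x⟯ F
  rw [eq_top_iff, ← span_range_derivation K F, Submodule.span_le]
  rintro _ ⟨f, rfl⟩
  have hex := KaehlerDifferential.exact_mapBaseChange_map K K⟮x⟯ F (D K F f)
  obtain ⟨y, hy⟩ := hex.mp (Subsingleton.elim _ _)
  rw [← hy]; clear hy hex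
  induction y using TensorProduct.induction_on with
  | zero => simp
  | tmul b ω =>
    rw [mapBaseChange_tmul]
    refine Submodule.smul_mem _ _ ?_
    have hω : ω ∈ Submodule.span K⟮x⟯ (Set.range (D K K⟮x⟯)) := by
      rw [span_range_derivation]; trivial
    induction hω using Submodule.span_induction with
    | mem ω hω => obtain ⟨e, rfl⟩ := hω; rw [map_D]; exact Kaehler.D_mem_span_of_mem_adjoin x e.2
    | zero => simp
    | add a b _ _ ha hb => rw [map_add]; exact Submodule.add_mem _ ha hb
    | smul c a _ ha =>
      rw [map_smul]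
      have : c • (map K K K⟮x⟯ F) a = (c : F) • (map K K K⟮x⟯ F) a := rfl
      rw [this]; exact Submodule.smul_mem _ _ ha
  | add a b ha hb => rw [map_add]; exact Submodule.add_mem _ ha hb

/-- `dX ≠ 0` on the rational function field `K(x)`. -/
theorem Kaehler.D_gen_ne_zero {x : F} (hx : Transcendental K x) :
    D K K⟮x⟯ (AdjoinSimple.gen K x) ≠ 0 := by
  letI : Algebra K[X] K⟮x⟯ := (Polynomial.aeval (AdjoinSimple.gen K x)).toRingHom.toAlgebra
  have halg : ∀ p : K[X], algebraMap K[X] K⟮x⟯ p = Polynomial.aeval (AdjoinSimple.gen K x) p :=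
    fun p => rfl
  have : IsScalarTower K K[X] K⟮x⟯ := IsScalarTower.of_algebraMap_eq fun c => by
    rw [halg, Polynomial.algebraMap_apply, Polynomial.aeval_C]
    rfl
  have hinj : Function.Injective (algebraMap K[X] K⟮x⟯) := by
    intro p q hpq
    rw [halg, halg] at hpq
    have h2 : Polynomial.aeval x p = Polynomial.aeval x q := by
      have := congrArg (algebraMap K⟮x⟯ F) hpq
      rwa [← Polynomial.aeval_algebraMap_apply, ← Polynomial.aeval_algebraMap_apply,
        AdjoinSimple.algebraMap_gen] at this
    exact (transcendental_iff_injective.mp hx) h2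
  have : FaithfulSMul K[X] K⟮x⟯ := (faithfulSMul_iff_algebraMap_injective _ _).mpr hinj
  have : IsFractionRing K[X] K⟮x⟯ := by
    refine IsFractionRing.of_field K[X] K⟮x⟯ fun z => ?_
    obtain ⟨r, s, hrs⟩ := (mem_adjoin_simple_iff K (z : F)).mp z.2
    refine ⟨r, s, Subtype.ext ?_⟩
    rw [hrs, halg, halg]
    push_cast
    rw [← AdjoinSimple.algebraMap_gen K x]
    simp only [Polynomial.aeval_algebraMap_apply]
    rfl
  have hloc := KaehlerDifferential.isLocalizedModule_map K K[X] K⟮x⟯ (nonZeroDivisors K[X])
  have hmap : KaehlerDifferential.map K K K[X] K⟮x⟯ (D K K[X] Polynomial.X) =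
      D K K⟮x⟯ (AdjoinSimple.gen K x) := by
    rw [KaehlerDifferential.map_D, halg, Polynomial.aeval_X]
  rw [← hmap]
  intro h0
  obtain ⟨s, hs⟩ := (IsLocalizedModule.eq_zero_iff (nonZeroDivisors K[X])
    (KaehlerDifferential.map K K K[X] K⟮x⟯)).mp h0
  have h1 := congrArg (KaehlerDifferential.polynomialEquiv K) hs
  rw [Submonoid.smul_def, map_smul, KaehlerDifferential.polynomialEquiv_D, map_zero,
    Polynomial.derivative_X, smul_eq_mul, mul_one] at h1
  exact nonZeroDivisors.coe_ne_zero s h1

end Span

theorem D_ne_zero [CharZero K] {x : F} (hx : Transcendental K x)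
    [FiniteDimensional K⟮x⟯ F] : KaehlerDifferential.D K F x ≠ 0 := by
  have : CharZero K⟮x⟯ := charZero_of_injective_algebraMap (algebraMap K K⟮x⟯).injective
  have : Algebra.IsSeparable K⟮x⟯ F := Algebra.IsAlgebraic.isSeparable_of_perfectField
  have : Algebra.FormallyEtale K⟮x⟯ F := Algebra.FormallyEtale.of_isSeparable K⟮x⟯ F
  intro h0
  have h1 := KaehlerDifferential.tensorKaehlerEquivOfFormallyEtale_symm_D_algebraMap K K⟮x⟯ F
    (AdjoinSimple.gen K x)
  rw [AdjoinSimple.algebraMap_gen, h0, map_zero] at h1
  exact Kaehler.D_gen_ne_zero hx ((Module.FaithfullyFlat.one_tmul_eq_zero_iff _ _ _).mp h1.symm)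

/-- The module of Kähler differentials of a function field in one variable is nonzero. -/
theorem nontrivial_kaehler [CharZero K] {x : F} (hx : Transcendental K x)
    [FiniteDimensional K⟮x⟯ F] : Nontrivial Ω[F⁄K] :=
  nontrivial_of_ne _ _ (D_ne_zero hx)

theorem exists_eq_smul_D [CharZero K] {x : F} (_hx : Transcendental K x)
    [FiniteDimensional K⟮x⟯ F] (ω : Ω[F⁄K]) : ∃ f : F, ω = f • KaehlerDifferential.D K F x := by
  have hω : ω ∈ (⊤ : Submodule F Ω[F⁄K]) := Submodule.mem_top
  rw [← Kaehler.span_D_eq_top (K := K) x, Submodule.mem_span_singleton] at hω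
  exact hω.imp fun _ hf => hf.symm

section Taylor

namespace Kaehler

variable (v : Place K F)

/-- The uniformizer chosen by the Prelude's `Place.dCoord`. -/
noncomputable def unif : v.toValuationSubring :=
  (IsDiscreteValuationRing.exists_irreducible v.toValuationSubring).choose

theorem unif_irreducible : Irreducible (unif v) :=
  (IsDiscreteValuationRing.exists_irreducible v.toValuationSubring).choose_spec

theorem dCoord_eq : v.dCoord = D K F ((unif v : v.toValuationSubring) : F) := rfl

theorem ord_unif : v.ord ((unif v : v.toValuationSubring) : F) = 1 :=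
  v.ord_coe_irreducible (unif_irreducible v)

theorem unif_ne_zero : unif v ≠ 0 := (unif_irreducible v).ne_zero

theorem bijective_algebraMap_residue (hdeg : v.deg = 1) :
    Function.Bijective (algebraMap K v.ResidueField) := by
  refine ⟨(algebraMap K v.ResidueField).injective, fun y => ?_⟩
  have h := Subalgebra.bot_eq_top_of_finrank_eq_one (F := K) (E := v.ResidueField) hdeg
  have hy : y ∈ (⊤ : Subalgebra K v.ResidueField) := Algebra.mem_top
  rw [← h] at hy
  exact Algebra.mem_bot.mp hy

/-- The residue map to `K` at a place of degree one. -/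
noncomputable def res (hdeg : v.deg = 1) : v.toValuationSubring →+* K :=
  ((RingEquiv.ofBijective (algebraMap K v.ResidueField)
    (bijective_algebraMap_residue v hdeg)).symm : v.ResidueField →+* K).comp
      (IsLocalRing.residue v.toValuationSubring)

variable (hdeg : v.deg = 1)

theorem algebraMap_res (a : v.toValuationSubring) :
    algebraMap K v.ResidueField (res v hdeg a) = IsLocalRing.residue _ a := by
  have := (RingEquiv.ofBijective (algebraMap K v.ResidueField)
    (bijective_algebraMap_residue v hdeg)).apply_symm_apply (IsLocalRing.residue _ a)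
  exact this

theorem res_algebraMap (c : K) : res v hdeg (algebraMap K v.toValuationSubring c) = c := by
  apply (algebraMap K v.ResidueField).injective
  rw [algebraMap_res]
  rfl

theorem res_eq_zero_iff (a : v.toValuationSubring) :
    res v hdeg a = 0 ↔ a ∈ IsLocalRing.maximalIdeal v.toValuationSubring := by
  rw [← IsLocalRing.residue_eq_zero_iff, ← algebraMap_res v hdeg]
  exact (map_eq_zero_iff _ (algebraMap K v.ResidueField).injective).symm

theorem exists_shift (a : v.toValuationSubring) :
    ∃ b : v.toValuationSubring,
      a = algebraMap K v.toValuationSubring (res v hdeg a) + unif v * b := by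
  have h : a - algebraMap K v.toValuationSubring (res v hdeg a) ∈
      IsLocalRing.maximalIdeal v.toValuationSubring := by
    rw [← IsLocalRing.residue_eq_zero_iff, map_sub, sub_eq_zero, ← algebraMap_res v hdeg a]
    rfl
  rw [(unif_irreducible v).maximalIdeal_eq, Ideal.mem_span_singleton'] at h
  obtain ⟨b, hb⟩ := h
  exact ⟨b, by rw [mul_comm, hb]; ring⟩

/-- The shift `a ↦ (a - a(0)) / π`. -/
noncomputable def shift (a : v.toValuationSubring) : v.toValuationSubring :=
  (exists_shift v hdeg a).choose

theorem shift_spec (a : v.toValuationSubring) :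
    a = algebraMap K v.toValuationSubring (res v hdeg a) + unif v * shift v hdeg a :=
  (exists_shift v hdeg a).choose_spec

theorem shift_add (a b : v.toValuationSubring) :
    shift v hdeg (a + b) = shift v hdeg a + shift v hdeg b := by
  apply mul_left_cancel₀ (unif_ne_zero v)
  have h1 := shift_spec v hdeg (a + b)
  have h2 := shift_spec v hdeg a
  have h3 := shift_spec v hdeg b
  rw [map_add, map_add] at h1
  linear_combination h2 + h3 - h1

theorem shift_mul (a b : v.toValuationSubring) :
    shift v hdeg (a * b) =
      shift v hdeg a * b + algebraMap K v.toValuationSubring (res v hdeg a) * shift v hdeg b := by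
  apply mul_left_cancel₀ (unif_ne_zero v)
  have h1 := shift_spec v hdeg (a * b)
  have h2 := shift_spec v hdeg a
  have h3 := shift_spec v hdeg b
  rw [map_mul, map_mul] at h1
  linear_combination (b) * h2 + (algebraMap K v.toValuationSubring (res v hdeg a)) * h3 - h1

theorem shift_algebraMap (c : K) : shift v hdeg (algebraMap K v.toValuationSubring c) = 0 := by
  have h1 := shift_spec v hdeg (algebraMap K v.toValuationSubring c)
  rw [res_algebraMap] at h1
  have h2 : unif v * shift v hdeg (algebraMap K v.toValuationSubring c) = 0 := by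
    linear_combination -h1
  exact (mul_eq_zero.mp h2).resolve_left (unif_ne_zero v)

theorem res_unif : res v hdeg (unif v) = 0 := by
  rw [res_eq_zero_iff]
  exact (IsLocalRing.mem_maximalIdeal _).mpr (unif_irreducible v).not_isUnit

theorem shift_unif : shift v hdeg (unif v) = 1 := by
  have h1 := shift_spec v hdeg (unif v)
  rw [res_unif, map_zero, zero_add] at h1
  apply mul_left_cancel₀ (unif_ne_zero v)
  rw [mul_one]
  exact h1.symm

/-- The Taylor expansion at a place of degree one. -/
noncomputable def taylor (a : v.toValuationSubring) : PowerSeries K :=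
  PowerSeries.mk fun k => res v hdeg ((shift v hdeg)^[k] a)

theorem coeff_taylor_zero (a : v.toValuationSubring) :
    PowerSeries.coeff 0 (taylor v hdeg a) = res v hdeg a := by
  simp [taylor]

theorem coeff_taylor_succ (k : ℕ) (a : v.toValuationSubring) :
    PowerSeries.coeff (k + 1) (taylor v hdeg a) =
      PowerSeries.coeff k (taylor v hdeg (shift v hdeg a)) := by
  simp [taylor, Function.iterate_succ_apply]

theorem taylor_eq (a : v.toValuationSubring) :
    taylor v hdeg a =
      PowerSeries.C (res v hdeg a) + PowerSeries.X * taylor v hdeg (shift v hdeg a) := by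
  ext k
  cases k with
  | zero => simp [coeff_taylor_zero]
  | succ k => rw [coeff_taylor_succ, map_add, PowerSeries.coeff_succ_X_mul]; simp

theorem taylor_add (a b : v.toValuationSubring) :
    taylor v hdeg (a + b) = taylor v hdeg a + taylor v hdeg b := by
  ext k
  induction k generalizing a b with
  | zero => rw [map_add, coeff_taylor_zero, coeff_taylor_zero, coeff_taylor_zero, map_add]
  | succ k ih =>
    rw [map_add, coeff_taylor_succ, coeff_taylor_succ, coeff_taylor_succ, shift_add, ih, map_add]

theorem taylor_algebraMap (c : K) :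
    taylor v hdeg (algebraMap K v.toValuationSubring c) = PowerSeries.C c := by
  have h0 : taylor v hdeg (0 : v.toValuationSubring) = 0 := by
    have := taylor_add v hdeg 0 0
    rw [add_zero] at this
    exact left_eq_add.mp this
  rw [taylor_eq, res_algebraMap, shift_algebraMap, h0, mul_zero, add_zero]

theorem taylor_mul (a b : v.toValuationSubring) :
    taylor v hdeg (a * b) = taylor v hdeg a * taylor v hdeg b := by
  ext k
  induction k generalizing a b with
  | zero =>
    rw [coeff_taylor_zero, map_mul, PowerSeries.coeff_zero_eq_constantCoeff, map_mul,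
      ← PowerSeries.coeff_zero_eq_constantCoeff, coeff_taylor_zero, coeff_taylor_zero]
  | succ k ih =>
    rw [coeff_taylor_succ, shift_mul, taylor_add, map_add, ih, ih, taylor_algebraMap]
    conv_rhs => rw [taylor_eq v hdeg a, add_mul, map_add, mul_assoc,
      PowerSeries.coeff_succ_X_mul, PowerSeries.coeff_C_mul, coeff_taylor_succ]
    rw [PowerSeries.coeff_C_mul]
    ring

/-- The Taylor expansion as a ring homomorphism. -/
noncomputable def taylorHom : v.toValuationSubring →+* PowerSeries K where
  toFun := taylor v hdeg
  map_one' := by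
    have := taylor_algebraMap v hdeg 1
    rwa [map_one, map_one] at this
  map_mul' := taylor_mul v hdeg
  map_zero' := by
    have := taylor_algebraMap v hdeg 0
    rwa [map_zero, map_zero] at this
  map_add' := taylor_add v hdeg

theorem taylorHom_apply (a : v.toValuationSubring) : taylorHom v hdeg a = taylor v hdeg a := rfl

theorem taylor_unif : taylor v hdeg (unif v) = PowerSeries.X := by
  have h1 : taylor v hdeg (1 : v.toValuationSubring) = 1 := (taylorHom v hdeg).map_one
  rw [taylor_eq, res_unif, shift_unif, h1, map_zero, zero_add, mul_one]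

theorem constantCoeff_taylor (a : v.toValuationSubring) :
    PowerSeries.constantCoeff (taylor v hdeg a) = res v hdeg a := by
  rw [← PowerSeries.coeff_zero_eq_constantCoeff, coeff_taylor_zero]

theorem constantCoeff_taylor_unit (u : v.toValuationSubringˣ) :
    PowerSeries.constantCoeff (taylor v hdeg (u : v.toValuationSubring)) ≠ 0 := by
  rw [constantCoeff_taylor, Ne, res_eq_zero_iff]
  exact fun h => (IsLocalRing.mem_maximalIdeal _).mp h u.isUnit

theorem taylorHom_injective : Function.Injective (taylorHom v hdeg) := by
  rw [injective_iff_map_eq_zero]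
  intro a ha
  by_contra hne
  obtain ⟨n, u, rfl⟩ := IsDiscreteValuationRing.eq_unit_mul_pow_irreducible hne
    (unif_irreducible v)
  rw [map_mul, map_pow, taylorHom_apply, taylorHom_apply, taylor_unif] at ha
  rcases mul_eq_zero.mp ha with h | h
  · exact constantCoeff_taylor_unit v hdeg u (by rw [h, map_zero])
  · exact pow_ne_zero n PowerSeries.X_ne_zero h


/-- The Taylor expansion on the whole function field, with values in Laurent series. -/
noncomputable def taylorF : F →+* LaurentSeries K :=
  IsFractionRing.lift (A := v.toValuationSubring) (K := F)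
    (g := (HahnSeries.ofPowerSeries ℤ K).comp (taylorHom v hdeg))
    (HahnSeries.ofPowerSeries_injective.comp (taylorHom_injective v hdeg))

theorem taylorF_coe (a : v.toValuationSubring) :
    taylorF v hdeg (a : F) = HahnSeries.ofPowerSeries ℤ K (taylor v hdeg a) :=
  IsFractionRing.lift_algebraMap _ a

theorem taylorF_algebraMap (c : K) : taylorF v hdeg (algebraMap K F c) = HahnSeries.C c := by
  have h : algebraMap K F c = ((algebraMap K v.toValuationSubring c : v.toValuationSubring) : F) :=
    (v.coe_algebraMap c).symm
  rw [h, taylorF_coe, taylor_algebraMap, HahnSeries.ofPowerSeries_C]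

theorem taylorF_unif :
    taylorF v hdeg ((unif v : v.toValuationSubring) : F) = HahnSeries.single 1 1 := by
  rw [taylorF_coe, taylor_unif, HahnSeries.ofPowerSeries_X]

omit [Algebra K F] in
theorem order_eq_of {x : LaurentSeries K} {m : ℤ} (h1 : x.coeff m ≠ 0)
    (h2 : ∀ j < m, x.coeff j = 0) : x.order = m :=
  le_antisymm (HahnSeries.order_le_of_coeff_ne_zero h1)
    ((HahnSeries.le_order_iff_forall (HahnSeries.ne_zero_of_coeff_ne_zero h1)).mpr h2)

omit [Algebra K F] in
theorem single_one_zpow (m : ℤ) :
    (HahnSeries.single (1 : ℤ) (1 : K)) ^ m = HahnSeries.single m 1 := by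
  have hnat : ∀ n : ℕ, (HahnSeries.single (1 : ℤ) (1 : K)) ^ n = HahnSeries.single (n : ℤ) 1 := by
    intro n
    rw [HahnSeries.single_pow, one_pow]
    simp
  cases m with
  | ofNat n => rw [Int.ofNat_eq_natCast, zpow_natCast, hnat]
  | negSucc n =>
    rw [zpow_negSucc, hnat]
    apply inv_eq_of_mul_eq_one_right
    rw [HahnSeries.single_mul_single, mul_one]
    have : ((n + 1 : ℕ) : ℤ) + Int.negSucc n = 0 := by omega
    rw [this]
    rfl

theorem order_taylorF {f : F} (hf : f ≠ 0) : (taylorF v hdeg f).order = v.ord f := by
  obtain ⟨u, hu⟩ := v.exists_unit_mul_zpow hf (unif_irreducible v)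
  have hT : taylorF v hdeg f =
      HahnSeries.ofPowerSeries ℤ K (taylor v hdeg (u : v.toValuationSubring)) *
        HahnSeries.single (v.ord f) 1 := by
    conv_lhs => rw [hu]
    rw [map_mul, map_zpow₀, taylorF_coe, taylorF_unif, single_one_zpow]
  rw [hT]
  apply order_eq_of
  · rw [HahnSeries.coeff_mul_single, sub_self, mul_one]
    have h0 := PowerSeries.coeff_coe (R := K) (taylor v hdeg (u : v.toValuationSubring)) 0
    rw [if_neg (lt_irrefl 0), Int.natAbs_zero, PowerSeries.coeff_zero_eq_constantCoeff] at h0
    rw [h0]
    exact constantCoeff_taylor_unit v hdeg u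
  · intro j hj
    rw [HahnSeries.coeff_mul_single, mul_one]
    have h0 := PowerSeries.coeff_coe (R := K) (taylor v hdeg (u : v.toValuationSubring))
      (j - v.ord f)
    rw [if_pos (by omega)] at h0
    exact h0

end Kaehler

end Taylor
section OrdD

namespace Kaehler

variable [CharZero K] (v : Place K F) (hdeg : v.deg = 1)

include hdeg in
/-- Key lemma: if `dy = g dt` for the uniformizer `t` and `ord_v y ≠ 0`, then
`ord_v g = ord_v y - 1`. -/
theorem ord_coeff_of_D_eq {y g : F} (hy : y ≠ 0) (hy0 : v.ord y ≠ 0)
    (h : D K F y = g • D K F ((unif v : v.toValuationSubring) : F)) :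
    g ≠ 0 ∧ v.ord g = v.ord y - 1 := by
  letI : Algebra F (LaurentSeries K) := (taylorF v hdeg).toAlgebra
  have hsc : ∀ c : K, algebraMap K (LaurentSeries K) c =
      algebraMap F (LaurentSeries K) (algebraMap K F c) := by
    intro c
    show algebraMap K (LaurentSeries K) c = taylorF v hdeg (algebraMap K F c)
    rw [taylorF_algebraMap, LaurentDeriv.algebraMap_eq_C]
  have ha := IsScalarTower.of_algebraMap_eq hsc
  have hb : IsScalarTower K F (LaurentSeries K) := ⟨fun c f m => by
    show taylorF v hdeg (c • f) * m = c • (taylorF v hdeg f * m)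
    rw [Algebra.smul_def, map_mul, taylorF_algebraMap, mul_assoc, HahnSeries.C_mul_eq_smul]⟩
  let d : Derivation K F (LaurentSeries K) := (LaurentDeriv.lsDer K).compAlgebraMap F
  have h1 := congrArg d.liftKaehlerDifferential h
  rw [Derivation.liftKaehlerDifferential_comp_D, map_smul,
    Derivation.liftKaehlerDifferential_comp_D] at h1
  have h2 : LaurentDeriv.lsDer K (taylorF v hdeg y) = taylorF v hdeg g := by
    have e1 : d y = LaurentDeriv.lsDer K (taylorF v hdeg y) := rfl
    have e2 : d ((unif v : v.toValuationSubring) : F) =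
        LaurentDeriv.lsDer K (taylorF v hdeg ((unif v : v.toValuationSubring) : F)) := rfl
    rw [e1, e2, taylorF_unif, LaurentDeriv.lsDer_single_one, Algebra.smul_def, mul_one] at h1
    exact h1
  have hord : (taylorF v hdeg y).order ≠ 0 := by
    rw [order_taylorF v hdeg hy]; exact hy0
  obtain ⟨hne, ho⟩ := LaurentDeriv.lsDer_order hord
  rw [h2] at hne ho
  have hg : g ≠ 0 := by
    rintro rfl
    exact hne (map_zero _)
  refine ⟨hg, ?_⟩
  rw [← order_taylorF v hdeg hg, ho, order_taylorF v hdeg hy]

end Kaehler

end OrdD

end Fermat.Agent.S24
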