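import Fermat.Agent.S24.Places
import Fermat.Agent.S24.KaehlerCore

/-!
P8-ALG-2: Kähler differentials of a function field `F / K(x)` and the Prelude's
`Place.ordDifferential` for `dx` (the statements not needing places are in `KaehlerCore`).
-/

set_option autoImplicit false

namespace Fermat.Agent.S24

open AlgebraicCurve IntermediateField KaehlerDifferential

variable {K F : Type*} [Field K] [Field F] [Algebra K F]

variable [IsAlgClosed K] [CharZero K]

theorem dCoordGenerates {x : F} (hx : Transcendental K x) [FiniteDimensional K⟮x⟯ F]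
    (v : Place K F) : v.DCoordGenerates := by
  constructor
  rw [Kaehler.dCoord_eq]
  have hnr : ((Kaehler.unif v : v.toValuationSubring) : F) ∉ Set.range (algebraMap K F) := by
    rintro ⟨c, hc⟩
    have h1 := Kaehler.ord_unif v
    rw [← hc, ord_algebraMap] at h1
    exact zero_ne_one h1
  have htr := transcendental_of_not_mem_range hx hnr
  have := finiteDimensional_adjoin_of_transcendental hx htr
  exact Kaehler.span_D_eq_top _

theorem ordDifferential_smul_D {x : F} (hx : Transcendental K x) [FiniteDimensional K⟮x⟯ F]
    (v : Place K F) {f : F} (hf : f ≠ 0) :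
    v.ordDifferential (f • D K F x) = v.ord f + v.ordDifferential (D K F x) := by
  have := dCoordGenerates hx v
  have := nontrivial_kaehler hx
  have hne : v.differentialCoeff (D K F x) ≠ 0 := by
    intro h0
    have h1 := v.differentialCoeff_smul_dCoord (D K F x)
    rw [h0, zero_smul] at h1
    exact D_ne_zero hx h1.symm
  exact v.ordDifferential_smul hf hne

theorem ordDifferential_D_of_mem {x : F} (hx : Transcendental K x) [FiniteDimensional K⟮x⟯ F]
    {c : K} {v : Place K F} (hv : v ∈ zeroPlaces K (x - algebraMap K F c)) :
    v.ordDifferential (D K F x) = v.ord (x - algebraMap K F c) - 1 := by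
  have := dCoordGenerates hx v
  have hdeg := place_deg_eq_one hx v
  have hpos : 0 < v.ord (x - algebraMap K F c) := hv
  have hy : x - algebraMap K F c ≠ 0 := by
    intro h0
    rw [h0, Place.ord_zero] at hpos
    exact lt_irrefl 0 hpos
  have h1 : D K F (x - algebraMap K F c) =
      v.differentialCoeff (D K F x) • D K F ((Kaehler.unif v : v.toValuationSubring) : F) := by
    rw [map_sub, Derivation.map_algebraMap, sub_zero, ← Kaehler.dCoord_eq,
      v.differentialCoeff_smul_dCoord]
  exact (Kaehler.ord_coeff_of_D_eq v hdeg hy hpos.ne' h1).2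

theorem ordDifferential_D_of_mem_inv {x : F} (hx : Transcendental K x)
    [FiniteDimensional K⟮x⟯ F] {v : Place K F} (hv : v ∈ zeroPlaces K x⁻¹) :
    v.ordDifferential (D K F x) = - v.ord x⁻¹ - 1 := by
  have := dCoordGenerates hx v
  have hdeg := place_deg_eq_one hx v
  have hpos : 0 < v.ord x⁻¹ := hv
  have hx0 : x ≠ 0 := by
    rintro rfl
    rw [inv_zero, Place.ord_zero] at hpos
    exact lt_irrefl 0 hpos
  have hinv : v.ord x⁻¹ = - v.ord x := v.ord_inv x
  have hy0 : v.ord x ≠ 0 := by omega
  have h1 : D K F x =
      v.differentialCoeff (D K F x) • D K F ((Kaehler.unif v : v.toValuationSubring) : F) := by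
    rw [← Kaehler.dCoord_eq, v.differentialCoeff_smul_dCoord]
  have h2 := (Kaehler.ord_coeff_of_D_eq v hdeg hx0 hy0 h1).2
  rw [hinv, neg_neg]
  exact h2

end Fermat.Agent.S24
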