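import Fermat.Agent.S24.Defs

/-!
P8-ANN (A): an abstract criterion producing `IsLocalFamily` from a family of conjugate embeddings
into a field carrying an integer valued order function (e.g. Laurent series with
`HahnSeries.order`).
-/

set_option autoImplicit false

namespace Fermat.Agent.S24

open IntermediateField

section ProdEmb

variable {K0 F S : Type*} [Field K0] [Field F] [Field S] [Algebra K0 F]
  [FiniteDimensional K0 F] [Algebra.IsSeparable K0 F] {ι : Type*} [Fintype ι]

/-- If `e i : F →+* S`, `i : ι`, are `[F : K0]` pairwise distinct ring homomorphisms into a field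
`S` which agree on `K0`, then the product of the conjugates `e i f` is the image of the norm of
`f` (under any one of them). -/
theorem prod_eq_map_norm_of_embeddings (e : ι → F →+* S) (hinj : Function.Injective e)
    (hK0 : ∀ i j (a : K0), e i (algebraMap K0 F a) = e j (algebraMap K0 F a))
    (hcard : Module.finrank K0 F = Fintype.card ι) (i₀ : ι) (f : F) :
    ∏ i, e i f = e i₀ (algebraMap K0 F (Algebra.norm K0 f)) := by
  classical
  letI : Algebra K0 S := ((e i₀).comp (algebraMap K0 F)).toAlgebra
  have hmap : ∀ a : K0, algebraMap K0 S a = e i₀ (algebraMap K0 F a) := fun _ => rfl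
  let Ω := AlgebraicClosure S
  let E : ι → (F →ₐ[K0] Ω) := fun i =>
    { toRingHom := (algebraMap S Ω).comp (e i)
      commutes' := fun a => by
        show algebraMap S Ω (e i (algebraMap K0 F a)) = algebraMap K0 Ω a
        rw [hK0 i i₀, ← hmap, ← IsScalarTower.algebraMap_apply] }
  have hE : ∀ i (x : F), E i x = algebraMap S Ω (e i x) := fun _ _ => rfl
  have hEinj : Function.Injective E := by
    intro i j hij
    apply hinj
    ext x
    have h := congrArg (fun σ : F →ₐ[K0] Ω => σ x) hij
    simp only [hE] at h
    exact (algebraMap S Ω).injective h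
  have hEbij : Function.Bijective E := by
    rw [Fintype.bijective_iff_injective_and_card]
    exact ⟨hEinj, by rw [AlgHom.card K0 F Ω, hcard]⟩
  apply (algebraMap S Ω).injective
  rw [map_prod, ← hmap, ← IsScalarTower.algebraMap_apply K0 S Ω,
    Algebra.norm_eq_prod_embeddings K0 Ω f]
  exact Fintype.prod_bijective E hEbij _ _ (fun i => (hE i f).symm)

end ProdEmb

section LocalFamily

variable {K F : Type*} [Field K] [Field F] [Algebra K F]

/-- **Embeddings give a local family.**  Let `e i : F →+* S` (`i : ι`) be `[F : K0]` pairwise
distinct ring homomorphisms into a field `S` agreeing on `K0`, and let `ord : S → ℤ` be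
"valuation-like" (additive on products of nonzero elements, ultrametric on sums).  Then
`u i f := ord (e i f)` is a local family as soon as the five "local" conditions
`const`, `base`, `perm`, `per`, `dvd` hold. -/
theorem isLocalFamily_of_embeddings {ι : Type*} [Fintype ι] {S : Type*} [Field S]
    (K0 : IntermediateField K F) [FiniteDimensional K0 F] [Algebra.IsSeparable K0 F]
    (hcard : Module.finrank K0 F = Fintype.card ι)
    (ord : S → ℤ)
    (hord_mul : ∀ a b : S, a ≠ 0 → b ≠ 0 → ord (a * b) = ord a + ord b)
    (hord_add : ∀ a b : S, a ≠ 0 → b ≠ 0 → a + b ≠ 0 → min (ord a) (ord b) ≤ ord (a + b))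
    (e : ι → F →+* S) (hinj : Function.Injective e)
    (hK0 : ∀ i j (a : K0), e i (algebraMap K0 F a) = e j (algebraMap K0 F a))
    (y : F) (E : ℕ) (σ : Equiv.Perm ι)
    (hconst : ∀ i (a : K), a ≠ 0 → ord (e i (algebraMap K F a)) = 0)
    (hbase : ∀ i, ord (e i y) = E)
    (hperm : ∀ i (f : F), ord (e (σ i) f) = ord (e i f))
    (hper : ∀ i, Function.minimalPeriod σ i ∣ E)
    (hdvd : ∀ i (f : F), f ≠ 0 → (E : ℤ) ∣ ord (e i f) * (Function.minimalPeriod σ i : ℤ)) :
    IsLocalFamily K0 y E σ (fun i f => ord (e i f)) where
  mul i f g hf hg := by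
    show ord (e i (f * g)) = ord (e i f) + ord (e i g)
    rw [map_mul]
    exact hord_mul _ _ ((map_ne_zero (e i)).mpr hf) ((map_ne_zero (e i)).mpr hg)
  add i f g hf hg hfg := by
    show min (ord (e i f)) (ord (e i g)) ≤ ord (e i (f + g))
    rw [map_add]
    refine hord_add _ _ ((map_ne_zero (e i)).mpr hf) ((map_ne_zero (e i)).mpr hg) ?_
    rw [← map_add]
    exact (map_ne_zero (e i)).mpr hfg
  const := hconst
  base := hbase
  norm i₀ f hf := by
    show ∑ i, ord (e i f) = ord (e i₀ (algebraMap K0 F (Algebra.norm K0 f)))
    rw [← prod_eq_map_norm_of_embeddings e hinj hK0 hcard i₀ f]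
    have key : ∀ s : Finset ι, ord (∏ i ∈ s, e i f) = ∑ i ∈ s, ord (e i f) ∨ s = ∅ := by
      classical
      intro s
      induction s using Finset.induction_on with
      | empty => exact Or.inr rfl
      | insert a s ha ih =>
        left
        rcases ih with ih | rfl
        · rw [Finset.prod_insert ha, Finset.sum_insert ha, hord_mul, ih]
          · exact (map_ne_zero (e a)).mpr hf
          · exact Finset.prod_ne_zero_iff.mpr fun i _ => (map_ne_zero (e i)).mpr hf
        · simp
    rcases key Finset.univ with h | h
    · exact h.symm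
    · -- `ι` is empty: impossible since `finrank K0 F > 0`
      exfalso
      have h0 : Fintype.card ι = 0 := by
        rw [← Finset.card_univ, h, Finset.card_empty]
      have hpos : 0 < Module.finrank K0 F := Module.finrank_pos
      omega
  perm := hperm
  per := hper
  dvd := hdvd

end LocalFamily

end Fermat.Agent.S24
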