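import Fermat.Agent.S24.PlacesBasic

/-!
P8-ALG-1b: places coming from height one primes of a Dedekind domain `R` with fraction field `F`
(`Place.ofHeightOneSpectrum` of the Prelude).
-/

set_option autoImplicit false

namespace Fermat.Agent.S24

open AlgebraicCurve IntermediateField IsDedekindDomain

variable {K F : Type*} [Field K] [Field F] [Algebra K F]
variable {R : Type*} [CommRing R] [IsDedekindDomain R] [Algebra R F] [IsFractionRing R F]
  [Algebra K R] [IsScalarTower K R F]

theorem PlacesHOS.ord_ofHeightOneSpectrum (w : HeightOneSpectrum R) {f : F} (hf : f ≠ 0) :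
    (Place.ofHeightOneSpectrum (K := K) w).ord f = -WithZero.log (w.valuation F f) := by
  obtain ⟨π, hπ⟩ := w.valuation_exists_uniformizer F
  exact PlacesBasic.ord_eq_neg_log _ (w.valuation F) rfl hπ hf

theorem PlacesHOS.ord_algebraMap_eq_multiplicity (w : HeightOneSpectrum R) {r : R} (hr : r ≠ 0) :
    (Place.ofHeightOneSpectrum (K := K) w).ord (algebraMap R F r)
      = (multiplicity w.asIdeal (Ideal.span {r}) : ℤ) := by
  have hr' : algebraMap R F r ≠ 0 := fun h =>
    hr ((IsFractionRing.injective R F) (h.trans (map_zero _).symm))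
  rw [PlacesHOS.ord_ofHeightOneSpectrum w hr', HeightOneSpectrum.valuation_of_algebraMap,
    HeightOneSpectrum.intValuation_eq_exp_neg_multiplicity w hr, WithZero.log_exp, neg_neg]

theorem PlacesHOS.ord_algebraMap_nonneg (w : HeightOneSpectrum R) (r : R) :
    0 ≤ (Place.ofHeightOneSpectrum (K := K) w).ord (algebraMap R F r) := by
  rcases eq_or_ne r 0 with rfl | hr
  · simp
  · rw [PlacesHOS.ord_algebraMap_eq_multiplicity w hr]
    exact Int.natCast_nonneg _

theorem PlacesHOS.ord_algebraMap_pos_iff (w : HeightOneSpectrum R) {r : R} (hr : r ≠ 0) :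
    0 < (Place.ofHeightOneSpectrum (K := K) w).ord (algebraMap R F r) ↔ r ∈ w.asIdeal := by
  have hr' : algebraMap R F r ≠ 0 := fun h =>
    hr ((IsFractionRing.injective R F) (h.trans (map_zero _).symm))
  rw [PlacesHOS.ord_ofHeightOneSpectrum w hr', HeightOneSpectrum.valuation_of_algebraMap,
    ← HeightOneSpectrum.intValuation_lt_one_iff_mem,
    HeightOneSpectrum.intValuation_eq_exp_neg_multiplicity w hr, WithZero.log_exp, neg_neg,
    ← WithZero.exp_zero, WithZero.exp_lt_exp]
  omega

theorem PlacesHOS.ofHeightOneSpectrum_injective :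
    Function.Injective (Place.ofHeightOneSpectrum (K := K) (F := F) (R := R)) := by
  intro w w' h
  refine HeightOneSpectrum.ext (Ideal.ext fun r => ?_)
  rcases eq_or_ne r 0 with rfl | hr
  · simp
  · rw [← PlacesHOS.ord_algebraMap_pos_iff (K := K) (F := F) w hr,
      ← PlacesHOS.ord_algebraMap_pos_iff (K := K) (F := F) w' hr, h]

theorem PlacesHOS.inv_mem_of_not_mem_maximalIdeal (A : ValuationSubring F) {a : A}
    (ha : a ∉ IsLocalRing.maximalIdeal A) : ((a : F))⁻¹ ∈ A := by
  have hunit : IsUnit a := by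
    rwa [IsLocalRing.mem_maximalIdeal, mem_nonunits_iff, not_not] at ha
  obtain ⟨u, rfl⟩ := hunit
  have h2 : ((u : A) : F) * (((u⁻¹ : Aˣ) : A) : F) = 1 := by
    have h := congrArg (Subtype.val) (Units.mul_inv u)
    exact h
  rw [inv_eq_of_mul_eq_one_right h2]
  exact Subtype.prop _

/-- A place whose valuation ring contains `R` comes from a (unique) height one prime of `R`. -/
theorem PlacesHOS.exists_ofHeightOneSpectrum_eq (v : Place K F)
    (hv : ∀ r : R, algebraMap R F r ∈ v.toValuationSubring) :
    ∃ w : HeightOneSpectrum R, Place.ofHeightOneSpectrum (K := K) w = v := by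
  classical
  -- the ring hom `R → O_v`
  let φ : R →+* v.toValuationSubring :=
    (algebraMap R F).codRestrict v.toValuationSubring.toSubring hv
  have hφ : ∀ r : R, ((φ r : v.toValuationSubring) : F) = algebraMap R F r := fun _ => rfl
  let P : Ideal R := (IsLocalRing.maximalIdeal v.toValuationSubring).comap φ
  have hPprime : P.IsPrime := Ideal.comap_isPrime φ _
  -- `P ≠ ⊥`, since otherwise `F = Frac R ⊆ O_v`
  have hPbot : P ≠ ⊥ := by
    intro hP
    apply v.ne_top'
    refine SetLike.ext fun x => ⟨fun _ => ValuationSubring.mem_top x, fun _ => ?_⟩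
    obtain ⟨a, s, hs, rfl⟩ := IsFractionRing.div_surjective (A := R) x
    have hs0 : s ≠ 0 := nonZeroDivisors.ne_zero hs
    have hsP : s ∉ P := by
      rw [hP]
      simpa using hs0
    have hinv := PlacesHOS.inv_mem_of_not_mem_maximalIdeal v.toValuationSubring
      (a := φ s) hsP
    rw [hφ] at hinv
    rw [div_eq_mul_inv]
    exact v.toValuationSubring.mul_mem _ _ (hv a) hinv
  let w : HeightOneSpectrum R := ⟨P, hPprime, hPbot⟩
  refine ⟨w, ?_⟩
  refine PlacesBasic.place_ext_of_ord fun f hf hf0 => ?_
  rw [← PlacesBasic.mem_iff_ord_nonneg _ hf] at hf0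
  rw [← PlacesBasic.mem_iff_ord_nonneg _ hf]
  have hval : w.valuation F f ≤ 1 := hf0
  obtain ⟨n, d, hnd⟩ := HeightOneSpectrum.exists_primeCompl_mul_eq_of_integer w f hval
  have hdP : (d : R) ∉ P := d.2
  have hinv := PlacesHOS.inv_mem_of_not_mem_maximalIdeal v.toValuationSubring
    (a := φ d) hdP
  rw [hφ] at hinv
  have hd0 : algebraMap R F (d : R) ≠ 0 := by
    intro h0
    apply hdP
    have : (d : R) = 0 := (IsFractionRing.injective R F) (h0.trans (map_zero _).symm)
    rw [this]
    exact P.zero_mem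
  have hf_eq : f = algebraMap R F n * (algebraMap R F (d : R))⁻¹ := by
    rw [← hnd, mul_assoc, mul_inv_cancel₀ hd0, mul_one]
  rw [hf_eq]
  exact v.toValuationSubring.mul_mem _ _ (hv n) hinv

end Fermat.Agent.S24
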