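import Fermat.Agent.S24.AnnCore
import Fermat.Agent.S24.JdExp

/-!
The analytic realization `realHom ι : FFL L N →+* MerN N` of the function field of `X₀(N)` and
its conjugates `conj ι x`, `x ∈ SL(2, ℤ) / Γ₀(N)`.
-/

set_option autoImplicit false

namespace Fermat.Agent.S24

open UpperHalfPlane ModularCurve
open scoped MatrixGroups Manifold

variable (N : ℕ) [NeZero N]

omit [NeZero N] in
theorem Gamma0_le_of_dvd {d : ℕ} (hd : d ∣ N) :
    CongruenceSubgroup.Gamma0 N ≤ CongruenceSubgroup.Gamma0 d := by
  intro γ hγ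
  rw [CongruenceSubgroup.Gamma0_mem] at hγ ⊢
  rw [ZMod.intCast_zmod_eq_zero_iff_dvd] at hγ ⊢
  exact (Int.natCast_dvd_natCast.mpr hd).trans hγ

/-- `τ ↦ J(dτ)` as an element of `RN N`, for `d ∣ N`. -/
noncomputable def JdRN (d : ℕ) (hd : d ∣ N) : ↥(RN N) :=
  ⟨Jabd d 0 1, fun γ => by
    have hd0 : d ≠ 0 := ne_zero_of_dvd_ne_zero (NeZero.ne N) hd
    have : NeZero d := ⟨hd0⟩
    obtain ⟨a, b, d', had, -, h⟩ := slComp_Jabd d γ
    rw [h]
    have ha : 0 < a := Nat.pos_of_ne_zero (fun h0 => hd0 (by rw [← had, h0, zero_mul]))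
    have hd' : 0 < d' := Nat.pos_of_ne_zero (fun h0 => hd0 (by rw [← had, h0, mul_zero]))
    exact isMerPer_Jabd N a b d' ha hd' ((Dvd.intro_left a had).trans hd)
      (Nat.pos_of_ne_zero (NeZero.ne N))⟩

theorem coe_JdRN (d : ℕ) (hd : d ∣ N) : ((JdRN N d hd : ↥(RN N)) : ℍ → ℂ) = Jabd d 0 1 := rfl

omit [NeZero N] in
theorem actR_constRN (γ : SL(2, ℤ)) (c : ℂ) : actR N γ (constRN N c) = constRN N c := rfl

omit [NeZero N] in
theorem coe_constRN (c : ℂ) : ((constRN N c : ↥(RN N)) : ℍ → ℂ) = fun _ => c := rfl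

theorem actR_JdRN_of_mem (d : ℕ) (hd : d ∣ N) (γ : SL(2, ℤ))
    (hγ : γ ∈ CongruenceSubgroup.Gamma0 N) : actR N γ (JdRN N d hd) = JdRN N d hd := by
  have : NeZero d := ⟨ne_zero_of_dvd_ne_zero (NeZero.ne N) hd⟩
  apply Subtype.ext
  rw [coe_actR, coe_JdRN]
  exact slComp_Jabd_of_mem d γ (Gamma0_le_of_dvd N hd hγ)

theorem qInfM_constRN (c : ℂ) :
    qInfM N (algebraMap ↥(RN N) (MerN N) (constRN N c)) = HahnSeries.C c := by
  rw [qInfM_algebraMap, coe_constRN, qInf_const (Nat.pos_of_ne_zero (NeZero.ne N))]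

variable {L : Type*} [Field L] [Algebra ℚ L] (ι : L →+* ℂ)

theorem exists_realHom (f : FFL L N) :
    ∃ x : MerN N, qInfM N x = expMap N ι (f : LaurentSeries L) := by
  rw [← RingHom.mem_fieldRange]
  refine FFL_map_mem_subfield' N L (expMap N ι) (qInfM N).fieldRange ?_ ?_ f.2
  · intro c
    rw [RingHom.mem_fieldRange]
    exact ⟨algebraMap ↥(RN N) (MerN N) (constRN N (ι c)), by
      rw [qInfM_constRN, expMap_algebraMap]⟩
  · intro d _ hd
    rw [RingHom.mem_fieldRange]
    exact ⟨algebraMap ↥(RN N) (MerN N) (JdRN N d hd), by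
      rw [qInfM_algebraMap, coe_JdRN, qInf_Jabd_eq_expMap N ι d hd]⟩

/-- The analytic realization of the function field of `X₀(N)`. -/
noncomputable def realHom : FFL L N →+* MerN N where
  toFun f := Classical.choose (exists_realHom N ι f)
  map_one' := qInfM_injective N (by
    rw [Classical.choose_spec (exists_realHom N ι 1), map_one]
    exact map_one (expMap N ι))
  map_mul' f g := qInfM_injective N (by
    rw [Classical.choose_spec (exists_realHom N ι (f * g)), map_mul,
      Classical.choose_spec (exists_realHom N ι f), Classical.choose_spec (exists_realHom N ι g)]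
    exact map_mul (expMap N ι) _ _)
  map_zero' := qInfM_injective N (by
    rw [Classical.choose_spec (exists_realHom N ι 0), map_zero]
    exact map_zero (expMap N ι))
  map_add' f g := qInfM_injective N (by
    rw [Classical.choose_spec (exists_realHom N ι (f + g)), map_add,
      Classical.choose_spec (exists_realHom N ι f), Classical.choose_spec (exists_realHom N ι g)]
    exact map_add (expMap N ι) _ _)

theorem qInfM_realHom (f : FFL L N) :
    qInfM N (realHom N ι f) = expMap N ι (f : LaurentSeries L) :=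
  Classical.choose_spec (exists_realHom N ι f)

theorem realHom_algebraMap (c : L) :
    realHom N ι (algebraMap L (FFL L N) c) = algebraMap ↥(RN N) (MerN N) (constRN N (ι c)) :=
  qInfM_injective N (by
    rw [qInfM_realHom, qInfM_constRN, coe_algebraMap_FFL, expMap_algebraMap])

theorem realHom_jdL (d : ℕ) (hd : d ∣ N) :
    realHom N ι (jdL N L d hd) = algebraMap ↥(RN N) (MerN N) (JdRN N d hd) := by
  have : NeZero d := ⟨ne_zero_of_dvd_ne_zero (NeZero.ne N) hd⟩
  exact qInfM_injective N (by
    rw [qInfM_realHom, qInfM_algebraMap, coe_JdRN, coe_jdL, qInf_Jabd_eq_expMap N ι d hd])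

/-- The realization is invariant under `Γ₀(N)`. -/
theorem act_realHom_of_mem (γ : SL(2, ℤ)) (hγ : γ ∈ CongruenceSubgroup.Gamma0 N)
    (f : FFL L N) : act N γ (realHom N ι f) = realHom N ι f := by
  have h : (act N γ).comp (realHom N ι) = realHom N ι := by
    apply FFL_ringHom_ext
    · intro c
      rw [RingHom.comp_apply, realHom_algebraMap, act_algebraMap, actR_constRN]
    · intro d hd
      rw [RingHom.comp_apply, realHom_jdL, act_algebraMap, actR_JdRN_of_mem N d hd γ hγ]
  exact congrArg (fun φ => φ f) h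

/-- The conjugates of the realization, indexed by `SL(2, ℤ) / Γ₀(N)`:
`conj ι (g Γ₀(N)) f = realHom f ∘ g⁻¹`. -/
noncomputable def conj (x : XX N) : FFL L N →+* MerN N :=
  (act N (Quotient.out x)⁻¹).comp (realHom N ι)

theorem conj_mk (g : SL(2, ℤ)) :
    conj N ι (QuotientGroup.mk g : XX N) = (act N g⁻¹).comp (realHom N ι) := by
  obtain ⟨h, hh⟩ := QuotientGroup.mk_out_eq_mul (CongruenceSubgroup.Gamma0 N) g
  ext f
  rw [conj, RingHom.comp_apply, RingHom.comp_apply, hh, mul_inv_rev, act_mul,
    act_realHom_of_mem N ι _ (inv_mem h.2)]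

theorem conj_mk_apply (g : SL(2, ℤ)) (f : FFL L N) :
    conj N ι (QuotientGroup.mk g : XX N) f = act N g⁻¹ (realHom N ι f) := by
  rw [conj_mk, RingHom.comp_apply]

theorem conj_one (f : FFL L N) :
    conj N ι (QuotientGroup.mk 1 : XX N) f = realHom N ι f := by
  rw [conj_mk_apply, inv_one, act_one]

theorem act_conj (γ : SL(2, ℤ)) (x : XX N) (f : FFL L N) :
    act N γ (conj N ι x f) = conj N ι (γ⁻¹ • x) f := by
  induction x using QuotientGroup.induction_on with
  | H g =>
    rw [conj_mk_apply, ← act_mul, MulAction.Quotient.smul_mk, conj_mk_apply, smul_eq_mul,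
      mul_inv_rev, inv_inv]

theorem conj_algebraMap (x : XX N) (c : L) :
    conj N ι x (algebraMap L (FFL L N) c) =
      algebraMap ↥(RN N) (MerN N) (constRN N (ι c)) := by
  induction x using QuotientGroup.induction_on with
  | H g => rw [conj_mk_apply, realHom_algebraMap, act_algebraMap, actR_constRN]

theorem actR_JdRN_one (γ : SL(2, ℤ)) :
    actR N γ (JdRN N 1 (one_dvd N)) = JdRN N 1 (one_dvd N) := by
  apply Subtype.ext
  rw [coe_actR, coe_JdRN]
  exact slComp_Jabd_of_mem 1 γ (by
    rw [CongruenceSubgroup.Gamma0_mem]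
    exact Subsingleton.elim _ _)

theorem conj_jL (x : XX N) : conj N ι x (jL L N) = realHom N ι (jL L N) := by
  induction x using QuotientGroup.induction_on with
  | H g => rw [conj_mk_apply, ← jdL_one, realHom_jdL, act_algebraMap, actR_JdRN_one]

/-- All conjugates agree on `L(j)`. -/
theorem conj_of_mem_adjoin (x : XX N) {z : FFL L N}
    (hz : z ∈ IntermediateField.adjoin L {jL L N}) : conj N ι x z = realHom N ι z := by
  let S : IntermediateField L (FFL L N) :=
    { carrier := {z | conj N ι x z = realHom N ι z}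
      mul_mem' := fun {a b} ha hb => by
        show conj N ι x (a * b) = realHom N ι (a * b)
        rw [map_mul, map_mul, ha, hb]
      one_mem' := by
        show conj N ι x 1 = realHom N ι 1
        rw [map_one, map_one]
      add_mem' := fun {a b} ha hb => by
        show conj N ι x (a + b) = realHom N ι (a + b)
        rw [map_add, map_add, ha, hb]
      zero_mem' := by
        show conj N ι x 0 = realHom N ι 0
        rw [map_zero, map_zero]
      algebraMap_mem' := fun c => by
        show conj N ι x (algebraMap L (FFL L N) c) = realHom N ι (algebraMap L (FFL L N) c)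
        rw [conj_algebraMap, realHom_algebraMap]
      inv_mem' := fun a ha => by
        show conj N ι x a⁻¹ = realHom N ι a⁻¹
        rw [map_inv₀, map_inv₀, ha] }
  have hS : IntermediateField.adjoin L {jL L N} ≤ S := by
    rw [IntermediateField.adjoin_le_iff]
    intro y hy
    rw [Set.mem_singleton_iff] at hy
    subst hy
    exact conj_jL N ι x
  exact hS hz

end Fermat.Agent.S24
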